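import Mathlib
import Fermat.Prelude.Def_AlgebraicCurve_DivisorPushPull
import Fermat.Agent.S24.H42_FundId

set_option autoImplicit false
set_option linter.unusedSectionVars false
set_option linter.style.haveILetI false

/-!
# Places of a finite extension `F'/F` through a Dedekind model `A ⊆ B`

`A ⊆ B` Dedekind domains containing the constants `K`, `Frac A = F`, `Frac B = F'`,
`B` integral over `A`.  Dictionary between the height one primes of `B` over a height one prime
`p` of `A` and the places of `F'/K` restricting to the place of `p`; ramification indices and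
degrees.  Everything is characteristic free.
-/

namespace Fermat.Agent.S37.H8

open AlgebraicCurve IsDedekindDomain WithZero
open Fermat.Agent.S24
open Fermat.Agent.S24.H42

theorem algebraMap_algebraMap_eq {A : Type*} (F : Type*) {F' : Type*} (B : Type*) [CommRing A]
    [Field F] [Field F'] [CommRing B] [Algebra A F] [Algebra A B] [Algebra F F'] [Algebra B F']
    [Algebra A F'] [IsScalarTower A F F'] [IsScalarTower A B F'] (a : A) :
    algebraMap F F' (algebraMap A F a) = algebraMap B F' (algebraMap A B a) := by
  rw [← IsScalarTower.algebraMap_apply A F F', ← IsScalarTower.algebraMap_apply A B F']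

variable {K F F' : Type*} [Field K] [Field F] [Field F'] [Algebra K F] [Algebra K F']
  [Algebra F F'] [IsScalarTower K F F'] [Algebra.IsIntegral F F']
variable {A B : Type*} [CommRing A] [IsDedekindDomain A] [CommRing B] [IsDedekindDomain B]
  [Algebra K A] [Algebra A F] [IsFractionRing A F] [IsScalarTower K A F]
  [Algebra K B] [Algebra B F'] [IsFractionRing B F'] [IsScalarTower K B F']
  [Algebra A B] [IsScalarTower K A B]
  [Algebra A F'] [IsScalarTower A F F'] [IsScalarTower A B F']

/-- **R1.** The place of a prime `q` of `B` restricts to the place of the prime `q ∩ A`. -/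
theorem restrict_placeOf (q : HeightOneSpectrum B) (p : HeightOneSpectrum A)
    [hqp : q.asIdeal.LiesOver p.asIdeal] :
    (placeOf (K := K) (F := F') q).restrict F = placeOf (K := K) (F := F) p := by
  symm
  apply H27.eq_of_toValuationSubring_le
  intro x hx
  rw [mem_placeOf_iff] at hx
  rw [Place.restrict_toValuationSubring, ValuationSubring.mem_comap, mem_placeOf_iff]
  obtain ⟨n, d, hnd⟩ := p.exists_primeCompl_mul_eq_of_integer x hx
  have hd : (d : A) ∉ p.asIdeal := d.2
  have hdq : algebraMap A B (d : A) ∉ q.asIdeal := by
    intro h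
    apply hd
    rw [Ideal.mem_of_liesOver q.asIdeal p.asIdeal]
    exact h
  have hdv : q.valuation F' (algebraMap B F' (algebraMap A B (d : A))) = 1 :=
    (HeightOneSpectrum.valuation_eq_one_iff_notMem q).mpr hdq
  have h1 : algebraMap F F' x * algebraMap B F' (algebraMap A B (d : A))
      = algebraMap B F' (algebraMap A B n) := by
    rw [← algebraMap_algebraMap_eq F B, ← algebraMap_algebraMap_eq F B, ← map_mul, hnd]
  have h2 : q.valuation F' (algebraMap F F' x) * 1 = q.valuation F' (algebraMap B F' (algebraMap A B n)) := by
    rw [← hdv, ← map_mul, h1]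
  rw [mul_one] at h2
  rw [h2]
  exact q.valuation_le_one _


/-- **R3.** If `w` restricts to the place of a prime of `A` and `B` is integral over `A`,
then `B ⊆ O_w`. -/
theorem algebraMap_mem_of_restrict_eq [Algebra.IsIntegral A B] (w : Place K F')
    (p : HeightOneSpectrum A) (hw : w.restrict F = placeOf (K := K) (F := F) p) (b : B) :
    algebraMap B F' b ∈ w.toValuationSubring := by
  have hA : ∀ a : A, algebraMap A F' a ∈ w.toValuationSubring := by
    intro a
    have h1 : algebraMap A F a ∈ (w.restrict F).toValuationSubring := by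
      rw [hw]
      exact algebraMap_mem_placeOf p a
    rw [Place.restrict_toValuationSubring, ValuationSubring.mem_comap] at h1
    rwa [IsScalarTower.algebraMap_apply A F F']
  letI : Algebra A w.toValuationSubring :=
    ((algebraMap A F').codRestrict w.toValuationSubring.toSubring hA).toAlgebra
  haveI : IsScalarTower A w.toValuationSubring F' :=
    IsScalarTower.of_algebraMap_eq fun a => rfl
  have hb : IsIntegral A (algebraMap B F' b) :=
    (Algebra.IsIntegral.isIntegral (R := A) b).map (IsScalarTower.toAlgHom A B F')
  have hb' : IsIntegral w.toValuationSubring (algebraMap B F' b) := hb.tower_top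
  obtain ⟨y, hy⟩ := IsIntegrallyClosed.isIntegral_iff.mp hb'
  exact hy ▸ y.2

/-- The prime of `A` under a height one prime of `B`, as a height one prime. -/
noncomputable def underPrime [Algebra.IsIntegral A B] [FaithfulSMul A B]
    (q : HeightOneSpectrum B) : HeightOneSpectrum A where
  asIdeal := q.asIdeal.under A
  isPrime := Ideal.IsPrime.under A q.asIdeal
  ne_bot := by
    obtain ⟨x, hxq, hx0⟩ := Submodule.exists_mem_ne_zero_of_ne_bot q.ne_bot
    exact Ideal.comap_ne_bot_of_integral_mem hx0 hxq (Algebra.IsIntegral.isIntegral x)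

instance [Algebra.IsIntegral A B] [FaithfulSMul A B] (q : HeightOneSpectrum B) :
    q.asIdeal.LiesOver (underPrime (A := A) q).asIdeal := ⟨rfl⟩

/-- **R2.** Every place of `F'` over the place of `p` is the place of a prime of `B` over `p`. -/
theorem exists_placeOf_eq_of_restrict_eq [Algebra.IsIntegral A B] [FaithfulSMul A B]
    (w : Place K F') (p : HeightOneSpectrum A)
    (hw : w.restrict F = placeOf (K := K) (F := F) p) :
    ∃ q : HeightOneSpectrum B, q.asIdeal.LiesOver p.asIdeal ∧
      placeOf (K := K) (F := F') q = w := by
  obtain ⟨q, hq⟩ := exists_placeOf_eq (B := B) w (algebraMap_mem_of_restrict_eq w p hw)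
  refine ⟨q, ?_, hq⟩
  have h1 := restrict_placeOf (K := K) (F := F) (F' := F') q (underPrime (A := A) q)
  rw [hq, hw] at h1
  have h2 : p = underPrime (A := A) q := placeOf_injective (K := K) (F := F) h1
  rw [h2]
  infer_instance


/-- **R4.** Ramification index of the prelude = ramification index of Mathlib, for a principal
prime `p = (π)` of `A`. -/
theorem ramificationIndex_placeOf (q : HeightOneSpectrum B) (p : HeightOneSpectrum A)
    [hqp : q.asIdeal.LiesOver p.asIdeal] [FaithfulSMul A B] (π : A)
    (hπ : p.asIdeal = Ideal.span {π}) :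
    (placeOf (K := K) (F := F') q).ramificationIndex F = q.asIdeal.ramificationIdx A := by
  have hπ0 : π ≠ 0 := by
    rintro rfl
    apply p.ne_bot
    rw [hπ, Ideal.span_singleton_eq_bot]
  have hπB : algebraMap A B π ≠ 0 := by
    intro h
    exact hπ0 ((FaithfulSMul.algebraMap_injective A B) (by rw [h, map_zero]))
  haveI : q.asIdeal.LiesOver (Ideal.span {π}) := hπ ▸ hqp
  have h1 := ramificationIdx_eq_ord (K := K) (F := F') (A := A) q π hπB
  have h2 := (placeOf (K := K) (F := F') q).ord_restrict (F := F) (algebraMap A F π)
  rw [restrict_placeOf (K := K) (F := F) (F' := F') q p] at h2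
  have hπF : algebraMap A F π ≠ 0 := by
    intro h
    exact hπ0 ((IsFractionRing.injective A F) (by rw [h, map_zero]))
  have h3 : (placeOf (K := K) (F := F) p).ord (algebraMap A F π) = 1 := by
    rw [ord_placeOf_algebraMap p hπ0, ← hπ]
    rw [multiplicity_self, Nat.cast_one]
  rw [h3, mul_one, algebraMap_algebraMap_eq F B] at h2
  rw [h2] at h1
  exact_mod_cast h1.symm


/-- Degree of the place of `q` = degree of the place of `p` times the inertia degree. -/
theorem deg_placeOf_eq_mul_inertiaDeg (q : HeightOneSpectrum B) (p : HeightOneSpectrum A)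
    [hqp : q.asIdeal.LiesOver p.asIdeal] :
    (placeOf (K := K) (F := F') q).deg
      = (placeOf (K := K) (F := F) p).deg * q.asIdeal.inertiaDeg A := by
  haveI := p.isMaximal
  haveI := q.isMaximal
  rw [deg_placeOf, deg_placeOf, Ideal.inertiaDeg_eq_of_isMaximal p.asIdeal q.asIdeal]
  letI : Field (A ⧸ p.asIdeal) := Ideal.Quotient.field p.asIdeal
  letI : Field (B ⧸ q.asIdeal) := Ideal.Quotient.field q.asIdeal
  exact (Module.finrank_mul_finrank K (A ⧸ p.asIdeal) (B ⧸ q.asIdeal)).symm

variable [HasPrincipalDivisors K F']

/-- **Fundamental identity at a principal prime of `A`**: `∑_{w | v} e(w|v) deg w = [F':F] deg v`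
for `v` the place of `p = (π)`. -/
theorem sum_ramificationIndex_mul_deg_placeOf [Module.Finite A B] [FaithfulSMul A B]
    (p : HeightOneSpectrum A) (π : A) (hπ : p.asIdeal = Ideal.span {π}) :
    ∑ w ∈ (placeOf (K := K) (F := F) p).fiber F', (w.ramificationIndex F : ℤ) * (w.deg : ℤ)
      = (Module.finrank F F' : ℤ) * ((placeOf (K := K) (F := F) p).deg : ℤ) := by
  classical
  haveI := p.isMaximal
  haveI : Algebra.IsIntegral A B := Algebra.IsIntegral.of_finite A B
  haveI : Fintype (p.asIdeal.primesOver B) :=
    (Algebra.QuasiFinite.finite_primesOver p.asIdeal).fintype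
  let h1 : p.asIdeal.primesOver B → HeightOneSpectrum B := fun q =>
    ⟨q.1, q.2.1, Ideal.ne_bot_of_mem_primesOver p.ne_bot q.2⟩
  let g : p.asIdeal.primesOver B → Place K F' := fun q => placeOf (K := K) (F := F') (h1 q)
  have hg : Function.Injective g := by
    intro q q' h
    have := placeOf_injective (K := K) (F := F') h
    apply Subtype.ext
    exact congrArg HeightOneSpectrum.asIdeal this
  have hlo : ∀ q : p.asIdeal.primesOver B, (h1 q).asIdeal.LiesOver p.asIdeal := fun q => q.2.2
  have hfib : (placeOf (K := K) (F := F) p).fiber F' = Finset.univ.map ⟨g, hg⟩ := by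
    ext w
    simp only [Place.mem_fiber, Finset.mem_map, Finset.mem_univ, true_and,
      Function.Embedding.coeFn_mk]
    constructor
    · intro hw
      obtain ⟨q, hq, rfl⟩ := exists_placeOf_eq_of_restrict_eq (B := B) w p hw
      exact ⟨⟨q.asIdeal, q.isPrime, hq⟩, rfl⟩
    · rintro ⟨q, rfl⟩
      haveI := hlo q
      exact restrict_placeOf (K := K) (F := F) (F' := F') (h1 q) p
  rw [hfib, Finset.sum_map]
  simp only [Function.Embedding.coeFn_mk]
  have hfr : Module.finrank F F' = Module.finrank A B := IsFractionRing.finrank_eq A F B F'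
  rw [hfr, ← Ideal.sum_ramification_inertia_eq_finrank p.asIdeal B]
  push_cast
  rw [Finset.sum_mul]
  refine Finset.sum_congr rfl fun q _ => ?_
  haveI := hlo q
  rw [show g q = placeOf (K := K) (F := F') (h1 q) from rfl,
    ramificationIndex_placeOf (K := K) (F := F) (F' := F') (h1 q) p π hπ,
    deg_placeOf_eq_mul_inertiaDeg (K := K) (F := F) (F' := F') (h1 q) p]
  push_cast
  ring

end Fermat.Agent.S37.H8
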