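import Mathlib
import Fermat.Prelude.Def_AlgebraicCurve_DivisorPushPull
import Fermat.Agent.S37.H8_PlaceModel

set_option autoImplicit false
set_option linter.unusedSectionVars false
set_option linter.style.haveILetI false

/-!
# The fundamental identity `∑ e f = n` for a finite separable extension of function fields

For every place `v` of `F/K` the local model `A = O_v ⊆ B =` integral closure of `O_v` in `F'`
is fed to `H8_PlaceModel`.  Output: the prelude class `AlgebraicCurve.FundamentalIdentity K F F'`
for every finite separable extension `F'/F` (any characteristic, any constant field).
-/

namespace Fermat.Agent.S37.H8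

open AlgebraicCurve IsDedekindDomain WithZero
open Fermat.Agent.S24
open Fermat.Agent.S24.H42

section LocalModel

variable {K F : Type*} [Field K] [Field F] [Algebra K F] (v : Place K F)

/-- The only height one prime of the valuation ring of a place is its maximal ideal. -/
theorem heightOneSpectrum_eq (w : HeightOneSpectrum v.toValuationSubring) :
    w = v.heightOneSpectrum := by
  apply HeightOneSpectrum.ext
  rw [Place.heightOneSpectrum_asIdeal]
  haveI := w.isMaximal
  exact IsLocalRing.eq_maximalIdeal w.isMaximal

/-- A place is the place of the maximal ideal of its own valuation ring. -/
theorem placeOf_heightOneSpectrum :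
    placeOf (K := K) (F := F) v.heightOneSpectrum = v := by
  obtain ⟨w, hw⟩ := exists_placeOf_eq (B := v.toValuationSubring) v (fun b => b.2)
  rw [← heightOneSpectrum_eq v w]
  exact hw

end LocalModel

variable {K F F' : Type*} [Field K] [Field F] [Field F'] [Algebra K F] [Algebra K F']
  [Algebra F F'] [IsScalarTower K F F'] [FiniteDimensional F F'] [Algebra.IsSeparable F F']
  [HasPrincipalDivisors K F']

/-- **Fundamental identity** for a finite separable extension `F'/F` of fields over `K`:
`∑_{w | v} e(w|v) deg w = [F' : F] deg v` for every place `v` of `F/K`. -/
theorem sum_ramificationIndex_mul_deg (v : Place K F) :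
    ∑ w ∈ v.fiber F', (w.ramificationIndex F : ℤ) * (w.deg : ℤ)
      = (Module.finrank F F' : ℤ) * (v.deg : ℤ) := by
  classical
  -- the local model
  letI : Algebra K (integralClosure v.toValuationSubring F') :=
    ((algebraMap v.toValuationSubring (integralClosure v.toValuationSubring F')).comp
      (algebraMap K v.toValuationSubring)).toAlgebra
  haveI : IsScalarTower K v.toValuationSubring (integralClosure v.toValuationSubring F') :=
    IsScalarTower.of_algebraMap_eq fun _ => rfl
  haveI : IsScalarTower K (integralClosure v.toValuationSubring F') F' :=
    IsScalarTower.of_algebraMap_eq fun a => by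
      rw [IsScalarTower.algebraMap_apply K F F']
      rfl
  haveI : IsDedekindDomain (integralClosure v.toValuationSubring F') :=
    integralClosure.isDedekindDomain v.toValuationSubring F F'
  haveI : IsFractionRing (integralClosure v.toValuationSubring F') F' :=
    integralClosure.isFractionRing_of_finite_extension F F'
  haveI : Module.Finite v.toValuationSubring (integralClosure v.toValuationSubring F') :=
    IsIntegralClosure.finite v.toValuationSubring F F' _
  haveI : FaithfulSMul v.toValuationSubring (integralClosure v.toValuationSubring F') := by
    rw [faithfulSMul_iff_algebraMap_injective]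
    intro a b hab
    have h1 : algebraMap v.toValuationSubring F' a = algebraMap v.toValuationSubring F' b := by
      rw [IsScalarTower.algebraMap_apply v.toValuationSubring
        (integralClosure v.toValuationSubring F') F', hab,
        ← IsScalarTower.algebraMap_apply]
    rw [IsScalarTower.algebraMap_apply v.toValuationSubring F F',
      IsScalarTower.algebraMap_apply v.toValuationSubring F F'] at h1
    exact Subtype.ext ((algebraMap F F').injective h1)
  obtain ⟨π, hπ⟩ := IsDiscreteValuationRing.exists_irreducible v.toValuationSubring
  have hspan : v.heightOneSpectrum.asIdeal = Ideal.span {π} := by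
    rw [Place.heightOneSpectrum_asIdeal, hπ.maximalIdeal_eq]
  have key := sum_ramificationIndex_mul_deg_placeOf (K := K) (F := F) (F' := F')
    (A := v.toValuationSubring) (B := integralClosure v.toValuationSubring F')
    v.heightOneSpectrum π hspan
  rwa [placeOf_heightOneSpectrum] at key

/-- The prelude class. -/
theorem fundamentalIdentity : FundamentalIdentity K F F' :=
  ⟨sum_ramificationIndex_mul_deg⟩

end Fermat.Agent.S37.H8
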