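import Mathlib
import Fermat.Prelude.Def_AlgebraicCurve_DivisorPushPull
import Fermat.Agent.S37.H8_PlaceModel
import Fermat.Agent.S37.H8_FundamentalIdentity

set_option autoImplicit false
set_option linter.unusedSectionVars false
set_option linter.style.haveILetI false

/-!
# The norm formula `ord_v (N f) = ∑_{w | v} f(w|v) ord_w f` through a Dedekind model

Abstract form (a Dedekind model `A ⊆ B` of `F'/F`, with the hypothesis `hrel` that the relative
norm of a prime `q` of `B` is `(q ∩ A) ^ f(q)`; Mathlib proves `hrel` when `Frac A` is perfect).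
-/

namespace Fermat.Agent.S37.H8

open AlgebraicCurve IsDedekindDomain WithZero
open Fermat.Agent.S24
open Fermat.Agent.S24.H42

section Multiplicity

variable {A B : Type*} [CommRing A] [IsDedekindDomain A] [CommRing B] [IsDedekindDomain B]
  [Algebra A B] [Module.Finite A B] [Module.IsTorsionFree A B]

theorem multiplicity_top_eq_zero {R : Type*} [CommRing R] [IsDedekindDomain R] (q : Ideal R)
    (hq : q ≠ ⊤) : multiplicity q (⊤ : Ideal R) = 0 := by
  rw [multiplicity_eq_zero, Ideal.dvd_iff_le, top_le_iff]
  exact hq

/-- Multiplicity of a nonzero prime in another nonzero prime. -/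
theorem multiplicity_prime_prime {R : Type*} [CommRing R] [IsDedekindDomain R]
    (q q₀ : Ideal R) (hq : q.IsPrime) (_hq0 : q ≠ ⊥) (hq₀ : q₀.IsPrime) (hq₀0 : q₀ ≠ ⊥) :
    multiplicity q q₀ = if q = q₀ then 1 else 0 := by
  split_ifs with h
  · rw [h, multiplicity_self]
  · rw [multiplicity_eq_zero, Ideal.dvd_iff_le]
    intro hle
    haveI : q₀.IsMaximal := Ring.DimensionLEOne.maximalOfPrime hq₀0 hq₀
    exact h (this.eq_of_le hq.ne_top hle).symm

theorem multiplicity_prime_pow {R : Type*} [CommRing R] [IsDedekindDomain R]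
    (p p' : Ideal R) (hp : p.IsPrime) (hp0 : p ≠ ⊥) (hp' : p'.IsPrime) (hp'0 : p' ≠ ⊥) (n : ℕ) :
    multiplicity p (p' ^ n) = if p = p' then n else 0 := by
  split_ifs with h
  · rw [h]
    apply multiplicity_pow_self hp'0
    rw [Ideal.isUnit_iff]
    exact hp'.ne_top
  · rw [multiplicity_eq_zero]
    intro hdvd
    have h1 : p ∣ p' := (Ideal.prime_of_isPrime hp0 hp).dvd_of_dvd_pow hdvd
    rw [Ideal.dvd_iff_le] at h1
    haveI : p'.IsMaximal := Ring.DimensionLEOne.maximalOfPrime hp'0 hp'
    exact h (this.eq_of_le hp.ne_top h1).symm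

/-- **Multiplicity of `p` in a relative norm.** -/
theorem multiplicity_relNorm
    (hrel : ∀ q : HeightOneSpectrum B,
      Ideal.relNorm A q.asIdeal = (q.asIdeal.under A) ^ q.asIdeal.inertiaDeg A)
    (p : HeightOneSpectrum A) [Fintype (p.asIdeal.primesOver B)] (I : Ideal B) (hI : I ≠ ⊥) :
    multiplicity p.asIdeal (Ideal.relNorm A I)
      = ∑ q : p.asIdeal.primesOver B, q.1.inertiaDeg A * multiplicity q.1 I := by
  classical
  haveI : Algebra.IsIntegral A B := Algebra.IsIntegral.of_finite A B
  haveI : FaithfulSMul A B := inferInstance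
  have hpprime : Prime p.asIdeal := Ideal.prime_of_isPrime p.ne_bot p.isPrime
  revert hI
  induction I using UniqueFactorizationMonoid.induction_on_prime with
  | h₁ => intro h; exact (h rfl).elim
  | h₂ x hx =>
    intro _
    rw [Ideal.isUnit_iff] at hx
    subst hx
    rw [Ideal.relNorm_top, multiplicity_top_eq_zero _ p.isPrime.ne_top]
    symm
    apply Finset.sum_eq_zero
    intro q _
    rw [multiplicity_top_eq_zero _ q.2.1.ne_top, mul_zero]
  | h₃ a q₀ ha hq₀ ih =>
    intro _
    have hq₀prime : q₀.IsPrime := Ideal.isPrime_of_prime hq₀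
    have hq₀0 : q₀ ≠ ⊥ := hq₀.ne_zero
    have ha' : a ≠ ⊥ := ha
    rw [map_mul, multiplicity_mul hpprime, ih ha']
    · -- the prime `q₀`
      have h1 := hrel ⟨q₀, hq₀prime, hq₀0⟩
      simp only at h1
      have hunder0 : q₀.under A ≠ ⊥ := by
        obtain ⟨x, hxq, hx0⟩ := Submodule.exists_mem_ne_zero_of_ne_bot hq₀0
        exact Ideal.comap_ne_bot_of_integral_mem hx0 hxq (Algebra.IsIntegral.isIntegral x)
      rw [h1, multiplicity_prime_pow p.asIdeal (q₀.under A) p.isPrime p.ne_bot
        (Ideal.IsPrime.under A q₀) hunder0]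
      have hsum : ∀ q : p.asIdeal.primesOver B,
          q.1.inertiaDeg A * multiplicity q.1 (q₀ * a)
            = q.1.inertiaDeg A * (if q.1 = q₀ then 1 else 0)
              + q.1.inertiaDeg A * multiplicity q.1 a := by
        intro q
        have hq0 : q.1 ≠ ⊥ := Ideal.ne_bot_of_mem_primesOver p.ne_bot q.2
        rw [multiplicity_mul (Ideal.prime_of_isPrime hq0 q.2.1)
          (FiniteMultiplicity.of_not_isUnit
            (by rw [Ideal.isUnit_iff]; exact q.2.1.ne_top) (mul_ne_zero hq₀0 ha')),
          multiplicity_prime_prime q.1 q₀ q.2.1 hq0 hq₀prime hq₀0, mul_add]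
      rw [Finset.sum_congr rfl fun q _ => hsum q, Finset.sum_add_distrib]
      congr 1
      by_cases hp : p.asIdeal = q₀.under A
      · rw [if_pos hp]
        have hmem : q₀ ∈ p.asIdeal.primesOver B := ⟨hq₀prime, ⟨hp⟩⟩
        rw [Finset.sum_eq_single (⟨q₀, hmem⟩ : p.asIdeal.primesOver B)]
        · simp
        · intro q _ hq
          have : q.1 ≠ q₀ := fun h => hq (Subtype.ext h)
          rw [if_neg this, mul_zero]
        · intro h
          exact (h (Finset.mem_univ _)).elim
      · rw [if_neg hp]
        symm
        apply Finset.sum_eq_zero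
        intro q _
        have : q.1 ≠ q₀ := by
          intro h
          apply hp
          have := q.2.2.over
          rw [h] at this
          exact this
        rw [if_neg this, mul_zero]
    · apply FiniteMultiplicity.of_not_isUnit
      · rw [Ideal.isUnit_iff]
        exact p.isPrime.ne_top
      · rw [← map_mul, ne_eq, Ideal.zero_eq_bot, Ideal.relNorm_eq_bot_iff]
        exact mul_ne_zero hq₀0 ha'

end Multiplicity


section Model

variable {K F F' : Type*} [Field K] [Field F] [Field F'] [Algebra K F] [Algebra K F']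
  [Algebra F F'] [IsScalarTower K F F'] [Algebra.IsIntegral F F']
variable {A B : Type*} [CommRing A] [IsDedekindDomain A] [CommRing B] [IsDedekindDomain B]
  [Algebra K A] [Algebra A F] [IsFractionRing A F] [IsScalarTower K A F]
  [Algebra K B] [Algebra B F'] [IsFractionRing B F'] [IsScalarTower K B F']
  [Algebra A B] [IsScalarTower K A B]
  [Algebra A F'] [IsScalarTower A F F'] [IsScalarTower A B F']
  [HasPrincipalDivisors K F'] [Module.Finite A B] [FaithfulSMul A B]

/-- Sums over the fibre of the place of `p` are sums over the primes of `B` over `p`. -/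
theorem sum_fiber_eq_sum_primesOver {M : Type*} [AddCommMonoid M]
    (p : HeightOneSpectrum A) [Fintype (p.asIdeal.primesOver B)] (φ : Place K F' → M) :
    ∑ w ∈ (placeOf (K := K) (F := F) p).fiber F', φ w
      = ∑ q : p.asIdeal.primesOver B, φ (placeOf (K := K) (F := F')
          ⟨q.1, q.2.1, Ideal.ne_bot_of_mem_primesOver p.ne_bot q.2⟩) := by
  classical
  haveI : Algebra.IsIntegral A B := Algebra.IsIntegral.of_finite A B
  let h1 : p.asIdeal.primesOver B → HeightOneSpectrum B := fun q =>
    ⟨q.1, q.2.1, Ideal.ne_bot_of_mem_primesOver p.ne_bot q.2⟩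
  let g : p.asIdeal.primesOver B → Place K F' := fun q => placeOf (K := K) (F := F') (h1 q)
  have hg : Function.Injective g := by
    intro q q' h
    have := placeOf_injective (K := K) (F := F') h
    apply Subtype.ext
    exact congrArg HeightOneSpectrum.asIdeal this
  have hlo : ∀ q : p.asIdeal.primesOver B, (h1 q).asIdeal.LiesOver p.asIdeal := fun q => q.2.2
  have hfib : (placeOf (K := K) (F := F) p).fiber F' = Finset.univ.map ⟨g, hg⟩ := by
    ext w
    simp only [Place.mem_fiber, Finset.mem_map, Finset.mem_univ, true_and,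
      Function.Embedding.coeFn_mk]
    constructor
    · intro hw
      obtain ⟨q, hq, rfl⟩ := exists_placeOf_eq_of_restrict_eq (B := B) w p hw
      exact ⟨⟨q.asIdeal, q.isPrime, hq⟩, rfl⟩
    · rintro ⟨q, rfl⟩
      haveI := hlo q
      exact restrict_placeOf (K := K) (F := F) (F' := F') (h1 q) p
  rw [hfib, Finset.sum_map]
  rfl

/-- Inertia degree of the prelude = inertia degree of Mathlib (when `deg v ≠ 0`). -/
theorem inertiaDeg_placeOf (q : HeightOneSpectrum B) (p : HeightOneSpectrum A)
    [hqp : q.asIdeal.LiesOver p.asIdeal] (hdeg : (placeOf (K := K) (F := F) p).deg ≠ 0) :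
    (placeOf (K := K) (F := F') q).inertiaDeg F = q.asIdeal.inertiaDeg A := by
  have h1 := (placeOf (K := K) (F := F') q).deg_restrict_mul_inertiaDeg (F := F)
  rw [restrict_placeOf (K := K) (F := F) (F' := F') q p,
    deg_placeOf_eq_mul_inertiaDeg (K := K) (F := F) (F' := F') q p] at h1
  exact Nat.eq_of_mul_eq_mul_left (Nat.pos_of_ne_zero hdeg) h1

variable [FiniteDimensional F F'] [Module.IsTorsionFree A B]

/-- **Norm formula for integral elements.** -/
theorem ord_norm_algebraMap
    (hrel : ∀ q : HeightOneSpectrum B,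
      Ideal.relNorm A q.asIdeal = (q.asIdeal.under A) ^ q.asIdeal.inertiaDeg A)
    (p : HeightOneSpectrum A) (hdeg : (placeOf (K := K) (F := F) p).deg ≠ 0)
    (b : B) (hb : b ≠ 0) :
    (placeOf (K := K) (F := F) p).ord (Algebra.norm F (algebraMap B F' b))
      = ∑ w ∈ (placeOf (K := K) (F := F) p).fiber F',
          w.ord (algebraMap B F' b) * (w.inertiaDeg F : ℤ) := by
  classical
  haveI : Algebra.IsIntegral A B := Algebra.IsIntegral.of_finite A B
  haveI : IsIntegralClosure B A F' := IsIntegralClosure.of_isIntegrallyClosed B A F'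
  haveI : Fintype (p.asIdeal.primesOver B) :=
    (Algebra.QuasiFinite.finite_primesOver p.asIdeal).fintype
  have hN : Algebra.intNorm A B b ≠ 0 := by
    rw [ne_eq, Algebra.intNorm_eq_zero]
    exact hb
  rw [← Algebra.algebraMap_intNorm (A := A) (K := F) (L := F') (B := B) b,
    ord_placeOf_algebraMap p hN, ← Ideal.relNorm_singleton,
    multiplicity_relNorm hrel p _ (by rwa [ne_eq, Ideal.span_singleton_eq_bot]),
    sum_fiber_eq_sum_primesOver (K := K) (F := F) (F' := F') (B := B) p]
  push_cast
  refine Finset.sum_congr rfl fun q _ => ?_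
  haveI : (⟨q.1, q.2.1, Ideal.ne_bot_of_mem_primesOver p.ne_bot q.2⟩ :
      HeightOneSpectrum B).asIdeal.LiesOver p.asIdeal := q.2.2
  rw [ord_placeOf_algebraMap _ hb,
    inertiaDeg_placeOf (K := K) (F := F) (F' := F') _ p hdeg]
  ring


/-- **Norm formula at the place of `p`**, for every nonzero `f ∈ F'`. -/
theorem ord_norm_eq_sum
    (hrel : ∀ q : HeightOneSpectrum B,
      Ideal.relNorm A q.asIdeal = (q.asIdeal.under A) ^ q.asIdeal.inertiaDeg A)
    (p : HeightOneSpectrum A) (hdeg : (placeOf (K := K) (F := F) p).deg ≠ 0)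
    (f : F') (hf : f ≠ 0) :
    (placeOf (K := K) (F := F) p).ord (Algebra.norm F f)
      = ∑ w ∈ (placeOf (K := K) (F := F) p).fiber F', w.ord f * (w.inertiaDeg F : ℤ) := by
  obtain ⟨b, s, hs, rfl⟩ := IsFractionRing.div_surjective (A := B) f
  have hs0 : s ≠ 0 := nonZeroDivisors.ne_zero hs
  have hsF : algebraMap B F' s ≠ 0 := by
    intro h
    exact hs0 ((IsFractionRing.injective B F') (by rw [h, map_zero]))
  have hb0 : b ≠ 0 := by
    rintro rfl
    apply hf
    rw [map_zero, zero_div]
  have hbF : algebraMap B F' b ≠ 0 := by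
    intro h
    exact hb0 ((IsFractionRing.injective B F') (by rw [h, map_zero]))
  have hNs : Algebra.norm F (algebraMap B F' s) ≠ 0 := Algebra.norm_ne_zero_iff.mpr hsF
  have hNb : Algebra.norm F (algebraMap B F' b) ≠ 0 := Algebra.norm_ne_zero_iff.mpr hbF
  have hNinv : Algebra.norm F (algebraMap B F' s)⁻¹ = (Algebra.norm F (algebraMap B F' s))⁻¹ := by
    apply eq_inv_of_mul_eq_one_right
    rw [← map_mul, mul_inv_cancel₀ hsF, map_one]
  rw [div_eq_mul_inv, map_mul, hNinv,
    Place.ord_mul _ hNb (inv_ne_zero hNs), Place.ord_inv,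
    ord_norm_algebraMap (K := K) hrel p hdeg b hb0,
    ord_norm_algebraMap (K := K) hrel p hdeg s hs0, ← sub_eq_add_neg, ← Finset.sum_sub_distrib]
  refine Finset.sum_congr rfl fun w _ => ?_
  rw [Place.ord_mul _ hbF (inv_ne_zero hsF), Place.ord_inv]
  ring

end Model


section Char0

variable {K F F' : Type*} [Field K] [Field F] [Field F'] [Algebra K F] [Algebra K F']
  [Algebra F F'] [IsScalarTower K F F'] [FiniteDimensional F F'] [CharZero F]
  [HasPrincipalDivisors K F']

/-- **Norm formula at a place `v` of `F`** (characteristic zero): for every nonzero `f ∈ F'`,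
`ord_v (N_{F'/F} f) = ∑_{w | v} ord_w f * f(w|v)`. -/
theorem ord_norm_eq_sum_fiber (v : Place K F) (hdeg : v.deg ≠ 0) (f : F') (hf : f ≠ 0) :
    v.ord (Algebra.norm F f) = ∑ w ∈ v.fiber F', w.ord f * (w.inertiaDeg F : ℤ) := by
  classical
  letI : Algebra K (integralClosure v.toValuationSubring F') :=
    ((algebraMap v.toValuationSubring (integralClosure v.toValuationSubring F')).comp
      (algebraMap K v.toValuationSubring)).toAlgebra
  haveI : IsScalarTower K v.toValuationSubring (integralClosure v.toValuationSubring F') :=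
    IsScalarTower.of_algebraMap_eq fun _ => rfl
  haveI : IsScalarTower K (integralClosure v.toValuationSubring F') F' :=
    IsScalarTower.of_algebraMap_eq fun a => by
      rw [IsScalarTower.algebraMap_apply K F F']
      rfl
  haveI : IsDedekindDomain (integralClosure v.toValuationSubring F') :=
    integralClosure.isDedekindDomain v.toValuationSubring F F'
  haveI : IsFractionRing (integralClosure v.toValuationSubring F') F' :=
    integralClosure.isFractionRing_of_finite_extension F F'
  haveI : Module.Finite v.toValuationSubring (integralClosure v.toValuationSubring F') :=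
    IsIntegralClosure.finite v.toValuationSubring F F' _
  haveI : FaithfulSMul v.toValuationSubring (integralClosure v.toValuationSubring F') := by
    rw [faithfulSMul_iff_algebraMap_injective]
    intro a b hab
    have h1 : algebraMap v.toValuationSubring F' a = algebraMap v.toValuationSubring F' b := by
      rw [IsScalarTower.algebraMap_apply v.toValuationSubring
        (integralClosure v.toValuationSubring F') F', hab,
        ← IsScalarTower.algebraMap_apply]
    rw [IsScalarTower.algebraMap_apply v.toValuationSubring F F',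
      IsScalarTower.algebraMap_apply v.toValuationSubring F F'] at h1
    exact Subtype.ext ((algebraMap F F').injective h1)
  haveI : CharZero v.toValuationSubring :=
    RingHom.charZero (algebraMap v.toValuationSubring F)
  have hrel : ∀ q : HeightOneSpectrum (integralClosure v.toValuationSubring F'),
      Ideal.relNorm v.toValuationSubring q.asIdeal
        = (q.asIdeal.under v.toValuationSubring) ^ q.asIdeal.inertiaDeg v.toValuationSubring := by
    intro q
    haveI := q.isMaximal
    haveI : (q.asIdeal.under v.toValuationSubring).IsMaximal :=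
      Ideal.IsMaximal.under v.toValuationSubring q.asIdeal
    exact Ideal.relNorm_eq_pow_of_isMaximal q.asIdeal (q.asIdeal.under v.toValuationSubring)
  have key := ord_norm_eq_sum (K := K) (F := F) (F' := F')
    (A := v.toValuationSubring) (B := integralClosure v.toValuationSubring F') hrel
    v.heightOneSpectrum (by rwa [placeOf_heightOneSpectrum]) f hf
  rwa [placeOf_heightOneSpectrum] at key

/-- **The prelude's norm formula** `Divisor.PushforwardNormFormula K F F'` in characteristic
zero, for a function field `F` all of whose places have nonzero (finite) degree. -/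
theorem pushforwardNormFormula (hdeg : ∀ v : Place K F, v.deg ≠ 0) :
    Divisor.PushforwardNormFormula K F F' := by
  classical
  intro f hf D hD v
  rw [Divisor.pushforward_apply, ord_norm_eq_sum_fiber v (hdeg v) f hf]
  rw [← Finset.sum_filter]
  symm
  rw [← Finset.sum_subset (s₁ := D.support.filter fun w => w.restrict F = v)
    (s₂ := v.fiber F')]
  · refine Finset.sum_congr rfl fun w _ => ?_
    rw [hD w]
  · intro w hw
    rw [Finset.mem_filter] at hw
    exact Place.mem_fiber.mpr hw.2
  · intro w hw hnot
    rw [Finset.mem_filter, not_and] at hnot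
    have h0 : D w = 0 := by
      by_contra h
      exact hnot (Finsupp.mem_support_iff.mpr h) (Place.mem_fiber.mp hw)
    rw [← hD w, h0, zero_mul]

end Char0

end Fermat.Agent.S37.H8
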