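import Mathlib
import Fermat.Prelude.Def_ModularCurve_HeckeOperatorTotal
import Fermat.Agent.S24.H40_M123
import Fermat.Agent.S24.H40_Transcendental
import Fermat.Agent.S24.H42_FF2
import Fermat.Agent.S24.H25_Wire
import Fermat.Agent.S37.H8_FundamentalIdentity
import Fermat.Agent.S37.H8_NormFormula

set_option autoImplicit false
set_option linter.unusedSectionVars false
set_option linter.style.haveILetI false

/-!
# The Hecke correspondences on `J₀(N)` over `Qbar` are the genuine ones

`ModularCurve.HeckeInputsAlong Qbar N ℓ` for all `N, ℓ`: the `dite` in the prelude definition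
of `heckeOperatorAlong` takes its first branch, so `heckeOperatorBar N ℓ = α_* ∘ β^*`.

General part: for a `K`-embedding `φ : F →ₐ[K] F'` of function fields of one variable over an
algebraically closed field `K` of characteristic zero, `φ` is finite, the fundamental identity
and the norm formula hold along `φ`.
-/

open IntermediateField AlgebraicCurve
open scoped IntermediateField.algebraAdjoinAdjoin

noncomputable section

namespace Fermat.Agent.S37.H8

open Fermat.Agent.S24

section General

variable {K F F' : Type*} [Field K] [Field F] [Field F'] [Algebra K F] [Algebra K F']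
  [CharZero K]
variable (t : F) [FiniteDimensional K⟮t⟯ F] (t' : F') [FiniteDimensional K⟮t'⟯ F']

/-- `F'` has principal divisors (S24 bank). -/
theorem hasPrincipalDivisors_of_transcendental (ht' : Transcendental K t') :
    HasPrincipalDivisors K F' :=
  ⟨fun f _ => H42.exists_divisor_degree_zero (K := K) t' ht' f⟩

/-- A `K`-embedding of function fields of one variable is finite. -/
theorem finiteAlong_of_transcendental (ht : Transcendental K t) (ht' : Transcendental K t')
    (φ : F →ₐ[K] F') : FiniteAlong K φ := by
  have hφt : Transcendental K (φ t) := by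
    intro halg
    exact ht ((isAlgebraic_algHom_iff φ φ.injective).mp halg)
  haveI : FiniteDimensional K⟮φ t⟯ F' :=
    H42.finiteDimensional_adjoin_of_transcendental (K := K) t' ht' hφt
  have hle : K⟮φ t⟯.toSubalgebra ≤ φ.range := by
    have h : K⟮φ t⟯ ≤ φ.fieldRange := by
      rw [IntermediateField.adjoin_le_iff, Set.singleton_subset_iff]
      exact ⟨t, rfl⟩
    exact h
  let ψ : K⟮φ t⟯ →ₐ[K] F :=
    ((AlgEquiv.ofInjectiveField φ).symm : φ.range →ₐ[K] F).comp (Subalgebra.inclusion hle)
  have hψ : ∀ x : K⟮φ t⟯, φ (ψ x) = (x : F') := by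
    intro x
    have h1 : ((AlgEquiv.ofInjectiveField φ)
        ((AlgEquiv.ofInjectiveField φ).symm (Subalgebra.inclusion hle x)) : F')
        = ((Subalgebra.inclusion hle x : φ.range) : F') := by
      rw [AlgEquiv.apply_symm_apply]
    exact h1
  letI := algebraAlong φ
  letI : Algebra K⟮φ t⟯ F := ψ.toRingHom.toAlgebra
  haveI : IsScalarTower K⟮φ t⟯ F F' := IsScalarTower.of_algebraMap_eq fun x => (hψ x).symm
  show Module.Finite F F'
  exact Module.Finite.of_restrictScalars_finite K⟮φ t⟯ F F'


omit [CharZero K] [FiniteDimensional K⟮t⟯ F] [FiniteDimensional K⟮t'⟯ F'] in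
/-- Finite along `φ` implies integral along `φ`. -/
theorem isIntegral_of_finiteAlong (φ : F →ₐ[K] F') (hfin : FiniteAlong K φ) :
    φ.toRingHom.IsIntegral := by
  letI := algebraAlong φ
  haveI : Module.Finite F F' := hfin
  intro x
  exact Algebra.IsIntegral.isIntegral (R := F) x

/-- **Fundamental identity along a `K`-embedding of function fields** (characteristic zero). -/
theorem fundamentalIdentityAlong_of_transcendental (ht : Transcendental K t)
    (ht' : Transcendental K t') (φ : F →ₐ[K] F') (hφ : φ.toRingHom.IsIntegral)
    [HasPrincipalDivisors K F'] : FundamentalIdentityAlong K φ hφ := by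
  have hfin := finiteAlong_of_transcendental (K := K) t t' ht ht' φ
  letI := algebraAlong φ
  haveI := isScalarTower_along φ
  haveI : Module.Finite F F' := hfin
  haveI : CharZero F := charZero_of_injective_algebraMap (algebraMap K F).injective
  show FundamentalIdentity K F F'
  exact fundamentalIdentity

/-- **Norm formula along a `K`-embedding of function fields** (characteristic zero, `K`
algebraically closed). -/
theorem normFormulaAlong_of_transcendental [IsAlgClosed K] (ht : Transcendental K t)
    (ht' : Transcendental K t') (φ : F →ₐ[K] F') (hfin : FiniteAlong K φ) :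
    NormFormulaAlong K φ hfin := by
  haveI := hasPrincipalDivisors_of_transcendental (K := K) t' ht'
  letI := algebraAlong φ
  haveI := isScalarTower_along φ
  haveI : Module.Finite F F' := hfin
  haveI : CharZero F := charZero_of_injective_algebraMap (algebraMap K F).injective
  show Divisor.PushforwardNormFormula K F F'
  apply pushforwardNormFormula
  intro v
  rw [H25.deg_eq_one (K := K) t ht v]
  exact one_ne_zero

end General

section Modular

open ModularCurve

variable (N ℓ : ℕ) [NeZero N] [NeZero ℓ]

/-- `F_{Nℓ}` over `Qbar` has principal divisors. -/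
theorem hasPrincipalDivisors_FN : HasPrincipalDivisors Qbar (FN N) := by
  haveI := H40.finiteDimensional_FN N
  exact hasPrincipalDivisors_of_transcendental (K := Qbar) (jBar N) (H40.transcendental_jBar N)

/-- Every place of `F_N` over `Qbar` has degree one. -/
theorem deg_eq_one_FN (v : Place Qbar (FN N)) : v.deg = 1 := by
  haveI := H40.finiteDimensional_FN N
  exact H25.deg_eq_one (K := Qbar) (jBar N) (H40.transcendental_jBar N) v

theorem finiteAlong_heckeAlphaBar : FiniteAlong Qbar (heckeAlphaBar Qbar N ℓ) := by
  haveI := H40.finiteDimensional_FN N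
  haveI := H40.finiteDimensional_FN (N * ℓ)
  exact finiteAlong_of_transcendental (K := Qbar) (jBar N) (jBar (N * ℓ))
    (H40.transcendental_jBar N) (H40.transcendental_jBar (N * ℓ)) _

theorem finiteAlong_heckeBetaBar : FiniteAlong Qbar (heckeBetaBar Qbar N ℓ) := by
  haveI := H40.finiteDimensional_FN N
  haveI := H40.finiteDimensional_FN (N * ℓ)
  exact finiteAlong_of_transcendental (K := Qbar) (jBar N) (jBar (N * ℓ))
    (H40.transcendental_jBar N) (H40.transcendental_jBar (N * ℓ)) _

theorem heckeAlphaBarIntegral : HeckeAlphaBarIntegral Qbar N ℓ :=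
  isIntegral_of_finiteAlong _ (finiteAlong_heckeAlphaBar N ℓ)

theorem heckeBetaBarIntegral : HeckeBetaBarIntegral Qbar N ℓ :=
  isIntegral_of_finiteAlong _ (finiteAlong_heckeBetaBar N ℓ)

/-- **The Hecke inputs hold over `Qbar` for every level and every `ℓ`**: the prelude operator
`heckeOperatorAlong Qbar N ℓ` is the genuine correspondence `α_* ∘ β^*`. -/
theorem heckeInputsAlong : HeckeInputsAlong Qbar N ℓ := by
  haveI := H40.finiteDimensional_FN N
  haveI := H40.finiteDimensional_FN (N * ℓ)
  haveI hP : HasPrincipalDivisors Qbar (FN (N * ℓ)) := hasPrincipalDivisors_FN (N * ℓ)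
  refine ⟨heckeAlphaBarIntegral N ℓ, heckeBetaBarIntegral N ℓ, hP,
    finiteAlong_heckeAlphaBar N ℓ, ?_, ?_⟩
  · exact fundamentalIdentityAlong_of_transcendental (K := Qbar) (jBar N) (jBar (N * ℓ))
      (H40.transcendental_jBar N) (H40.transcendental_jBar (N * ℓ)) _ _
  · exact normFormulaAlong_of_transcendental (K := Qbar) (jBar N) (jBar (N * ℓ))
      (H40.transcendental_jBar N) (H40.transcendental_jBar (N * ℓ)) _ _

end Modular

end Fermat.Agent.S37.H8
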