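import Mathlib
import Fermat.Prelude.Def_ModularCurve_HeckeModule
import Fermat.Agent.S37.H8_HeckeInputs

set_option autoImplicit false
set_option linter.unusedSectionVars false
set_option linter.style.haveILetI false

/-!
# Unfolding the prelude Hecke operator on `J₀(N)`

* `heckeOperatorBar_mk`: `T_ℓ [D] = [α_* β^* D]` on `JZero N`;
* `correspondence_apply_of_ord`: on the divisor of a function `y`, the correspondence
  `ψ_* φ^*` is the divisor of `Nm_ψ (φ y)` (general);
* `heckeDivBar_apply_of_ord`: the same for the Hecke correspondence.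
-/

open IntermediateField AlgebraicCurve

noncomputable section

namespace Fermat.Agent.S37.H8

open Fermat.Agent.S24

section General

variable {K F F' : Type*} [Field K] [Field F] [Field F'] [Algebra K F] [Algebra K F']
  [HasPrincipalDivisors K F']
variable (φ ψ : F →ₐ[K] F') (hφ : φ.toRingHom.IsIntegral) (hψ : ψ.toRingHom.IsIntegral)

/-- The norm of `F'` down to `F` along `ψ`. -/
def normAlong (ψ : F →ₐ[K] F') : F' →* F :=
  letI := algebraAlong ψ
  Algebra.norm F

/-- `φ^*` of the divisor of `y` is the divisor of `φ y`. -/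
theorem pullbackAlong_apply_of_ord {y : F} {D : Divisor K F} (hD : ∀ v, D v = v.ord y)
    (w : Place K F') : Divisor.pullbackAlong φ hφ D w = w.ord (φ y) := by
  letI := algebraAlong φ
  haveI := isScalarTower_along φ
  haveI := isIntegral_along φ hφ
  exact Divisor.pullback_apply_eq_ord hD w

/-- **The correspondence `ψ_* φ^*` on the divisor of a function**: it is the divisor of
`Nm_ψ (φ y)`. -/
theorem correspondence_apply_of_ord (hfin : FiniteAlong K ψ) (hN : NormFormulaAlong K ψ hfin)
    {y : F} (hy : y ≠ 0) {D : Divisor K F} (hD : ∀ v, D v = v.ord y) (v : Place K F) :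
    Divisor.correspondence φ ψ hφ hψ D v = v.ord (normAlong ψ (φ y)) := by
  have h1 := pullbackAlong_apply_of_ord φ hφ hD
  rw [Divisor.correspondence_apply]
  letI := algebraAlong ψ
  haveI := isScalarTower_along ψ
  haveI := isIntegral_along ψ hψ
  haveI : Module.Finite F F' := hfin
  have hφy : φ y ≠ 0 := by
    rwa [ne_eq, map_eq_zero_iff φ φ.injective]
  exact hN (φ y) hφy _ h1 v

end General

section Modular

open ModularCurve

variable (N : ℕ) [NeZero N]

/-- The prelude Hecke operator is the genuine correspondence (first branch of the `dite`). -/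
theorem heckeOperatorAlong_eq_heckePic0Bar (ℓ : ℕ) [NeZero ℓ] :
    haveI := hasPrincipalDivisors_FN (N * ℓ)
    heckeOperatorAlong Qbar N ℓ =
      heckePic0Bar (heckeAlphaBarIntegral N ℓ) (heckeBetaBarIntegral N ℓ)
        (heckeInputsAlong N ℓ).snd.snd.snd.snd.1 (finiteAlong_heckeAlphaBar N ℓ)
        (heckeInputsAlong N ℓ).snd.snd.snd.snd.2 := by
  haveI := hasPrincipalDivisors_FN (N * ℓ)
  exact heckeOperatorAlong_eq _ _ _ _ _

/-- `T_ℓ [D] = [α_* β^* D]`. -/
theorem heckeOperatorBar_mk (ℓ : Nat.Primes)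
    (D : Divisor.degZero (K := Qbar) (F := FN N)) :
    haveI : NeZero (ℓ : ℕ) := ⟨ℓ.2.ne_zero⟩
    haveI := hasPrincipalDivisors_FN (N * ℓ)
    ∃ hE : heckeDivBar (heckeAlphaBarIntegral N ℓ) (heckeBetaBarIntegral N ℓ)
        (D : Divisor Qbar (FN N)) ∈ Divisor.degZero (K := Qbar) (F := FN N),
      heckeOperatorBar N ℓ (Pic0.mk D) = Pic0.mk ⟨_, hE⟩ := by
  haveI : NeZero (ℓ : ℕ) := ⟨ℓ.2.ne_zero⟩
  haveI := hasPrincipalDivisors_FN (N * ℓ)
  refine ⟨Divisor.correspondence_mem_degZero _ _ _ _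
    (heckeInputsAlong N ℓ).snd.snd.snd.snd.1 D.2, ?_⟩
  rw [heckeOperatorBar_apply, heckeOperatorAlong_eq_heckePic0Bar]
  rfl

/-- **The Hecke correspondence on the divisor of a function `y ∈ F_N`**: the divisor of
`Nm_α (β y)`, `α` the inclusion `F_N ⊆ F_{Nℓ}`, `β y = y(q^ℓ)`. -/
theorem heckeDivBar_apply_of_ord (ℓ : ℕ) [NeZero ℓ] {y : FN N} (hy : y ≠ 0)
    {D : Divisor Qbar (FN N)} (hD : ∀ v, D v = v.ord y) (v : Place Qbar (FN N)) :
    haveI := hasPrincipalDivisors_FN (N * ℓ)
    heckeDivBar (heckeAlphaBarIntegral N ℓ) (heckeBetaBarIntegral N ℓ) D v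
      = v.ord (normAlong (heckeAlphaBar Qbar N ℓ) (heckeBetaBar Qbar N ℓ y)) := by
  haveI := hasPrincipalDivisors_FN (N * ℓ)
  exact correspondence_apply_of_ord _ _ _ _ (finiteAlong_heckeAlphaBar N ℓ)
    (heckeInputsAlong N ℓ).snd.snd.snd.snd.2 hy hD v

end Modular

end Fermat.Agent.S37.H8
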