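import Mathlib
import Fermat.Prelude.Def_ModularCurve_HeckeModule
import Fermat.Agent.S37.H8_HeckeInputs
import Fermat.Agent.S37.H8_HeckeUnfold

set_option autoImplicit false
set_option linter.unusedSectionVars false
set_option linter.style.haveILetI false

/-!
# The Hecke inputs over an arbitrary algebraically closed field `L ⊇ ℚ`

`ModularCurve.HeckeInputsAlong L N ℓ` from the single hypothesis that the function fields
`F_N(L)`, `F_{Nℓ}(L)` are finite over `L(j)` (e.g. `L = ℂ`).
-/

open IntermediateField AlgebraicCurve ModularCurve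

noncomputable section

namespace Fermat.Agent.S37.H8

open Fermat.Agent.S24

variable (L : Type*) [Field L] [Algebra ℚ L]

/-- The function field of `X₀(M)` over `L`, as a type. -/
abbrev FL (M : ℕ) [NeZero M] : Type _ := ↥(laurentBaseChange L (modularFunctionFieldFull M))

/-- `j(q)` with coefficients in `L`, as an element of `FL L M`. -/
def jL (M : ℕ) [NeZero M] : FL L M :=
  ⟨coeffEmb L jq, coeffEmb_mem_laurentBaseChange L (by
    have h := jqd_mem_full M (one_dvd M)
    rwa [qExpand_one_apply] at h)⟩

theorem coe_jL (M : ℕ) [NeZero M] : ((jL L M : FL L M) : LaurentSeries L) = coeffEmb L jq := rfl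

theorem transcendental_jL (M : ℕ) [NeZero M] : Transcendental L (jL L M) := by
  intro h
  apply H40.transcendental_coeffEmb_jq L
  have := h.algHom (laurentBaseChange L (modularFunctionFieldFull M)).val
  exact this

variable [IsAlgClosed L] (N ℓ : ℕ) [NeZero N] [NeZero ℓ]

theorem hasPrincipalDivisors_FL (M : ℕ) [NeZero M] [FiniteDimensional L⟮jL L M⟯ (FL L M)] :
    HasPrincipalDivisors L (FL L M) :=
  haveI : CharZero L := charZero_of_injective_algebraMap (algebraMap ℚ L).injective
  hasPrincipalDivisors_of_transcendental (K := L) (jL L M) (transcendental_jL L M)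

theorem deg_eq_one_FL (M : ℕ) [NeZero M] [FiniteDimensional L⟮jL L M⟯ (FL L M)]
    (v : Place L (FL L M)) : v.deg = 1 :=
  haveI : CharZero L := charZero_of_injective_algebraMap (algebraMap ℚ L).injective
  H25.deg_eq_one (K := L) (jL L M) (transcendental_jL L M) v

/-- **Hecke inputs over `L`** from finiteness of the two function fields over `L(j)`. -/
theorem heckeInputsAlong_of_finiteDimensional
    [FiniteDimensional L⟮jL L N⟯ (FL L N)]
    [FiniteDimensional L⟮jL L (N * ℓ)⟯ (FL L (N * ℓ))] : HeckeInputsAlong L N ℓ := by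
  haveI : CharZero L := charZero_of_injective_algebraMap (algebraMap ℚ L).injective
  haveI hP : HasPrincipalDivisors L (FL L (N * ℓ)) := hasPrincipalDivisors_FL L (N * ℓ)
  have ht := transcendental_jL L N
  have ht' := transcendental_jL L (N * ℓ)
  have hfinα : FiniteAlong L (heckeAlphaBar L N ℓ) :=
    finiteAlong_of_transcendental (K := L) (jL L N) (jL L (N * ℓ)) ht ht' _
  have hfinβ : FiniteAlong L (heckeBetaBar L N ℓ) :=
    finiteAlong_of_transcendental (K := L) (jL L N) (jL L (N * ℓ)) ht ht' _
  refine ⟨isIntegral_of_finiteAlong _ hfinα, isIntegral_of_finiteAlong _ hfinβ, hP, hfinα, ?_, ?_⟩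
  · exact fundamentalIdentityAlong_of_transcendental (K := L) (jL L N) (jL L (N * ℓ)) ht ht' _ _
  · exact normFormulaAlong_of_transcendental (K := L) (jL L N) (jL L (N * ℓ)) ht ht' _ _

end Fermat.Agent.S37.H8
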