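import Mathlib
import Fermat.Agent.S28.H16_HasModPoly
import Fermat.Agent.S24.H40_Generation
import Fermat.Agent.S37.H8_HeckeInputsL

set_option autoImplicit false
set_option linter.unusedSectionVars false
set_option linter.style.haveILetI false

/-!
# `F_M(L)` is finite over `L(j)` for every field `L ⊇ ℚ`

From the integer modular polynomials (`S28.H16.hasModPoly`): every generator `j(q^d)`, `d ∣ M`,
of `FL L M = laurentBaseChange L (modularFunctionFieldFull M)` is integral over `L(j)`.
Consequence: `HeckeInputsAlong L N ℓ` for every algebraically closed `L ⊇ ℚ` (e.g. `ℂ`).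
-/

open IntermediateField AlgebraicCurve ModularCurve Polynomial

noncomputable section

namespace Fermat.Agent.S37.H8

open Fermat.Agent.S24

variable (L : Type*) [Field L] [Algebra ℚ L] (M : ℕ) [NeZero M]

/-- `j(q^d)` with coefficients in `L`, as an element of `FL L M` (for `d ∣ M`). -/
def jdL (d : ℕ) [NeZero d] (hd : d ∣ M) : FL L M :=
  ⟨coeffEmb L (qExpand ℚ d jq), coeffEmb_mem_laurentBaseChange L (jqd_mem_full M hd)⟩

/-- The generators `j(q^d)`, `d ∣ M`, of `FL L M`. -/
def jdSetL : Set (FL L M) :=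
  {x | ∃ (d : ℕ) (_ : NeZero d) (hd : d ∣ M), x = jdL L M d hd}

theorem finite_jdSetL : (jdSetL L M).Finite := by
  have : jdSetL L M ⊆ Set.range (fun d : M.divisors =>
      @jdL L _ _ M _ d.1 ⟨(Nat.pos_of_mem_divisors d.2).ne'⟩ (Nat.dvd_of_mem_divisors d.2)) := by
    rintro _ ⟨d, hne, hd, rfl⟩
    exact ⟨⟨d, Nat.mem_divisors.mpr ⟨hd, NeZero.ne M⟩⟩, rfl⟩
  exact (Set.finite_range _).subset this

theorem val_image_jdSetL :
    (Subtype.val '' jdSetL L M : Set (LaurentSeries L))
      = ⇑(coeffEmb L) '' divisorExpansions M := by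
  ext x
  constructor
  · rintro ⟨y, ⟨d, hne, hd, rfl⟩, rfl⟩
    exact ⟨qExpand ℚ d jq, ⟨d, hne, hd, rfl⟩, rfl⟩
  · rintro ⟨y, ⟨d, hne, hd, rfl⟩, rfl⟩
    exact ⟨@jdL L _ _ M _ d hne hd, ⟨d, hne, hd, rfl⟩, rfl⟩

/-- `FL L M` is generated over `L` by the `j(q^d)`, `d ∣ M`. -/
theorem adjoin_jdSetL_eq_top : IntermediateField.adjoin L (jdSetL L M) = ⊤ := by
  apply IntermediateField.lift_injective (laurentBaseChange L (modularFunctionFieldFull M))
  rw [lift_adjoin, lift_top, val_image_jdSetL]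
  show _ = laurentBaseChange L (modularFunctionFieldFull M)
  rw [modularFunctionFieldFull, H40.laurentBaseChange_adjoin]

/-- Evaluation `ℤ[X] → L(j) ⊆ FL L M`, `X ↦ j`. -/
def evalJL : Polynomial ℤ →+* L⟮jL L M⟯ :=
  Polynomial.eval₂RingHom (Int.castRingHom L⟮jL L M⟯)
    ⟨jL L M, IntermediateField.mem_adjoin_simple_self L (jL L M)⟩

theorem val_comp_evalJL :
    ((laurentBaseChange L (modularFunctionFieldFull M)).val.toRingHom.comp
      ((algebraMap L⟮jL L M⟯ (FL L M)).comp (evalJL L M)))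
      = (coeffEmb L).comp evalAtJ := by
  refine Polynomial.ringHom_ext' (Subsingleton.elim _ _) ?_
  show ((evalJL L M Polynomial.X : L⟮jL L M⟯) : FL L M).1 = coeffEmb L (evalAtJ Polynomial.X)
  rw [evalAtJ_X, evalJL]
  simp only [Polynomial.coe_eval₂RingHom, Polynomial.eval₂_X]
  rfl

/-- Each generator `j(q^d)` is integral over `L(j)`. -/
theorem isIntegral_jdL (d : ℕ) [NeZero d] (hd : d ∣ M) :
    IsIntegral L⟮jL L M⟯ (jdL L M d hd) := by
  obtain ⟨D, -⟩ := Fermat.Agent.S28.H16.hasModPoly d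
  refine ⟨D.Φ.map (evalJL L M), D.monic.map _, ?_⟩
  rw [Polynomial.eval₂_map]
  apply Subtype.val_injective
  have h1 := congrArg (coeffEmb L) D.eval_eq_zero
  rw [Polynomial.hom_eval₂, map_zero, ← val_comp_evalJL L M] at h1
  have h2 : ((Polynomial.eval₂ ((algebraMap L⟮jL L M⟯ (FL L M)).comp (evalJL L M))
      (jdL L M d hd) D.Φ : FL L M) : LaurentSeries L)
      = Polynomial.eval₂ ((laurentBaseChange L (modularFunctionFieldFull M)).val.toRingHom.comp
          ((algebraMap L⟮jL L M⟯ (FL L M)).comp (evalJL L M)))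
        (coeffEmb L (jqN d)) D.Φ := by
    have := Polynomial.hom_eval₂ D.Φ ((algebraMap L⟮jL L M⟯ (FL L M)).comp (evalJL L M))
      (laurentBaseChange L (modularFunctionFieldFull M)).val.toRingHom (jdL L M d hd)
    exact this
  rw [h2, h1]
  rfl

/-- **`FL L M` is finite over `L(j)`**, for every field `L ⊇ ℚ` and every level. -/
theorem finiteDimensional_FL : FiniteDimensional L⟮jL L M⟯ (FL L M) := by
  haveI : Finite (jdSetL L M) := (finite_jdSetL L M).to_subtype
  have hint : ∀ x ∈ jdSetL L M, IsIntegral L⟮jL L M⟯ x := by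
    rintro _ ⟨d, hne, hd, rfl⟩
    exact @isIntegral_jdL L _ _ M _ d hne hd
  haveI : FiniteDimensional L⟮jL L M⟯ (IntermediateField.adjoin L⟮jL L M⟯ (jdSetL L M)) :=
    IntermediateField.finiteDimensional_adjoin hint
  have htop : IntermediateField.adjoin L⟮jL L M⟯ (jdSetL L M) = ⊤ := by
    rw [eq_top_iff]
    intro x _
    have hx : x ∈ IntermediateField.adjoin L (jdSetL L M) := by
      rw [adjoin_jdSetL_eq_top]; exact IntermediateField.mem_top
    have hle : IntermediateField.adjoin L (jdSetL L M)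
        ≤ (IntermediateField.adjoin L⟮jL L M⟯ (jdSetL L M)).restrictScalars L := by
      rw [IntermediateField.adjoin_le_iff]
      exact IntermediateField.subset_adjoin L⟮jL L M⟯ (jdSetL L M)
    exact hle hx
  rw [htop] at this
  exact Module.Finite.equiv (IntermediateField.topEquiv (F := L⟮jL L M⟯) (E := FL L M)).toLinearEquiv

instance : FiniteDimensional L⟮jL L M⟯ (FL L M) := finiteDimensional_FL L M

/-- **Hecke inputs over every algebraically closed field `L ⊇ ℚ`** (e.g. `L = ℂ`). -/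
theorem heckeInputsAlong_L [IsAlgClosed L] (N ℓ : ℕ) [NeZero N] [NeZero ℓ] :
    HeckeInputsAlong L N ℓ :=
  heckeInputsAlong_of_finiteDimensional L N ℓ

end Fermat.Agent.S37.H8
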