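/-
Stage 2 of the S37 cluster, package FROB + GALOIS-EQUIV (helper53).

(A) Coefficientwise ring automorphisms of `k` act on `modularFunctionFieldFullC k N`
    as semilinear automorphisms; for a perfect field of characteristic `ℓ` this gives the
    coefficientwise Frobenius and the additive map `frobJ` on `JZeroC k N`.
(B) If `σ : L ≃ₐ[ℚ] L` preserves the valuation subring `A` and induces `φ` on `k` through
    `π : A →+* k`, then the reduction axiom `IsPlaceReductionAlong` is transported by `(σ, φ)`:
    `r_* (σ • D) = φ • r_* D` on integral principal divisors.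
-/
import Mathlib
import Fermat.Prelude.Def_ModularCurve_ReductionModL
import Fermat.Prelude.Def_EllipticCurve_FrobeniusTrace
import Fermat.Prelude.Def_FLTPrelim_Ramification

set_option autoImplicit false

noncomputable section

open HahnSeries IntermediateField AlgebraicCurve ModularCurve

namespace Fermat.Agent.S37.H53

/-! ### (A) coefficientwise automorphisms on the characteristic-`ℓ` function field -/

section CoeffAut

variable (k : Type*) [Field k] (N : ℕ)

theorem coeffMap_mem_fullC (φ : k →+* k) {x : LaurentSeries k}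
    (hx : x ∈ modularFunctionFieldFullC k N) :
    coeffMap φ x ∈ modularFunctionFieldFullC k N := by
  change x ∈ Subfield.closure
    (Set.range (algebraMap k (LaurentSeries k)) ∪ divisorExpansionsC k N) at hx
  induction hx using Subfield.closure_induction with
  | mem y hy =>
      rcases hy with ⟨a, rfl⟩ | ⟨d, hd, hdN, rfl⟩
      · rw [coeffMap_algebraMap]
        exact (modularFunctionFieldFullC k N).algebraMap_mem _
      · have := hd
        rw [coeffMap_qExpand, coeffMap_jqModC]
        exact jqModCd_mem_full k N hdN
  | one => simp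
  | add x y _ _ hx hy => simpa using add_mem hx hy
  | neg x _ hx => simpa using neg_mem hx
  | inv x _ hx => simpa using inv_mem hx
  | mul x y _ _ hx hy => simpa using mul_mem hx hy

theorem coeffMap_symm_coeffMap (φ : k ≃+* k) (x : LaurentSeries k) :
    coeffMap (φ.symm : k →+* k) (coeffMap (φ : k →+* k) x) = x := by
  rw [coeffMap_coeffMap,
    coeffMap_congr (g := RingHom.id k) (RingHom.ext fun a => φ.symm_apply_apply a) x,
    coeffMap_id]

theorem coeffMap_coeffMap_symm (φ : k ≃+* k) (x : LaurentSeries k) :
    coeffMap (φ : k →+* k) (coeffMap (φ.symm : k →+* k) x) = x := by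
  rw [coeffMap_coeffMap,
    coeffMap_congr (g := RingHom.id k) (RingHom.ext fun a => φ.apply_symm_apply a) x,
    coeffMap_id]

theorem coeffMap_injective_of_equiv (φ : k ≃+* k) :
    Function.Injective (coeffMap (φ : k →+* k)) := fun x y h => by
  have := congrArg (coeffMap (φ.symm : k →+* k)) h
  rwa [coeffMap_symm_coeffMap, coeffMap_symm_coeffMap] at this

/-- The coefficientwise action of a ring automorphism of `k` on the function field. -/
def coeffRingAut (φ : k ≃+* k) :
    (modularFunctionFieldFullC k N) ≃+* (modularFunctionFieldFullC k N) where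
  toFun x := ⟨coeffMap (φ : k →+* k) (x : LaurentSeries k), coeffMap_mem_fullC k N _ x.2⟩
  invFun x := ⟨coeffMap (φ.symm : k →+* k) (x : LaurentSeries k), coeffMap_mem_fullC k N _ x.2⟩
  left_inv _ := Subtype.ext (coeffMap_symm_coeffMap k φ _)
  right_inv _ := Subtype.ext (coeffMap_coeffMap_symm k φ _)
  map_mul' x y :=
    Subtype.ext (map_mul (coeffMap (φ : k →+* k)) (x : LaurentSeries k) (y : LaurentSeries k))
  map_add' x y :=
    Subtype.ext (map_add (coeffMap (φ : k →+* k)) (x : LaurentSeries k) (y : LaurentSeries k))

@[simp]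
theorem coe_coeffRingAut_apply (φ : k ≃+* k) (x : modularFunctionFieldFullC k N) :
    (coeffRingAut k N φ x : LaurentSeries k) = coeffMap (φ : k →+* k) (x : LaurentSeries k) :=
  rfl

theorem coeffRingAut_algebraMap (φ : k ≃+* k) (a : k) :
    coeffRingAut k N φ (algebraMap k (modularFunctionFieldFullC k N) a)
      = algebraMap k (modularFunctionFieldFullC k N) (φ a) :=
  Subtype.ext (coeffMap_algebraMap (φ : k →+* k) a)

/-- Coefficientwise automorphisms as semilinear automorphisms of the function field. -/
def coeffAut : (k ≃+* k) →* SemilinearAut k (modularFunctionFieldFullC k N) where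
  toFun φ := ⟨(coeffRingAut k N φ, φ), fun a => coeffRingAut_algebraMap k N φ a⟩
  map_one' := by
    refine Subtype.ext (Prod.ext (RingEquiv.ext fun x => Subtype.ext ?_) rfl)
    show coeffMap ((1 : k ≃+* k) : k →+* k) (x : LaurentSeries k) = (x : LaurentSeries k)
    rw [show ((1 : k ≃+* k) : k →+* k) = RingHom.id k from RingHom.ext fun _ => rfl, coeffMap_id]
  map_mul' σ τ := by
    refine Subtype.ext (Prod.ext (RingEquiv.ext fun x => Subtype.ext ?_) rfl)
    show coeffMap ((σ * τ : k ≃+* k) : k →+* k) (x : LaurentSeries k)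
      = coeffMap (σ : k →+* k) (coeffMap (τ : k →+* k) (x : LaurentSeries k))
    rw [coeffMap_coeffMap]
    exact coeffMap_congr (RingHom.ext fun _ => rfl) _

@[simp]
theorem toRingAut_coeffAut (φ : k ≃+* k) :
    SemilinearAut.toRingAut (coeffAut k N φ) = coeffRingAut k N φ := rfl

@[simp]
theorem baseAut_coeffAut (φ : k ≃+* k) :
    SemilinearAut.baseAut (coeffAut k N φ) = φ := rfl

theorem coe_coeffAut_smul (φ : k ≃+* k) (x : modularFunctionFieldFullC k N) :
    ((coeffAut k N φ • x : modularFunctionFieldFullC k N) : LaurentSeries k)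
      = coeffMap (φ : k →+* k) (x : LaurentSeries k) :=
  rfl

/-- The additive endomorphism of `JZeroC k N` induced by a coefficientwise automorphism. -/
def coeffAutJ (φ : k ≃+* k) : JZeroC k N →+ JZeroC k N :=
  DistribSMul.toAddMonoidHom (JZeroC k N) (coeffAut k N φ)

@[simp]
theorem coeffAutJ_apply (φ : k ≃+* k) (x : JZeroC k N) :
    coeffAutJ k N φ x = coeffAut k N φ • x := rfl

theorem coeffAutJ_mk (φ : k ≃+* k)
    (D : Divisor.degZero (K := k) (F := modularFunctionFieldFullC k N)) :
    coeffAutJ k N φ (Pic0.mk D) = Pic0.mk (SemilinearAut.degZeroSMulHom (coeffAut k N φ) D) :=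
  rfl

theorem coeffAutJ_symm_apply (φ : k ≃+* k) (x : JZeroC k N) :
    coeffAutJ k N φ.symm (coeffAutJ k N φ x) = x := by
  have h : coeffAut k N φ.symm = (coeffAut k N φ)⁻¹ := by
    rw [eq_inv_iff_mul_eq_one, ← map_mul]
    have : φ.symm * φ = 1 := RingEquiv.ext fun a => φ.symm_apply_apply a
    rw [this, map_one]
  rw [coeffAutJ_apply, coeffAutJ_apply, h, inv_smul_smul]

theorem coeffAutJ_apply_symm (φ : k ≃+* k) (x : JZeroC k N) :
    coeffAutJ k N φ (coeffAutJ k N φ.symm x) = x := by
  have := coeffAutJ_symm_apply k N φ.symm x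
  rwa [RingEquiv.symm_symm] at this

theorem coeffAutJ_bijective (φ : k ≃+* k) : Function.Bijective (coeffAutJ k N φ) :=
  Function.bijective_iff_has_inverse.mpr
    ⟨coeffAutJ k N φ.symm, coeffAutJ_symm_apply k N φ, coeffAutJ_apply_symm k N φ⟩

section Frobenius

variable (ℓ : ℕ) [ExpChar k ℓ] [PerfectRing k ℓ]

/-- The coefficientwise Frobenius as a semilinear automorphism. -/
def coeffFrob : SemilinearAut k (modularFunctionFieldFullC k N) :=
  coeffAut k N (frobeniusEquiv k ℓ)

theorem baseAut_coeffFrob_apply (a : k) :
    SemilinearAut.baseAut (coeffFrob k N ℓ) a = a ^ ℓ := by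
  rw [coeffFrob, baseAut_coeffAut, frobeniusEquiv_apply, frobenius_def]

/-- The Frobenius endomorphism `F` of `JZeroC k N` (coefficientwise Frobenius on places). -/
def frobJ : JZeroC k N →+ JZeroC k N :=
  coeffAutJ k N (frobeniusEquiv k ℓ)

theorem frobJ_apply (x : JZeroC k N) : frobJ k N ℓ x = coeffFrob k N ℓ • x := rfl

theorem frobJ_bijective : Function.Bijective (frobJ k N ℓ) :=
  coeffAutJ_bijective k N _

end Frobenius

end CoeffAut

/-! ### (B) transport of the reduction axiom along a Galois automorphism preserving `A` -/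

section Transport

variable {L : Type*} [Field L] [Algebra ℚ L] (A : ValuationSubring L)
variable {k : Type*} [Field k] (π : A →+* k) (N : ℕ)
variable (σ : L ≃ₐ[ℚ] L) (φ : k ≃+* k)

/-- `σ` maps `A` into itself and induces `φ` on `k` through `π`. -/
structure Induces : Prop where
  mem : ∀ a ∈ A, σ a ∈ A
  map : ∀ (a : A) (h : σ (a : L) ∈ A), π ⟨σ (a : L), h⟩ = φ (π a)

variable {A π σ φ}

/-- The restriction of `σ` to `A`. -/
def Induces.restrict (h : Induces A π σ φ) : A →+* A where
  toFun a := ⟨σ (a : L), h.mem a a.2⟩
  map_one' := Subtype.ext (by simp)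
  map_mul' a b := Subtype.ext (by simp)
  map_zero' := Subtype.ext (by simp)
  map_add' a b := Subtype.ext (by simp)

theorem Induces.subtype_comp_restrict (h : Induces A π σ φ) :
    A.subtype.comp h.restrict = (σ : L →+* L).comp A.subtype :=
  RingHom.ext fun _ => rfl

theorem Induces.pi_comp_restrict (h : Induces A π σ φ) :
    π.comp h.restrict = (φ : k →+* k).comp π :=
  RingHom.ext fun a => h.map a _

/-- (B1) integral `q`-series are transported by `σ`, with reduction transported by `φ`. -/
theorem Induces.coeffMap_subtype (h : Induces A π σ φ) (y : LaurentSeries A) :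
    coeffMap A.subtype (coeffMap h.restrict y)
      = coeffMap (σ : L →+* L) (coeffMap A.subtype y) := by
  rw [coeffMap_coeffMap, coeffMap_coeffMap, h.subtype_comp_restrict]

theorem Induces.coeffMap_pi (h : Induces A π σ φ) (y : LaurentSeries A) :
    coeffMap π (coeffMap h.restrict y) = coeffMap (φ : k →+* k) (coeffMap π y) := by
  rw [coeffMap_coeffMap, coeffMap_coeffMap, h.pi_comp_restrict]

theorem exists_integral_sigma (h : Induces A π σ φ) (y : LaurentSeries A) :
    ∃ y' : LaurentSeries A,
      coeffMap A.subtype y' = coeffMap (σ : L →+* L) (coeffMap A.subtype y) ∧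
      coeffMap π y' = coeffMap (φ : k →+* k) (coeffMap π y) :=
  ⟨coeffMap h.restrict y, h.coeffMap_subtype y, h.coeffMap_pi y⟩

/-- The semilinear automorphism of the characteristic-zero function field induced by `σ`. -/
abbrev gal (σ : L ≃ₐ[ℚ] L) :
    SemilinearAut L (laurentBaseChange L (modularFunctionFieldFull N)) :=
  arithmeticGalois (modularFunctionFieldFull N) σ

variable {N}

/-- Key computation: the divisor of the transported series. -/
theorem smul_divisor_eq (h : Induces A π σ φ) {y : LaurentSeries A}
    (hy : coeffMap A.subtype y ∈ laurentBaseChange L (modularFunctionFieldFull N))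
    (hy' : coeffMap A.subtype (coeffMap h.restrict y)
      ∈ laurentBaseChange L (modularFunctionFieldFull N))
    {D : Divisor L (laurentBaseChange L (modularFunctionFieldFull N))}
    (hD : ∀ P, D P = P.ord
      (⟨coeffMap A.subtype y, hy⟩ : laurentBaseChange L (modularFunctionFieldFull N)))
    (P : Place L (laurentBaseChange L (modularFunctionFieldFull N))) :
    (gal N σ • D) P = P.ord
      (⟨coeffMap A.subtype (coeffMap h.restrict y), hy'⟩ :
        laurentBaseChange L (modularFunctionFieldFull N)) := by
  rw [SemilinearAut.divisor_smul_apply, hD]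
  have h1 := SemilinearAut.ord_smul (gal N σ) ((gal N σ)⁻¹ • P)
    (⟨coeffMap A.subtype y, hy⟩ : laurentBaseChange L (modularFunctionFieldFull N))
  rw [smul_inv_smul] at h1
  have key : gal N σ • (⟨coeffMap A.subtype y, hy⟩ :
      laurentBaseChange L (modularFunctionFieldFull N))
      = ⟨coeffMap A.subtype (coeffMap h.restrict y), hy'⟩ :=
    Subtype.ext (h.coeffMap_subtype y).symm
  rw [← h1, key]

/-- (B2) integral principal divisors are stable under `σ`. -/
theorem smul_mem_integralPrincipalDivisors (h : Induces A π σ φ)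
    {D : Divisor L (laurentBaseChange L (modularFunctionFieldFull N))}
    (hD : D ∈ integralPrincipalDivisors A π N) :
    gal N σ • D ∈ integralPrincipalDivisors A π N := by
  obtain ⟨y, hy, hyk, hne, hDy⟩ := hD
  have hy' : coeffMap A.subtype (coeffMap h.restrict y)
      ∈ laurentBaseChange L (modularFunctionFieldFull N) := by
    rw [h.coeffMap_subtype]
    exact coeffMap_mem_laurentBaseChange σ hy
  refine ⟨coeffMap h.restrict y, hy', ?_, ?_, fun P => smul_divisor_eq h hy hy' hDy P⟩
  · rw [h.coeffMap_pi]
    exact coeffMap_mem_fullC k N _ hyk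
  · rw [h.coeffMap_pi]
    exact fun h0 => hne (coeffMap_injective_of_equiv k φ (by rw [h0, map_zero]))

variable {r : Place L (laurentBaseChange L (modularFunctionFieldFull N)) →
  Place k (modularFunctionFieldFullC k N)}

/-- (B3) `r_* (σ • D) = φ • r_* D` on integral principal divisors. -/
theorem mapDomain_smul_of_mem_integral (h : Induces A π σ φ)
    (hr : IsPlaceReductionAlong A π N r)
    {D : Divisor L (laurentBaseChange L (modularFunctionFieldFull N))}
    (hD : D ∈ integralPrincipalDivisors A π N) :
    Finsupp.mapDomain r (gal N σ • D) = coeffAut k N φ • Finsupp.mapDomain r D := by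
  obtain ⟨y, hy, hyk, hne, hDy⟩ := hD
  have hy' : coeffMap A.subtype (coeffMap h.restrict y)
      ∈ laurentBaseChange L (modularFunctionFieldFull N) := by
    rw [h.coeffMap_subtype]
    exact coeffMap_mem_laurentBaseChange σ hy
  have hyk' : coeffMap π (coeffMap h.restrict y) ∈ modularFunctionFieldFullC k N := by
    rw [h.coeffMap_pi]
    exact coeffMap_mem_fullC k N _ hyk
  have hne' : coeffMap π (coeffMap h.restrict y) ≠ 0 := by
    rw [h.coeffMap_pi]
    exact fun h0 => hne (coeffMap_injective_of_equiv k φ (by rw [h0, map_zero]))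
  ext Q
  rw [hr.2 (coeffMap h.restrict y) hy' hyk' hne' (gal N σ • D)
    (fun P => smul_divisor_eq h hy hy' hDy P) Q]
  rw [SemilinearAut.divisor_smul_apply,
    hr.2 y hy hyk hne D hDy ((coeffAut k N φ)⁻¹ • Q)]
  have h1 := SemilinearAut.ord_smul (coeffAut k N φ) ((coeffAut k N φ)⁻¹ • Q)
    (⟨coeffMap π y, hyk⟩ : modularFunctionFieldFullC k N)
  rw [smul_inv_smul] at h1
  have key : coeffAut k N φ • (⟨coeffMap π y, hyk⟩ : modularFunctionFieldFullC k N)
      = ⟨coeffMap π (coeffMap h.restrict y), hyk'⟩ :=
    Subtype.ext (h.coeffMap_pi y).symm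
  rw [← h1, key]

/-- (B4) the conjugated place map again satisfies the reduction axiom. -/
theorem isPlaceReductionAlong_conj (h : Induces A π σ φ)
    (hr : IsPlaceReductionAlong A π N r) :
    IsPlaceReductionAlong A π N
      (fun P => (coeffAut k N φ)⁻¹ • r (gal N σ • P)) := by
  refine ⟨fun P => ?_, fun y hy hyk hne D hD Q => ?_⟩
  · rw [SemilinearAut.deg_smul, hr.1, SemilinearAut.deg_smul]
  · have hmem : D ∈ integralPrincipalDivisors A π N := ⟨y, hy, hyk, hne, hD⟩
    have hcomp : Finsupp.mapDomain (fun P => (coeffAut k N φ)⁻¹ • r (gal N σ • P)) D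
        = (coeffAut k N φ)⁻¹ • Finsupp.mapDomain r (gal N σ • D) := by
      rw [SemilinearAut.divisor_smul_def, SemilinearAut.divisor_smul_def,
        ← Finsupp.mapDomain_comp, ← Finsupp.mapDomain_comp]
      rfl
    rw [hcomp, mapDomain_smul_of_mem_integral h hr hmem, inv_smul_smul]
    exact hr.2 y hy hyk hne D hD Q

/-- Pic⁰-level equivariance of `reductionAlong`, under the hypothesis that
`δ := r_* ∘ σ - φ ∘ r_*` has principal values on degree-zero divisors
(to be supplied by rigidity or by uniqueness of `r`). -/
theorem reductionAlong_smul (hred : ReductionInputsAlong A π N)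
    (hδ : ∀ D ∈ Divisor.degZero (K := L) (F := laurentBaseChange L (modularFunctionFieldFull N)),
      Finsupp.mapDomain hred.choose (gal N σ • D)
        - coeffAut k N φ • Finsupp.mapDomain hred.choose D
        ∈ Divisor.principal (K := k) (F := modularFunctionFieldFullC k N))
    (x : Pic0 L (laurentBaseChange L (modularFunctionFieldFull N))) :
    reductionAlong A π N (σ • x) = coeffAut k N φ • reductionAlong A π N x := by
  obtain ⟨D, rfl⟩ := Pic0.mk_surjective x
  rw [galois_smul_pic0_def, SemilinearAut.pic0_smul_mk, reductionAlong_mk hred,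
    reductionAlong_mk hred, SemilinearAut.pic0_smul_mk]
  refine (QuotientAddGroup.eq_iff_sub_mem).mpr ?_
  rw [AddSubgroup.mem_addSubgroupOf]
  exact hδ D D.2

end Transport

/-! ### (B5) specialisation to decomposition groups, Frobenius lifts and inertia -/

section Special

open scoped Pointwise

variable {L : Type*} [Field L] [Algebra ℚ L] (A : ValuationSubring L)

theorem mem_of_mem_decomposition {σ : L ≃ₐ[ℚ] L} (hσ : σ ∈ A.decompositionSubgroup ℚ)
    {a : L} (ha : a ∈ A) : σ a ∈ A := by
  have h1 : σ • a ∈ σ • A := ValuationSubring.smul_mem_pointwise_smul σ a A ha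
  rwa [MulAction.mem_stabilizer_iff.mp hσ] at h1

theorem residue_sigma_eq_smul {σ : L ≃ₐ[ℚ] L} (hσ : σ ∈ A.decompositionSubgroup ℚ)
    (a : A) (h : σ (a : L) ∈ A) :
    IsLocalRing.residue A ⟨σ (a : L), h⟩
      = (⟨σ, hσ⟩ : A.decompositionSubgroup ℚ) • IsLocalRing.residue A a := by
  rw [← IsLocalRing.ResidueField.residue_smul]
  rfl

/-- A member of the decomposition group acting on the residue field through `φ`. -/
theorem induces_of_mem_decomposition {σ : L ≃ₐ[ℚ] L} (hσ : σ ∈ A.decompositionSubgroup ℚ)
    (φ : IsLocalRing.ResidueField A ≃+* IsLocalRing.ResidueField A)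
    (hφ : ∀ x : IsLocalRing.ResidueField A,
      (⟨σ, hσ⟩ : A.decompositionSubgroup ℚ) • x = φ x) :
    Induces A (IsLocalRing.residue A) σ φ where
  mem _ ha := mem_of_mem_decomposition A hσ ha
  map a h := by rw [residue_sigma_eq_smul A hσ a h, hφ]

/-- Frobenius lifts induce the Frobenius of the residue field. -/
theorem induces_of_isFrobeniusAt {σ : L ≃ₐ[ℚ] L} {ℓ : ℕ}
    [ExpChar (IsLocalRing.ResidueField A) ℓ] [PerfectRing (IsLocalRing.ResidueField A) ℓ]
    (hσ : A.IsFrobeniusAt σ ℓ) :
    Induces A (IsLocalRing.residue A) σ (frobeniusEquiv (IsLocalRing.ResidueField A) ℓ) :=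
  induces_of_mem_decomposition A hσ.mem_decompositionSubgroup _ fun x => by
    rw [hσ.smul_residue_eq, frobeniusEquiv_apply, frobenius_def]

/-- Inertia elements induce the identity of the residue field. -/
theorem induces_of_mem_inertia {σ : L ≃ₐ[ℚ] L} (hσ : σ ∈ A.inertiaSubgroupIn ℚ) :
    Induces A (IsLocalRing.residue A) σ (RingEquiv.refl (IsLocalRing.ResidueField A)) := by
  obtain ⟨τ, hτ, rfl⟩ := hσ
  refine induces_of_mem_decomposition A τ.2 _ fun x => ?_
  have h1 : MulSemiringAction.toRingAut (A.decompositionSubgroup ℚ)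
      (IsLocalRing.ResidueField A) τ = 1 := hτ
  have h2 := congrArg (fun e : RingAut (IsLocalRing.ResidueField A) => e x) h1
  exact h2

end Special

/-! ### Corollaries in the shape used by `IsSpecialization` -/

section Corollaries

variable {L : Type*} [Field L] [Algebra ℚ L] {A : ValuationSubring L}
variable {k : Type*} [Field k] {π : A →+* k} {N : ℕ}
variable {σ : L ≃ₐ[ℚ] L} {φ : k ≃+* k}

/-- If the place reduction is unique, it is equivariant for `(σ, φ)` on places. -/
theorem apply_smul_of_unique (h : Induces A π σ φ)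
    {r : Place L (laurentBaseChange L (modularFunctionFieldFull N)) →
      Place k (modularFunctionFieldFullC k N)}
    (hr : IsPlaceReductionAlong A π N r)
    (huniq : ∀ r', IsPlaceReductionAlong A π N r' → r' = r)
    (P : Place L (laurentBaseChange L (modularFunctionFieldFull N))) :
    r (gal N σ • P) = coeffAut k N φ • r P := by
  have h1 : (coeffAut k N φ)⁻¹ • r (gal N σ • P) = r P :=
    congrFun (huniq _ (isPlaceReductionAlong_conj h hr)) P
  rw [← h1, smul_inv_smul]

/-- If the place reduction is unique, `r_* ∘ σ = φ ∘ r_*` on all divisors. -/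
theorem mapDomain_smul_of_unique (h : Induces A π σ φ)
    {r : Place L (laurentBaseChange L (modularFunctionFieldFull N)) →
      Place k (modularFunctionFieldFullC k N)}
    (hr : IsPlaceReductionAlong A π N r)
    (huniq : ∀ r', IsPlaceReductionAlong A π N r' → r' = r)
    (D : Divisor L (laurentBaseChange L (modularFunctionFieldFull N))) :
    Finsupp.mapDomain r (gal N σ • D) = coeffAut k N φ • Finsupp.mapDomain r D := by
  rw [SemilinearAut.divisor_smul_def, SemilinearAut.divisor_smul_def,
    ← Finsupp.mapDomain_comp, ← Finsupp.mapDomain_comp]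
  congr 1
  funext P
  exact apply_smul_of_unique h hr huniq P

/-- Exact (divisor-level) compatibility implies the principal-valued hypothesis of
`reductionAlong_smul`. -/
theorem reductionAlong_smul_of_exact (hred : ReductionInputsAlong A π N)
    (hδ : ∀ D ∈ Divisor.degZero (K := L) (F := laurentBaseChange L (modularFunctionFieldFull N)),
      Finsupp.mapDomain hred.choose (gal N σ • D)
        = coeffAut k N φ • Finsupp.mapDomain hred.choose D)
    (x : Pic0 L (laurentBaseChange L (modularFunctionFieldFull N))) :
    reductionAlong A π N (σ • x) = coeffAut k N φ • reductionAlong A π N x :=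
  reductionAlong_smul hred (fun D hD => by
    rw [hδ D hD, sub_self]; exact AddSubgroup.zero_mem _) x

end Corollaries

section FrobInertia

variable {L : Type*} [Field L] [Algebra ℚ L] {A : ValuationSubring L} {N : ℕ}
variable {σ : L ≃ₐ[ℚ] L}

/-- Frobenius lifts: `sp (σ • x) = F (sp x)` with `F = frobJ`
(the hypothesis `hδ` is where `A.IsFrobeniusAt σ ℓ` enters, through
`induces_of_isFrobeniusAt` and `mapDomain_smul_of_mem_integral`). -/
theorem reductionAlong_frobenius {ℓ : ℕ}
    [ExpChar (IsLocalRing.ResidueField A) ℓ] [PerfectRing (IsLocalRing.ResidueField A) ℓ]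
    (hred : ReductionInputsAlong A (IsLocalRing.residue A) N)
    (hδ : ∀ D ∈ Divisor.degZero (K := L) (F := laurentBaseChange L (modularFunctionFieldFull N)),
      Finsupp.mapDomain hred.choose (gal N σ • D)
        - coeffAut (IsLocalRing.ResidueField A) N
            (frobeniusEquiv (IsLocalRing.ResidueField A) ℓ) • Finsupp.mapDomain hred.choose D
        ∈ Divisor.principal (K := IsLocalRing.ResidueField A)
            (F := modularFunctionFieldFullC (IsLocalRing.ResidueField A) N))
    (x : Pic0 L (laurentBaseChange L (modularFunctionFieldFull N))) :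
    reductionAlong A (IsLocalRing.residue A) N (σ • x)
      = frobJ (IsLocalRing.ResidueField A) N ℓ (reductionAlong A (IsLocalRing.residue A) N x) :=
  reductionAlong_smul hred hδ x

/-- Inertia: `sp (σ • x) = sp x`
(the hypothesis `hδ` is where `σ ∈ A.inertiaSubgroupIn ℚ` enters, through
`induces_of_mem_inertia` and `mapDomain_smul_of_mem_integral`). -/
theorem reductionAlong_inertia
    (hred : ReductionInputsAlong A (IsLocalRing.residue A) N)
    (hδ : ∀ D ∈ Divisor.degZero (K := L) (F := laurentBaseChange L (modularFunctionFieldFull N)),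
      Finsupp.mapDomain hred.choose (gal N σ • D) - Finsupp.mapDomain hred.choose D
        ∈ Divisor.principal (K := IsLocalRing.ResidueField A)
            (F := modularFunctionFieldFullC (IsLocalRing.ResidueField A) N))
    (x : Pic0 L (laurentBaseChange L (modularFunctionFieldFull N))) :
    reductionAlong A (IsLocalRing.residue A) N (σ • x)
      = reductionAlong A (IsLocalRing.residue A) N x := by
  have h1 : coeffAut (IsLocalRing.ResidueField A) N
      (RingEquiv.refl (IsLocalRing.ResidueField A)) = 1 :=
    map_one (coeffAut (IsLocalRing.ResidueField A) N)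
  have h2 := reductionAlong_smul (σ := σ)
    (φ := RingEquiv.refl (IsLocalRing.ResidueField A)) hred
    (fun D hD => by rw [h1, one_smul]; exact hδ D hD) x
  rw [h2, h1, one_smul]

end FrobInertia

end Fermat.Agent.S37.H53

end
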