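import Mathlib
import Fermat.Prelude.Def_ModularCurve_X0ModL

/-!
# Frobenius on Laurent series in characteristic `ℓ` (helper59, S37 stage 2)

For a commutative ring `R` of prime characteristic `ℓ` and a Laurent series `x ∈ R((q))`:

  `x ^ ℓ = qExpand R ℓ (coeffMap (frobenius R ℓ) x)`          (`pow_char_eq_qExpand_frobenius`)

i.e. `x(q)^ℓ = x^{(ℓ)}(q^ℓ)` where `x^{(ℓ)}` has the `ℓ`-th powers of the coefficients.
Consequences: over a perfect ring, `qExpand ℓ y = (coeffMap frob⁻¹ y)^ℓ`; the "Kronecker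
product" `∏_{b<ℓ} twist(ζ^b) y` (here stated through any family of ring homs that reduce to the
identity) reduces to `y^ℓ`.
-/

set_option autoImplicit false

noncomputable section

namespace Fermat.Agent.S37.H59

open ModularCurve HahnSeries

section General

variable {R : Type*} [CommRing R]

/-- `qExpand` on (the image of) power series is `PowerSeries.expand`. -/
theorem qExpand_ofPowerSeries (n : ℕ) [NeZero n] (p : PowerSeries R) :
    qExpand R n (HahnSeries.ofPowerSeries ℤ R p) =
      HahnSeries.ofPowerSeries ℤ R (PowerSeries.expand n (NeZero.ne n) p) := by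
  ext k
  by_cases hk : (n : ℤ) ∣ k
  · obtain ⟨m, rfl⟩ := hk
    rw [qExpand_coeff_mul]
    rcases le_or_gt 0 m with hm | hm
    · lift m to ℕ using hm
      rw [HahnSeries.ofPowerSeries_apply_coeff,
        show ((n : ℤ) * (m : ℤ)) = ((n * m : ℕ) : ℤ) by push_cast; rfl,
        HahnSeries.ofPowerSeries_apply_coeff, PowerSeries.coeff_expand_mul]
    · have hn : (0 : ℤ) < n := by exact_mod_cast Nat.pos_of_ne_zero (NeZero.ne n)
      rw [ofPowerSeries_coeff_of_neg _ hm, ofPowerSeries_coeff_of_neg _ (by nlinarith)]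
  · rw [qExpand_coeff_of_not_dvd _ _ hk]
    rcases le_or_gt 0 k with hk0 | hk0
    · lift k to ℕ using hk0
      rw [HahnSeries.ofPowerSeries_apply_coeff, PowerSeries.coeff_expand_of_not_dvd]
      exact_mod_cast hk
    · rw [ofPowerSeries_coeff_of_neg _ hk0]

end General

section CharL

variable {R : Type*} [CommRing R] (ℓ : ℕ) [hℓ : Fact ℓ.Prime] [CharP R ℓ]

/-- Power series version: `p ^ ℓ = (p^{(ℓ)})(X^ℓ)`. -/
theorem powerSeries_pow_char (p : PowerSeries R) :
    p ^ ℓ = PowerSeries.expand ℓ hℓ.out.ne_zero (PowerSeries.map (frobenius R ℓ) p) := by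
  have : ExpChar R ℓ := ExpChar.prime hℓ.out
  rw [← PowerSeries.map_expand]
  exact (MvPowerSeries.map_frobenius_expand ℓ hℓ.out.ne_zero (f := p)).symm

/-- **Frobenius on Laurent series**: `x(q)^ℓ = x^{(ℓ)}(q^ℓ)` in characteristic `ℓ`. -/
theorem pow_char_eq_qExpand_frobenius (x : LaurentSeries R) :
    x ^ ℓ = qExpand R ℓ (coeffMap (frobenius R ℓ) x) := by
  obtain ⟨n, p, rfl⟩ : ∃ (n : ℤ) (p : PowerSeries R),
      x = (HahnSeries.single n (1 : R) : LaurentSeries R) * HahnSeries.ofPowerSeries ℤ R p :=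
    ⟨_, _, (LaurentSeries.single_order_mul_powerSeriesPart x).symm⟩
  rw [mul_pow, map_mul, map_mul, coeffMap_single, qExpand_single, coeffMap_ofPowerSeries,
    qExpand_ofPowerSeries, ← powerSeries_pow_char, map_pow, HahnSeries.single_pow, one_pow,
    nsmul_eq_mul, (frobenius R ℓ).map_one]

/-- The same, read from right to left. -/
theorem qExpand_coeffMap_frobenius (x : LaurentSeries R) :
    qExpand R ℓ (coeffMap (frobenius R ℓ) x) = x ^ ℓ :=
  (pow_char_eq_qExpand_frobenius ℓ x).symm

end CharL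

end Fermat.Agent.S37.H59
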