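import Mathlib
import Fermat.Prelude.Def_ModularCurve_HeckeOperator
import Fermat.Prelude.Thm_ModularCurve_coeffMap_qExpand
import Fermat.Agent.S28.H40_Degree
import Fermat.Agent.S28.H64_Triples

/-!
# S37 / LEVEL-DEG (helper6): degree and generation along the level inclusion

For `M ∣ M'` the function field `FN M = Qbar(j(q^d) : d ∣ M)` sits inside `FN M'`
(`levelIncl`, which is the prelude's `heckeAlphaBar` when `M' = M * ℓ`, by `rfl`).

* `finrank_levelIncl` : `[FN M' : FN M] * ψ(M) = ψ(M')`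
* `finiteAlong_levelIncl`, `finiteAlong_heckeAlphaBar`
* `finrankAlong_heckeAlphaBar` : `= if ℓ ∣ N then ℓ else ℓ + 1` for a prime `ℓ`
* `adjoin_jBar_jd_eq_top` : `FN N = Qbar(j)(j(q^N))`
* `adjoin_jd_eq_top` : `FN M' = (FN M)(j(q^M'))`
* `heckeBetaBar_jd`, `heckeBetaBar_jd_self`, `heckeBetaBar_jBar`
* `adjoin_heckeBetaBar_jd_eq_top`, `natDegree_minpoly_heckeBetaBar_jd`:
  `F_{Nℓ} = α(F_N)(β j_N)`, and the minimal polynomial of `β j_N` over `α F_N` has degree
  `[F_{Nℓ} : α F_N]`.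
-/

set_option autoImplicit false
set_option linter.style.haveILetI false

noncomputable section

namespace Fermat.Agent.S37.H6

open ModularCurve AlgebraicCurve IntermediateField
open Fermat.Agent.S24

theorem laurentBaseChange_mono (L : Type*) [Field L] [Algebra ℚ L]
    {F₀ F₁ : IntermediateField ℚ (LaurentSeries ℚ)}
    (h : F₀ ≤ F₁) : laurentBaseChange L F₀ ≤ laurentBaseChange L F₁ := by
  rw [laurentBaseChange, IntermediateField.adjoin_le_iff]
  rintro _ ⟨y, hy, rfl⟩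
  exact coeffEmb_mem_laurentBaseChange L (h hy)

variable {M M' : ℕ} [NeZero M] [NeZero M']

theorem FN_le (h : M ∣ M') : modularFunctionFieldBar M ≤ modularFunctionFieldBar M' :=
  laurentBaseChange_mono Qbar (full_degeneracy_le h)

/-- The inclusion `FN M → FN M'` for `M ∣ M'`. -/
def levelIncl (h : M ∣ M') : FN M →ₐ[Qbar] FN M' :=
  IntermediateField.inclusion (FN_le h)

@[simp]
theorem coe_levelIncl (h : M ∣ M') (x : FN M) :
    ((levelIncl h x : FN M') : LaurentSeries Qbar) = (x : LaurentSeries Qbar) :=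
  IntermediateField.coe_inclusion _ x

theorem heckeAlphaBar_eq_levelIncl (N ℓ : ℕ) [NeZero N] [NeZero ℓ] :
    heckeAlphaBar Qbar N ℓ = levelIncl (dvd_mul_right N ℓ) :=
  rfl

theorem levelIncl_jd (h : M ∣ M') (d : ℕ) [NeZero d] (hd : d ∣ M) :
    levelIncl h (jd M d hd) = jd M' d (hd.trans h) :=
  Subtype.ext rfl

theorem levelIncl_jBar (h : M ∣ M') : levelIncl h (jBar M) = jBar M' :=
  Subtype.ext rfl

/-! ### The base `Qbar(j)` at the two levels -/

theorem map_adjoin_jBar (h : M ∣ M') :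
    (Qbar⟮jBar M⟯).map (levelIncl h) = Qbar⟮jBar M'⟯ := by
  rw [IntermediateField.adjoin_map, Set.image_singleton, levelIncl_jBar]

/-- `Qbar(j) ⊆ FN M` is identified with `Qbar(j) ⊆ FN M'`. -/
def baseEquiv (h : M ∣ M') : Qbar⟮jBar M⟯ ≃ₐ[Qbar] Qbar⟮jBar M'⟯ :=
  (IntermediateField.equivMap _ (levelIncl h)).trans
    (IntermediateField.equivOfEq (map_adjoin_jBar h))

theorem coe_baseEquiv (h : M ∣ M') (x : Qbar⟮jBar M⟯) :
    ((baseEquiv h x : Qbar⟮jBar M'⟯) : FN M') = levelIncl h (x : FN M) := by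
  rfl

/-! ### Degrees -/

theorem finrank_base_eq (h : M ∣ M') :
    (letI := algebraAlong (levelIncl h);
      Module.finrank Qbar⟮jBar M⟯ (FN M')) = dedekindPsi M' := by
  letI algFE : Algebra (FN M) (FN M') := algebraAlong (levelIncl h)
  have h2 : Module.finrank Qbar⟮jBar M⟯ (FN M') = Module.finrank Qbar⟮jBar M'⟯ (FN M') := by
    refine Algebra.finrank_eq_of_equiv_equiv (baseEquiv h).toRingEquiv (RingEquiv.refl _) ?_
    ext x
    rfl
  rw [h2, S28.H40.finrank_FN_eq_psi]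

/-- `[FN M' : FN M] * ψ(M) = ψ(M')`. -/
theorem finrank_levelIncl (h : M ∣ M') :
    (letI := algebraAlong (levelIncl h); Module.finrank (FN M) (FN M')) * dedekindPsi M
      = dedekindPsi M' := by
  letI algFE : Algebra (FN M) (FN M') := algebraAlong (levelIncl h)
  haveI f1 : Module.Free Qbar⟮jBar M⟯ (FN M) := Module.Free.of_divisionRing _ _
  haveI f2 : Module.Free (FN M) (FN M') := Module.Free.of_divisionRing _ _
  have h1 : Module.finrank Qbar⟮jBar M⟯ (FN M) * Module.finrank (FN M) (FN M')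
      = Module.finrank Qbar⟮jBar M⟯ (FN M') :=
    Module.finrank_mul_finrank _ _ _
  rw [S28.H40.finrank_FN_eq_psi, finrank_base_eq h] at h1
  rw [mul_comm]
  exact h1

theorem dedekindPsi_pos (N : ℕ) [NeZero N] : 0 < dedekindPsi N := by
  haveI := S24.H40.finiteDimensional_FN N
  rw [← S28.H40.finrank_FN_eq_psi N]
  exact Module.finrank_pos

theorem finrank_levelIncl_pos (h : M ∣ M') :
    0 < (letI := algebraAlong (levelIncl h); Module.finrank (FN M) (FN M')) := by
  have := finrank_levelIncl h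
  have hpos := dedekindPsi_pos M'
  rw [← this] at hpos
  exact Nat.pos_of_mul_pos_right hpos

theorem finiteAlong_levelIncl (h : M ∣ M') : FiniteAlong Qbar (levelIncl h) := by
  letI algFE : Algebra (FN M) (FN M') := algebraAlong (levelIncl h)
  show Module.Finite (FN M) (FN M')
  exact Module.finite_of_finrank_pos (finrank_levelIncl_pos h)

theorem finiteAlong_heckeAlphaBar (N ℓ : ℕ) [NeZero N] [NeZero ℓ] :
    FiniteAlong Qbar (heckeAlphaBar Qbar N ℓ) :=
  finiteAlong_levelIncl (dvd_mul_right N ℓ)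

theorem finrankAlong_levelIncl (h : M ∣ M') :
    finrankAlong Qbar (levelIncl h) * dedekindPsi M = dedekindPsi M' :=
  finrank_levelIncl h

/-- `[F_{Nℓ} : α F_N] = ℓ` or `ℓ + 1`. -/
theorem finrankAlong_heckeAlphaBar (N ℓ : ℕ) [NeZero N] [NeZero ℓ] (hℓ : ℓ.Prime) :
    finrankAlong Qbar (heckeAlphaBar Qbar N ℓ) = if ℓ ∣ N then ℓ else ℓ + 1 := by
  have h1 := finrankAlong_levelIncl (M := N) (M' := N * ℓ) (dvd_mul_right N ℓ)
  have h2 := S28.H64.dedekindPsi_prime_mul hℓ (Nat.pos_of_ne_zero (NeZero.ne N))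
  rw [mul_comm ℓ N] at h2
  rw [h2, mul_comm] at h1
  exact Nat.eq_of_mul_eq_mul_left (dedekindPsi_pos N) h1

theorem finrankAlong_heckeAlphaBar_of_not_dvd (N ℓ : ℕ) [NeZero N] [NeZero ℓ] (hℓ : ℓ.Prime)
    (hN : ¬ ℓ ∣ N) : finrankAlong Qbar (heckeAlphaBar Qbar N ℓ) = ℓ + 1 := by
  rw [finrankAlong_heckeAlphaBar N ℓ hℓ, if_neg hN]

theorem finrankAlong_heckeAlphaBar_of_dvd (N ℓ : ℕ) [NeZero N] [NeZero ℓ] (hℓ : ℓ.Prime)
    (hN : ℓ ∣ N) : finrankAlong Qbar (heckeAlphaBar Qbar N ℓ) = ℓ := by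
  rw [finrankAlong_heckeAlphaBar N ℓ hℓ, if_pos hN]

/-! ### Generation -/

/-- `FN N = Qbar(j)(j(q^N))`. -/
theorem adjoin_jBar_jd_eq_top (N : ℕ) [NeZero N] :
    (Qbar⟮jBar N⟯)⟮jd N N dvd_rfl⟯ = ⊤ := by
  haveI := S24.H40.finiteDimensional_FN N
  have hint : IsIntegral Qbar⟮jBar N⟯ (jd N N dvd_rfl : FN N) :=
    IsIntegral.of_finite _ _
  have h1 := IntermediateField.adjoin.finrank hint
  have h2 := S28.H40.psi_le_natDegree_minpoly_jd N
  have h3 := S28.H40.finrank_FN_eq_psi N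
  apply IntermediateField.eq_of_le_of_finrank_le le_top
  rw [IntermediateField.finrank_top', h1, h3]
  exact h2

/-- `FN M' = (FN M)(j(q^M'))`. -/
theorem adjoin_jd_eq_top (h : M ∣ M') :
    (letI := algebraAlong (levelIncl h);
      IntermediateField.adjoin (FN M) {(jd M' M' dvd_rfl : FN M')}) = ⊤ := by
  letI algFE : Algebra (FN M) (FN M') := algebraAlong (levelIncl h)
  rw [eq_top_iff]
  intro y _
  have hy : y ∈ (Qbar⟮jBar M'⟯)⟮jd M' M' dvd_rfl⟯ := by
    rw [adjoin_jBar_jd_eq_top]; exact IntermediateField.mem_top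
  induction hy using IntermediateField.adjoin_induction with
  | mem z hz =>
      exact IntermediateField.subset_adjoin _ _ hz
  | algebraMap r =>
      have hr : (algebraMap Qbar⟮jBar M'⟯ (FN M') r)
          = algebraMap (FN M) (FN M') (((baseEquiv h).symm r : Qbar⟮jBar M⟯) : FN M) := by
        have := coe_baseEquiv h ((baseEquiv h).symm r)
        rw [AlgEquiv.apply_symm_apply] at this
        exact this
      rw [hr]
      exact IntermediateField.algebraMap_mem _ _
  | add a b _ _ ha hb => exact add_mem (ha trivial) (hb trivial)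
  | inv a _ ha => exact inv_mem (ha trivial)
  | mul a b _ _ ha hb => exact mul_mem (ha trivial) (hb trivial)

/-- The minimal polynomial of `j(q^M')` over `FN M` has degree `[FN M' : FN M]`. -/
theorem natDegree_minpoly_jd (h : M ∣ M') :
    (letI := algebraAlong (levelIncl h);
      (minpoly (FN M) (jd M' M' dvd_rfl : FN M')).natDegree)
      = finrankAlong Qbar (levelIncl h) := by
  letI algFE : Algebra (FN M) (FN M') := algebraAlong (levelIncl h)
  haveI : Module.Finite (FN M) (FN M') := finiteAlong_levelIncl h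
  have hint : IsIntegral (FN M) (jd M' M' dvd_rfl : FN M') := IsIntegral.of_finite _ _
  have h1 := IntermediateField.adjoin.finrank hint
  rw [adjoin_jd_eq_top h, IntermediateField.finrank_top'] at h1
  exact h1.symm

/-! ### `β` on the generators -/

theorem jd_congr (N : ℕ) [NeZero N] {d d' : ℕ} [NeZero d] [NeZero d'] (h : d = d')
    (hd : d ∣ N) (hd' : d' ∣ N) : jd N d hd = jd N d' hd' := by
  subst h; rfl

theorem heckeBetaBar_jd (N ℓ : ℕ) [NeZero N] [NeZero ℓ] (d : ℕ) [NeZero d] (hd : d ∣ N) :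
    heckeBetaBar Qbar N ℓ (jd N d hd) = jd (N * ℓ) (ℓ * d) (by
      rw [mul_comm N ℓ]; exact Nat.mul_dvd_mul_left ℓ hd) := by
  apply Subtype.ext
  show qExpand Qbar ℓ (coeffEmb Qbar (qExpand ℚ d jq)) = coeffEmb Qbar (qExpand ℚ (ℓ * d) jq)
  rw [← qExpand_qExpand, coeffEmb, coeffMap_qExpand, coeffMap_qExpand, coeffMap_qExpand]

theorem heckeBetaBar_jd_self (N ℓ : ℕ) [NeZero N] [NeZero ℓ] :
    heckeBetaBar Qbar N ℓ (jd N N dvd_rfl) = jd (N * ℓ) (N * ℓ) dvd_rfl := by
  rw [heckeBetaBar_jd]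
  exact jd_congr _ (mul_comm ℓ N) _ _

theorem heckeBetaBar_jBar (N ℓ : ℕ) [NeZero N] [NeZero ℓ] :
    heckeBetaBar Qbar N ℓ (jBar N) = jd (N * ℓ) ℓ (dvd_mul_left ℓ N) := by
  apply Subtype.ext
  show qExpand Qbar ℓ (coeffEmb Qbar jq) = coeffEmb Qbar (qExpand ℚ ℓ jq)
  rw [coeffEmb, coeffMap_qExpand]

/-- `F_{Nℓ} = α(F_N)(β j_N)`. -/
theorem adjoin_heckeBetaBar_jd_eq_top (N ℓ : ℕ) [NeZero N] [NeZero ℓ] :
    (letI := algebraAlong (heckeAlphaBar Qbar N ℓ);
      IntermediateField.adjoin (FN N) {heckeBetaBar Qbar N ℓ (jd N N dvd_rfl)}) = ⊤ := by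
  rw [heckeBetaBar_jd_self]
  exact adjoin_jd_eq_top (dvd_mul_right N ℓ)

/-- The minimal polynomial of `β j_N` over `α F_N` has degree `[F_{Nℓ} : α F_N]`. -/
theorem natDegree_minpoly_heckeBetaBar_jd (N ℓ : ℕ) [NeZero N] [NeZero ℓ] :
    (letI := algebraAlong (heckeAlphaBar Qbar N ℓ);
      (minpoly (FN N) (heckeBetaBar Qbar N ℓ (jd N N dvd_rfl))).natDegree)
      = finrankAlong Qbar (heckeAlphaBar Qbar N ℓ) := by
  rw [heckeBetaBar_jd_self]
  exact natDegree_minpoly_jd (dvd_mul_right N ℓ)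

end Fermat.Agent.S37.H6
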