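import Mathlib
import Fermat.Prelude.Def_AlgebraicCurve_Repartitions

/-!
# A rigidity lemma for additive maps on divisors (helper82, S37 cluster)

Let `δ : Divisor K F →+ (ι →₀ ℤ)` be an additive map (think of `ι = Place k F'`) which

* kills principal divisors,
* is bounded on places: `|δ (single P 1) Q| ≤ B` for all `P`, `Q`,

and assume that every degree-zero divisor of `F` is linearly equivalent to a divisor of
`ℓ¹`-norm `≤ C` (a consequence of Riemann's inequality, `C = 2g`).  Then `δ` vanishes on all
degree-zero divisors.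

This replaces the divisibility hypothesis `hdiv` of the prelude's uniqueness theorem
`IsPlaceReductionAlong.eq_or_const_of_agree` by Riemann's inequality, and reduces every
compatibility of a place-reduction map with correspondences (Galois action, Hecke operators,
the Eichler--Shimura congruence) on `Pic⁰` to a check on principal divisors.
-/

set_option autoImplicit false

namespace Fermat.Agent.S37.H82

open AlgebraicCurve

section General

variable {K F : Type*} [Field K] [Field F] [Algebra K F] {ι : Type*}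

/-- The `ℓ¹`-norm of a divisor. -/
noncomputable def l1 (D : Divisor K F) : ℤ := D.sum fun _ n => |n|

theorem l1_nonneg (D : Divisor K F) : 0 ≤ l1 D :=
  Finset.sum_nonneg fun _ _ => abs_nonneg _

theorem l1_single (P : Place K F) (n : ℤ) : l1 (Finsupp.single P n) = |n| := by
  rw [l1, Finsupp.sum_single_index abs_zero]

theorem l1_add_le (D E : Divisor K F) : l1 (D + E) ≤ l1 D + l1 E := by
  classical
  have h1 : ∀ (D' : Divisor K F) (s : Finset (Place K F)), D'.support ⊆ s →
      l1 D' = ∑ P ∈ s, |D' P| := by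
    intro D' s hs
    rw [l1, Finsupp.sum]
    refine Finset.sum_subset hs fun P _ hP => ?_
    rw [Finsupp.notMem_support_iff.mp hP, abs_zero]
  set s := D.support ∪ E.support with hs
  rw [h1 (D + E) s (Finsupp.support_add.trans (le_of_eq hs.symm)),
    h1 D s Finset.subset_union_left, h1 E s Finset.subset_union_right, ← Finset.sum_add_distrib]
  refine Finset.sum_le_sum fun P _ => ?_
  rw [Finsupp.add_apply]
  exact abs_add_le _ _

theorem l1_neg (D : Divisor K F) : l1 (-D) = l1 D := by
  rw [l1, l1, Finsupp.sum, Finsupp.sum, Finsupp.support_neg]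
  refine Finset.sum_congr rfl fun P _ => ?_
  rw [Finsupp.neg_apply, abs_neg]

theorem l1_sub_le (D E : Divisor K F) : l1 (D - E) ≤ l1 D + l1 E := by
  rw [sub_eq_add_neg]
  exact (l1_add_le D (-E)).trans (by rw [l1_neg])

/-- For an effective divisor the `ℓ¹`-norm is the number of points counted with multiplicity. -/
theorem l1_eq_sum_of_nonneg {D : Divisor K F} (hD : 0 ≤ D) : l1 D = D.sum fun _ n => n := by
  rw [l1, Finsupp.sum, Finsupp.sum]
  refine Finset.sum_congr rfl fun P _ => ?_
  exact abs_of_nonneg (Finsupp.le_def.mp hD P)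

/-- If all places have degree `≥ 1`, the `ℓ¹`-norm of an effective divisor is at most its
degree. -/
theorem l1_le_degree_of_nonneg (hdeg : ∀ P : Place K F, 1 ≤ P.deg) {D : Divisor K F}
    (hD : 0 ≤ D) : l1 D ≤ Divisor.degree D := by
  rw [l1_eq_sum_of_nonneg hD]
  have h2 : Divisor.degree D = D.sum fun P n => n * (P.deg : ℤ) := by
    simp [Divisor.degree, Finsupp.liftAddHom_apply]
  rw [h2, Finsupp.sum, Finsupp.sum]
  refine Finset.sum_le_sum fun P _ => ?_
  have h0 : 0 ≤ D P := Finsupp.le_def.mp hD P
  have h1 : (1 : ℤ) ≤ (P.deg : ℤ) := by exact_mod_cast hdeg P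
  nlinarith

/-- **Bounded representatives**: every degree-zero divisor is linearly equivalent to a divisor of
`ℓ¹`-norm at most `C`. -/
def HasBoundedReps (K F : Type*) [Field K] [Field F] [Algebra K F] (C : ℕ) : Prop :=
  ∀ D ∈ Divisor.degZero (K := K) (F := F), ∃ D' : Divisor K F,
    D - D' ∈ Divisor.principal (K := K) (F := F) ∧ l1 D' ≤ C

/-- An additive map on divisors is determined by its values on places. -/
theorem map_eq_sum (δ : Divisor K F →+ (ι →₀ ℤ)) (D : Divisor K F) :
    δ D = D.sum fun P n => n • δ (Finsupp.single P 1) := by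
  conv_lhs => rw [← Finsupp.sum_single D]
  rw [map_finsuppSum]
  refine Finsupp.sum_congr fun P _ => ?_
  rw [← map_zsmul, Finsupp.smul_single, smul_eq_mul, mul_one]

/-- The basic estimate: `|δ D Q| ≤ ‖D‖₁ · B`. -/
theorem abs_apply_le (δ : Divisor K F →+ (ι →₀ ℤ)) (B : ℤ)
    (hB : ∀ (P : Place K F) (Q : ι), |δ (Finsupp.single P 1) Q| ≤ B)
    (D : Divisor K F) (Q : ι) : |δ D Q| ≤ l1 D * B := by
  rw [map_eq_sum δ D, Finsupp.sum_apply, l1, Finsupp.sum, Finsupp.sum, Finset.sum_mul]
  refine (Finset.abs_sum_le_sum_abs _ _).trans (Finset.sum_le_sum fun P _ => ?_)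
  rw [Finsupp.smul_apply, smul_eq_mul, abs_mul]
  exact mul_le_mul_of_nonneg_left (hB P Q) (abs_nonneg _)

private theorem int_eq_zero_of_mul_bounded {a M : ℤ} (h : ∀ n : ℕ, |(n : ℤ) * a| ≤ M) : a = 0 := by
  by_contra ha
  have hM : 0 ≤ M := (abs_nonneg _).trans (h 0)
  have h1 : 1 ≤ |a| := Int.one_le_abs ha
  have h2 := h (M.toNat + 1)
  rw [abs_mul] at h2
  have h3 : ((M.toNat + 1 : ℕ) : ℤ) = M + 1 := by
    push_cast
    rw [Int.toNat_of_nonneg hM]
  rw [h3, abs_of_nonneg (by linarith : (0 : ℤ) ≤ M + 1)] at h2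
  nlinarith

/-- **Rigidity lemma.**  An additive map `δ` from divisors of `F` to a free abelian group
`ι →₀ ℤ` which kills principal divisors and is bounded on places vanishes on degree-zero
divisors, provided `F` has bounded representatives. -/
theorem eq_zero_of_bounded (δ : Divisor K F →+ (ι →₀ ℤ))
    (hprin : ∀ D ∈ Divisor.principal (K := K) (F := F), δ D = 0)
    (B : ℤ) (hB : ∀ (P : Place K F) (Q : ι), |δ (Finsupp.single P 1) Q| ≤ B)
    {C : ℕ} (hC : HasBoundedReps K F C) :
    ∀ D ∈ Divisor.degZero (K := K) (F := F), δ D = 0 := by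
  intro D hD
  by_cases hF : Nonempty (Place K F)
  swap
  · rw [not_nonempty_iff] at hF
    rw [Subsingleton.elim D 0, map_zero]
  obtain ⟨P₀⟩ := hF
  ext Q
  rw [Finsupp.zero_apply]
  have hB0 : 0 ≤ B := (abs_nonneg _).trans (hB P₀ Q)
  refine int_eq_zero_of_mul_bounded (M := (C : ℤ) * B) fun n => ?_
  have hnD : n • D ∈ Divisor.degZero (K := K) (F := F) := AddSubgroup.nsmul_mem _ hD n
  obtain ⟨D', hD', hl⟩ := hC (n • D) hnD
  have h0 := hprin _ hD'
  rw [map_sub, sub_eq_zero, map_nsmul] at h0
  have h1 : (n : ℤ) * δ D Q = δ D' Q := by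
    rw [← h0, Finsupp.smul_apply, nsmul_eq_mul]
  rw [h1]
  exact (abs_apply_le δ B hB D' Q).trans (mul_le_mul_of_nonneg_right hl hB0)

/-- Two additive maps on divisors which agree on principal divisors and are bounded on places
agree on degree-zero divisors. -/
theorem eq_on_degZero_of_bounded (φ ψ : Divisor K F →+ (ι →₀ ℤ))
    (hagree : ∀ D ∈ Divisor.principal (K := K) (F := F), φ D = ψ D)
    (B₁ B₂ : ℤ) (hφ : ∀ (P : Place K F) (Q : ι), |φ (Finsupp.single P 1) Q| ≤ B₁)
    (hψ : ∀ (P : Place K F) (Q : ι), |ψ (Finsupp.single P 1) Q| ≤ B₂)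
    {C : ℕ} (hC : HasBoundedReps K F C) :
    ∀ D ∈ Divisor.degZero (K := K) (F := F), φ D = ψ D := by
  intro D hD
  have := eq_zero_of_bounded (φ - ψ) (fun D hD => by
      rw [AddMonoidHom.sub_apply, hagree D hD, sub_self]) (B₁ + B₂) (fun P Q => by
      rw [AddMonoidHom.sub_apply, Finsupp.sub_apply]
      exact (abs_sub _ _).trans (add_le_add (hφ P Q) (hψ P Q))) hC D hD
  rwa [AddMonoidHom.sub_apply, sub_eq_zero] at this

/-- A *positive correspondence of degree `≤ d`*: an additive map on divisors sending every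
place to an effective divisor with at most `d` points (counted with multiplicity). -/
def IsPositiveOfDegLE (φ : Divisor K F →+ (ι →₀ ℤ)) (d : ℤ) : Prop :=
  ∀ P : Place K F, 0 ≤ φ (Finsupp.single P 1) ∧ ((φ (Finsupp.single P 1)).sum fun _ n => n) ≤ d

theorem IsPositiveOfDegLE.abs_apply_le {φ : Divisor K F →+ (ι →₀ ℤ)} {d : ℤ}
    (h : IsPositiveOfDegLE φ d) (P : Place K F) (Q : ι) : |φ (Finsupp.single P 1) Q| ≤ d := by
  classical
  obtain ⟨h0, hd⟩ := h P
  set E := φ (Finsupp.single P 1) with hE
  have hQ : 0 ≤ E Q := Finsupp.le_def.mp h0 Q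
  rw [abs_of_nonneg hQ]
  refine le_trans ?_ hd
  by_cases hQs : Q ∈ E.support
  · rw [Finsupp.sum]
    exact Finset.single_le_sum (f := fun Q => E Q) (fun Q' _ => Finsupp.le_def.mp h0 Q') hQs
  · rw [Finsupp.notMem_support_iff.mp hQs]
    exact Finset.sum_nonneg fun Q' _ => Finsupp.le_def.mp h0 Q'

/-- Positivity and the degree bound are stable under sums. -/
theorem IsPositiveOfDegLE.add {φ ψ : Divisor K F →+ (ι →₀ ℤ)} {d e : ℤ}
    (hφ : IsPositiveOfDegLE φ d) (hψ : IsPositiveOfDegLE ψ e) : IsPositiveOfDegLE (φ + ψ) (d + e) := by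
  intro P
  refine ⟨add_nonneg (hφ P).1 (hψ P).1, ?_⟩
  rw [AddMonoidHom.add_apply, Finsupp.sum_add_index' (fun _ => rfl) (fun _ _ _ => rfl)]
  exact add_le_add (hφ P).2 (hψ P).2

/-- Positivity and the degree bound are stable under natural multiples. -/
theorem IsPositiveOfDegLE.nsmul {φ : Divisor K F →+ (ι →₀ ℤ)} {d : ℤ}
    (hφ : IsPositiveOfDegLE φ d) (n : ℕ) : IsPositiveOfDegLE (n • φ) (n * d) := by
  induction n with
  | zero =>
    intro P
    simp [Finsupp.sum]
  | succ n ih =>
    have := ih.add hφ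
    rw [← succ_nsmul] at this
    convert this using 1
    push_cast
    ring

/-- **Rigidity for positive correspondences**: two positive correspondences of bounded degree
which agree on principal divisors agree on degree-zero divisors. -/
theorem eq_on_degZero_of_positive (φ ψ : Divisor K F →+ (ι →₀ ℤ)) {d e : ℤ}
    (hφ : IsPositiveOfDegLE φ d) (hψ : IsPositiveOfDegLE ψ e)
    (hagree : ∀ D ∈ Divisor.principal (K := K) (F := F), φ D = ψ D)
    {C : ℕ} (hC : HasBoundedReps K F C) :
    ∀ D ∈ Divisor.degZero (K := K) (F := F), φ D = ψ D :=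
  eq_on_degZero_of_bounded φ ψ hagree d e hφ.abs_apply_le hψ.abs_apply_le hC

/-- The pushforward of divisors along a map of places is a positive correspondence of
degree `1`. -/
theorem isPositiveOfDegLE_mapDomain (r : Place K F → ι) :
    IsPositiveOfDegLE (Finsupp.mapDomain.addMonoidHom r : Divisor K F →+ (ι →₀ ℤ)) 1 := by
  intro P
  rw [Finsupp.mapDomain.addMonoidHom_apply, Finsupp.mapDomain_single]
  refine ⟨?_, ?_⟩
  · rw [Finsupp.le_def]
    intro Q
    classical
    rw [Finsupp.single_apply, Finsupp.zero_apply]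
    split_ifs <;> norm_num
  · rw [Finsupp.sum_single_index rfl]

/-- Composition of a positive correspondence with a pushforward along a map of places
(on the target side). -/
theorem IsPositiveOfDegLE.mapDomain_comp {κ : Type*} {φ : Divisor K F →+ (ι →₀ ℤ)} {d : ℤ}
    (hφ : IsPositiveOfDegLE φ d) (s : ι → κ) :
    IsPositiveOfDegLE ((Finsupp.mapDomain.addMonoidHom s).comp φ) d := by
  intro P
  obtain ⟨h0, hd⟩ := hφ P
  rw [AddMonoidHom.comp_apply, Finsupp.mapDomain.addMonoidHom_apply]
  refine ⟨?_, ?_⟩
  · classical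
    rw [Finsupp.le_def]
    intro Q
    rw [Finsupp.zero_apply, Finsupp.mapDomain, Finsupp.sum_apply, Finsupp.sum]
    refine Finset.sum_nonneg fun Q' _ => ?_
    rw [Finsupp.single_apply]
    split_ifs
    · exact Finsupp.le_def.mp h0 Q'
    · exact le_rfl
  · have : ((Finsupp.mapDomain s (φ (Finsupp.single P 1))).sum fun _ n => n)
        = (φ (Finsupp.single P 1)).sum fun _ n => n := by
      rw [Finsupp.sum_mapDomain_index (fun _ => rfl) (fun _ _ _ => rfl)]
    rw [this]
    exact hd

/-- **Rigidity for place maps**: two maps of places whose pushforwards agree on principal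
divisors have pushforwards agreeing on all degree-zero divisors.  (Compare the prelude's
`IsPlaceReductionAlong.eq_or_const_of_agree`, which assumes divisibility of `Pic⁰`.) -/
theorem mapDomain_eq_on_degZero (r₁ r₂ : Place K F → ι)
    (hagree : ∀ D ∈ Divisor.principal (K := K) (F := F),
      Finsupp.mapDomain r₁ D = Finsupp.mapDomain r₂ D)
    {C : ℕ} (hC : HasBoundedReps K F C) :
    ∀ D ∈ Divisor.degZero (K := K) (F := F), Finsupp.mapDomain r₁ D = Finsupp.mapDomain r₂ D :=
  eq_on_degZero_of_positive (Finsupp.mapDomain.addMonoidHom r₁) (Finsupp.mapDomain.addMonoidHom r₂)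
    (isPositiveOfDegLE_mapDomain r₁) (isPositiveOfDegLE_mapDomain r₂) hagree hC

/-- It suffices to check agreement on a set of principal divisors generating all of them
(e.g. the prelude's `integralPrincipalDivisors` under `PrincipalGeneratedByIntegral`). -/
theorem agree_on_principal_of_closure (φ ψ : Divisor K F →+ (ι →₀ ℤ)) (S : Set (Divisor K F))
    (hS : Divisor.principal (K := K) (F := F) ≤ AddSubgroup.closure S)
    (hagree : ∀ D ∈ S, φ D = ψ D) :
    ∀ D ∈ Divisor.principal (K := K) (F := F), φ D = ψ D := by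
  intro D hD
  have hD' := hS hD
  clear hD
  induction hD' using AddSubgroup.closure_induction with
  | mem E hE => exact hagree E hE
  | zero => rw [map_zero, map_zero]
  | add E E' _ _ hE hE' => rw [map_add, map_add, hE, hE']
  | neg E _ hE => rw [map_neg, map_neg, hE]

/-- **Bounded representatives from Riemann's inequality.**  If `L(D) ≠ 0` for every divisor of
degree `g`, there is a place of degree one and every place has degree `≥ 1`, then every
degree-zero divisor is linearly equivalent to `E - g P₀` with `E ≥ 0` of degree `g`; in particular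
`F` has bounded representatives with `C = 2 g`. -/
theorem hasBoundedReps_of_riemann [HasPrincipalDivisors K F] (g : ℕ) (P₀ : Place K F)
    (hP₀ : P₀.deg = 1) (hdeg : ∀ P : Place K F, 1 ≤ P.deg)
    (hR : ∀ D : Divisor K F, Divisor.degree D = g → ∃ f ∈ riemannRochSpace D, f ≠ 0) :
    HasBoundedReps K F (2 * g) := by
  intro D hD
  rw [Divisor.mem_degZero] at hD
  set D₁ : Divisor K F := D + Finsupp.single P₀ (g : ℤ) with hD₁
  have hdeg₁ : Divisor.degree D₁ = g := by
    rw [hD₁, map_add, hD, Divisor.degree_single, hP₀, zero_add, Nat.cast_one, mul_one]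
  obtain ⟨f, hfL, hf0⟩ := hR D₁ hdeg₁
  obtain ⟨Df, hDf, hDfdeg⟩ := HasPrincipalDivisors.exists_divisor (K := K) f hf0
  have hDfprin : Df ∈ Divisor.principal (K := K) (F := F) := ⟨f, hf0, hDf⟩
  set E : Divisor K F := Df + D₁ with hE
  have hE0 : 0 ≤ E := by
    rw [Finsupp.le_def]
    intro v
    rw [Finsupp.zero_apply, hE, Finsupp.add_apply, hDf v]
    rcases (mem_riemannRochSpace_iff.mp hfL) v with h | h
    · exact absurd h hf0
    · linarith
  have hEdeg : Divisor.degree E = g := by rw [hE, map_add, hDfdeg, hdeg₁, zero_add]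
  refine ⟨E - Finsupp.single P₀ (g : ℤ), ?_, ?_⟩
  · have : D - (E - Finsupp.single P₀ (g : ℤ)) = -Df := by
      rw [hE, hD₁]
      abel
    rw [this]
    exact AddSubgroup.neg_mem _ hDfprin
  · refine (l1_sub_le _ _).trans ?_
    rw [l1_single, abs_of_nonneg (Nat.cast_nonneg g)]
    have := l1_le_degree_of_nonneg hdeg hE0
    rw [hEdeg] at this
    push_cast
    linarith

end General

end Fermat.Agent.S37.H82
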