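import Mathlib
import Fermat.Prelude.Def_AlgebraicCurve_Correspondence
import Fermat.Agent.S37.H82_Rigidity

/-!
# Correspondences on divisors are positive of bounded degree (helper82, S37 cluster)

The prelude's `Divisor.correspondence φ ψ = ψ_* ∘ φ^*` sends every place to an effective divisor;
if all places of the base field have degree one (algebraically closed constants), this divisor has
at most `[F' : φ F]` points.  This is hypothesis (b) of the rigidity lemma `H82_Rigidity` for the
Hecke correspondence `T_ℓ = α_* β^*`.
-/

set_option autoImplicit false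

namespace Fermat.Agent.S37.H82

open AlgebraicCurve

variable {K F F' : Type*} [Field K] [Field F] [Field F'] [Algebra K F] [Algebra K F']
variable [HasPrincipalDivisors K F']
variable (φ ψ : F →ₐ[K] F') (hφ : φ.toRingHom.IsIntegral) (hψ : ψ.toRingHom.IsIntegral)

/-- The explicit formula for a correspondence on a place. -/
theorem correspondence_single (P : Place K F) (n : ℤ) :
    Divisor.correspondence φ ψ hφ hψ (Finsupp.single P n)
      = ∑ W ∈ Place.fiberAlong φ hφ P,
          Finsupp.single (W.restrictAlong ψ hψ)
            (n * W.ramificationIndexAlong φ * W.inertiaDegAlong ψ hψ) := by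
  rw [Divisor.correspondence_apply, Divisor.pullbackAlong_single, map_sum]
  refine Finset.sum_congr rfl fun W _ => ?_
  rw [Divisor.pushforwardAlong_single]

/-- A correspondence sends places to effective divisors. -/
theorem correspondence_single_nonneg (P : Place K F) :
    0 ≤ Divisor.correspondence φ ψ hφ hψ (Finsupp.single P 1) := by
  classical
  rw [correspondence_single]
  refine Finset.sum_nonneg fun W _ => ?_
  rw [Finsupp.le_def]
  intro Q
  rw [Finsupp.zero_apply, Finsupp.single_apply]
  split_ifs
  · positivity
  · exact le_rfl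

/-- **Correspondences are positive of bounded degree**: if every place of `F` has degree one, the
correspondence `ψ_* φ^*` sends a place to an effective divisor with at most `[F' : φ F]` points. -/
theorem isPositiveOfDegLE_correspondence (hFI : FundamentalIdentityAlong K φ hφ)
    (hdeg : ∀ P : Place K F, P.deg = 1) :
    IsPositiveOfDegLE (Divisor.correspondence φ ψ hφ hψ) (finrankAlong K φ) := by
  intro P
  have h0 := correspondence_single_nonneg φ ψ hφ hψ P
  refine ⟨h0, ?_⟩
  rw [← l1_eq_sum_of_nonneg h0]
  refine (l1_le_degree_of_nonneg (fun P => (hdeg P).ge) h0).trans ?_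
  rw [Divisor.degree_correspondence φ ψ hφ hψ hFI, Divisor.degree_single, hdeg, one_mul,
    Nat.cast_one, mul_one]

end Fermat.Agent.S37.H82

namespace Fermat.Agent.S37.H82

open AlgebraicCurve

section ES

variable {K F k F₀ : Type*} [Field K] [Field F] [Algebra K F] [Field k] [Field F₀] [Algebra k F₀]

/-- **Abstract Eichler--Shimura congruence on degree-zero divisors.**  Let `T` be a positive
correspondence of bounded degree on `F`, `r` a map of places `F → F₀`, `Φ` a permutation of the
places of `F₀` and `ℓ : ℕ`.  If `r_* ∘ T = (Φ_* + ℓ Φ_*⁻¹) ∘ r_*` on principal divisors, then the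
same holds on all degree-zero divisors (given bounded representatives on `F`). -/
theorem eichlerShimura_on_degZero (T : Divisor K F →+ Divisor K F) {d : ℤ}
    (hT : IsPositiveOfDegLE T d) (r : Place K F → Place k F₀)
    (Φ : Place k F₀ ≃ Place k F₀) (ℓ : ℕ)
    (hagree : ∀ D ∈ Divisor.principal (K := K) (F := F),
      Finsupp.mapDomain r (T D) = Finsupp.mapDomain Φ (Finsupp.mapDomain r D)
        + ℓ • Finsupp.mapDomain Φ.symm (Finsupp.mapDomain r D))
    {C : ℕ} (hC : HasBoundedReps K F C) :
    ∀ D ∈ Divisor.degZero (K := K) (F := F),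
      Finsupp.mapDomain r (T D) = Finsupp.mapDomain Φ (Finsupp.mapDomain r D)
        + ℓ • Finsupp.mapDomain Φ.symm (Finsupp.mapDomain r D) := by
  set φ₁ : Divisor K F →+ Divisor k F₀ := (Finsupp.mapDomain.addMonoidHom r).comp T with hφ₁
  set φ₂ : Divisor K F →+ Divisor k F₀ :=
    (Finsupp.mapDomain.addMonoidHom Φ).comp (Finsupp.mapDomain.addMonoidHom r)
      + ℓ • ((Finsupp.mapDomain.addMonoidHom Φ.symm).comp (Finsupp.mapDomain.addMonoidHom r))
    with hφ₂
  have h₁ : IsPositiveOfDegLE φ₁ d := hT.mapDomain_comp r
  have h₂ : IsPositiveOfDegLE φ₂ (1 + ℓ * 1) :=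
    ((isPositiveOfDegLE_mapDomain r).mapDomain_comp Φ).add
      (((isPositiveOfDegLE_mapDomain r).mapDomain_comp Φ.symm).nsmul ℓ)
  have key := eq_on_degZero_of_positive φ₁ φ₂ h₁ h₂ (fun D hD => by
    simpa [hφ₁, hφ₂] using hagree D hD) hC
  intro D hD
  simpa [hφ₁, hφ₂] using key D hD

/-- **Abstract equivariance on degree-zero divisors**: if `r_* ∘ σ_* = Φ_* ∘ r_*` on principal
divisors for maps of places `σ` (upstairs) and `Φ` (downstairs), then the same holds on all
degree-zero divisors. -/
theorem equivariant_on_degZero (r : Place K F → Place k F₀) (σ : Place K F → Place K F)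
    (Φ : Place k F₀ → Place k F₀)
    (hagree : ∀ D ∈ Divisor.principal (K := K) (F := F),
      Finsupp.mapDomain r (Finsupp.mapDomain σ D) = Finsupp.mapDomain Φ (Finsupp.mapDomain r D))
    {C : ℕ} (hC : HasBoundedReps K F C) :
    ∀ D ∈ Divisor.degZero (K := K) (F := F),
      Finsupp.mapDomain r (Finsupp.mapDomain σ D) = Finsupp.mapDomain Φ (Finsupp.mapDomain r D) := by
  intro D hD
  have := mapDomain_eq_on_degZero (r ∘ σ) (Φ ∘ r) (fun D hD => by
    rw [Finsupp.mapDomain_comp, Finsupp.mapDomain_comp]
    exact hagree D hD) hC D hD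
  rwa [Finsupp.mapDomain_comp, Finsupp.mapDomain_comp] at this

end ES

end Fermat.Agent.S37.H82
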