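import Mathlib
import Fermat.Prelude.Def_FLTPrelim_Ramification

/-!
# S37 glue: the residue field of a valuation subring of `ℚ̄` over `ℓ`

For `A : ValuationSubring (AlgebraicClosure ℚ)` lying over the prime `ℓ`, the residue field
`k := IsLocalRing.ResidueField A` has characteristic `ℓ` and is perfect (Frobenius is surjective:
`ℚ̄` is algebraically closed and `A` is integrally closed).  This is what makes the coefficientwise
Frobenius on `k((q))` an automorphism (the `Φ` of `H86.ReductionPackage`).
-/

set_option autoImplicit false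
set_option linter.style.haveILetI false

noncomputable section

namespace Fermat.Agent.S37.H34

open IsLocalRing

variable {L : Type*} [Field L] (A : ValuationSubring L)

/-- The residue field of a valuation subring lying over `ℓ` has characteristic `ℓ`. -/
theorem charP_residueField {ℓ : ℕ} (hℓ : ℓ.Prime) (hA : A.LiesOverPrime ℓ) :
    CharP (ResidueField A) ℓ := by
  have h0 : ((ℓ : ℕ) : ResidueField A) = 0 := by
    have hmem : ((ℓ : ℕ) : A) ∈ maximalIdeal A := by
      rw [mem_maximalIdeal, mem_nonunits_iff]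
      intro hu
      have h1 : ((ℓ : ℕ) : L) ∈ A.nonunits := hA
      rw [ValuationSubring.mem_nonunits_iff_exists_mem_maximalIdeal] at h1
      obtain ⟨ha, h2⟩ := h1
      rw [mem_maximalIdeal, mem_nonunits_iff] at h2
      apply h2
      have e : (⟨((ℓ : ℕ) : L), ha⟩ : A) = ((ℓ : ℕ) : A) := by
        ext
        simp
      rw [e]
      exact hu
    have := (residue_eq_zero_iff (R := A) ((ℓ : ℕ) : A)).mpr hmem
    simpa using this
  have hdvd : ringChar (ResidueField A) ∣ ℓ :=
    (CharP.cast_eq_zero_iff (ResidueField A) (ringChar (ResidueField A)) ℓ).mp h0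
  rcases (Nat.dvd_prime hℓ).mp hdvd with h1 | h1
  · exact absurd h1 (CharP.ringChar_ne_one)
  · exact ringChar.of_eq h1

/-- Frobenius is surjective on the residue field of a valuation subring of an algebraically
closed field. -/
theorem frobenius_residueField_surjective [IsAlgClosed L] {ℓ : ℕ} (hℓ : ℓ.Prime)
    (hA : A.LiesOverPrime ℓ) :
    haveI := charP_residueField A hℓ hA
    haveI : Fact ℓ.Prime := ⟨hℓ⟩
    Function.Surjective (frobenius (ResidueField A) ℓ) := by
  haveI := charP_residueField A hℓ hA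
  haveI : Fact ℓ.Prime := ⟨hℓ⟩
  intro x
  obtain ⟨a, rfl⟩ := residue_surjective x
  obtain ⟨y, hy⟩ := IsAlgClosed.exists_pow_nat_eq (a : L) hℓ.pos
  have hyA : y ∈ A := by
    rcases A.mem_or_inv_mem y with h | h
    · exact h
    · -- `y⁻¹ ∈ A` and `y ^ ℓ ∈ A`, so `y = y ^ ℓ * (y⁻¹) ^ (ℓ - 1) ∈ A`
      by_cases hy0 : y = 0
      · rw [hy0]; exact A.zero_mem
      have e : y = y ^ ℓ * (y⁻¹) ^ (ℓ - 1) := by
        rw [inv_pow, ← div_eq_mul_inv, eq_div_iff (pow_ne_zero _ hy0), ← pow_succ',
          Nat.sub_add_cancel hℓ.pos]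
      rw [e]
      exact A.mul_mem _ _ (hy ▸ a.2) (A.pow_mem h _)
  refine ⟨residue A ⟨y, hyA⟩, ?_⟩
  rw [frobenius_def, ← map_pow]
  congr 1
  ext
  simpa using hy

/-- The residue field is a perfect ring of characteristic `ℓ`. -/
theorem perfectRing_residueField [IsAlgClosed L] {ℓ : ℕ} (hℓ : ℓ.Prime)
    (hA : A.LiesOverPrime ℓ) :
    haveI := charP_residueField A hℓ hA
    haveI : Fact ℓ.Prime := ⟨hℓ⟩
    PerfectRing (ResidueField A) ℓ := by
  haveI := charP_residueField A hℓ hA
  haveI : Fact ℓ.Prime := ⟨hℓ⟩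
  exact PerfectRing.ofSurjective (ResidueField A) ℓ (frobenius_residueField_surjective A hℓ hA)

/-- The residue field is a perfect field. -/
theorem perfectField_residueField [IsAlgClosed L] {ℓ : ℕ} (hℓ : ℓ.Prime)
    (hA : A.LiesOverPrime ℓ) : PerfectField (ResidueField A) := by
  haveI := charP_residueField A hℓ hA
  haveI : Fact ℓ.Prime := ⟨hℓ⟩
  haveI := perfectRing_residueField A hℓ hA
  exact PerfectRing.toPerfectField (ResidueField A) ℓ

end Fermat.Agent.S37.H34

end
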