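/-
helper50 — S37 (Stage 2): action of ring automorphisms of a function field `F` that preserve the
constant field `K` (not necessarily `K`-linearly: e.g. the coefficientwise Frobenius) on places,
divisors and `Pic⁰`.  Mirrors the prelude's action of `F ≃ₐ[K] F`.
-/
import Mathlib
import Fermat.Prelude.Def_AlgebraicCurve_DivisorClassGroup

set_option autoImplicit false

noncomputable section

open IsDedekindDomain WithZero IsLocalRing AlgebraicCurve

namespace Fermat.Agent.S37.H50

open scoped Pointwise

variable (K F : Type*) [Field K] [Field F] [Algebra K F]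

/-- Ring automorphisms of `F` mapping the image of `K` onto itself. -/
def constStab : Subgroup (RingAut F) where
  carrier := {τ | (∀ a : K, ∃ b : K, τ (algebraMap K F a) = algebraMap K F b) ∧
    ∀ a : K, ∃ b : K, τ⁻¹ (algebraMap K F a) = algebraMap K F b}
  one_mem' := ⟨fun a => ⟨a, rfl⟩, fun a => ⟨a, by simp⟩⟩
  mul_mem' := by
    rintro τ τ' ⟨h1, h2⟩ ⟨h1', h2'⟩
    refine ⟨fun a => ?_, fun a => ?_⟩
    · obtain ⟨b, hb⟩ := h1' a
      obtain ⟨c, hc⟩ := h1 b
      exact ⟨c, by rw [RingAut.mul_apply, hb, hc]⟩
    · obtain ⟨b, hb⟩ := h2 a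
      obtain ⟨c, hc⟩ := h2' b
      exact ⟨c, by rw [mul_inv_rev, RingAut.mul_apply, hb, hc]⟩
  inv_mem' := by
    rintro τ ⟨h1, h2⟩
    exact ⟨h2, by simpa using h1⟩

variable {K F}

theorem mem_constStab_iff {τ : RingAut F} :
    τ ∈ constStab K F ↔ (∀ a : K, ∃ b : K, τ (algebraMap K F a) = algebraMap K F b) ∧
      ∀ a : K, ∃ b : K, τ⁻¹ (algebraMap K F a) = algebraMap K F b :=
  Iff.rfl

/-- A ring automorphism of `F` compatible with a ring automorphism of `K` is in `constStab`. -/
theorem mem_constStab_of_comm (τ : RingAut F) (τK : K ≃+* K)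
    (h : ∀ a : K, τ (algebraMap K F a) = algebraMap K F (τK a)) : τ ∈ constStab K F := by
  refine ⟨fun a => ⟨τK a, h a⟩, fun a => ⟨τK.symm a, ?_⟩⟩
  have h1 := h (τK.symm a)
  rw [RingEquiv.apply_symm_apply] at h1
  rw [← h1]
  exact (RingEquiv.symm_apply_apply τ _)

/-- the induced automorphism of the constants -/
theorem exists_baseEquiv (τ : constStab K F) :
    ∃ τK : K ≃+* K, ∀ a : K, (τ : RingAut F) (algebraMap K F a) = algebraMap K F (τK a) := by
  have h1 := τ.2.1
  have h2 := τ.2.2
  choose f hf using h1
  choose g hg using h2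
  have inj : Function.Injective (algebraMap K F) := (algebraMap K F).injective
  have hfg : ∀ a, f (g a) = a := fun a => inj <| by
    rw [← hf, ← hg]
    exact RingEquiv.apply_symm_apply (τ : RingAut F) _
  have hgf : ∀ a, g (f a) = a := fun a => inj <| by
    rw [← hg, ← hf]
    exact RingEquiv.symm_apply_apply (τ : RingAut F) _
  refine ⟨{ toFun := f, invFun := g, left_inv := hgf, right_inv := hfg,
            map_mul' := fun a b => inj ?_, map_add' := fun a b => inj ?_ }, fun a => hf a⟩
  · rw [← hf, map_mul, map_mul, map_mul, hf, hf]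
  · rw [← hf, map_add, map_add, map_add, hf, hf]

namespace Place

/-- transport of a valuation subring along a ring automorphism -/
def smulRingEquiv' (τ : RingAut F) (A : ValuationSubring F) :
    A ≃+* (τ • A : ValuationSubring F) where
  toFun x := ⟨τ x, by
    simpa [RingAut.smul_def] using ValuationSubring.smul_mem_pointwise_smul τ (x : F) A x.2⟩
  invFun y := ⟨τ⁻¹ y, by
    have := (ValuationSubring.mem_pointwise_smul_iff_inv_smul_mem (g := τ)
      (S := A) (x := (y : F))).mp y.2
    simpa [RingAut.smul_def] using this⟩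
  left_inv x := by ext; simp
  right_inv y := by ext; simp
  map_mul' x y := by ext; simp
  map_add' x y := by ext; simp

@[simp]
theorem coe_smulRingEquiv'_apply (τ : RingAut F) (A : ValuationSubring F) (x : A) :
    ((smulRingEquiv' τ A x : (τ • A : ValuationSubring F)) : F) = τ x := rfl

theorem pointwise_smul_top' (τ : RingAut F) : τ • (⊤ : ValuationSubring F) = ⊤ := by
  ext x
  simp only [ValuationSubring.mem_pointwise_smul_iff_inv_smul_mem]
  exact ⟨fun _ => ValuationSubring.mem_top x, fun _ => ValuationSubring.mem_top _⟩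

instance instSMulConstStab : SMul (constStab K F) (Place K F) where
  smul τ v :=
    { toValuationSubring := (τ : RingAut F) • v.toValuationSubring
      algebraMap_mem' := fun a => by
        obtain ⟨b, hb⟩ := τ.2.2 a
        rw [ValuationSubring.mem_pointwise_smul_iff_inv_smul_mem, RingAut.smul_def, hb]
        exact v.algebraMap_mem' b
      ne_top' := fun h => v.ne_top' <| by
        have := congrArg ((τ : RingAut F)⁻¹ • ·) h
        simpa [pointwise_smul_top'] using this
      isPrincipalIdealRing' :=
        IsPrincipalIdealRing.of_surjective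
          (smulRingEquiv' (τ : RingAut F) v.toValuationSubring : _ ≃+* _)
          (smulRingEquiv' (τ : RingAut F) v.toValuationSubring).surjective }

variable (τ : constStab K F) (v : Place K F)

@[simp]
theorem smul_toValuationSubring' :
    (τ • v).toValuationSubring = (τ : RingAut F) • v.toValuationSubring := rfl

instance instMulActionConstStab : MulAction (constStab K F) (Place K F) where
  one_smul v := by
    ext1
    rw [smul_toValuationSubring', Subgroup.coe_one, one_smul]
  mul_smul σ τ v := by
    ext1
    simp only [smul_toValuationSubring', Subgroup.coe_mul]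
    rw [mul_smul]

theorem ord_smul' (f : F) : (τ • v).ord ((τ : RingAut F) f) = v.ord f := by
  rcases eq_or_ne f 0 with rfl | hf
  · simp
  obtain ⟨π, hπ⟩ := IsDiscreteValuationRing.exists_irreducible v.toValuationSubring
  obtain ⟨u, hu⟩ := v.exists_unit_mul_zpow hf hπ
  set n := v.ord f with hn
  set e := smulRingEquiv' (τ : RingAut F) v.toValuationSubring with he
  have hπ' : Irreducible (e π) := (MulEquiv.irreducible_iff e).mpr hπ
  have hu' : IsUnit (e (u : v.toValuationSubring)) := u.isUnit.map e
  have hcoeu : ((hu'.unit : (τ • v).toValuationSubring) : F)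
      = (τ : RingAut F) ((u : v.toValuationSubring) : F) := by
    rw [IsUnit.unit_spec]
    rfl
  have hcoeπ : ((e π : (τ • v).toValuationSubring) : F) = (τ : RingAut F) (π : F) := rfl
  have key : (τ : RingAut F) f = ((hu'.unit : (τ • v).toValuationSubring) : F)
      * (((e π : (τ • v).toValuationSubring) : F) ^ n) := by
    rw [hcoeu, hcoeπ, hu, map_mul, map_zpow₀]
  rw [key, (τ • v).ord_unit_smul_zpow hu'.unit hπ' n]

theorem ord_smul_apply' (f : F) : (τ • v).ord f = v.ord ((τ : RingAut F)⁻¹ f) := by
  have h := ord_smul' τ v ((τ : RingAut F)⁻¹ f)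
  rwa [show (τ : RingAut F) ((τ : RingAut F)⁻¹ f) = f from RingEquiv.apply_symm_apply _ f] at h

/-- the (semilinear) isomorphism of residue fields -/
def smulResidueEquiv' : v.ResidueField ≃+* (τ • v).ResidueField :=
  IsLocalRing.ResidueField.mapEquiv (smulRingEquiv' (τ : RingAut F) v.toValuationSubring)

@[simp]
theorem deg_smul' : (τ • v).deg = v.deg := by
  obtain ⟨τK, hτK⟩ := exists_baseEquiv τ
  have h := Algebra.rank_eq_of_equiv_equiv (R := K) (R' := K) (S := v.ResidueField)
    (S' := (τ • v).ResidueField) τK (smulResidueEquiv' τ v) (by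
      ext a
      have h3 : (smulRingEquiv' (τ : RingAut F) v.toValuationSubring)
          (algebraMap K v.toValuationSubring a) = algebraMap K (τ • v).toValuationSubring (τK a) := by
        ext
        rw [coe_smulRingEquiv'_apply, Place.coe_algebraMap, hτK]
        rfl
      show algebraMap K (τ • v).ResidueField (τK a) =
        IsLocalRing.ResidueField.mapEquiv _ (IsLocalRing.residue _ (algebraMap K _ a))
      rw [IsLocalRing.ResidueField.mapEquiv_apply, IsLocalRing.ResidueField.map_residue]
      exact (congrArg (IsLocalRing.residue _) h3).symm)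
  unfold Place.deg Module.finrank
  rw [h]

end Place

namespace Divisor

instance instDistribMulActionConstStab : DistribMulAction (constStab K F) (Divisor K F) :=
  Finsupp.comapDistribMulAction

theorem smul_def' (τ : constStab K F) (D : Divisor K F) :
    τ • D = Finsupp.mapDomain (τ • ·) D := rfl

@[simp]
theorem smul_single' (τ : constStab K F) (v : Place K F) (n : ℤ) :
    τ • (Finsupp.single v n : Divisor K F) = Finsupp.single (τ • v) n := by
  rw [smul_def', Finsupp.mapDomain_single]

theorem smul_apply_smul' (τ : constStab K F) (D : Divisor K F) (v : Place K F) :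
    (τ • D) (τ • v) = D v := by
  rw [smul_def']
  exact Finsupp.mapDomain_apply (MulAction.injective τ) D v

theorem smul_apply' (τ : constStab K F) (D : Divisor K F) (w : Place K F) :
    (τ • D) w = D (τ⁻¹ • w) := by
  have : (τ • D) (τ • (τ⁻¹ • w)) = D (τ⁻¹ • w) := smul_apply_smul' τ D (τ⁻¹ • w)
  rwa [smul_inv_smul] at this

@[simp]
theorem degree_smul' (τ : constStab K F) (D : Divisor K F) :
    Divisor.degree (τ • D) = Divisor.degree D := by
  induction D using Finsupp.induction with
  | zero => simp
  | single_add v n D _ _ ih =>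
      rw [smul_add, map_add, map_add, ih, smul_single', Divisor.degree_single,
        Divisor.degree_single, Place.deg_smul']

theorem smul_mem_degZero' (τ : constStab K F) {D : Divisor K F}
    (hD : D ∈ Divisor.degZero (K := K) (F := F)) : τ • D ∈ Divisor.degZero (K := K) (F := F) := by
  rwa [Divisor.mem_degZero, degree_smul']

/-- the divisor of `τ f` is the `τ`-translate of the divisor of `f` -/
theorem smul_eq_ord_of_eq_ord (τ : constStab K F) {D : Divisor K F} {f : F}
    (hD : ∀ w : Place K F, D w = w.ord f) :
    ∀ w : Place K F, (τ • D) w = w.ord ((τ : RingAut F) f) := by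
  intro w
  rw [smul_apply', hD (τ⁻¹ • w)]
  have h := Place.ord_smul' τ (τ⁻¹ • w) f
  rw [smul_inv_smul] at h
  exact h.symm

theorem smul_mem_principal' (τ : constStab K F) {D : Divisor K F}
    (hD : D ∈ Divisor.principal (K := K) (F := F)) :
    τ • D ∈ Divisor.principal (K := K) (F := F) := by
  obtain ⟨f, hf, hD⟩ := hD
  exact ⟨(τ : RingAut F) f, by simpa using hf, smul_eq_ord_of_eq_ord τ hD⟩

end Divisor

namespace Pic0

def degZeroSMulHom' (τ : constStab K F) :
    Divisor.degZero (K := K) (F := F) →+ Divisor.degZero (K := K) (F := F) :=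
  ((DistribSMul.toAddMonoidHom (Divisor K F) τ).domRestrict
    (Divisor.degZero (K := K) (F := F))).codRestrict _
    (fun D => Divisor.smul_mem_degZero' τ D.2)

@[simp]
theorem coe_degZeroSMulHom' (τ : constStab K F) (D : Divisor.degZero (K := K) (F := F)) :
    (degZeroSMulHom' τ D : Divisor K F) = τ • (D : Divisor K F) := rfl

instance instSMulConstStab : SMul (constStab K F) (Pic0 K F) where
  smul τ := QuotientAddGroup.map _ _ (degZeroSMulHom' τ) (by
    rintro ⟨D, hD0⟩ hD
    simp only [AddSubgroup.mem_addSubgroupOf] at hD ⊢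
    exact Divisor.smul_mem_principal' τ hD)

theorem smul_mk' (τ : constStab K F) (D : Divisor.degZero (K := K) (F := F)) :
    τ • (Pic0.mk D) = Pic0.mk (degZeroSMulHom' τ D) := rfl

instance instDistribMulActionConstStab : DistribMulAction (constStab K F) (Pic0 K F) where
  one_smul x := by
    obtain ⟨D, rfl⟩ := Pic0.mk_surjective x
    rw [smul_mk']
    exact congrArg Pic0.mk (Subtype.ext (by rw [coe_degZeroSMulHom', one_smul]))
  mul_smul σ τ x := by
    obtain ⟨D, rfl⟩ := Pic0.mk_surjective x
    rw [smul_mk', smul_mk', smul_mk']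
    exact congrArg Pic0.mk (Subtype.ext (by simp only [coe_degZeroSMulHom']; rw [mul_smul]))
  smul_zero σ := by
    show σ • Pic0.mk 0 = Pic0.mk 0
    rw [smul_mk']
    exact congrArg Pic0.mk (map_zero _)
  smul_add σ x y := by
    obtain ⟨D, rfl⟩ := Pic0.mk_surjective x
    obtain ⟨E, rfl⟩ := Pic0.mk_surjective y
    show σ • Pic0.mk (D + E) = Pic0.mk (degZeroSMulHom' σ D) + Pic0.mk (degZeroSMulHom' σ E)
    rw [smul_mk']
    exact congrArg Pic0.mk (map_add _ _ _)

/-- the automorphism of `Pic⁰` induced by an element of `constStab K F` -/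
def smulAddEquiv (τ : constStab K F) : Pic0 K F ≃+ Pic0 K F :=
  DistribMulAction.toAddEquiv (Pic0 K F) τ

@[simp]
theorem smulAddEquiv_apply (τ : constStab K F) (x : Pic0 K F) : smulAddEquiv τ x = τ • x := rfl

@[simp]
theorem smulAddEquiv_symm_apply (τ : constStab K F) (x : Pic0 K F) :
    (smulAddEquiv τ).symm x = τ⁻¹ • x := rfl

end Pic0

end Fermat.Agent.S37.H50
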