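/-
helper50 — S37 (Stage 2 of the S37 cluster): coefficientwise Frobenius on Laurent series over a
field of characteristic `ℓ`, the Frobenius identity `y(q^ℓ) = (σ⁻¹ y)^ℓ` (Kronecker congruence on
`q`-series) and stability of the mod-`ℓ` modular function field.
-/
import Mathlib
import Fermat.Prelude.Def_ModularCurve_X0ModL
import Fermat.Prelude.Thm_ModularCurve_coeffMap_qExpand
import Fermat.Agent.S37.H50_SemilinearPlace

set_option autoImplicit false

noncomputable section

open HahnSeries IntermediateField

namespace Fermat.Agent.S37.H50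

open ModularCurve

section QExpandPowerSeries

variable {R : Type*} [CommRing R]

/-- `qExpand` on the image of a power series is `PowerSeries.expand`. -/
theorem qExpand_ofPowerSeries (n : ℕ) [NeZero n] (φ : PowerSeries R) :
    qExpand R n (HahnSeries.ofPowerSeries ℤ R φ) =
      HahnSeries.ofPowerSeries ℤ R (PowerSeries.expand n (NeZero.ne n) φ) := by
  ext k
  by_cases hk : (n : ℤ) ∣ k
  · obtain ⟨m, rfl⟩ := hk
    rw [qExpand_coeff_mul]
    rcases le_or_gt 0 m with hm | hm
    · lift m to ℕ using hm
      have h1 : ((n : ℤ) * (m : ℤ)) = ((n * m : ℕ) : ℤ) := by push_cast; ring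
      rw [h1, HahnSeries.ofPowerSeries_apply_coeff, HahnSeries.ofPowerSeries_apply_coeff,
        PowerSeries.coeff_expand_mul]
    · have hn : (0 : ℤ) < n := by exact_mod_cast Nat.pos_of_ne_zero (NeZero.ne n)
      have h2 : (n : ℤ) * m < 0 := mul_neg_of_pos_of_neg hn hm
      rw [ofPowerSeries_coeff_of_neg _ hm, ofPowerSeries_coeff_of_neg _ h2]
  · rw [qExpand_coeff_of_not_dvd n _ hk]
    rcases le_or_gt 0 k with hk0 | hk0
    · lift k to ℕ using hk0
      rw [HahnSeries.ofPowerSeries_apply_coeff, PowerSeries.coeff_expand_of_not_dvd]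
      intro h
      exact hk (by exact_mod_cast h)
    · rw [ofPowerSeries_coeff_of_neg _ hk0]

end QExpandPowerSeries

section FrobeniusIdentity

variable (k : Type*) [CommRing k] (ℓ : ℕ) [NeZero ℓ] [ExpChar k ℓ]

/-- The coefficientwise Frobenius endomorphism of `k((q))`. -/
def frobHom : LaurentSeries k →+* LaurentSeries k := coeffMap (frobenius k ℓ)

omit [NeZero ℓ] in
@[simp]
theorem frobHom_coeff (y : LaurentSeries k) (n : ℤ) : (frobHom k ℓ y).coeff n = y.coeff n ^ ℓ :=
  rfl

/-- **Frobenius identity** on power series, transported to Laurent series. -/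
theorem frobHom_qExpand_ofPowerSeries (φ : PowerSeries k) :
    frobHom k ℓ (qExpand k ℓ (HahnSeries.ofPowerSeries ℤ k φ)) =
      (HahnSeries.ofPowerSeries ℤ k φ) ^ ℓ := by
  rw [qExpand_ofPowerSeries, frobHom, coeffMap_ofPowerSeries, ← map_pow]
  congr 1
  exact MvPowerSeries.map_frobenius_expand ℓ (NeZero.ne ℓ)

/-- **Frobenius identity** (Kronecker congruence on `q`-series): in characteristic `ℓ`,
`σ(y(q^ℓ)) = y^ℓ`, where `σ` is the coefficientwise Frobenius. -/
theorem frobHom_qExpand (y : LaurentSeries k) :
    frobHom k ℓ (qExpand k ℓ y) = y ^ ℓ := by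
  conv_lhs => rw [← LaurentSeries.single_order_mul_powerSeriesPart y]
  conv_rhs => rw [← LaurentSeries.single_order_mul_powerSeriesPart y]
  rw [map_mul, map_mul, mul_pow, frobHom_qExpand_ofPowerSeries, qExpand_single, frobHom,
    coeffMap_single, map_one, HahnSeries.single_pow, one_pow]
  congr 2

omit [NeZero ℓ] in
/-- the two operations commute -/
theorem frobHom_qExpand_comm (n : ℕ) [NeZero n] (y : LaurentSeries k) :
    frobHom k ℓ (qExpand k n y) = qExpand k n (frobHom k ℓ y) :=
  coeffMap_qExpand _ n y

theorem qExpand_frobHom (y : LaurentSeries k) :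
    qExpand k ℓ (frobHom k ℓ y) = y ^ ℓ := by
  rw [← frobHom_qExpand_comm, frobHom_qExpand]

omit [NeZero ℓ] in
/-- `j` has coefficients in the prime ring, hence is fixed by the coefficientwise Frobenius. -/
theorem frobHom_jqModC : frobHom k ℓ (jqModC k) = jqModC k :=
  coeffMap_jqModC _

/-- **Kronecker**: `j(q^ℓ) = j(q)^ℓ` in characteristic `ℓ`. -/
theorem qExpand_jqModC_char : qExpand k ℓ (jqModC k) = jqModC k ^ ℓ := by
  conv_lhs => rw [← frobHom_jqModC k ℓ]
  exact qExpand_frobHom k ℓ _

theorem jqNModC_char : jqNModC k ℓ = jqModC k ^ ℓ := qExpand_jqModC_char k ℓ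

end FrobeniusIdentity

section FunctionField

variable {k : Type*} [Field k] (N : ℕ)

/-- Coefficientwise application of a ring endomorphism of `k` preserves the mod-`ℓ` modular
function field `k(j(q^d) : d ∣ N)`: its generators have coefficients in the prime ring. -/
theorem coeffMap_mem_fullC (f : k →+* k) {x : LaurentSeries k}
    (hx : x ∈ modularFunctionFieldFullC k N) : coeffMap f x ∈ modularFunctionFieldFullC k N := by
  let S : Subfield (LaurentSeries k) :=
    (modularFunctionFieldFullC k N).toSubfield.comap (coeffMap f)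
  have hS : ∀ c : k, algebraMap k (LaurentSeries k) c ∈ S := fun c => by
    show coeffMap f (algebraMap k (LaurentSeries k) c) ∈ (modularFunctionFieldFullC k N).toSubfield
    rw [coeffMap_algebraMap]
    exact (modularFunctionFieldFullC k N).algebraMap_mem _
  have hle : modularFunctionFieldFullC k N ≤ S.toIntermediateField hS := by
    rw [modularFunctionFieldFullC, adjoin_le_iff]
    rintro y ⟨d, hne, hdvd, rfl⟩
    haveI := hne
    show coeffMap f (qExpand k d (jqModC k)) ∈ (modularFunctionFieldFullC k N).toSubfield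
    rw [coeffMap_qExpand, coeffMap_jqModC]
    exact jqModCd_mem_full k N hdvd
  exact hle hx

/-- The ring automorphism of `k(j(q^d) : d ∣ N)` induced coefficientwise by an automorphism of
`k`. -/
def coeffAut (e : k ≃+* k) : RingAut ↥(modularFunctionFieldFullC k N) where
  toFun x := ⟨coeffMap (e : k →+* k) x, coeffMap_mem_fullC N _ x.2⟩
  invFun x := ⟨coeffMap (e.symm : k →+* k) x, coeffMap_mem_fullC N _ x.2⟩
  left_inv x := by
    ext1
    show coeffMap (e.symm : k →+* k) (coeffMap (e : k →+* k) (x : LaurentSeries k)) = x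
    rw [coeffMap_coeffMap]
    have : (e.symm : k →+* k).comp (e : k →+* k) = RingHom.id k := by ext; simp
    rw [this, coeffMap_id]
  right_inv x := by
    ext1
    show coeffMap (e : k →+* k) (coeffMap (e.symm : k →+* k) (x : LaurentSeries k)) = x
    rw [coeffMap_coeffMap]
    have : (e : k →+* k).comp (e.symm : k →+* k) = RingHom.id k := by ext; simp
    rw [this, coeffMap_id]
  map_mul' x y := by ext1; exact map_mul _ _ _
  map_add' x y := by ext1; exact map_add _ _ _

@[simp]
theorem coe_coeffAut (e : k ≃+* k) (x : ↥(modularFunctionFieldFullC k N)) :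
    ((coeffAut N e x : ↥(modularFunctionFieldFullC k N)) : LaurentSeries k) =
      coeffMap (e : k →+* k) (x : LaurentSeries k) := rfl

theorem coeffAut_algebraMap (e : k ≃+* k) (a : k) :
    coeffAut N e (algebraMap k ↥(modularFunctionFieldFullC k N) a) =
      algebraMap k ↥(modularFunctionFieldFullC k N) (e a) := by
  ext1
  show coeffMap (e : k →+* k) (algebraMap k (LaurentSeries k) a) = algebraMap k (LaurentSeries k) (e a)
  rw [coeffMap_algebraMap]
  rfl

theorem coeffAut_mem_constStab (e : k ≃+* k) :
    coeffAut N e ∈ constStab k ↥(modularFunctionFieldFullC k N) :=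
  mem_constStab_of_comm _ e (coeffAut_algebraMap N e)

/-- `coeffAut` as an element of the group acting on places, divisors and `Pic⁰`. -/
def coeffStab (e : k ≃+* k) : constStab k ↥(modularFunctionFieldFullC k N) :=
  ⟨coeffAut N e, coeffAut_mem_constStab N e⟩

@[simp]
theorem coe_coeffStab (e : k ≃+* k) :
    ((coeffStab N e : constStab k ↥(modularFunctionFieldFullC k N)) : RingAut _) = coeffAut N e :=
  rfl

end FunctionField

section FrobeniusJ

variable (k : Type*) [Field k] (ℓ : ℕ) [ExpChar k ℓ] [PerfectRing k ℓ] (N : ℕ)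

/-- The coefficientwise Frobenius automorphism of the mod-`ℓ` modular function field. -/
def frobStab : constStab k ↥(modularFunctionFieldFullC k N) := coeffStab N (frobeniusEquiv k ℓ)

theorem coe_frobStab_apply (x : ↥(modularFunctionFieldFullC k N)) :
    (((frobStab k ℓ N : constStab k ↥(modularFunctionFieldFullC k N)) :
      RingAut ↥(modularFunctionFieldFullC k N)) x : LaurentSeries k) =
      frobHom k ℓ (x : LaurentSeries k) := by
  show coeffMap ((frobeniusEquiv k ℓ : k ≃+* k) : k →+* k) (x : LaurentSeries k) = _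
  rfl

theorem frobStab_algebraMap (a : k) :
    ((frobStab k ℓ N : constStab k ↥(modularFunctionFieldFullC k N)) :
      RingAut ↥(modularFunctionFieldFullC k N)) (algebraMap k _ a) =
      algebraMap k ↥(modularFunctionFieldFullC k N) (a ^ ℓ) := by
  show coeffAut N (frobeniusEquiv k ℓ) _ = _
  rw [coeffAut_algebraMap, frobeniusEquiv_apply, frobenius_def]

variable [NeZero N]

/-- **Frobenius on `J₀(N)` mod `ℓ`**: the automorphism of `JZeroC k N = Pic⁰(k(j(q^d) : d ∣ N))`
induced by the coefficientwise Frobenius. -/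
def frobJ : JZeroC k N ≃+ JZeroC k N := Pic0.smulAddEquiv (frobStab k ℓ N)

theorem frobJ_mk (D : AlgebraicCurve.Divisor.degZero (K := k) (F := ↥(modularFunctionFieldFullC k N))) :
    frobJ k ℓ N (AlgebraicCurve.Pic0.mk D) =
      AlgebraicCurve.Pic0.mk (Pic0.degZeroSMulHom' (frobStab k ℓ N) D) := rfl

end FrobeniusJ

end Fermat.Agent.S37.H50
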