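import Mathlib
import Fermat.Agent.S24.H40_M123
import Fermat.Agent.S24.H97_Degree
import Fermat.Agent.RR.H76_Riemann
import Fermat.Agent.S37.H82_Rigidity

/-!
# S37 glue: bounded representatives on `X₀(N)` over `ℚ̄`

* `deg_eq_one_FN`: every place of `modularFunctionFieldBar N` has degree one;
* `hasBoundedReps_of_ffBase`: Riemann's inequality (`H76.FFBase.riemann_inequality`) gives
  helper82's `HasBoundedReps` (the input `hC` of the rigidity lemma `H82.eq_zero_of_bounded`);
* `hasBoundedReps_FN`: the instance for `modularFunctionFieldBar N`, from an `FFBase`.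
-/

set_option autoImplicit false
set_option linter.style.haveILetI false

noncomputable section

namespace Fermat.Agent.S37.H34

open AlgebraicCurve ModularCurve IntermediateField
open Fermat.Agent.S24 Fermat.Agent.RR

/-- Every place of the function field of `X₀(N)` over `ℚ̄` has degree one. -/
theorem deg_eq_one_FN (N : ℕ) [NeZero N]
    (v : Place (AlgebraicClosure ℚ) (modularFunctionFieldBar N)) : v.deg = 1 := by
  haveI : FiniteDimensional Qbar⟮jBar N⟯ (FN N) := H40.finiteDimensional_FN N
  exact H97.deg_eq_one (K := Qbar) (F := FN N) (jBar N) (H40.transcendental_jBar N) v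

section General

variable {K F : Type*} [Field K] [Field F] [Algebra K F]

/-- Riemann's inequality gives bounded representatives of degree-zero divisor classes. -/
theorem hasBoundedReps_of_ffBase (h : H76.FFBase K F) (P₀ : Place K F) (hP₀ : P₀.deg = 1) :
    ∃ C : ℕ, H82.HasBoundedReps K F C := by
  haveI : HasPrincipalDivisors K F := h.pd
  set g : ℕ := (h.gR).toNat with hg
  refine ⟨2 * g, H82.hasBoundedReps_of_riemann g P₀ hP₀ (fun P => h.deg_pos P) ?_⟩
  intro D hD
  have h1 := h.riemann_inequality D
  have h2 : h.gR ≤ (g : ℤ) := Int.self_le_toNat _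
  have h3 : 0 < H76.ell D := by
    have : (0 : ℤ) < H76.ell D := by
      rw [hD] at h1
      linarith
    exact_mod_cast this
  obtain ⟨z, hz0, hz⟩ := H76.FFBase.exists_ne_zero_of_ell_pos h3
  exact ⟨z, hz, hz0⟩

end General

/-- Bounded representatives for `X₀(N)` over `ℚ̄` (input `hC` of helper82's rigidity lemma),
from the `FFBase` bundle of the RR bank. -/
theorem hasBoundedReps_FN (N : ℕ) [NeZero N]
    (h : H76.FFBase (AlgebraicClosure ℚ) (modularFunctionFieldBar N)) :
    ∃ C : ℕ, H82.HasBoundedReps (AlgebraicClosure ℚ) (modularFunctionFieldBar N) C := by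
  obtain ⟨P₀⟩ := h.exists_place
  exact hasBoundedReps_of_ffBase h P₀ (deg_eq_one_FN N P₀)

end Fermat.Agent.S37.H34

end
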