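import Mathlib
import Fermat.Agent.S24.H42_FF2
import Fermat.Agent.S24.H97_Degree
import Fermat.Agent.S24.H97_Finiteness
import Fermat.Agent.S24.H40_M123
import Fermat.Agent.RR.H76_Riemann
import Fermat.Agent.S37.H34_InstFN

/-!
# S37 glue: the `FFBase` bundle of the RR bank in characteristic `0`, from the S24 bank

For a function field `F / K` in one variable (`t` transcendental, `[F : K(t)] < ∞`, `char K = 0`)
the four fields of helper76's `H76.FFBase K F` are discharged from the S24 bank:

* `finRes`: `H97.finite_residueField`;
* `finOrd`: `H97.finite_ord_ne_zero`;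
* `pd`: `H42.principal`;
* `exists_sep`: `B := (t)_∞`, `d := [F : K(t)] = deg B`, `C :=` sum of the pole divisors of a
  `K(t)`-basis `u_j` of `F`; the `(l+1) d` elements `t ^ i u_j` (`i ≤ l`) of `L(l B + C)` are
  `K`-linearly independent.

Consequence: `hasBoundedReps_FN'` (no hypothesis): bounded representatives for
`modularFunctionFieldBar N`, the input `hC` of helper82's rigidity lemma / helper53's
Galois-equivariance theorems.
-/

set_option autoImplicit false
set_option linter.style.haveILetI false
set_option linter.unusedSectionVars false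

noncomputable section

namespace Fermat.Agent.S37.H34

open AlgebraicCurve ModularCurve IntermediateField Polynomial
open Fermat.Agent.S24 Fermat.Agent.RR
open scoped IntermediateField

section General

variable {K F : Type*} [Field K] [Field F] [Algebra K F]

/-! ### Finite-dimensionality of `L(D)` without the `exists_sep` field -/

/-- `L(D) = 0` for `deg D < 0` (copy of `H76.FFBase.riemannRochSpace_eq_bot_of_degree_neg` with
only the hypothesis it uses). -/
theorem rrSpace_eq_bot_of_degree_neg (pd : HasPrincipalDivisors K F) (D : Divisor K F)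
    (hD : Divisor.degree D < 0) : riemannRochSpace D = ⊥ := by
  rw [eq_bot_iff]
  intro f hf
  rw [Submodule.mem_bot]
  by_contra hf0
  obtain ⟨E, hE, hE0⟩ := pd.exists_divisor f hf0
  have hDE : 0 ≤ D + E := by
    intro v
    have := (mem_riemannRochSpace_iff.mp hf v).resolve_left hf0
    simp only [Finsupp.coe_zero, Pi.zero_apply, Finsupp.coe_add, Pi.add_apply, hE v]
    omega
  have := H76.degree_nonneg_of_nonneg hDE
  rw [map_add, hE0, add_zero] at this
  omega

theorem finiteDimensional_rrSpace_add_effective
    (finRes : ∀ v : Place K F, Module.Finite K v.ResidueField) (E : Divisor K F) (hE : 0 ≤ E) :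
    ∀ D : Divisor K F, FiniteDimensional K ↥(riemannRochSpace D) →
      FiniteDimensional K ↥(riemannRochSpace (D + E)) := by
  refine H76.effective_induction (p := fun E => ∀ D : Divisor K F,
      FiniteDimensional K ↥(riemannRochSpace D) →
      FiniteDimensional K ↥(riemannRochSpace (D + E))) ?_ ?_ E hE
  · intro D hD
    rwa [add_zero]
  · intro E P _ ih D hD
    have hfd := ih D hD
    obtain ⟨t, ht, ht1⟩ := H76.exists_uniformizer P
    have := finRes P
    have e : D + H76.addP E P = H76.addP (D + E) P := by
      simp only [H76.addP, add_assoc]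
    rw [e]
    exact H76.finiteDimensional_add_single (D + E) P ht ht1

/-- Every `L(D)` is finite-dimensional (needs only finite residue fields, principal divisors of
degree zero and one place). -/
theorem finiteDimensional_rrSpace (finRes : ∀ v : Place K F, Module.Finite K v.ResidueField)
    (pd : HasPrincipalDivisors K F) (P0 : Place K F) (D : Divisor K F) :
    FiniteDimensional K ↥(riemannRochSpace D) := by
  have hpos : (0 : ℤ) < P0.deg := by
    haveI := finRes P0
    exact_mod_cast H76.deg_pos_of_finite P0
  set m : ℕ := (Divisor.degree D).toNat + 1 with hm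
  set E : Divisor K F := Finsupp.single P0 (m : ℤ) with hE
  have hE0 : 0 ≤ E := by
    intro v
    classical
    rw [hE, Finsupp.single_apply]
    split_ifs <;> simp
  have hdeg : Divisor.degree (D - E) < 0 := by
    rw [map_sub, hE, Divisor.degree_single]
    have h1 : Divisor.degree D ≤ ((Divisor.degree D).toNat : ℤ) := Int.self_le_toNat _
    have h2 : ((m : ℕ) : ℤ) ≤ (m : ℤ) * P0.deg := by
      have : (1 : ℤ) ≤ P0.deg := hpos
      nlinarith
    rw [hm] at h2 ⊢
    push_cast at h2 ⊢
    linarith
  have hbot := rrSpace_eq_bot_of_degree_neg pd (D - E) hdeg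
  have hfd : FiniteDimensional K ↥(riemannRochSpace (D - E)) := by
    rw [hbot]; infer_instance
  have := finiteDimensional_rrSpace_add_effective finRes E hE0 (D - E) hfd
  rwa [sub_add_cancel] at this

/-! ### Powers of a transcendental element are linearly independent -/

theorem linearIndependent_pow_of_transcendental {S : Type*} [Field S] [Algebra K S] {x : S}
    (hx : Transcendental K x) (l : ℕ) :
    LinearIndependent K fun i : Fin (l + 1) => x ^ (i : ℕ) := by
  have hinj : Function.Injective (Polynomial.aeval (R := K) x) :=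
    transcendental_iff_injective.mp hx
  have h1 : LinearIndependent K (fun n : ℕ => (Polynomial.monomial n (1 : K) : K[X])) := by
    have := (Polynomial.basisMonomials K).linearIndependent
    convert this using 2
    simp
  have h2 : LinearIndependent K
      ((Polynomial.aeval (R := K) x).toLinearMap ∘ fun n : ℕ => (Polynomial.monomial n (1 : K) : K[X])) :=
    h1.map' _ (LinearMap.ker_eq_bot.mpr hinj)
  have h3 := h2.comp (fun i : Fin (l + 1) => (i : ℕ)) Fin.val_injective
  convert h3 using 2
  simp

end General

section FFBase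

variable {K F : Type*} [Field K] [Field F] [Algebra K F]
variable (t : F) [FiniteDimensional K⟮t⟯ F] [CharZero K]

/-- The pole divisor of `t` together with its degree. -/
theorem exists_poleDivisor (ht : Transcendental K t) :
    ∃ B : Divisor K F, 0 ≤ B ∧ Divisor.degree B = (Module.finrank K⟮t⟯ F : ℤ) ∧
      ∀ v : Place K F, -B v ≤ v.ord t ∧ -B v ≤ 0 := by
  classical
  obtain ⟨s, hs, hsum⟩ := H42.exists_finset_poles (K := K) t ht
  refine ⟨∑ v ∈ s, Finsupp.single v (-(v.ord t)), ?_, ?_, ?_⟩
  · refine Finset.sum_nonneg fun v hv => ?_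
    have hv' : v.ord t < 0 := (hs v).mp hv
    intro w
    rw [Finsupp.zero_apply, Finsupp.single_apply]
    split_ifs <;> omega
  · rw [map_sum]
    simp_rw [Divisor.degree_single]
    rw [← neg_neg (Module.finrank K⟮t⟯ F : ℤ), ← hsum, ← Finset.sum_neg_distrib]
    exact Finset.sum_congr rfl fun v _ => by ring
  · intro v
    have hB : (∑ w ∈ s, Finsupp.single w (-(w.ord t))) v = if v ∈ s then -(v.ord t) else 0 := by
      rw [Finset.sum_apply']
      simp only [Finsupp.single_apply]
      rw [Finset.sum_ite_eq' s v]
    rw [hB]
    by_cases hv : v ∈ s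
    · have hv' : v.ord t < 0 := (hs v).mp hv
      rw [if_pos hv]
      constructor <;> omega
    · have hv' : ¬ v.ord t < 0 := fun h => hv ((hs v).mpr h)
      rw [if_neg hv]
      constructor <;> omega

/-- A nonnegative divisor bounding the poles of finitely many nonzero functions. -/
theorem exists_poleBound (ht : Transcendental K t) {n : ℕ} (u : Fin n → F) :
    ∃ C : Divisor K F, 0 ≤ C ∧ ∀ (j : Fin n) (v : Place K F), -C v ≤ v.ord (u j) := by
  classical
  -- one function
  have hone : ∀ f : F, ∃ C : Divisor K F, 0 ≤ C ∧ ∀ v : Place K F, -C v ≤ v.ord f := by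
    intro f
    set s := (H97.finite_ord_ne_zero t ht f).toFinset with hs
    refine ⟨∑ v ∈ s, Finsupp.single v (|v.ord f|), ?_, ?_⟩
    · refine Finset.sum_nonneg fun v _ => ?_
      intro w
      rw [Finsupp.zero_apply, Finsupp.single_apply]
      split_ifs
      · exact abs_nonneg _
      · exact le_rfl
    · intro v
      have hC : (∑ w ∈ s, Finsupp.single w (|w.ord f|)) v = if v ∈ s then |v.ord f| else 0 := by
        rw [Finset.sum_apply']
        simp only [Finsupp.single_apply]
        rw [Finset.sum_ite_eq' s v]
      rw [hC]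
      by_cases hv : v ∈ s
      · rw [if_pos hv]
        have := neg_abs_le (v.ord f)
        omega
      · rw [if_neg hv]
        have : v.ord f = 0 := by
          by_contra h
          exact hv (by rw [hs, Set.Finite.mem_toFinset]; exact h)
        omega
  choose Cf hCf0 hCf using hone
  refine ⟨∑ j : Fin n, Cf (u j), Finset.sum_nonneg fun j _ => hCf0 _, ?_⟩
  intro j v
  have h1 : Cf (u j) v ≤ (∑ i : Fin n, Cf (u i)) v := by
    rw [Finset.sum_apply']
    exact Finset.single_le_sum (f := fun i => Cf (u i) v)
      (fun i _ => by have := hCf0 (u i) v; simpa using this) (Finset.mem_univ j)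
  have h2 := hCf (u j) v
  omega

/-- **The `FFBase` bundle of the RR bank in characteristic zero**, from the S24 bank. -/
theorem ffBase_of_charZero (ht : Transcendental K t) : H76.FFBase K F := by
  classical
  have finRes : ∀ v : Place K F, Module.Finite K v.ResidueField :=
    fun v => H97.finite_residueField t ht v
  have pd : HasPrincipalDivisors K F := ⟨fun f hf => H42.principal (K := K) t ht f hf⟩
  refine ⟨finRes, fun f _ => H97.finite_ord_ne_zero t ht f, pd, ?_⟩
  set n : ℕ := Module.finrank K⟮t⟯ F with hn
  have hnpos : 0 < n := Module.finrank_pos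
  obtain ⟨B, hB0, hBdeg, hB⟩ := exists_poleDivisor (K := K) t ht
  set u : Fin n → F := fun j => Module.finBasis K⟮t⟯ F j with hu
  have hu0 : ∀ j, u j ≠ 0 := fun j => (Module.finBasis K⟮t⟯ F).ne_zero j
  obtain ⟨C, hC0, hC⟩ := exists_poleBound (K := K) t ht u
  have ht0 : t ≠ 0 := fun h => ht (h ▸ isAlgebraic_zero)
  -- a place exists
  have hplace : Nonempty (Place K F) := by
    by_contra hne
    rw [not_nonempty_iff] at hne
    have : B = 0 := Subsingleton.elim _ _
    rw [this, map_zero] at hBdeg
    have : (n : ℤ) = 0 := hBdeg.symm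
    omega
  obtain ⟨P0⟩ := hplace
  refine ⟨B, C, n, hB0, hC0, by rw [hBdeg]; exact_mod_cast hnpos, by rw [hBdeg], ?_⟩
  intro l
  haveI : FiniteDimensional K ↥(riemannRochSpace (l • B + C)) :=
    finiteDimensional_rrSpace finRes pd P0 _
  -- the family `t ^ i * u j`
  have hmem : ∀ p : Fin (l + 1) × Fin n, t ^ (p.1 : ℕ) * u p.2 ∈ riemannRochSpace (l • B + C) := by
    intro p
    rw [mem_riemannRochSpace_iff]
    intro v
    right
    rw [v.ord_mul (pow_ne_zero _ ht0) (hu0 _), ← zpow_natCast, v.ord_zpow]
    have h1 := hB v
    have h2 := hC p.2 v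
    have hi : ((p.1 : ℕ) : ℤ) ≤ l := by
      have := p.1.2
      omega
    have hi0 : (0 : ℤ) ≤ ((p.1 : ℕ) : ℤ) := Int.natCast_nonneg _
    simp only [Finsupp.add_apply, Finsupp.smul_apply, nsmul_eq_mul]
    rcases le_or_gt 0 (v.ord t) with h3 | h3
    · have : 0 ≤ ((p.1 : ℕ) : ℤ) * v.ord t := mul_nonneg hi0 h3
      have hB' : 0 ≤ (l : ℤ) * B v := mul_nonneg (Int.natCast_nonneg _) (by linarith [h1.2])
      linarith
    · have h4 : (l : ℤ) * v.ord t ≤ ((p.1 : ℕ) : ℤ) * v.ord t :=
        mul_le_mul_of_nonpos_right hi h3.le
      have h5 : -((l : ℤ) * B v) ≤ (l : ℤ) * v.ord t := by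
        have := mul_le_mul_of_nonneg_left h1.1 (Int.natCast_nonneg l)
        linarith
      linarith
  -- linear independence over `K`
  have hgen : Transcendental K (AdjoinSimple.gen K t) := by
    rw [← transcendental_algebraMap_iff (algebraMap K⟮t⟯ F).injective]
    exact ht
  have hb := linearIndependent_pow_of_transcendental (K := K) hgen l
  have hc : LinearIndependent K⟮t⟯ u := (Module.finBasis K⟮t⟯ F).linearIndependent
  have hind : LinearIndependent K
      (fun p : Fin (l + 1) × Fin n => (AdjoinSimple.gen K t) ^ (p.1 : ℕ) • u p.2) :=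
    linearIndependent_smul hb hc
  have hind' : LinearIndependent K (fun p : Fin (l + 1) × Fin n =>
      (⟨t ^ (p.1 : ℕ) * u p.2, hmem p⟩ : ↥(riemannRochSpace (l • B + C)))) := by
    apply LinearIndependent.of_comp (riemannRochSpace (l • B + C)).subtype
    convert hind using 2 with p
    simp only [Function.comp_apply, Submodule.subtype_apply]
    rw [Algebra.smul_def, map_pow]
    rfl
  have hcard := hind'.fintype_card_le_finrank
  rw [Fintype.card_prod, Fintype.card_fin, Fintype.card_fin] at hcard
  unfold H76.ell
  exact_mod_cast hcard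

end FFBase

/-- The `FFBase` bundle for the function field of `X₀(N)` over `ℚ̄`. -/
theorem ffBase_FN (N : ℕ) [NeZero N] :
    H76.FFBase (AlgebraicClosure ℚ) (modularFunctionFieldBar N) := by
  haveI : FiniteDimensional Qbar⟮jBar N⟯ (FN N) := H40.finiteDimensional_FN N
  exact ffBase_of_charZero (K := Qbar) (F := FN N) (jBar N) (H40.transcendental_jBar N)

/-- **Bounded representatives on `X₀(N)` over `ℚ̄`**, unconditional: the hypothesis `hC` of
helper82's rigidity lemma and of helper53's `mapDomain_smul_of_boundedReps`. -/
theorem hasBoundedReps_FN' (N : ℕ) [NeZero N] :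
    ∃ C : ℕ, H82.HasBoundedReps (AlgebraicClosure ℚ) (modularFunctionFieldBar N) C :=
  hasBoundedReps_FN N (ffBase_FN N)

end Fermat.Agent.S37.H34

end
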