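import Fermat.Agent.S37.H53_GaloisEquiv
import Fermat.Agent.S37.H34_FFBaseChar0
import Fermat.Agent.S37.H34_ResidueField

/-!
# S37 from Stage 1 (existence of the place reduction + S18) and the Eichler–Shimura clause

`specializationExists_of_stage1_of_ES` proves the frozen conclusion of S37 from three named inputs:

* `hR`  : `ReductionInputsModL A N` for every `A` over a prime `ℓ ∤ N` (Stage 1, R-EXIST);
* `hS18`: the frozen statement S18, verbatim;
* `hES` : clause (3) of the package, in the shape of `H53.reductionPackage_of_ES_of_inj`.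

Everything else (bounded representatives on `X₀(N)`, residue field perfect of characteristic `ℓ`,
clauses (1), (2), the algebra of the specialization datum) is on main.
-/

set_option autoImplicit false
set_option linter.style.haveILetI false

noncomputable section

namespace Fermat.Agent.S37.H86

open ModularCurve AlgebraicCurve

theorem specializationExists_of_stage1_of_ES (N p : ℕ) [NeZero N]
    (hcomm : ModularCurve.HeckeOperatorsCommuteBar N)
    (hR : ∀ (ℓ : ℕ), ℓ.Prime → ¬ ℓ ∣ N →
      ∀ A : ValuationSubring (AlgebraicClosure ℚ), A.LiesOverPrime ℓ →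
        ModularCurve.ReductionInputsModL A N)
    (hS18 : ∀ {ℓ : ℕ} [Fact ℓ.Prime], ¬ ℓ ∣ N →
      ∀ (A : ValuationSubring (AlgebraicClosure ℚ)), A.LiesOverPrime ℓ →
        ModularCurve.ReductionInputsModL A N → ∀ (m : ℕ), ¬ ℓ ∣ m →
          ∀ z : ModularCurve.JZero N, m • z = 0 → ModularCurve.reductionModL A N z = 0 → z = 0)
    (hES : ∀ (ℓ : ℕ) (hℓ : ℓ.Prime), ¬ ℓ ∣ N * p →
      ∀ (A : ValuationSubring (AlgebraicClosure ℚ)), A.LiesOverPrime ℓ →
        ∀ [ExpChar (IsLocalRing.ResidueField A) ℓ] [PerfectRing (IsLocalRing.ResidueField A) ℓ],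
          ∀ y : JZero N, reductionModL A N (heckeOperatorBar N ⟨ℓ, hℓ⟩ y)
            = H53.frobJEquiv (IsLocalRing.ResidueField A) N ℓ (reductionModL A N y)
              + ℓ • (H53.frobJEquiv (IsLocalRing.ResidueField A) N ℓ).symm
                  (reductionModL A N y)) :
    letI := ModularCurve.heckeModuleBar N
    ∀ (_ : SMulCommClass (AlgebraicClosure ℚ ≃ₐ[ℚ] AlgebraicClosure ℚ) ModularCurve.HeckeAlg
      (ModularCurve.JZero N)),
      ModularCurve.SpecializationExists (K := ℚ) (L := AlgebraicClosure ℚ) N p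
        (ModularCurve.JZero N) := by
  refine specializationExists_of_packages N p hcomm ?_
  intro ℓ hℓ hℓNp A hA
  haveI : Fact ℓ.Prime := ⟨hℓ⟩
  haveI hchar : CharP (IsLocalRing.ResidueField A) ℓ := H34.charP_residueField A hℓ hA
  haveI : ExpChar (IsLocalRing.ResidueField A) ℓ := ExpChar.prime hℓ
  haveI : PerfectRing (IsLocalRing.ResidueField A) ℓ := H34.perfectRing_residueField A hℓ hA
  obtain ⟨C, hC⟩ := H34.hasBoundedReps_FN' N
  have hℓN : ¬ ℓ ∣ N := fun h => hℓNp (Dvd.dvd.mul_right h p)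
  have hℓp : ¬ ℓ ∣ p := fun h => hℓNp (Dvd.dvd.mul_left h N)
  refine H53.reductionPackage_of_ES_of_inj N p ℓ hℓ A hC (hES ℓ hℓ hℓNp A hA) ?_
  rintro x ⟨n, hn⟩ hx
  exact hS18 hℓN A hA (hR ℓ hℓ hℓN A hA) (p ^ n) (fun h => hℓp (hℓ.dvd_of_dvd_pow h)) x hn hx

end Fermat.Agent.S37.H86

end
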