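import Fermat.Agent.S37.H82_ESGlue
import Fermat.Agent.S37.H86_S37Final

/-!
# S37 from Stage 1 alone (helper82)

With clause (3) (`H82.reductionModL_heckeOperatorBar`, unconditional) plugged into helper86's
`H86.specializationExists_of_stage1_of_ES`, the frozen conclusion of S37 follows from

* `hcomm` : `HeckeOperatorsCommuteBar N`   (T1),
* `hR`    : `ReductionInputsModL A N` for every `A` over a prime `ℓ ∤ N`   (R-EXIST),
* `hS18`  : the frozen statement S18, verbatim.
-/

set_option autoImplicit false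

noncomputable section

namespace Fermat.Agent.S37.H82

open ModularCurve AlgebraicCurve

theorem specializationExists_of_stage1 (N p : ℕ) [NeZero N]
    (hcomm : ModularCurve.HeckeOperatorsCommuteBar N)
    (hR : ∀ (ℓ : ℕ), ℓ.Prime → ¬ ℓ ∣ N →
      ∀ A : ValuationSubring (AlgebraicClosure ℚ), A.LiesOverPrime ℓ →
        ModularCurve.ReductionInputsModL A N)
    (hS18 : ∀ {ℓ : ℕ} [Fact ℓ.Prime], ¬ ℓ ∣ N →
      ∀ (A : ValuationSubring (AlgebraicClosure ℚ)), A.LiesOverPrime ℓ →
        ModularCurve.ReductionInputsModL A N → ∀ (m : ℕ), ¬ ℓ ∣ m →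
          ∀ z : ModularCurve.JZero N, m • z = 0 → ModularCurve.reductionModL A N z = 0 → z = 0) :
    letI := ModularCurve.heckeModuleBar N
    ∀ (_ : SMulCommClass (AlgebraicClosure ℚ ≃ₐ[ℚ] AlgebraicClosure ℚ) ModularCurve.HeckeAlg
      (ModularCurve.JZero N)),
      ModularCurve.SpecializationExists (K := ℚ) (L := AlgebraicClosure ℚ) N p
        (ModularCurve.JZero N) :=
  H86.specializationExists_of_stage1_of_ES N p hcomm hR hS18
    (fun _ hℓ hℓNp A _ => fun y =>
      reductionModL_heckeOperatorBar hℓ (fun h => hℓNp (h.mul_right p)) A y)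

end Fermat.Agent.S37.H82

end
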