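import Mathlib

/-!
S37 / NORM-EMB (helper19), Mathlib only: norm and trace as product / sum over a COMPLETE list of
embeddings into an ARBITRARY field `Ω` (not necessarily algebraically closed).

`K ⊆ E` finite separable of degree `n`, `Ω` a field, `f : K →+* Ω`, and `n` pairwise distinct ring
homomorphisms `σ i : E →+* Ω` extending `f`.  Then `f (N_{E/K} x) = ∏ i, σ i x` and
`f (Tr_{E/K} x) = ∑ i, σ i x`.

(Proof: push everything into an algebraic closure of `Ω`; there the `σ i` exhaust the `K`-embeddings
by counting, and Mathlib's `Algebra.norm_eq_prod_embeddings` applies.)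
-/

set_option autoImplicit false

noncomputable section

namespace Fermat.Agent.S37.H19

open Polynomial

section AlgHom

variable {K E Ω : Type*} [Field K] [Field E] [Field Ω] [Algebra K E] [Algebra K Ω]
  [FiniteDimensional K E] [Algebra.IsSeparable K E]

/-- A family of `[E:K]` pairwise distinct `K`-embeddings into an algebraically closed field is
the family of ALL `K`-embeddings. -/
theorem bijective_of_injective_of_card [IsAlgClosed Ω] {ι : Type*} [Fintype ι]
    (σ : ι → (E →ₐ[K] Ω)) (hσ : Function.Injective σ)
    (hcard : Fintype.card ι = Module.finrank K E) : Function.Bijective σ := by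
  classical
  rw [Fintype.bijective_iff_injective_and_card]
  exact ⟨hσ, by rw [hcard, AlgHom.card K E Ω]⟩

/-- Norm as a product over a complete list of embeddings, algebraically closed target. -/
theorem norm_eq_prod_of_bijective [IsAlgClosed Ω] {ι : Type*} [Fintype ι]
    (σ : ι → (E →ₐ[K] Ω)) (hσ : Function.Bijective σ) (x : E) :
    algebraMap K Ω (Algebra.norm K x) = ∏ i, σ i x := by
  classical
  rw [Algebra.norm_eq_prod_embeddings K Ω x]
  exact (Fintype.prod_bijective σ hσ (fun i => σ i x) (fun τ => τ x) (fun _ => rfl)).symm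

/-- Trace as a sum over a complete list of embeddings, algebraically closed target. -/
theorem trace_eq_sum_of_bijective [IsAlgClosed Ω] {ι : Type*} [Fintype ι]
    (σ : ι → (E →ₐ[K] Ω)) (hσ : Function.Bijective σ) (x : E) :
    algebraMap K Ω (Algebra.trace K E x) = ∑ i, σ i x := by
  classical
  rw [trace_eq_sum_embeddings Ω (K := K) (L := E)]
  exact (Fintype.sum_bijective σ hσ (fun i => σ i x) (fun τ => τ x) (fun _ => rfl)).symm

end AlgHom

section RingHom

variable {K E Ω : Type*} [Field K] [Field E] [Field Ω] [Algebra K E]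
  [FiniteDimensional K E] [Algebra.IsSeparable K E]

/-- **NORM-EMB.** `f (N_{E/K} x) = ∏ i, σ i x` for `[E:K]` pairwise distinct ring homomorphisms
`σ i : E →+* Ω` extending `f : K →+* Ω`, `Ω` ANY field. -/
theorem norm_eq_prod_ringHoms (f : K →+* Ω) {ι : Type*} [Fintype ι] (σ : ι → (E →+* Ω))
    (hσf : ∀ i, (σ i).comp (algebraMap K E) = f) (hσ : Function.Injective σ)
    (hcard : Fintype.card ι = Module.finrank K E) (x : E) :
    f (Algebra.norm K x) = ∏ i, σ i x := by
  classical
  let Ωbar := AlgebraicClosure Ω
  letI : Algebra K Ωbar := ((algebraMap Ω Ωbar).comp f).toAlgebra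
  let τ : ι → (E →ₐ[K] Ωbar) := fun i =>
    { ((algebraMap Ω Ωbar).comp (σ i)) with
      commutes' := fun a => by
        show (algebraMap Ω Ωbar) (σ i (algebraMap K E a)) = (algebraMap Ω Ωbar) (f a)
        rw [← hσf i]
        rfl }
  have hτ : Function.Injective τ := by
    intro i i' h
    apply hσ
    ext y
    have := congrArg (fun g : E →ₐ[K] Ωbar => g y) h
    exact (algebraMap Ω Ωbar).injective this
  have hbij := bijective_of_injective_of_card τ hτ hcard
  have h := norm_eq_prod_of_bijective τ hbij x
  apply (algebraMap Ω Ωbar).injective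
  rw [map_prod]
  exact h

/-- **TRACE-EMB.** `f (Tr_{E/K} x) = ∑ i, σ i x`. -/
theorem trace_eq_sum_ringHoms (f : K →+* Ω) {ι : Type*} [Fintype ι] (σ : ι → (E →+* Ω))
    (hσf : ∀ i, (σ i).comp (algebraMap K E) = f) (hσ : Function.Injective σ)
    (hcard : Fintype.card ι = Module.finrank K E) (x : E) :
    f (Algebra.trace K E x) = ∑ i, σ i x := by
  classical
  let Ωbar := AlgebraicClosure Ω
  letI : Algebra K Ωbar := ((algebraMap Ω Ωbar).comp f).toAlgebra
  let τ : ι → (E →ₐ[K] Ωbar) := fun i =>
    { ((algebraMap Ω Ωbar).comp (σ i)) with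
      commutes' := fun a => by
        show (algebraMap Ω Ωbar) (σ i (algebraMap K E a)) = (algebraMap Ω Ωbar) (f a)
        rw [← hσf i]
        rfl }
  have hτ : Function.Injective τ := by
    intro i i' h
    apply hσ
    ext y
    have := congrArg (fun g : E →ₐ[K] Ωbar => g y) h
    exact (algebraMap Ω Ωbar).injective this
  have hbij := bijective_of_injective_of_card τ hτ hcard
  have h := trace_eq_sum_of_bijective τ hbij x
  apply (algebraMap Ω Ωbar).injective
  rw [map_sum]
  exact h

end RingHom

end Fermat.Agent.S37.H19
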