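import Mathlib
import Fermat.Agent.S37.H19_NormEmb

/-!
S37 / NORM-CLASS (helper19), Mathlib only: the norm of `β y` along `α` from a CLASSIFICATION of
the embeddings, without primitive elements.

Fields `F`, `E`, `Ω`; ring homs `α β : F →+* E` with `E` generated (as a field) by
`α(F) ∪ β(F)`; `[E : α F] = #ι`; `f : F →+* Ω` and a family `lam : ι → (F →+* Ω)` such that every
ring hom `σ : E →+* Ω̄` (`Ω̄` an algebraic closure of `Ω`) extending `f` along `α` satisfies
`σ ∘ β = lam i` for some `i`.  Then `f (N_α (β y)) = ∏ i, lam i y`.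

(The `σ`'s are determined by `σ ∘ β`, so `σ ↦ i` is injective, hence bijective by counting.)
-/

set_option autoImplicit false

noncomputable section

namespace Fermat.Agent.S37.H19

open Polynomial

variable {F E Ω : Type*} [Field F] [Field E] [Field Ω] [CharZero F]

/-- **NORM-CLASS.** -/
theorem norm_eq_prod_of_classification (α β : F →+* E)
    (hgen : Subfield.closure (Set.range α ∪ Set.range β) = ⊤)
    (f : F →+* Ω) {ι : Type*} [Fintype ι] [Nonempty ι] (lam : ι → (F →+* Ω))
    (hcard : Fintype.card ι = (letI := α.toAlgebra; Module.finrank F E))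
    (hclass : ∀ σ : E →+* AlgebraicClosure Ω,
      σ.comp α = (algebraMap Ω (AlgebraicClosure Ω)).comp f →
        ∃ i, σ.comp β = (algebraMap Ω (AlgebraicClosure Ω)).comp (lam i))
    (y : F) :
    f (letI := α.toAlgebra; Algebra.norm F (β y)) = ∏ i, lam i y := by
  classical
  letI : Algebra F E := α.toAlgebra
  have hpos : 0 < Module.finrank F E := by
    rw [← hcard]; exact Fintype.card_pos
  haveI : FiniteDimensional F E := Module.finite_of_finrank_pos hpos
  haveI : Algebra.IsSeparable F E := inferInstance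
  let Ωbar := AlgebraicClosure Ω
  let ιbar : Ω →+* Ωbar := algebraMap Ω Ωbar
  letI : Algebra F Ωbar := (ιbar.comp f).toAlgebra
  -- the classifying map
  have hσ : ∀ σ : E →ₐ[F] Ωbar, (σ : E →+* Ωbar).comp α = ιbar.comp f := by
    intro σ
    ext a
    exact σ.commutes a
  choose Λ hΛ using fun σ : E →ₐ[F] Ωbar => hclass (σ : E →+* Ωbar) (hσ σ)
  have hΛinj : Function.Injective Λ := by
    intro σ σ' h
    have h1 : (σ : E →+* Ωbar) = (σ' : E →+* Ωbar) := by
      apply RingHom.eq_of_eqOn_of_field_closure_eq_top hgen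
      rintro x (⟨a, rfl⟩ | ⟨a, rfl⟩)
      · have e1 := congrArg (fun g : F →+* Ωbar => g a) (hσ σ)
        have e2 := congrArg (fun g : F →+* Ωbar => g a) (hσ σ')
        exact e1.trans e2.symm
      · have e1 := congrArg (fun g : F →+* Ωbar => g a) (hΛ σ)
        have e2 := congrArg (fun g : F →+* Ωbar => g a) (hΛ σ')
        rw [h] at e1
        exact e1.trans e2.symm
    ext x
    exact congrArg (fun g : E →+* Ωbar => g x) h1
  have hΛbij : Function.Bijective Λ := by
    rw [Fintype.bijective_iff_injective_and_card]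
    exact ⟨hΛinj, by rw [AlgHom.card F E Ωbar, hcard]⟩
  -- norm as a product over all embeddings
  have hnorm : algebraMap F Ωbar (Algebra.norm F (β y)) = ∏ σ : E →ₐ[F] Ωbar, σ (β y) :=
    Algebra.norm_eq_prod_embeddings F Ωbar (β y)
  have hterm : ∀ σ : E →ₐ[F] Ωbar, σ (β y) = ιbar (lam (Λ σ) y) := fun σ =>
    congrArg (fun g : F →+* Ωbar => g y) (hΛ σ)
  have hprod : ∏ σ : E →ₐ[F] Ωbar, σ (β y) = ∏ i, ιbar (lam i y) := by
    rw [Finset.prod_congr rfl fun σ _ => hterm σ]
    exact Fintype.prod_bijective Λ hΛbij _ _ fun _ => rfl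
  apply ιbar.injective
  rw [map_prod, ← hprod, ← hnorm]
  rfl

end Fermat.Agent.S37.H19
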