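import Mathlib
import Fermat.Agent.S28.H59_PrimeStep
import Fermat.Agent.S28.H39_Laurent
import Fermat.Agent.S28.H43_Toolkit

/-!
S37 / NORM-PIN (helper19): the "pinning" step in the computation of the conjugates of
`F_{Nℓ}` over `α(F_N)` (q-expansion of the Hecke norm, helper64's (K1)).

`k` a field, `t` the variable of `k((t))`.

* `roots_modPoly_ringHom` (PIN0): for a level-`m` modular polynomial `Φ` (monic, degree
  `#triples m`, `RootsAt k m ζ Φ`) and ANY ring endomorphism `τ` of `k((t))`, the roots of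
  `Φ(X, τ (j(t^m)))` in `k((t))` are exactly the `τ (J_g)`, `g ∈ triples m`.
* `roots_prime` (PIN3): roots of `Φ_ℓ(X, j(t^(Nℓ)))` are `j(t^(Nℓ²))` and `j(ζ^c t^N)`, `c < ℓ`.
* `eval_twist_Jconj_eq_zero_iff` (PIN1): `Φ_N(j(ζ^c t^N), j(ζ^b t)) = 0 ↔ ζ^c = ζ^(bN)`  (`ℓ ∤ N`).
* `eval_twist_qExpand_ne_zero`, `eval_qExpand_Jconj_ne_zero`, `eval_qExpand_qExpand` (PIN2).
* `pinned_finite`, `pinned_infinite` (PIN4): the directly consumable forms.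
-/

set_option autoImplicit false
set_option linter.unusedSectionVars false
set_option linter.style.haveILetI false

noncomputable section

namespace Fermat.Agent.S37.H19

open ModularCurve HahnSeries Polynomial Fermat.Agent.S28

variable {k : Type*} [Field k]

/-! ### PIN0: all roots of `Φ_m(X, τ j(t^m))` -/

section Pin0

variable {m : ℕ} [NeZero m] {Φ : Polynomial ℤ[X]} {ζ : kˣ}

/-- `RootsAt` in the `Jtrip` form. -/
theorem rootsAt_Jtrip (hR : RootsAt k m ζ Φ) {g : ℕ × ℕ × ℕ} (hg : g ∈ triples m) :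
    Φ.eval₂ (evalJ (qExpand k m (jqModC k))) (H59.Jtrip ζ g) = 0 := by
  obtain ⟨a, b, d⟩ := g
  have hm : 0 < m := Nat.pos_of_ne_zero (NeZero.ne m)
  have hprim : IsPrimTriple m a b d := (mem_triples hm).mp hg
  have ha : a ≠ 0 := H59.fst_ne_zero_of_mem_triples hm hg
  haveI : NeZero (a * a) := ⟨mul_ne_zero ha ha⟩
  rw [H59.Jtrip_eq]
  exact hR a b d hprim inferInstance

/-- **PIN0.** For any ring endomorphism `τ` of `k((t))`, the roots of `Φ_m(X, τ (j(t^m)))` are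
exactly the `τ`-images of the formal conjugates. -/
theorem roots_modPoly_ringHom (hΦm : Φ.Monic) (hΦd : Φ.natDegree = (triples m).card)
    (hζ : IsPrimitiveRoot ζ m) (hR : RootsAt k m ζ Φ)
    (τ : LaurentSeries k →+* LaurentSeries k) (θ : LaurentSeries k) :
    Φ.eval₂ (evalJ (τ (qExpand k m (jqModC k)))) θ = 0 ↔
      ∃ g ∈ triples m, θ = τ (H59.Jtrip ζ g) := by
  have hm : 0 < m := Nat.pos_of_ne_zero (NeZero.ne m)
  set P : Polynomial (LaurentSeries k) := Φ.map (evalJ (τ (qExpand k m (jqModC k)))) with hP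
  have hPm : P.Monic := hΦm.map _
  have hPd : P.natDegree = (triples m).card := by rw [hP, hΦm.natDegree_map, hΦd]
  have hroot : ∀ g ∈ triples m, P.eval (τ (H59.Jtrip ζ g)) = 0 := by
    intro g hg
    rw [hP, Polynomial.eval_map, ← H59.map_eval₂_evalJ, rootsAt_Jtrip hR hg, map_zero]
  have hinj : Set.InjOn (fun g => τ (H59.Jtrip ζ g)) (triples m : Set (ℕ × ℕ × ℕ)) :=
    fun g hg g' hg' h => H59.Jtrip_injOn hm hζ hg hg' (τ.injective h)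
  constructor
  · intro h
    have h' : P.eval θ = 0 := by rw [hP, Polynomial.eval_map]; exact h
    obtain ⟨g, hg, hgθ⟩ :=
      H59.exists_eq_of_root_of_distinct P hPm.ne_zero (triples m) _ hinj hroot hPd h'
    exact ⟨g, hg, hgθ.symm⟩
  · rintro ⟨g, hg, rfl⟩
    have := hroot g hg
    rwa [hP, Polynomial.eval_map] at this

end Pin0

/-! ### The basic relation `Φ_N(j(q^N), j(q)) = 0` over `k` and its images -/

section Basic

variable {N : ℕ} [NeZero N] {Φ : Polynomial ℤ[X]} {ζN : kˣ}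

/-- `Φ_N(j(q^N), j(q)) = 0` over `k`. -/
theorem eval_jN_j (hR : RootsAt k N ζN Φ) :
    Φ.eval₂ (evalJ (jqModC k)) (qExpand k N (jqModC k)) = 0 := by
  have hN : 0 < N := Nat.pos_of_ne_zero (NeZero.ne N)
  haveI : NeZero (N * N) := ⟨mul_ne_zero hN.ne' hN.ne'⟩
  have h1 := hR N 0 1 ⟨mul_one N, Nat.zero_lt_one, by simp⟩ inferInstance
  rw [mul_zero, pow_zero, Jconj_one, ← qExpand_qExpand, ← H59.map_eval₂_evalJ] at h1
  exact qExpand_injective N (by rw [h1, map_zero])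

/-- `Φ_N(τ j(q^N), τ j(q)) = 0` for every ring endomorphism `τ`. -/
theorem eval_ringHom_jN_j (hR : RootsAt k N ζN Φ) (τ : LaurentSeries k →+* LaurentSeries k) :
    Φ.eval₂ (evalJ (τ (jqModC k))) (τ (qExpand k N (jqModC k))) = 0 := by
  rw [← H59.map_eval₂_evalJ, eval_jN_j hR, map_zero]

end Basic

/-! ### Arithmetic of roots of unity -/

section Units

variable {ℓ N : ℕ}

/-- For `ℓ` prime, `ℓ ∤ N`, every `ℓ`-th root of unity `ξ` has an `N`-th root among the `ℓ`-th roots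
of unity. -/
theorem exists_pow_eq_of_not_dvd (hℓ : ℓ.Prime) (hℓN : ¬ ℓ ∣ N) (ξ : kˣ) (hξ : ξ ^ ℓ = 1) :
    ∃ η : kˣ, η ^ ℓ = 1 ∧ η ^ N = ξ := by
  have hcop : Nat.Coprime N ℓ := ((Nat.Prime.coprime_iff_not_dvd hℓ).mpr hℓN).symm
  obtain ⟨M, -, hM⟩ := Nat.exists_mul_mod_eq_one_of_coprime hcop hℓ.one_lt
  refine ⟨ξ ^ M, ?_, ?_⟩
  · rw [← pow_mul, mul_comm, pow_mul, hξ, one_pow]
  · rw [← pow_mul, mul_comm M N]
    conv_lhs => rw [← Nat.div_add_mod (N * M) ℓ, hM]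
    rw [_root_.pow_add, pow_mul, hξ, one_pow, one_mul, pow_one]

end Units

/-! ### PIN1 / PIN2 -/

section Pin

variable {N ℓ : ℕ} [NeZero N] [NeZero ℓ] {Φ : Polynomial ℤ[X]} {ζN : kˣ}

/-- the triple with `a * a = N * N` is `(N, 0, 1)`. -/
theorem triple_eq_of_sq {g : ℕ × ℕ × ℕ} (hg : g ∈ triples N) (h : g.1 * g.1 = N * N) :
    g = (N, 0, 1) := by
  have hN : 0 < N := Nat.pos_of_ne_zero (NeZero.ne N)
  obtain ⟨a, b, d⟩ := g
  obtain ⟨h1, h2, -⟩ := (mem_triples hN).mp hg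
  simp only at h h1 h2
  have ha : a = N := by
    rcases lt_trichotomy a N with hlt | heq | hgt
    · exfalso; have := Nat.mul_lt_mul'' hlt hlt; omega
    · exact heq
    · exfalso; have := Nat.mul_lt_mul'' hgt hgt; omega
  subst ha
  have hd : d = 1 := by
    have : a * d = a * 1 := by rw [h1, mul_one]
    exact Nat.eq_of_mul_eq_mul_left hN this
  subst hd
  have hb : b = 0 := by omega
  subst hb
  rfl

theorem fst_le_of_mem_triples {g : ℕ × ℕ × ℕ} (hg : g ∈ triples N) : g.1 ≤ N := by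
  have hN : 0 < N := Nat.pos_of_ne_zero (NeZero.ne N)
  obtain ⟨a, b, d⟩ := g
  obtain ⟨h1, h2, -⟩ := (mem_triples hN).mp hg
  simp only at h1 h2 ⊢
  have hd : 0 < d := by omega
  calc a = a * 1 := (mul_one a).symm
    _ ≤ a * d := Nat.mul_le_mul_left a hd
    _ = N := h1

/-- `twist η (J_g) = J(ζ_N^(ab) η^(a²) t^(a²))`. -/
theorem twist_Jtrip (η : kˣ) {g : ℕ × ℕ × ℕ} (hg : g ∈ triples N)
    [NeZero (g.1 * g.1)] :
    twist η (H59.Jtrip ζN g) =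
      Jconj k (ζN ^ (g.1 * g.2.1) * η ^ (g.1 * g.1)) (g.1 * g.1) := by
  obtain ⟨a, b, d⟩ := g
  rw [H59.Jtrip_eq, H43.twist_Jconj]

/-- `qExpand f (J_g) = J(ζ_N^(ab) t^(f a²))`. -/
theorem qExpand_Jtrip (f : ℕ) [NeZero f] {g : ℕ × ℕ × ℕ} (hg : g ∈ triples N)
    [NeZero (g.1 * g.1)] :
    qExpand k f (H59.Jtrip ζN g) = Jconj k (ζN ^ (g.1 * g.2.1)) (f * (g.1 * g.1)) := by
  obtain ⟨a, b, d⟩ := g
  rw [H59.Jtrip_eq, H59.qExpand_Jconj]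

variable (hΦm : Φ.Monic) (hΦd : Φ.natDegree = (triples N).card)
  (hζN : IsPrimitiveRoot ζN N) (hR : RootsAt k N ζN Φ)
  (hℓ : ℓ.Prime) (hℓN : ¬ ℓ ∣ N) {z : kˣ} (hz : IsPrimitiveRoot z ℓ)

include hΦm hΦd hζN hR hℓ hℓN hz

/-- **PIN1.** `Φ_N(j(z^c t^N), j(z^b t)) = 0 ↔ z^c = z^(bN)`. -/
theorem eval_twist_Jconj_eq_zero_iff (b c : ℕ) :
    Φ.eval₂ (evalJ (twist (z ^ b) (jqModC k))) (Jconj k (z ^ c) N) = 0 ↔
      z ^ c = z ^ (b * N) := by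
  have hN : 0 < N := Nat.pos_of_ne_zero (NeZero.ne N)
  haveI : NeZero (N * N) := ⟨mul_ne_zero hN.ne' hN.ne'⟩
  constructor
  · intro h
    obtain ⟨η, -, hη⟩ := exists_pow_eq_of_not_dvd (k := k) hℓ hℓN (z ^ b)
      (by rw [← pow_mul, mul_comm, pow_mul, hz.pow_eq_one, one_pow])
    -- move to the variable `s`, `t = s^N`
    have h1 := congrArg (qExpand k N) h
    rw [H59.map_eval₂_evalJ, map_zero, H59.qExpand_Jconj] at h1
    have h2 : qExpand k N (twist (z ^ b) (jqModC k)) =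
        (twist η) (qExpand k N (jqModC k)) := by
      rw [H39.twist_qExpand, hη]
    rw [h2, roots_modPoly_ringHom hΦm hΦd hζN hR (twist η)] at h1
    obtain ⟨g, hg, hgθ⟩ := h1
    have ha : g.1 ≠ 0 := H59.fst_ne_zero_of_mem_triples hN hg
    haveI : NeZero (g.1 * g.1) := ⟨mul_ne_zero ha ha⟩
    rw [twist_Jtrip η hg] at hgθ
    obtain ⟨he, hξ⟩ := H59.Jconj_injective hgθ
    have hg' := triple_eq_of_sq hg he.symm
    rw [hg'] at hξ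
    simp only [mul_zero, pow_zero, one_mul] at hξ
    rw [hξ, pow_mul, hη, ← pow_mul]
  · intro h
    have h1 := eval_ringHom_jN_j hR (twist (z ^ b))
    rw [H39.twist_qExpand, ← pow_mul, ← h] at h1
    exact h1

/-- **PIN2a.** `Φ_N(j(t^(Nℓ²)), j(z^b t)) ≠ 0`. -/
theorem eval_twist_qExpand_ne_zero (b : ℕ) [NeZero (N * ℓ * ℓ)] :
    Φ.eval₂ (evalJ (twist (z ^ b) (jqModC k))) (qExpand k (N * ℓ * ℓ) (jqModC k)) ≠ 0 := by
  have hN : 0 < N := Nat.pos_of_ne_zero (NeZero.ne N)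
  intro h
  obtain ⟨η, -, hη⟩ := exists_pow_eq_of_not_dvd (k := k) hℓ hℓN (z ^ b)
    (by rw [← pow_mul, mul_comm, pow_mul, hz.pow_eq_one, one_pow])
  have h1 := congrArg (qExpand k N) h
  rw [H59.map_eval₂_evalJ, map_zero, qExpand_qExpand] at h1
  have h2 : qExpand k N (twist (z ^ b) (jqModC k)) =
      (twist η) (qExpand k N (jqModC k)) := by
    rw [H39.twist_qExpand, hη]
  rw [h2, roots_modPoly_ringHom hΦm hΦd hζN hR (twist η)] at h1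
  obtain ⟨g, hg, hgθ⟩ := h1
  have ha : g.1 ≠ 0 := H59.fst_ne_zero_of_mem_triples hN hg
  haveI : NeZero (g.1 * g.1) := ⟨mul_ne_zero ha ha⟩
  rw [twist_Jtrip η hg, ← Jconj_one] at hgθ
  obtain ⟨he, -⟩ := H59.Jconj_injective hgθ
  have hle := fst_le_of_mem_triples hg
  have h3 : g.1 * g.1 ≤ N * N := Nat.mul_le_mul hle hle
  have h4 : N * N < N * (N * ℓ * ℓ) := by
    have : 1 < ℓ * ℓ := by
      have := hℓ.one_lt
      nlinarith
    calc N * N = N * N * 1 := (mul_one _).symm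
      _ < N * N * (ℓ * ℓ) := Nat.mul_lt_mul_of_pos_left this (Nat.mul_pos hN hN)
      _ = N * (N * ℓ * ℓ) := by ring
  omega

/-- **PIN2b.** `Φ_N(j(z^c t^N), j(t^(ℓ²))) ≠ 0`. -/
theorem eval_qExpand_Jconj_ne_zero (c : ℕ) [NeZero (ℓ * ℓ)] :
    Φ.eval₂ (evalJ (qExpand k (ℓ * ℓ) (jqModC k))) (Jconj k (z ^ c) N) ≠ 0 := by
  have hN : 0 < N := Nat.pos_of_ne_zero (NeZero.ne N)
  haveI : NeZero (N * N) := ⟨mul_ne_zero hN.ne' hN.ne'⟩
  intro h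
  have h1 := congrArg (qExpand k N) h
  rw [H59.map_eval₂_evalJ, map_zero, H59.qExpand_Jconj] at h1
  have h2 : qExpand k N (qExpand k (ℓ * ℓ) (jqModC k)) =
      (qExpand k (ℓ * ℓ)) (qExpand k N (jqModC k)) := by
    rw [qExpand_qExpand, qExpand_qExpand]
    exact qExpand_congr (mul_comm _ _) _
  rw [h2, roots_modPoly_ringHom hΦm hΦd hζN hR (qExpand k (ℓ * ℓ))] at h1
  obtain ⟨g, hg, hgθ⟩ := h1
  have ha : g.1 ≠ 0 := H59.fst_ne_zero_of_mem_triples hN hg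
  haveI : NeZero (g.1 * g.1) := ⟨mul_ne_zero ha ha⟩
  rw [qExpand_Jtrip (ℓ * ℓ) hg] at hgθ
  obtain ⟨he, -⟩ := H59.Jconj_injective hgθ
  have hdvd : ℓ ∣ N * N := ⟨ℓ * (g.1 * g.1), by rw [he]; ring⟩
  rcases (Nat.Prime.dvd_mul hℓ).mp hdvd with h' | h' <;> exact hℓN h'

omit hΦm hΦd hζN hℓ hℓN hz in
/-- **PIN2c.** `Φ_N(j(t^(Nℓ²)), j(t^(ℓ²))) = 0`. -/
theorem eval_qExpand_qExpand [NeZero (ℓ * ℓ)] [NeZero (N * ℓ * ℓ)] :
    Φ.eval₂ (evalJ (qExpand k (ℓ * ℓ) (jqModC k))) (qExpand k (N * ℓ * ℓ) (jqModC k)) = 0 := by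
  have h1 := eval_ringHom_jN_j hR (qExpand k (ℓ * ℓ))
  rw [qExpand_qExpand] at h1
  rw [← h1]
  congr 1
  exact qExpand_congr (by ring) _

end Pin

/-! ### PIN3: the roots of `Φ_ℓ(X, j(t^(Nℓ)))` -/

section Pin3

variable {N ℓ : ℕ} [NeZero N] [NeZero ℓ] {Ψ : Polynomial ℤ[X]} {z : kˣ}

/-- **PIN3.** The roots of `Φ_ℓ(X, j(t^(Nℓ)))` in `k((t))` are `j(t^(Nℓ²))` and the
`j(z^c t^N)`, `c < ℓ`. -/
theorem roots_prime (hΨm : Ψ.Monic) (hΨd : Ψ.natDegree = (triples ℓ).card)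
    (hℓ : ℓ.Prime) (hz : IsPrimitiveRoot z ℓ) (hRℓ : RootsAt k ℓ z Ψ)
    [NeZero (N * ℓ)] [NeZero (N * ℓ * ℓ)] (θ : LaurentSeries k) :
    Ψ.eval₂ (evalJ (qExpand k (N * ℓ) (jqModC k))) θ = 0 ↔
      θ = qExpand k (N * ℓ * ℓ) (jqModC k) ∨ ∃ c < ℓ, θ = Jconj k (z ^ c) N := by
  have h0 : qExpand k (N * ℓ) (jqModC k) = (qExpand k N) (qExpand k ℓ (jqModC k)) := by
    rw [qExpand_qExpand]
  rw [h0, roots_modPoly_ringHom hΨm hΨd hz hRℓ (qExpand k N), H64.triples_prime hℓ]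
  haveI : NeZero (ℓ * ℓ) := ⟨mul_ne_zero hℓ.ne_zero hℓ.ne_zero⟩
  haveI : NeZero (1 * 1) := ⟨by norm_num⟩
  have hinf : qExpand k N (H59.Jtrip z (ℓ, 0, 1)) = qExpand k (N * ℓ * ℓ) (jqModC k) := by
    rw [H59.Jtrip_eq, mul_zero, pow_zero, Jconj_one, qExpand_qExpand]
    exact qExpand_congr (by ring) _
  have hfin : ∀ c : ℕ, qExpand k N (H59.Jtrip z (1, c, ℓ)) = Jconj k (z ^ c) N := by
    intro c
    rw [H59.Jtrip_eq, H59.qExpand_Jconj, one_mul]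
    exact H59.Jconj_congr rfl (by ring)
  constructor
  · rintro ⟨g, hg, rfl⟩
    rw [Finset.mem_insert, Finset.mem_image] at hg
    rcases hg with rfl | ⟨c, hc, rfl⟩
    · exact Or.inl hinf
    · exact Or.inr ⟨c, Finset.mem_range.mp hc, hfin c⟩
  · rintro (rfl | ⟨c, hc, rfl⟩)
    · exact ⟨(ℓ, 0, 1), Finset.mem_insert_self _ _, hinf.symm⟩
    · exact ⟨(1, c, ℓ), Finset.mem_insert_of_mem
        (Finset.mem_image.mpr ⟨c, Finset.mem_range.mpr hc, rfl⟩), (hfin c).symm⟩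

end Pin3

/-! ### PIN4: the consumable forms -/

section Pin4

variable {N ℓ : ℕ} [NeZero N] [NeZero ℓ] {Φ Ψ : Polynomial ℤ[X]} {ζN z : kˣ}

/-- **PIN4 (finite conjugates).** A common root `θ` of `Φ_ℓ(X, j(t^(Nℓ)))` and of
`Φ_N(X, j(z^b t))` is `j_N(z^b t) = twist (z^b) (j(t^N))`. -/
theorem pinned_finite (hΦm : Φ.Monic) (hΦd : Φ.natDegree = (triples N).card)
    (hζN : IsPrimitiveRoot ζN N) (hR : RootsAt k N ζN Φ)
    (hΨm : Ψ.Monic) (hΨd : Ψ.natDegree = (triples ℓ).card)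
    (hℓ : ℓ.Prime) (hℓN : ¬ ℓ ∣ N) (hz : IsPrimitiveRoot z ℓ) (hRℓ : RootsAt k ℓ z Ψ)
    [NeZero (N * ℓ)] (b : ℕ) (θ : LaurentSeries k)
    (h1 : Ψ.eval₂ (evalJ (qExpand k (N * ℓ) (jqModC k))) θ = 0)
    (h2 : Φ.eval₂ (evalJ (twist (z ^ b) (jqModC k))) θ = 0) :
    θ = twist (z ^ b) (qExpand k N (jqModC k)) := by
  have hN : 0 < N := Nat.pos_of_ne_zero (NeZero.ne N)
  haveI : NeZero (N * ℓ * ℓ) := ⟨mul_ne_zero (mul_ne_zero hN.ne' hℓ.ne_zero) hℓ.ne_zero⟩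
  rcases (roots_prime hΨm hΨd hℓ hz hRℓ θ).mp h1 with rfl | ⟨c, -, rfl⟩
  · exact absurd h2 (eval_twist_qExpand_ne_zero hΦm hΦd hζN hR hℓ hℓN hz b)
  · rw [eval_twist_Jconj_eq_zero_iff hΦm hΦd hζN hR hℓ hℓN hz] at h2
    rw [H39.twist_qExpand, ← pow_mul, ← h2]
    rfl

/-- **PIN4 (the conjugate at infinity).** A common root `θ` of `Φ_ℓ(X, j(t^(Nℓ)))` and of
`Φ_N(X, j(t^(ℓ²)))` is `j(t^(Nℓ²))`. -/
theorem pinned_infinite (hΦm : Φ.Monic) (hΦd : Φ.natDegree = (triples N).card)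
    (hζN : IsPrimitiveRoot ζN N) (hR : RootsAt k N ζN Φ)
    (hΨm : Ψ.Monic) (hΨd : Ψ.natDegree = (triples ℓ).card)
    (hℓ : ℓ.Prime) (hℓN : ¬ ℓ ∣ N) (hz : IsPrimitiveRoot z ℓ) (hRℓ : RootsAt k ℓ z Ψ)
    [NeZero (N * ℓ)] [NeZero (ℓ * ℓ)] [NeZero (N * ℓ * ℓ)] (θ : LaurentSeries k)
    (h1 : Ψ.eval₂ (evalJ (qExpand k (N * ℓ) (jqModC k))) θ = 0)
    (h2 : Φ.eval₂ (evalJ (qExpand k (ℓ * ℓ) (jqModC k))) θ = 0) :
    θ = qExpand k (N * ℓ * ℓ) (jqModC k) := by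
  rcases (roots_prime hΨm hΨd hℓ hz hRℓ θ).mp h1 with rfl | ⟨c, -, rfl⟩
  · rfl
  · exact absurd h2 (eval_qExpand_Jconj_ne_zero hΦm hΦd hζN hR hℓ hℓN hz c)

end Pin4

/-! ### PIN5: the pair `(σ (j(q^ℓ)), σ (j(q^(Nℓ))))` -/

section Pin5

variable {N ℓ : ℕ} [NeZero N] [NeZero ℓ] {Φ Ψ : Polynomial ℤ[X]} {ζN z : kˣ}

/-- `roots_prime` at `N = 1`: the roots of `Φ_ℓ(X, j(t^ℓ))` are `j(t^(ℓ²))` and the `j(z^b t)`. -/
theorem roots_prime_one (hΨm : Ψ.Monic) (hΨd : Ψ.natDegree = (triples ℓ).card)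
    (hℓ : ℓ.Prime) (hz : IsPrimitiveRoot z ℓ) (hRℓ : RootsAt k ℓ z Ψ)
    [NeZero (ℓ * ℓ)] (x : LaurentSeries k) :
    Ψ.eval₂ (evalJ (qExpand k ℓ (jqModC k))) x = 0 ↔
      x = qExpand k (ℓ * ℓ) (jqModC k) ∨ ∃ b < ℓ, x = twist (z ^ b) (jqModC k) := by
  haveI : NeZero (1 * ℓ) := ⟨by rw [one_mul]; exact hℓ.ne_zero⟩
  haveI : NeZero (1 * ℓ * ℓ) := ⟨by rw [one_mul]; exact mul_ne_zero hℓ.ne_zero hℓ.ne_zero⟩
  have h := roots_prime (N := 1) hΨm hΨd hℓ hz hRℓ x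
  have e1 : qExpand k (1 * ℓ) (jqModC k) = qExpand k ℓ (jqModC k) :=
    qExpand_congr (one_mul ℓ) _
  have e2 : qExpand k (1 * ℓ * ℓ) (jqModC k) = qExpand k (ℓ * ℓ) (jqModC k) :=
    qExpand_congr (by rw [one_mul]) _
  have e3 : ∀ b : ℕ, Jconj k (z ^ b) 1 = twist (z ^ b) (jqModC k) := fun b => by
    rw [Jconj, H39.subst_eq_twist]
  rw [e1, e2] at h
  simpa only [e3] using h

/-- **PIN5.** Let `x, θ ∈ k((t))` satisfy the three modular relations satisfied by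
`(j(q^ℓ), j(q^(Nℓ)))` over `α(F_N)` (`q = t^ℓ`):
`Φ_ℓ(x, j(t^ℓ)) = 0`, `Φ_ℓ(θ, j(t^(Nℓ))) = 0`, `Φ_N(θ, x) = 0`.  Then `(x, θ) = (λ j, λ j_N)` for
`λ = (t ↦ t^(ℓ²))` or `λ = (t ↦ z^b t)`, `b < ℓ`. -/
theorem pair_pinned (hΦm : Φ.Monic) (hΦd : Φ.natDegree = (triples N).card)
    (hζN : IsPrimitiveRoot ζN N) (hR : RootsAt k N ζN Φ)
    (hΨm : Ψ.Monic) (hΨd : Ψ.natDegree = (triples ℓ).card)
    (hℓ : ℓ.Prime) (hℓN : ¬ ℓ ∣ N) (hz : IsPrimitiveRoot z ℓ) (hRℓ : RootsAt k ℓ z Ψ)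
    [NeZero (N * ℓ)] [NeZero (ℓ * ℓ)] [NeZero (N * ℓ * ℓ)] (x θ : LaurentSeries k)
    (hx : Ψ.eval₂ (evalJ (qExpand k ℓ (jqModC k))) x = 0)
    (hθ : Ψ.eval₂ (evalJ (qExpand k (N * ℓ) (jqModC k))) θ = 0)
    (hxθ : Φ.eval₂ (evalJ x) θ = 0) :
    (x = qExpand k (ℓ * ℓ) (jqModC k) ∧ θ = qExpand k (N * ℓ * ℓ) (jqModC k)) ∨
      ∃ b < ℓ, x = twist (z ^ b) (jqModC k) ∧
        θ = twist (z ^ b) (qExpand k N (jqModC k)) := by
  rcases (roots_prime_one hΨm hΨd hℓ hz hRℓ x).mp hx with rfl | ⟨b, hb, rfl⟩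
  · exact Or.inl ⟨rfl, pinned_infinite hΦm hΦd hζN hR hΨm hΨd hℓ hℓN hz hRℓ θ hθ hxθ⟩
  · exact Or.inr ⟨b, hb, rfl, pinned_finite hΦm hΦd hζN hR hΨm hΨd hℓ hℓN hz hRℓ b θ hθ hxθ⟩

end Pin5

end Fermat.Agent.S37.H19
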