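import Mathlib
import Fermat.Prelude.Def_ModularCurve_HeckeOperator
import Fermat.Agent.S24.H40_Generation
import Fermat.Agent.S28.H96_HasModPoly
import Fermat.Agent.S37.H19_Pin
import Fermat.Agent.S37.H19_NormClass

/-!
S37 / NORM-QEXP (helper19, hedge of helper64's (K1)): the q-expansion of the Hecke norm.

For `ℓ` prime, `ℓ ∤ N`, `ζ` a primitive `ℓ`-th root of unity of `Qbar`, `y ∈ F_N`:
`(N_α (β y))(t^ℓ) = y(t^(ℓ²)) * ∏_{b<ℓ} y(ζ^b t)`
where `α = heckeAlphaBar`, `β = heckeBetaBar`, the norm is along `algebraAlong α`.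

Route: classification of the embeddings of `F_{Nℓ}` over `α(F_N)` (`H19_NormClass`) by the pinning
lemmas (`H19_Pin`); the only input not proved here is the degree `[F_{Nℓ} : α F_N] = ℓ + 1`
(hypothesis `hdeg`).
-/

set_option autoImplicit false
set_option linter.unusedSectionVars false
set_option linter.style.haveILetI false

noncomputable section

namespace Fermat.Agent.S37.H19

open ModularCurve AlgebraicCurve HahnSeries Polynomial Fermat.Agent.S28 Fermat.Agent.S24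

/-! ### Modular polynomial data and roots of unity -/

/-- The modular polynomial of level `m` in the shape consumed by `H19_Pin`. -/
theorem exists_modPoly_data (m : ℕ) [NeZero m] :
    ∃ Φ : Polynomial ℤ[X], Φ.Monic ∧ Φ.natDegree = (triples m).card ∧
      ∀ (k : Type) [Field k] (ζ : kˣ), IsPrimitiveRoot ζ m → RootsAt k m ζ Φ := by
  obtain ⟨D, hD⟩ := H96.hasModPoly m
  exact ⟨D.Φ, D.monic, by rw [D.natDegree_eq, H64.card_triples m (NeZero.pos m)], hD⟩

/-- `Qbar` has primitive roots of unity of all orders. -/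
theorem exists_primitiveRoot_Qbar (m : ℕ) [NeZero m] : ∃ ζ : Qbarˣ, IsPrimitiveRoot ζ m := by
  haveI : NeZero ((m : ℕ) : Qbar) := ⟨by exact_mod_cast NeZero.ne m⟩
  obtain ⟨ζ, hζ⟩ := HasEnoughRootsOfUnity.exists_primitiveRoot Qbar m
  exact ⟨(hζ.isUnit (NeZero.ne m)).unit, IsPrimitiveRoot.coe_units_iff.mp (by
    rw [IsUnit.unit_spec]; exact hζ)⟩

/-! ### Coercions of the generators -/

section Coe

variable (N : ℕ) [NeZero N]

theorem coe_jd (d : ℕ) [NeZero d] (hd : d ∣ N) :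
    ((jd N d hd : FN N) : LaurentSeries Qbar) = qExpand Qbar d (jqModC Qbar) := by
  show coeffEmb Qbar (qExpand ℚ d jq) = _
  rw [coeffEmb, coeffMap_qExpand, ← jqModC_rat, coeffMap_jqModC]

theorem coe_algebraMap (c : Qbar) :
    ((algebraMap Qbar (FN N) c : FN N) : LaurentSeries Qbar) = HahnSeries.C c := by
  show algebraMap Qbar (LaurentSeries Qbar) c = _
  rw [algebraMap_laurentSeries_eq_single]
  rfl

/-- The coercion `F_N → Qbar((q))` as a ring homomorphism. -/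
def valHom : FN N →+* LaurentSeries Qbar := (modularFunctionFieldBar N).val.toRingHom

@[simp] theorem valHom_apply (y : FN N) : valHom N y = (y : LaurentSeries Qbar) := rfl

theorem valHom_injective : Function.Injective (valHom N) := Subtype.val_injective

/-- `F_N` is generated as a field by the constants and the `j(q^d)`, `d ∣ N`. -/
theorem closure_jdSet_eq_top :
    Subfield.closure (Set.range (algebraMap Qbar (FN N)) ∪ H40.jdSet N) = ⊤ := by
  rw [← IntermediateField.adjoin_toSubfield, H40.adjoin_jdSet_eq_top]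
  rfl

end Coe

/-! ### Splitting of `Φ_m(X, τ j(t^m))` and preimages of roots -/

section Split

variable {k : Type*} [Field k] {m : ℕ} [NeZero m] {Φ : Polynomial ℤ[X]} {ζ : kˣ}

/-- `Φ_m(X, τ j(t^m))` splits in `k((t))`. -/
theorem splits_modPoly_ringHom (hΦm : Φ.Monic) (hΦd : Φ.natDegree = (triples m).card)
    (hζ : IsPrimitiveRoot ζ m) (hR : RootsAt k m ζ Φ)
    (τ : LaurentSeries k →+* LaurentSeries k) :
    (Φ.map (evalJ (τ (qExpand k m (jqModC k))))).Splits := by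
  have hm : 0 < m := Nat.pos_of_ne_zero (NeZero.ne m)
  set P : Polynomial (LaurentSeries k) := Φ.map (evalJ (τ (qExpand k m (jqModC k)))) with hP
  have hPm : P.Monic := hΦm.map _
  have hPd : P.natDegree = (triples m).card := by rw [hP, hΦm.natDegree_map, hΦd]
  have hroot : ∀ g ∈ triples m, P.eval (τ (H59.Jtrip ζ g)) = 0 := by
    intro g hg
    rw [hP, Polynomial.eval_map, ← H59.map_eval₂_evalJ, rootsAt_Jtrip hR hg, map_zero]
  have hinj : Set.InjOn (fun g => τ (H59.Jtrip ζ g)) (triples m : Set (ℕ × ℕ × ℕ)) :=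
    fun g hg g' hg' h => H59.Jtrip_injOn hm hζ hg hg' (τ.injective h)
  exact H59.splits_of_distinct P hPm.ne_zero (triples m) _ hinj hroot hPd

/-- A root of `Φ_m(X, τ j(t^m))` in ANY field over `k((t))` comes from `k((t))`. -/
theorem exists_preimage_root (hΦm : Φ.Monic) (hΦd : Φ.natDegree = (triples m).card)
    (hζ : IsPrimitiveRoot ζ m) (hR : RootsAt k m ζ Φ)
    (τ : LaurentSeries k →+* LaurentSeries k) {K' : Type*} [Field K']
    (ι' : LaurentSeries k →+* K') (xbar : K')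
    (h : Φ.eval₂ (H43.evalZ (ι' (τ (qExpand k m (jqModC k))))) xbar = 0) :
    ∃ x : LaurentSeries k, ι' x = xbar ∧
      Φ.eval₂ (evalJ (τ (qExpand k m (jqModC k)))) x = 0 := by
  set P : Polynomial (LaurentSeries k) := Φ.map (evalJ (τ (qExpand k m (jqModC k)))) with hP
  have hPm : P.Monic := hΦm.map _
  have hsp : P.Splits := splits_modPoly_ringHom hΦm hΦd hζ hR τ
  have hroot : (P.map ι').IsRoot xbar := by
    rw [Polynomial.IsRoot.def, Polynomial.eval_map, hP, Polynomial.eval₂_map,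
      H43.evalJ_eq_evalZ, H43.comp_evalZ]
    exact h
  obtain ⟨x, hx⟩ := hsp.mem_range_of_isRoot hPm.ne_zero hroot
  refine ⟨x, hx, ?_⟩
  apply ι'.injective
  rw [map_zero, H43.evalJ_eq_evalZ, H43.map_eval₂_evalZ, hx]
  exact h

end Split

/-! ### The modular relations inside `F_{Nℓ}` -/

section Relations

variable (N ℓ : ℕ) [NeZero N] [NeZero ℓ]

/-- `Φ_ℓ(β j_d, α j_d) = 0` in `F_{Nℓ}`: the relation `Φ_ℓ(j(q^(dℓ)), j(q^d)) = 0`. -/
theorem rel_level_ell {Ψ : Polynomial ℤ[X]} {z : Qbarˣ} (hRℓ : RootsAt Qbar ℓ z Ψ)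
    (d : ℕ) [NeZero d] (hd : d ∣ N) :
    Ψ.eval₂ (H43.evalZ (heckeAlphaBar Qbar N ℓ (jd N d hd)))
      (heckeBetaBar Qbar N ℓ (jd N d hd)) = 0 := by
  apply valHom_injective (N * ℓ)
  rw [map_zero, H43.map_eval₂_evalZ, valHom_apply, valHom_apply, coe_heckeAlphaBar,
    coe_heckeBetaBar, coe_jd, ← H43.evalJ_eq_evalZ]
  have h1 := eval_ringHom_jN_j hRℓ (qExpand Qbar d)
  rw [qExpand_qExpand] at h1
  rw [qExpand_qExpand, ← h1]
  congr 1
  exact qExpand_congr (mul_comm ℓ d) _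

/-- `Φ_d(β j_d, β j) = 0` in `F_{Nℓ}`: the relation `Φ_d(j(q^(dℓ)), j(q^ℓ)) = 0`. -/
theorem rel_level_d (d : ℕ) [NeZero d] (hd : d ∣ N) {Φ : Polynomial ℤ[X]} {ζd : Qbarˣ}
    (hR : RootsAt Qbar d ζd Φ) :
    Φ.eval₂ (H43.evalZ (heckeBetaBar Qbar N ℓ (jd N 1 (one_dvd N))))
      (heckeBetaBar Qbar N ℓ (jd N d hd)) = 0 := by
  apply valHom_injective (N * ℓ)
  rw [map_zero, H43.map_eval₂_evalZ, valHom_apply, valHom_apply,
    coe_heckeBetaBar, coe_heckeBetaBar, coe_jd, coe_jd, qExpand_one_apply,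
    ← H43.evalJ_eq_evalZ]
  exact eval_ringHom_jN_j hR (qExpand Qbar ℓ)

end Relations

/-! ### Classification of the embeddings -/

section Classify

variable (N ℓ : ℕ) [NeZero N] [NeZero ℓ]

/-- The `ℓ + 1` candidate restrictions to `β(F_N)`: `y ↦ y(t^(ℓ²))` and `y ↦ y(ζ^b t)`. -/
def lamHom (ζ : Qbarˣ) : Option (Fin ℓ) → (FN N →+* LaurentSeries Qbar)
  | none => (qExpand Qbar (ℓ * ℓ)).comp (valHom N)
  | some b => (twist (ζ ^ (b : ℕ))).comp (valHom N)

@[simp] theorem lamHom_none (ζ : Qbarˣ) (y : FN N) :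
    lamHom N ℓ ζ none y = qExpand Qbar (ℓ * ℓ) (y : LaurentSeries Qbar) := rfl

@[simp] theorem lamHom_some (ζ : Qbarˣ) (b : Fin ℓ) (y : FN N) :
    lamHom N ℓ ζ (some b) y = twist (ζ ^ (b : ℕ)) (y : LaurentSeries Qbar) := rfl

variable {N ℓ}

/-- The image of `β j_d` under an embedding over `α(F_N)` comes from `Qbar((t))` and is a root of
`Φ_ℓ(X, j(t^(dℓ)))`. -/
theorem exists_theta {K' : Type*} [Field K'] (ι' : LaurentSeries Qbar →+* K')
    (σ : FN (N * ℓ) →+* K')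
    (hσ : ∀ y : FN N, σ (heckeAlphaBar Qbar N ℓ y) = ι' (qExpand Qbar ℓ (y : LaurentSeries Qbar)))
    {Ψ : Polynomial ℤ[X]} {z : Qbarˣ} (hΨm : Ψ.Monic) (hΨd : Ψ.natDegree = (triples ℓ).card)
    (hz : IsPrimitiveRoot z ℓ) (hRℓ : RootsAt Qbar ℓ z Ψ)
    (d : ℕ) [NeZero d] (hd : d ∣ N) :
    ∃ θ : LaurentSeries Qbar, ι' θ = σ (heckeBetaBar Qbar N ℓ (jd N d hd)) ∧
      Ψ.eval₂ (evalJ (qExpand Qbar (d * ℓ) (jqModC Qbar))) θ = 0 := by
  have rel := congrArg σ (rel_level_ell N ℓ hRℓ d hd)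
  rw [H43.map_eval₂_evalZ, map_zero, hσ, coe_jd] at rel
  have e1 : qExpand Qbar ℓ (qExpand Qbar d (jqModC Qbar)) =
      (qExpand Qbar d) (qExpand Qbar ℓ (jqModC Qbar)) := by
    rw [qExpand_qExpand, qExpand_qExpand]
    exact qExpand_congr (mul_comm ℓ d) _
  rw [e1] at rel
  obtain ⟨θ, hθ1, hθ2⟩ := exists_preimage_root hΨm hΨd hz hRℓ (qExpand Qbar d) ι' _ rel
  rw [qExpand_qExpand] at hθ2
  exact ⟨θ, hθ1, hθ2⟩

/-- **Classification.** Every ring hom `σ : F_{Nℓ} → K'` (`K'` a field over `Qbar((t))`) which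
restricts to `q ↦ t^ℓ` on `α(F_N)` restricts on `β(F_N)` to one of the `ℓ + 1` candidates. -/
theorem classify (hℓ : ℓ.Prime) (hℓN : ¬ ℓ ∣ N) (ζ : Qbarˣ) (hζ : IsPrimitiveRoot ζ ℓ)
    {K' : Type*} [Field K'] (ι' : LaurentSeries Qbar →+* K') (σ : FN (N * ℓ) →+* K')
    (hσ : σ.comp (heckeAlphaBar Qbar N ℓ).toRingHom =
      ι'.comp ((qExpand Qbar ℓ).comp (valHom N))) :
    ∃ i, σ.comp (heckeBetaBar Qbar N ℓ).toRingHom = ι'.comp (lamHom N ℓ ζ i) := by
  obtain ⟨Ψ, hΨm, hΨd, hΨR⟩ := exists_modPoly_data ℓ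
  have hRℓ := hΨR Qbar ζ hζ
  have hα : ∀ y : FN N,
      σ (heckeAlphaBar Qbar N ℓ y) = ι' (qExpand Qbar ℓ (y : LaurentSeries Qbar)) :=
    fun y => congrArg (fun g : FN N →+* K' => g y) hσ
  haveI : NeZero (ℓ * ℓ) := ⟨mul_ne_zero hℓ.ne_zero hℓ.ne_zero⟩
  -- the image of `β j`
  obtain ⟨x, hx1, hx2⟩ := exists_theta ι' σ hα hΨm hΨd hζ hRℓ 1 (one_dvd N)
  have hx2' : Ψ.eval₂ (evalJ (qExpand Qbar ℓ (jqModC Qbar))) x = 0 := by
    rw [← hx2]
    congr 2
    exact qExpand_congr (one_mul ℓ).symm _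
  -- the data at each `d ∣ N`
  have key : ∀ (d : ℕ) [NeZero d] (hd : d ∣ N),
      ∃ θ : LaurentSeries Qbar, ι' θ = σ (heckeBetaBar Qbar N ℓ (jd N d hd)) ∧
        ((x = qExpand Qbar (ℓ * ℓ) (jqModC Qbar) →
            θ = qExpand Qbar (d * ℓ * ℓ) (jqModC Qbar)) ∧
          ∀ b : ℕ, x = twist (ζ ^ b) (jqModC Qbar) →
            θ = twist (ζ ^ b) (qExpand Qbar d (jqModC Qbar))) := by
    intro d _ hd
    obtain ⟨Φ, hΦm, hΦd, hΦR⟩ := exists_modPoly_data d
    obtain ⟨ζd, hζd⟩ := exists_primitiveRoot_Qbar d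
    have hR := hΦR Qbar ζd hζd
    have hℓd : ¬ ℓ ∣ d := fun h => hℓN (h.trans hd)
    obtain ⟨θ, hθ1, hθ2⟩ := exists_theta ι' σ hα hΨm hΨd hζ hRℓ d hd
    have rel := congrArg σ (rel_level_d N ℓ d hd hR)
    rw [H43.map_eval₂_evalZ, map_zero, ← hx1, ← hθ1, ← H43.map_eval₂_evalZ] at rel
    have hxθ : Φ.eval₂ (evalJ x) θ = 0 := by
      rw [H43.evalJ_eq_evalZ]
      exact ι'.injective (by rw [rel, map_zero])
    refine ⟨θ, hθ1, ?_, ?_⟩
    · rintro rfl
      exact pinned_infinite hΦm hΦd hζd hR hΨm hΨd hℓ hℓd hζ hRℓ θ hθ2 hxθ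
    · rintro b rfl
      exact pinned_finite hΦm hΦd hζd hR hΨm hΨd hℓ hℓd hζ hRℓ b θ hθ2 hxθ
  -- constants
  have hconst : ∀ c : Qbar, σ (heckeBetaBar Qbar N ℓ (algebraMap Qbar (FN N) c)) =
      ι' (HahnSeries.C c) := by
    intro c
    rw [AlgHom.commutes, ← (heckeAlphaBar Qbar N ℓ).commutes c, hα, coe_algebraMap, qExpand_C]
  -- conclude by generation of `F_N`
  rcases (roots_prime_one hΨm hΨd hℓ hζ hRℓ x).mp hx2' with hx | ⟨b, hb, hx⟩
  · refine ⟨none, ?_⟩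
    apply RingHom.eq_of_eqOn_of_field_closure_eq_top (closure_jdSet_eq_top N)
    rintro y (⟨c, rfl⟩ | ⟨d, hne, hd, rfl⟩)
    · show σ (heckeBetaBar Qbar N ℓ (algebraMap Qbar (FN N) c)) =
        ι' (lamHom N ℓ ζ none (algebraMap Qbar (FN N) c))
      rw [hconst, lamHom_none, coe_algebraMap, qExpand_C]
    · obtain ⟨θ, hθ1, hθinf, -⟩ := key d hd
      show σ (heckeBetaBar Qbar N ℓ (jd N d hd)) = ι' (lamHom N ℓ ζ none (jd N d hd))
      rw [← hθ1, hθinf hx, lamHom_none, coe_jd, qExpand_qExpand]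
      congr 1
      exact qExpand_congr (by ring) _
  · refine ⟨some ⟨b, hb⟩, ?_⟩
    apply RingHom.eq_of_eqOn_of_field_closure_eq_top (closure_jdSet_eq_top N)
    rintro y (⟨c, rfl⟩ | ⟨d, hne, hd, rfl⟩)
    · show σ (heckeBetaBar Qbar N ℓ (algebraMap Qbar (FN N) c)) =
        ι' (lamHom N ℓ ζ (some ⟨b, hb⟩) (algebraMap Qbar (FN N) c))
      rw [hconst, lamHom_some, coe_algebraMap, H39.twist_C]
    · obtain ⟨θ, hθ1, -, hθfin⟩ := key d hd
      show σ (heckeBetaBar Qbar N ℓ (jd N d hd)) =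
        ι' (lamHom N ℓ ζ (some ⟨b, hb⟩) (jd N d hd))
      rw [← hθ1, hθfin b hx, lamHom_some, coe_jd]

end Classify

/-! ### Generation of `F_{Nℓ}` by `α(F_N) ∪ β(F_N)` -/

section Generation

variable (N ℓ : ℕ) [NeZero N] [NeZero ℓ]

theorem jd_eq_alpha (e : ℕ) [NeZero e] (he : e ∣ N) (he' : e ∣ N * ℓ) :
    jd (N * ℓ) e he' = heckeAlphaBar Qbar N ℓ (jd N e he) := by
  apply Subtype.ext
  rw [coe_heckeAlphaBar, coe_jd, coe_jd]

theorem jd_eq_beta (e : ℕ) [NeZero e] (he : e ∣ N) [NeZero (ℓ * e)] (he' : ℓ * e ∣ N * ℓ) :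
    jd (N * ℓ) (ℓ * e) he' = heckeBetaBar Qbar N ℓ (jd N e he) := by
  apply Subtype.ext
  rw [coe_heckeBetaBar, coe_jd, coe_jd, qExpand_qExpand]

/-- `F_{Nℓ}` is generated as a field by `α(F_N) ∪ β(F_N)` (`ℓ` prime). -/
theorem closure_range_alpha_beta (hℓ : ℓ.Prime) :
    Subfield.closure (Set.range (heckeAlphaBar Qbar N ℓ).toRingHom ∪
      Set.range (heckeBetaBar Qbar N ℓ).toRingHom) = ⊤ := by
  rw [eq_top_iff, ← closure_jdSet_eq_top (N * ℓ)]
  apply Subfield.closure_mono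
  rintro y (⟨c, rfl⟩ | ⟨e, hne, he, rfl⟩)
  · left
    exact ⟨algebraMap Qbar (FN N) c, (heckeAlphaBar Qbar N ℓ).commutes c⟩
  · by_cases hℓe : ℓ ∣ e
    · obtain ⟨e', rfl⟩ := hℓe
      have he' : e' ∣ N := by
        have h : ℓ * e' ∣ ℓ * N := by rwa [mul_comm ℓ N]
        exact Nat.dvd_of_mul_dvd_mul_left hℓ.pos h
      haveI : NeZero e' := ⟨fun h => by
        have := NeZero.ne (ℓ * e')
        rw [h, mul_zero] at this
        exact this rfl⟩
      right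
      exact ⟨jd N e' he', (jd_eq_beta N ℓ e' he' he).symm⟩
    · have hcop : Nat.Coprime e ℓ := ((Nat.Prime.coprime_iff_not_dvd hℓ).mpr hℓe).symm
      have he' : e ∣ N := hcop.dvd_of_dvd_mul_right he
      left
      exact ⟨jd N e he', (jd_eq_alpha N ℓ e he' he).symm⟩

end Generation

/-! ### The q-expansion of the Hecke norm -/

section Main

variable (N ℓ : ℕ) [NeZero N] [NeZero ℓ]

instance charZero_FN : CharZero (FN N) :=
  charZero_of_injective_algebraMap (algebraMap Qbar (FN N)).injective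

/-- **(K1), given the degree.** For `ℓ` prime, `ℓ ∤ N`, `ζ` a primitive `ℓ`-th root of unity and
`[F_{Nℓ} : α F_N] = ℓ + 1`:  `(N_α (β y))(t^ℓ) = y(t^(ℓ²)) ∏_{b<ℓ} y(ζ^b t)`. -/
theorem qExpand_norm_heckeBeta_of_finrank (hℓ : ℓ.Prime) (hℓN : ¬ ℓ ∣ N) (ζ : Qbarˣ)
    (hζ : IsPrimitiveRoot ζ ℓ)
    (hdeg : finrankAlong Qbar (heckeAlphaBar Qbar N ℓ) = ℓ + 1) (y : FN N) :
    qExpand Qbar ℓ (((letI := algebraAlong (heckeAlphaBar Qbar N ℓ)
        Algebra.norm (FN N) (heckeBetaBar Qbar N ℓ y) : FN N)) : LaurentSeries Qbar) =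
      qExpand Qbar (ℓ * ℓ) (y : LaurentSeries Qbar) *
        ∏ b ∈ Finset.range ℓ, twist (ζ ^ b) (y : LaurentSeries Qbar) := by
  have hcard : Fintype.card (Option (Fin ℓ)) =
      (letI := (heckeAlphaBar Qbar N ℓ).toRingHom.toAlgebra
       Module.finrank (FN N) (FN (N * ℓ))) := by
    rw [Fintype.card_option, Fintype.card_fin]
    exact hdeg.symm
  have h := norm_eq_prod_of_classification (heckeAlphaBar Qbar N ℓ).toRingHom
    (heckeBetaBar Qbar N ℓ).toRingHom (closure_range_alpha_beta N ℓ hℓ)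
    ((qExpand Qbar ℓ).comp (valHom N)) (lamHom N ℓ ζ) hcard
    (fun σ hσ => classify hℓ hℓN ζ hζ _ σ hσ) y
  rw [Fintype.prod_option] at h
  simp only [lamHom_none, lamHom_some] at h
  rw [Fin.prod_univ_eq_prod_range (fun b => twist (ζ ^ b) (y : LaurentSeries Qbar)) ℓ] at h
  exact h

end Main

end Fermat.Agent.S37.H19
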