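import Mathlib
import Fermat.Agent.S37.H6_LevelDegree
import Fermat.Agent.S37.H19_NormQExp

/-!
S37 / NORM-QEXP (helper19): **(K1), unconditional.**  The q-expansion of the Hecke norm:
for `ℓ` prime, `ℓ ∤ N`, `ζ ∈ Qbar` a primitive `ℓ`-th root of unity and `y ∈ F_N`,

`(N_α (β y))(t^ℓ) = y(t^(ℓ²)) * ∏_{b<ℓ} y(ζ^b t)`

(`α = heckeAlphaBar`, `β = heckeBetaBar`, norm along `algebraAlong α`, i.e. exactly the norm of
the prelude's `NormFormulaAlong` / `PushforwardNormFormula`).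

= `H19.qExpand_norm_heckeBeta_of_finrank` (classification of embeddings + pinning) with the degree
`[F_{Nℓ} : α F_N] = ℓ + 1` from helper6's `H6.finrankAlong_heckeAlphaBar_of_not_dvd`.
-/

set_option autoImplicit false

noncomputable section

namespace Fermat.Agent.S37.H19

open ModularCurve AlgebraicCurve HahnSeries Fermat.Agent.S28 Fermat.Agent.S24

/-- **(K1).** -/
theorem qExpand_norm_heckeBeta (N ℓ : ℕ) [NeZero N] [NeZero ℓ] (hℓ : ℓ.Prime) (hℓN : ¬ ℓ ∣ N)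
    (ζ : Qbarˣ) (hζ : IsPrimitiveRoot ζ ℓ) (y : FN N) :
    qExpand Qbar ℓ (((letI := algebraAlong (heckeAlphaBar Qbar N ℓ)
        Algebra.norm (FN N) (heckeBetaBar Qbar N ℓ y) : FN N)) : LaurentSeries Qbar) =
      qExpand Qbar (ℓ * ℓ) (y : LaurentSeries Qbar) *
        ∏ b ∈ Finset.range ℓ, twist (ζ ^ b) (y : LaurentSeries Qbar) :=
  qExpand_norm_heckeBeta_of_finrank N ℓ hℓ hℓN ζ hζ
    (H6.finrankAlong_heckeAlphaBar_of_not_dvd N ℓ hℓ hℓN) y

/-- (K1) with an existentially chosen primitive root of unity. -/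
theorem exists_qExpand_norm_heckeBeta (N ℓ : ℕ) [NeZero N] [NeZero ℓ] (hℓ : ℓ.Prime)
    (hℓN : ¬ ℓ ∣ N) :
    ∃ ζ : Qbarˣ, IsPrimitiveRoot ζ ℓ ∧ ∀ y : FN N,
      qExpand Qbar ℓ (((letI := algebraAlong (heckeAlphaBar Qbar N ℓ)
          Algebra.norm (FN N) (heckeBetaBar Qbar N ℓ y) : FN N)) : LaurentSeries Qbar) =
        qExpand Qbar (ℓ * ℓ) (y : LaurentSeries Qbar) *
          ∏ b ∈ Finset.range ℓ, twist (ζ ^ b) (y : LaurentSeries Qbar) := by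
  obtain ⟨ζ, hζ⟩ := exists_primitiveRoot_Qbar ℓ
  exact ⟨ζ, hζ, qExpand_norm_heckeBeta N ℓ hℓ hℓN ζ hζ⟩

end Fermat.Agent.S37.H19
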