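/-
Stage 2 of the S37 cluster (helper50): the characteristic-`ℓ` half of the
Eichler–Shimura check on principal divisors, in the vocabulary of `H53_Frob`
(prelude `SemilinearAut`).

For `y` in `Fk := modularFunctionFieldFullC k N` (`k` perfect of characteristic `ℓ`), the
`q`-series `y(q^ℓ) * Frob(y)` -- the reduction of the Hecke norm `Nm_α(β Y)` -- is the
element `esFun y = (Φ⁻¹ y)^ℓ * Φ y` of `Fk` (`Φ := coeffFrob`), and its divisor is
`Φ • div y + ℓ • Φ⁻¹ • div y`.
-/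
import Mathlib
import Fermat.Agent.S37.H53_Frob
import Fermat.Agent.S37.H50_Frobenius

set_option autoImplicit false

noncomputable section

open HahnSeries AlgebraicCurve ModularCurve

namespace Fermat.Agent.S37.H50

section ESDivisor

variable (k : Type*) [Field k] (ℓ : ℕ) [ExpChar k ℓ] [PerfectRing k ℓ] (N : ℕ)

/-- the coefficientwise Frobenius, read in `k((q))`. -/
theorem coe_coeffFrob_smul (y : ↥(modularFunctionFieldFullC k N)) :
    ((H53.coeffFrob k N ℓ • y : ↥(modularFunctionFieldFullC k N)) : LaurentSeries k)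
      = frobHom k ℓ (y : LaurentSeries k) := by
  rw [H53.coeffFrob, H53.coe_coeffAut_smul]
  rfl

/-- the inverse coefficientwise Frobenius, read in `k((q))`. -/
theorem frobHom_coe_coeffFrob_inv_smul (y : ↥(modularFunctionFieldFullC k N)) :
    frobHom k ℓ (((H53.coeffFrob k N ℓ)⁻¹ • y : ↥(modularFunctionFieldFullC k N)) :
      LaurentSeries k) = (y : LaurentSeries k) := by
  rw [← coe_coeffFrob_smul, smul_inv_smul]

/-- The reduction of the Hecke norm at `ℓ`: `esFun y = (Φ⁻¹ y)^ℓ * Φ y`, `Φ := coeffFrob`. -/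
def esFun (y : ↥(modularFunctionFieldFullC k N)) : ↥(modularFunctionFieldFullC k N) :=
  ((H53.coeffFrob k N ℓ)⁻¹ • y) ^ ℓ * (H53.coeffFrob k N ℓ • y)

theorem esFun_ne_zero {y : ↥(modularFunctionFieldFullC k N)} (hy : y ≠ 0) :
    esFun k ℓ N y ≠ 0 := by
  have h1 : (H53.coeffFrob k N ℓ)⁻¹ • y ≠ 0 := (smul_ne_zero_iff_ne _).mpr hy
  have h2 : H53.coeffFrob k N ℓ • y ≠ 0 := (smul_ne_zero_iff_ne _).mpr hy
  exact mul_ne_zero (pow_ne_zero _ h1) h2

/-- **Pointwise Eichler–Shimura on the special fibre.**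
`ord_Q (y(q^ℓ) Frob y) = ord_{Φ⁻¹ Q} y + ℓ ord_{Φ Q} y`. -/
theorem ord_esFun (Q : Place k ↥(modularFunctionFieldFullC k N))
    {y : ↥(modularFunctionFieldFullC k N)} (hy : y ≠ 0) :
    Q.ord (esFun k ℓ N y)
      = ((H53.coeffFrob k N ℓ)⁻¹ • Q).ord y + (ℓ : ℤ) * (H53.coeffFrob k N ℓ • Q).ord y := by
  have h1 : (H53.coeffFrob k N ℓ)⁻¹ • y ≠ 0 := (smul_ne_zero_iff_ne _).mpr hy
  have h2 : H53.coeffFrob k N ℓ • y ≠ 0 := (smul_ne_zero_iff_ne _).mpr hy
  rw [esFun, Place.ord_mul Q (pow_ne_zero _ h1) h2]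
  have e1 : Q.ord (((H53.coeffFrob k N ℓ)⁻¹ • y) ^ ℓ)
      = (ℓ : ℤ) * (H53.coeffFrob k N ℓ • Q).ord y := by
    have := Place.ord_zpow Q ((H53.coeffFrob k N ℓ)⁻¹ • y) (ℓ : ℤ)
    rw [zpow_natCast] at this
    rw [this]
    have h := SemilinearAut.ord_smul ((H53.coeffFrob k N ℓ)⁻¹) (H53.coeffFrob k N ℓ • Q) y
    rw [inv_smul_smul] at h
    rw [h]
  have e2 : Q.ord (H53.coeffFrob k N ℓ • y) = ((H53.coeffFrob k N ℓ)⁻¹ • Q).ord y := by
    have h := SemilinearAut.ord_smul (H53.coeffFrob k N ℓ) ((H53.coeffFrob k N ℓ)⁻¹ • Q) y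
    rw [smul_inv_smul] at h
    exact h
  rw [e1, e2, add_comm]

/-- **Eichler–Shimura on principal divisors of the special fibre**: if `D = div y`, then
`Φ • D + ℓ • Φ⁻¹ • D = div (y(q^ℓ) Frob y)`. -/
theorem es_divisor_apply {y : ↥(modularFunctionFieldFullC k N)} (hy : y ≠ 0)
    {D : Divisor k ↥(modularFunctionFieldFullC k N)}
    (hD : ∀ Q, D Q = Q.ord y) (Q : Place k ↥(modularFunctionFieldFullC k N)) :
    (H53.coeffFrob k N ℓ • D + ℓ • ((H53.coeffFrob k N ℓ)⁻¹ • D)) Q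
      = Q.ord (esFun k ℓ N y) := by
  rw [Finsupp.add_apply, Finsupp.smul_apply, SemilinearAut.divisor_smul_apply,
    SemilinearAut.divisor_smul_apply, inv_inv, hD, hD, ord_esFun k ℓ N Q hy, nsmul_eq_mul]

/-- the same, in `Finsupp.mapDomain` form (the shape of `H82.eichlerShimura_on_degZero`). -/
theorem es_divisor_mapDomain_apply {y : ↥(modularFunctionFieldFullC k N)} (hy : y ≠ 0)
    {D : Divisor k ↥(modularFunctionFieldFullC k N)}
    (hD : ∀ Q, D Q = Q.ord y) (Q : Place k ↥(modularFunctionFieldFullC k N)) :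
    (Finsupp.mapDomain
        (fun P : Place k ↥(modularFunctionFieldFullC k N) => H53.coeffFrob k N ℓ • P) D
      + ℓ • Finsupp.mapDomain
        (fun P : Place k ↥(modularFunctionFieldFullC k N) => (H53.coeffFrob k N ℓ)⁻¹ • P) D) Q
      = Q.ord (esFun k ℓ N y) := by
  rw [← SemilinearAut.divisor_smul_def, ← SemilinearAut.divisor_smul_def]
  exact es_divisor_apply k ℓ N hy hD Q

variable [NeZero ℓ]

/-- **`y(q^ℓ) = (Φ⁻¹ y)^ℓ`** for `y` in the characteristic-`ℓ` function field. -/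
theorem qExpand_coe_eq_pow (y : ↥(modularFunctionFieldFullC k N)) :
    qExpand k ℓ (y : LaurentSeries k)
      = (((H53.coeffFrob k N ℓ)⁻¹ • y : ↥(modularFunctionFieldFullC k N)) :
          LaurentSeries k) ^ ℓ := by
  conv_lhs => rw [← frobHom_coe_coeffFrob_inv_smul k ℓ N y]
  exact qExpand_frobHom k ℓ _

/-- `y(q^ℓ)` lies again in `modularFunctionFieldFullC k N`
(level `N ℓ` and level `N` have the same function field in characteristic `ℓ`, seen through
`q`-expansions). -/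
theorem qExpand_mem_fullC {y : LaurentSeries k} (hy : y ∈ modularFunctionFieldFullC k N) :
    qExpand k ℓ y ∈ modularFunctionFieldFullC k N := by
  have h := qExpand_coe_eq_pow k ℓ N ⟨y, hy⟩
  rw [show ((⟨y, hy⟩ : ↥(modularFunctionFieldFullC k N)) : LaurentSeries k) = y from rfl] at h
  rw [h]
  exact pow_mem ((H53.coeffFrob k N ℓ)⁻¹ • (⟨y, hy⟩ : ↥(modularFunctionFieldFullC k N))).2 ℓ

/-- `esFun y = y(q^ℓ) * Frob(y)` as a `q`-series: exactly the shape of the reduction of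
`Nm_α (β Y)` (helper64 (K2), helper6 (R)). -/
theorem coe_esFun (y : ↥(modularFunctionFieldFullC k N)) :
    ((esFun k ℓ N y : ↥(modularFunctionFieldFullC k N)) : LaurentSeries k)
      = qExpand k ℓ (y : LaurentSeries k)
        * coeffMap (frobenius k ℓ) (y : LaurentSeries k) := by
  rw [qExpand_coe_eq_pow]
  show (((H53.coeffFrob k N ℓ)⁻¹ • y : ↥(modularFunctionFieldFullC k N)) : LaurentSeries k) ^ ℓ
    * ((H53.coeffFrob k N ℓ • y : ↥(modularFunctionFieldFullC k N)) : LaurentSeries k) = _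
  rw [coe_coeffFrob_smul]
  rfl

/-- an element of `Fk` whose `q`-series is `y(q^ℓ) * Frob(y)` is `esFun y`. -/
theorem eq_esFun_of_coe {y g : ↥(modularFunctionFieldFullC k N)}
    (h : (g : LaurentSeries k)
      = qExpand k ℓ (y : LaurentSeries k)
        * coeffMap (frobenius k ℓ) (y : LaurentSeries k)) :
    g = esFun k ℓ N y :=
  Subtype.ext (h.trans (coe_esFun k ℓ N y).symm)

/-- **Final char-`ℓ` form**: if `D = div y` and `g ∈ Fk` has `q`-series `y(q^ℓ) Frob(y)`, then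
`Φ • D + ℓ • Φ⁻¹ • D = div g`. -/
theorem es_divisor_apply_of_coe {y g : ↥(modularFunctionFieldFullC k N)} (hy : y ≠ 0)
    (h : (g : LaurentSeries k)
      = qExpand k ℓ (y : LaurentSeries k)
        * coeffMap (frobenius k ℓ) (y : LaurentSeries k))
    {D : Divisor k ↥(modularFunctionFieldFullC k N)}
    (hD : ∀ Q, D Q = Q.ord y) (Q : Place k ↥(modularFunctionFieldFullC k N)) :
    (H53.coeffFrob k N ℓ • D + ℓ • ((H53.coeffFrob k N ℓ)⁻¹ • D)) Q = Q.ord g := by
  rw [eq_esFun_of_coe k ℓ N h]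
  exact es_divisor_apply k ℓ N hy hD Q

end ESDivisor

end Fermat.Agent.S37.H50
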