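/-
helper50 — S37 (Stage 2): `r`-independent compatibility of the coefficientwise Galois action on
`A((q))` (`A` a valuation subring of `L`, `σ` in its decomposition group) with reduction of
coefficients: Frobenius elements reduce to the coefficientwise Frobenius, inertia reduces to the
identity.
-/
import Mathlib
import Fermat.Prelude.Def_FLTPrelim_Ramification
import Fermat.Prelude.Def_EllipticCurve_FrobeniusTrace
import Fermat.Agent.S37.H50_Frobenius

set_option autoImplicit false

noncomputable section

namespace Fermat.Agent.S37.H50

open ModularCurve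

variable {K L : Type*} [Field K] [Field L] [Algebra K L] (A : ValuationSubring L)

/-- the ring endomorphism of `A` induced by an element of the decomposition group -/
def decompHom (g : A.decompositionSubgroup K) : A →+* A :=
  MulSemiringAction.toRingHom (A.decompositionSubgroup K) A g

@[simp]
theorem coe_decompHom (g : A.decompositionSubgroup K) (a : A) :
    ((decompHom A g a : A) : L) = (g : L ≃ₐ[K] L) (a : L) := rfl

/-- the ring endomorphism of the residue field induced by an element of the decomposition group -/
def decompResidueHom (g : A.decompositionSubgroup K) :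
    IsLocalRing.ResidueField A →+* IsLocalRing.ResidueField A :=
  MulSemiringAction.toRingHom (A.decompositionSubgroup K) (IsLocalRing.ResidueField A) g

theorem residue_decompHom (g : A.decompositionSubgroup K) (a : A) :
    IsLocalRing.residue A (decompHom A g a) = decompResidueHom A g (IsLocalRing.residue A a) :=
  rfl

/-- coefficientwise `σ` on series with coefficients in `A`, seen in `L((q))` -/
theorem coeffMap_subtype_decompHom (g : A.decompositionSubgroup K) (y : LaurentSeries A) :
    coeffMap A.subtype (coeffMap (decompHom A g) y) =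
      coeffMap (((g : L ≃ₐ[K] L) : L ≃+* L) : L →+* L) (coeffMap A.subtype y) := by
  rw [coeffMap_coeffMap, coeffMap_coeffMap]
  exact coeffMap_congr (RingHom.ext fun a => rfl) y

/-- coefficientwise `σ` commutes with reduction of coefficients -/
theorem coeffMap_residue_decompHom (g : A.decompositionSubgroup K) (y : LaurentSeries A) :
    coeffMap (IsLocalRing.residue A) (coeffMap (decompHom A g) y) =
      coeffMap (decompResidueHom A g) (coeffMap (IsLocalRing.residue A) y) := by
  rw [coeffMap_coeffMap, coeffMap_coeffMap]
  exact coeffMap_congr (RingHom.ext fun a => residue_decompHom A g a) y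

/-- **Frobenius elements reduce to the coefficientwise Frobenius.** -/
theorem coeffMap_residue_frobenius {σ : L ≃ₐ[K] L} {ℓ : ℕ} [ExpChar (IsLocalRing.ResidueField A) ℓ]
    (h : A.IsFrobeniusAt σ ℓ) (y : LaurentSeries A) :
    coeffMap (IsLocalRing.residue A)
        (coeffMap (decompHom A ⟨σ, h.mem_decompositionSubgroup⟩) y) =
      frobHom (IsLocalRing.ResidueField A) ℓ (coeffMap (IsLocalRing.residue A) y) := by
  rw [coeffMap_residue_decompHom, frobHom]
  refine coeffMap_congr (RingHom.ext fun x => ?_) _
  show (⟨σ, h.mem_decompositionSubgroup⟩ : A.decompositionSubgroup K) • x = _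
  rw [h.smul_residue_eq, frobenius_def]

/-- **Inertia reduces to the identity.** -/
theorem coeffMap_residue_inertia {σ : L ≃ₐ[K] L} (h : σ ∈ A.inertiaSubgroupIn K) :
    ∃ hσ : σ ∈ A.decompositionSubgroup K, ∀ y : LaurentSeries A,
      coeffMap (IsLocalRing.residue A) (coeffMap (decompHom A ⟨σ, hσ⟩) y) =
        coeffMap (IsLocalRing.residue A) y := by
  obtain ⟨g, hg, rfl⟩ := h
  refine ⟨g.2, fun y => ?_⟩
  rw [coeffMap_residue_decompHom]
  have hid : decompResidueHom A ⟨(A.decompositionSubgroup K).subtype g, g.2⟩ =
      RingHom.id (IsLocalRing.ResidueField A) := by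
    ext x
    have h1 : MulSemiringAction.toRingAut (A.decompositionSubgroup K)
        (IsLocalRing.ResidueField A) g = 1 := hg
    have h2 := congrArg (fun e : RingAut (IsLocalRing.ResidueField A) => e x) h1
    exact h2
  rw [hid, coeffMap_id]

/-- the residue characteristic of a valuation subring lying over `ℓ` -/
theorem charP_residueField_of_liesOverPrime {ℓ : ℕ} (hℓ : ℓ.Prime) (hA : A.LiesOverPrime ℓ) :
    CharP (IsLocalRing.ResidueField A) ℓ := by
  rw [CharP.charP_iff_prime_eq_zero hℓ]
  have hmem : ((ℓ : ℕ) : L) ∈ A := A.nonunits_le hA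
  have h1 : IsLocalRing.residue A ⟨((ℓ : ℕ) : L), hmem⟩ = 0 := by
    rw [IsLocalRing.residue_eq_zero_iff, IsLocalRing.mem_maximalIdeal, mem_nonunits_iff]
    intro hu
    have hu' : IsUnit (((ℓ : ℕ) : L)) := hu.map A.subtype
    have : ((ℓ : ℕ) : L) ∈ A.nonunits := hA
    rw [ValuationSubring.mem_nonunits_iff_exists_mem_maximalIdeal] at this
    obtain ⟨ha, hm⟩ := this
    exact hm hu
  have h2 : (⟨((ℓ : ℕ) : L), hmem⟩ : A) = ((ℓ : ℕ) : A) := by
    ext
    simp
  rw [h2, map_natCast] at h1
  exact h1

end Fermat.Agent.S37.H50
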