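import Fermat.Prelude.Def_HeckeGalois_EichlerShimura

/-!
# S37: the specialization datum from four inputs on a reduction map (pure algebra)

`J` is a `HeckeAlg`-module with a commuting Galois action, `sp₀ : J →+ J₀` is ANY additive map to
ANY abelian group (in the application: `reductionModL A N : JZero N →+ JZeroC k N`), and
`Φ : J₀ ≃+ J₀` any additive automorphism (in the application: the coefficientwise Frobenius).
If

* `sp₀` is inertia-invariant,
* `sp₀ (σ • x) = Φ (sp₀ x)` for every Frobenius element `σ` at `A`,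
* `sp₀ (T_ℓ • y) = Φ (sp₀ y) + ℓ • Φ⁻¹ (sp₀ y)` (Eichler–Shimura congruence, for the ONE prime `ℓ`),
* `sp₀` is injective on `p`-power torsion,

then the existential of `ModularCurve.SpecializationExists` at `(ℓ, A)` holds.  NO Hecke module
structure on `J₀` and NO compatibility of `sp₀` with the other Hecke operators is needed: we take
`J' := {u : HeckeAlg →+ J₀ | ∀ T, u (T * T_ℓ) = Φ (u T) + ℓ • Φ⁻¹ (u T)}` with
`(S • u) T = u (T * S)`, `sp x = (T ↦ sp₀ (T • x))` and `(F u) T = Φ (u T)`.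
-/

set_option autoImplicit false

noncomputable section

namespace Fermat.Agent.S37.H86

open ModularCurve

section Carrier

variable {J₀ : Type} [AddCommGroup J₀] (Φ : J₀ ≃+ J₀) (ℓ : ℕ) (tℓ : HeckeAlg)

/-- The additive maps `u : HeckeAlg →+ J₀` satisfying the Eichler–Shimura relation
`u (T * tℓ) = Φ (u T) + ℓ • Φ⁻¹ (u T)`. -/
def specSub : AddSubgroup (HeckeAlg →+ J₀) where
  carrier := {u | ∀ T : HeckeAlg, u (T * tℓ) = Φ (u T) + ℓ • Φ.symm (u T)}
  zero_mem' := fun T => by simp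
  add_mem' := by
    intro u v hu hv T
    simp only [AddMonoidHom.add_apply, hu T, hv T, map_add, smul_add]
    abel
  neg_mem' := by
    intro u hu T
    simp only [AddMonoidHom.neg_apply, hu T, map_neg, smul_neg, neg_add]

theorem mem_specSub {u : HeckeAlg →+ J₀} :
    u ∈ specSub Φ ℓ tℓ ↔ ∀ T : HeckeAlg, u (T * tℓ) = Φ (u T) + ℓ • Φ.symm (u T) :=
  Iff.rfl

/-- The translation action `(S • u) T = u (T * S)` on the carrier. -/
def specSMul (S : HeckeAlg) (u : specSub Φ ℓ tℓ) : specSub Φ ℓ tℓ :=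
  ⟨(u : HeckeAlg →+ J₀).comp (AddMonoidHom.mulRight S), fun T => by
    have h := u.2 (T * S)
    simp only [AddMonoidHom.coe_comp, Function.comp_apply, AddMonoidHom.coe_mulRight]
    rw [mul_right_comm]
    exact h⟩

@[simp]
theorem specSMul_apply (S : HeckeAlg) (u : specSub Φ ℓ tℓ) (T : HeckeAlg) :
    ((specSMul Φ ℓ tℓ S u : specSub Φ ℓ tℓ) : HeckeAlg →+ J₀) T =
      (u : HeckeAlg →+ J₀) (T * S) :=
  rfl

instance specModule : Module HeckeAlg (specSub Φ ℓ tℓ) where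
  smul := specSMul Φ ℓ tℓ
  one_smul u := by
    apply Subtype.ext
    refine AddMonoidHom.ext fun T => ?_
    show ((specSMul Φ ℓ tℓ 1 u : specSub Φ ℓ tℓ) : HeckeAlg →+ J₀) T = _
    rw [specSMul_apply, mul_one]
  mul_smul S₁ S₂ u := by
    apply Subtype.ext
    refine AddMonoidHom.ext fun T => ?_
    show ((specSMul Φ ℓ tℓ (S₁ * S₂) u : specSub Φ ℓ tℓ) : HeckeAlg →+ J₀) T =
      ((specSMul Φ ℓ tℓ S₁ (specSMul Φ ℓ tℓ S₂ u) : specSub Φ ℓ tℓ) : HeckeAlg →+ J₀) T
    rw [specSMul_apply, specSMul_apply, specSMul_apply, mul_assoc]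
  smul_zero S := by
    apply Subtype.ext
    refine AddMonoidHom.ext fun T => ?_
    show ((specSMul Φ ℓ tℓ S 0 : specSub Φ ℓ tℓ) : HeckeAlg →+ J₀) T = _
    rw [specSMul_apply]
    rfl
  smul_add S u v := by
    apply Subtype.ext
    refine AddMonoidHom.ext fun T => ?_
    show ((specSMul Φ ℓ tℓ S (u + v) : specSub Φ ℓ tℓ) : HeckeAlg →+ J₀) T = _
    rw [specSMul_apply]
    rfl
  add_smul S₁ S₂ u := by
    apply Subtype.ext
    refine AddMonoidHom.ext fun T => ?_
    show ((specSMul Φ ℓ tℓ (S₁ + S₂) u : specSub Φ ℓ tℓ) : HeckeAlg →+ J₀) T =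
      ((specSMul Φ ℓ tℓ S₁ u : specSub Φ ℓ tℓ) : HeckeAlg →+ J₀) T +
        ((specSMul Φ ℓ tℓ S₂ u : specSub Φ ℓ tℓ) : HeckeAlg →+ J₀) T
    rw [specSMul_apply, specSMul_apply, specSMul_apply, mul_add, map_add]
  zero_smul u := by
    apply Subtype.ext
    refine AddMonoidHom.ext fun T => ?_
    show ((specSMul Φ ℓ tℓ 0 u : specSub Φ ℓ tℓ) : HeckeAlg →+ J₀) T = _
    rw [specSMul_apply, mul_zero, map_zero]
    rfl

theorem smul_apply (S : HeckeAlg) (u : specSub Φ ℓ tℓ) (T : HeckeAlg) :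
    ((S • u : specSub Φ ℓ tℓ) : HeckeAlg →+ J₀) T = (u : HeckeAlg →+ J₀) (T * S) :=
  rfl

/-- The Frobenius on the carrier: `(F u) T = Φ (u T)`. -/
def specFrob : specSub Φ ℓ tℓ →+ specSub Φ ℓ tℓ where
  toFun u := ⟨(Φ : J₀ →+ J₀).comp (u : HeckeAlg →+ J₀), fun T => by
    show Φ ((u : HeckeAlg →+ J₀) (T * tℓ)) =
      Φ (Φ ((u : HeckeAlg →+ J₀) T)) + ℓ • Φ.symm (Φ ((u : HeckeAlg →+ J₀) T))
    rw [u.2 T, map_add, map_nsmul, AddEquiv.apply_symm_apply, AddEquiv.symm_apply_apply]⟩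
  map_zero' := by
    apply Subtype.ext
    refine AddMonoidHom.ext fun T => ?_
    simp
  map_add' u v := by
    apply Subtype.ext
    refine AddMonoidHom.ext fun T => ?_
    simp

@[simp]
theorem specFrob_apply (u : specSub Φ ℓ tℓ) (T : HeckeAlg) :
    ((specFrob Φ ℓ tℓ u : specSub Φ ℓ tℓ) : HeckeAlg →+ J₀) T = Φ ((u : HeckeAlg →+ J₀) T) :=
  rfl

/-- The quadratic relation `F² - tℓ F + ℓ = 0` holds on the whole carrier. -/
theorem specFrob_relation (u : specSub Φ ℓ tℓ) :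
    specFrob Φ ℓ tℓ (specFrob Φ ℓ tℓ u) - tℓ • specFrob Φ ℓ tℓ u + ℓ • u = 0 := by
  apply Subtype.ext
  refine AddMonoidHom.ext fun T => ?_
  have h := u.2 T
  simp only [AddSubgroup.coe_add, AddSubgroup.coe_sub, AddSubgroup.coe_nsmul,
    AddMonoidHom.add_apply, AddMonoidHom.sub_apply, AddMonoidHom.smul_apply, specFrob_apply,
    smul_apply, ZeroMemClass.coe_zero, AddMonoidHom.zero_apply]
  rw [h, map_add, map_nsmul, AddEquiv.apply_symm_apply]
  abel

end Carrier

section Main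

variable {K L : Type*} [Field K] [Field L] [Algebra K L]

/-- **S37 from four inputs on a reduction map.** -/
theorem exists_specialization_of_reduction
    (p : ℕ) (J : Type*) [AddCommGroup J] [Module HeckeAlg J]
    [DistribMulAction (L ≃ₐ[K] L) J] [SMulCommClass (L ≃ₐ[K] L) HeckeAlg J]
    (A : ValuationSubring L) (ℓ : ℕ) (hℓ : ℓ.Prime)
    (J₀ : Type) [AddCommGroup J₀] (sp₀ : J →+ J₀) (Φ : J₀ ≃+ J₀)
    (hin : ∀ σ ∈ A.inertiaSubgroupIn K, ∀ x : J, sp₀ (σ • x) = sp₀ x)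
    (hfr : ∀ σ : L ≃ₐ[K] L, A.IsFrobeniusAt σ ℓ → ∀ x : J, sp₀ (σ • x) = Φ (sp₀ x))
    (hES : ∀ y : J, sp₀ (heckeGen ⟨ℓ, hℓ⟩ • y) = Φ (sp₀ y) + ℓ • Φ.symm (sp₀ y))
    (hinj : ∀ x : J, (∃ n : ℕ, p ^ n • x = 0) → sp₀ x = 0 → x = 0) :
    ∃ (J' : Type) (_ : AddCommGroup J') (_ : Module HeckeAlg J') (sp : J →+ J')
      (F : J' →+ J'),
      IsSpecialization (K := K) p J J' A ℓ sp F ∧ SpecialFibreRelation J' ℓ hℓ F := by
  classical
  set tℓ : HeckeAlg := heckeGen ⟨ℓ, hℓ⟩ with htℓ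
  -- the specialization map `x ↦ (T ↦ sp₀ (T • x))`
  let spFun : J → (HeckeAlg →+ J₀) := fun x =>
    { toFun := fun T => sp₀ (T • x)
      map_zero' := by rw [zero_smul, map_zero]
      map_add' := fun T T' => by rw [add_smul, map_add] }
  have spFun_apply : ∀ (x : J) (T : HeckeAlg), spFun x T = sp₀ (T • x) := fun _ _ => rfl
  have spMem : ∀ x : J, spFun x ∈ specSub Φ ℓ tℓ := by
    intro x T
    rw [spFun_apply, spFun_apply, mul_comm, mul_smul, hES]
  let sp : J →+ specSub Φ ℓ tℓ :=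
    { toFun := fun x => ⟨spFun x, spMem x⟩
      map_zero' := by
        apply Subtype.ext
        refine AddMonoidHom.ext fun T => ?_
        show sp₀ (T • (0 : J)) = 0
        rw [smul_zero, map_zero]
      map_add' := fun x y => by
        apply Subtype.ext
        refine AddMonoidHom.ext fun T => ?_
        show sp₀ (T • (x + y)) = sp₀ (T • x) + sp₀ (T • y)
        rw [smul_add, map_add] }
  have sp_apply : ∀ (x : J) (T : HeckeAlg),
      ((sp x : specSub Φ ℓ tℓ) : HeckeAlg →+ J₀) T = sp₀ (T • x) := fun _ _ => rfl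
  refine ⟨specSub Φ ℓ tℓ, inferInstance, specModule Φ ℓ tℓ, sp, specFrob Φ ℓ tℓ, ?_, ?_⟩
  · refine ⟨?_, ?_, ?_, ?_⟩
    · intro T x
      apply Subtype.ext
      refine AddMonoidHom.ext fun S => ?_
      rw [sp_apply, smul_apply, sp_apply, mul_smul]
    · intro σ hσ x
      apply Subtype.ext
      refine AddMonoidHom.ext fun T => ?_
      rw [sp_apply, sp_apply, ← smul_comm σ T x, hin σ hσ]
    · intro σ hσ x
      apply Subtype.ext
      refine AddMonoidHom.ext fun T => ?_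
      rw [sp_apply, specFrob_apply, sp_apply, ← smul_comm σ T x, hfr σ hσ]
    · intro x hx h0
      refine hinj x hx ?_
      have h1 := congrArg (fun u : specSub Φ ℓ tℓ => (u : HeckeAlg →+ J₀) 1) h0
      simpa [sp_apply] using h1
  · intro y
    exact specFrob_relation Φ ℓ tℓ y

end Main

end Fermat.Agent.S37.H86

end
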