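import Fermat.Prelude.Def_ModularCurve_HeckeModule
import Fermat.Agent.S37.H86_SpecAlgebra

/-!
# S37 reduced to ONE package per `(ℓ, A)` on a reduction map

`ReductionPackage N p ℓ hℓ A` asks for an additive map `sp₀ : JZero N →+ J₀` into ANY abelian
group `J₀ : Type` and an additive automorphism `Φ` of `J₀` with

1. `sp₀` inertia-invariant,
2. `sp₀ (σ • x) = Φ (sp₀ x)` for Frobenius elements `σ` at `A`,
3. `sp₀ (T_ℓ y) = Φ (sp₀ y) + ℓ • Φ⁻¹ (sp₀ y)` for the ONE Hecke operator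
   `T_ℓ = heckeOperatorBar N ℓ` (Eichler–Shimura congruence),
4. `sp₀` injective on `p`-power torsion (S18).

`specializationExists_of_packages` then proves the frozen shape of S37 verbatim.
-/

set_option autoImplicit false
set_option linter.style.haveILetI false

noncomputable section

namespace Fermat.Agent.S37.H86

open ModularCurve

/-- The four inputs at a prime `ℓ` and a valuation ring `A` over `ℓ`. -/
def ReductionPackage (N p : ℕ) [NeZero N] (ℓ : ℕ) (hℓ : ℓ.Prime)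
    (A : ValuationSubring (AlgebraicClosure ℚ)) : Prop :=
  ∃ (J₀ : Type) (_ : AddCommGroup J₀) (sp₀ : JZero N →+ J₀) (Φ : J₀ ≃+ J₀),
    (∀ σ ∈ A.inertiaSubgroupIn ℚ, ∀ x : JZero N, sp₀ (σ • x) = sp₀ x) ∧
    (∀ σ : AlgebraicClosure ℚ ≃ₐ[ℚ] AlgebraicClosure ℚ, A.IsFrobeniusAt σ ℓ →
      ∀ x : JZero N, sp₀ (σ • x) = Φ (sp₀ x)) ∧
    (∀ y : JZero N, sp₀ (heckeOperatorBar N ⟨ℓ, hℓ⟩ y) = Φ (sp₀ y) + ℓ • Φ.symm (sp₀ y)) ∧
    (∀ x : JZero N, (∃ n : ℕ, p ^ n • x = 0) → sp₀ x = 0 → x = 0)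

/-- **S37 from the packages** (frozen shape of S37, verbatim conclusion). -/
theorem specializationExists_of_packages (N p : ℕ) [NeZero N]
    (hcomm : ModularCurve.HeckeOperatorsCommuteBar N)
    (H : ∀ (ℓ : ℕ) (hℓ : ℓ.Prime), ¬ ℓ ∣ N * p →
      ∀ A : ValuationSubring (AlgebraicClosure ℚ), A.LiesOverPrime ℓ →
        ReductionPackage N p ℓ hℓ A) :
    letI := ModularCurve.heckeModuleBar N
    ∀ (_ : SMulCommClass (AlgebraicClosure ℚ ≃ₐ[ℚ] AlgebraicClosure ℚ) ModularCurve.HeckeAlg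
      (ModularCurve.JZero N)),
      ModularCurve.SpecializationExists (K := ℚ) (L := AlgebraicClosure ℚ) N p
        (ModularCurve.JZero N) := by
  letI := ModularCurve.heckeModuleBar N
  intro _ ℓ hℓ hℓNp A hA
  obtain ⟨J₀, _, sp₀, Φ, hin, hfr, hES, hinj⟩ := H ℓ hℓ hℓNp A hA
  refine exists_specialization_of_reduction (K := ℚ) p (JZero N) A ℓ hℓ J₀ sp₀ Φ hin hfr ?_ hinj
  intro y
  have h := heckeModuleBar_heckeGen_smul hcomm ⟨ℓ, hℓ⟩ y
  exact (congrArg sp₀ h).trans (hES y)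

end Fermat.Agent.S37.H86

end
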