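import Fermat.Agent.S37.H53_Frob
import Fermat.Agent.S37.H82_Rigidity
import Fermat.Agent.S37.H86_S37Reduction

/-!
# Clauses (1) and (2) of the reduction package: Galois equivariance of `reductionModL`

Glue between `H53_Frob` (the check `r_* (σ • D) = φ • r_* D` on integral principal divisors)
and `H82_Rigidity` (bounded homomorphisms vanish on degree-zero divisors).

Main results, for `A : ValuationSubring (AlgebraicClosure ℚ)`, under the single hypothesis
`H82.HasBoundedReps (AlgebraicClosure ℚ) (modularFunctionFieldBar N) C`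
(NO hypothesis on `ReductionInputsModL`: if it fails `reductionModL = 0` and all is trivial):

* `reductionModL_inertia` : `σ ∈ A.inertiaSubgroupIn ℚ → reductionModL A N (σ • x) = reductionModL A N x`
* `reductionModL_frobenius` : `A.IsFrobeniusAt σ ℓ →
    reductionModL A N (σ • x) = frobJEquiv k N ℓ (reductionModL A N x)`

and the additive equivalence `frobJEquiv k N ℓ : JZeroC k N ≃+ JZeroC k N` (the `Φ` of the
package) together with `coeffAutJEquiv k N φ` for any `φ : k ≃+* k`.
-/

set_option autoImplicit false

noncomputable section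

open HahnSeries AlgebraicCurve ModularCurve

namespace Fermat.Agent.S37.H53

/-! ### The additive equivalences -/

section Equivs

variable (k : Type*) [Field k] (N : ℕ)

/-- `coeffAutJ` as an additive equivalence. -/
def coeffAutJEquiv (φ : k ≃+* k) : JZeroC k N ≃+ JZeroC k N where
  toFun := coeffAutJ k N φ
  invFun := coeffAutJ k N φ.symm
  left_inv := coeffAutJ_symm_apply k N φ
  right_inv := coeffAutJ_apply_symm k N φ
  map_add' := map_add _

@[simp] theorem coeffAutJEquiv_apply (φ : k ≃+* k) (x : JZeroC k N) :
    coeffAutJEquiv k N φ x = coeffAut k N φ • x := rfl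

@[simp] theorem coeffAutJEquiv_symm_apply (φ : k ≃+* k) (x : JZeroC k N) :
    (coeffAutJEquiv k N φ).symm x = coeffAut k N φ.symm • x := rfl

theorem coeffAutJEquiv_symm_apply' (φ : k ≃+* k) (x : JZeroC k N) :
    (coeffAutJEquiv k N φ).symm x = (coeffAut k N φ)⁻¹ • x := by
  rw [coeffAutJEquiv_symm_apply, ← map_inv]
  rfl

variable (ℓ : ℕ) [ExpChar k ℓ] [PerfectRing k ℓ]

/-- The coefficientwise Frobenius on `JZeroC k N` as an additive equivalence:
the `Φ` of the reduction package. -/
def frobJEquiv : JZeroC k N ≃+ JZeroC k N :=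
  coeffAutJEquiv k N (frobeniusEquiv k ℓ)

@[simp] theorem frobJEquiv_apply (x : JZeroC k N) :
    frobJEquiv k N ℓ x = frobJ k N ℓ x := rfl

theorem frobJEquiv_apply' (x : JZeroC k N) :
    frobJEquiv k N ℓ x = coeffFrob k N ℓ • x := rfl

theorem frobJEquiv_symm_apply (x : JZeroC k N) :
    (frobJEquiv k N ℓ).symm x = (coeffFrob k N ℓ)⁻¹ • x :=
  coeffAutJEquiv_symm_apply' k N _ x

theorem frobJEquiv_mk
    (D : Divisor.degZero (K := k) (F := modularFunctionFieldFullC k N)) :
    frobJEquiv k N ℓ (Pic0.mk D)
      = Pic0.mk (SemilinearAut.degZeroSMulHom (coeffFrob k N ℓ) D) :=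
  rfl

theorem frobJEquiv_symm_mk
    (D : Divisor.degZero (K := k) (F := modularFunctionFieldFullC k N)) :
    (frobJEquiv k N ℓ).symm (Pic0.mk D)
      = Pic0.mk (SemilinearAut.degZeroSMulHom (coeffFrob k N ℓ)⁻¹ D) := by
  rw [frobJEquiv_symm_apply]
  exact SemilinearAut.pic0_smul_mk _ D

end Equivs

/-! ### Divisor-level equivariance on degree-zero divisors by rigidity -/

section Rigid

variable {L : Type*} [Field L] [Algebra ℚ L] {A : ValuationSubring L}
variable {k : Type*} [Field k] {π : A →+* k} {N : ℕ}
variable {σ : L ≃ₐ[ℚ] L} {φ : k ≃+* k}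
variable {r : Place L (laurentBaseChange L (modularFunctionFieldFull N)) →
  Place k (modularFunctionFieldFullC k N)}

/-- `r_* ∘ σ = φ ∘ r_*` on ALL degree-zero divisors, from the check on integral principal
divisors (`mapDomain_smul_of_mem_integral`), `PrincipalGeneratedByIntegral`, and
bounded representatives (Riemann's inequality) in characteristic zero. -/
theorem mapDomain_smul_of_boundedReps (h : Induces A π σ φ)
    (hr : IsPlaceReductionAlong A π N r) (hgen : PrincipalGeneratedByIntegral A π N)
    {C : ℕ} (hC : H82.HasBoundedReps L (laurentBaseChange L (modularFunctionFieldFull N)) C)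
    (D : Divisor L (laurentBaseChange L (modularFunctionFieldFull N)))
    (hD : D ∈ Divisor.degZero (K := L) (F := laurentBaseChange L (modularFunctionFieldFull N))) :
    Finsupp.mapDomain r (gal N σ • D) = coeffAut k N φ • Finsupp.mapDomain r D := by
  have key := H82.mapDomain_eq_on_degZero
    (fun P => r (gal N σ • P)) (fun P => coeffAut k N φ • r P)
    (H82.agree_on_principal_of_closure
      (Finsupp.mapDomain.addMonoidHom fun P => r (gal N σ • P))
      (Finsupp.mapDomain.addMonoidHom fun P => coeffAut k N φ • r P)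
      (integralPrincipalDivisors A π N) hgen (fun E hE => by
        have h1 := mapDomain_smul_of_mem_integral h hr hE
        rw [SemilinearAut.divisor_smul_def, SemilinearAut.divisor_smul_def,
          ← Finsupp.mapDomain_comp, ← Finsupp.mapDomain_comp] at h1
        exact h1)) hC D hD
  rw [SemilinearAut.divisor_smul_def, SemilinearAut.divisor_smul_def,
    ← Finsupp.mapDomain_comp, ← Finsupp.mapDomain_comp]
  exact key

/-- Pic⁰-level equivariance of `reductionAlong` for a pair `(σ, φ)` with `σ` inducing `φ`,
assuming only bounded representatives. -/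
theorem reductionAlong_smul_of_boundedReps (h : Induces A π σ φ)
    {C : ℕ} (hC : H82.HasBoundedReps L (laurentBaseChange L (modularFunctionFieldFull N)) C)
    (x : Pic0 L (laurentBaseChange L (modularFunctionFieldFull N))) :
    reductionAlong A π N (σ • x) = coeffAut k N φ • reductionAlong A π N x := by
  by_cases hred : ReductionInputsAlong A π N
  · exact reductionAlong_smul_of_exact hred
      (fun D hD => mapDomain_smul_of_boundedReps h hred.choose_spec.1 hred.choose_spec.2 hC D hD) x
  · rw [reductionAlong_of_not hred, AddMonoidHom.zero_apply, AddMonoidHom.zero_apply]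
    exact ((coeffAutJ k N φ).map_zero).symm

end Rigid

/-! ### The two Galois clauses of the reduction package -/

section Package

variable {A : ValuationSubring (AlgebraicClosure ℚ)} {N : ℕ}

/-- Clause (1): `reductionModL` is inertia-invariant. -/
theorem reductionModL_inertia
    {C : ℕ} (hC : H82.HasBoundedReps (AlgebraicClosure ℚ) (modularFunctionFieldBar N) C)
    {σ : AlgebraicClosure ℚ ≃ₐ[ℚ] AlgebraicClosure ℚ} (hσ : σ ∈ A.inertiaSubgroupIn ℚ)
    (x : JZero N) :
    reductionModL A N (σ • x) = reductionModL A N x := by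
  have h1 : coeffAut (IsLocalRing.ResidueField A) N
      (RingEquiv.refl (IsLocalRing.ResidueField A)) = 1 :=
    map_one (coeffAut (IsLocalRing.ResidueField A) N)
  have h2 := reductionAlong_smul_of_boundedReps (N := N) (induces_of_mem_inertia A hσ) hC x
  rw [h1, one_smul] at h2
  exact h2

/-- Clause (2): Frobenius lifts act through the coefficientwise Frobenius. -/
theorem reductionModL_frobenius {ℓ : ℕ}
    [ExpChar (IsLocalRing.ResidueField A) ℓ] [PerfectRing (IsLocalRing.ResidueField A) ℓ]
    {C : ℕ} (hC : H82.HasBoundedReps (AlgebraicClosure ℚ) (modularFunctionFieldBar N) C)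
    {σ : AlgebraicClosure ℚ ≃ₐ[ℚ] AlgebraicClosure ℚ} (hσ : A.IsFrobeniusAt σ ℓ)
    (x : JZero N) :
    reductionModL A N (σ • x)
      = frobJEquiv (IsLocalRing.ResidueField A) N ℓ (reductionModL A N x) :=
  reductionAlong_smul_of_boundedReps (N := N) (induces_of_isFrobeniusAt A hσ) hC x

/-- **The reduction package from its two remaining clauses.**  With `J₀ := JZeroC k N`,
`sp₀ := reductionModL A N`, `Φ := frobJEquiv k N ℓ`, clauses (1) and (2) hold by rigidity; what
remains is the Eichler–Shimura congruence `hES` (clause (3)) and injectivity on `p`-power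
torsion `hinj` (clause (4), i.e. S18). -/
theorem reductionPackage_of_ES_of_inj (N p : ℕ) [NeZero N] (ℓ : ℕ) (hℓ : ℓ.Prime)
    (A : ValuationSubring (AlgebraicClosure ℚ))
    [ExpChar (IsLocalRing.ResidueField A) ℓ] [PerfectRing (IsLocalRing.ResidueField A) ℓ]
    {C : ℕ} (hC : H82.HasBoundedReps (AlgebraicClosure ℚ) (modularFunctionFieldBar N) C)
    (hES : ∀ y : JZero N, reductionModL A N (heckeOperatorBar N ⟨ℓ, hℓ⟩ y)
      = frobJEquiv (IsLocalRing.ResidueField A) N ℓ (reductionModL A N y)
        + ℓ • (frobJEquiv (IsLocalRing.ResidueField A) N ℓ).symm (reductionModL A N y))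
    (hinj : ∀ x : JZero N, (∃ n : ℕ, p ^ n • x = 0) → reductionModL A N x = 0 → x = 0) :
    H86.ReductionPackage N p ℓ hℓ A :=
  ⟨JZeroC (IsLocalRing.ResidueField A) N, inferInstance, reductionModL A N,
    frobJEquiv (IsLocalRing.ResidueField A) N ℓ,
    fun _ hσ x => reductionModL_inertia hC hσ x,
    fun _ hσ x => reductionModL_frobenius hC hσ x, hES, hinj⟩

end Package

end Fermat.Agent.S37.H53

end
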