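import Fermat.Agent.S28.H39_Laurent
import Fermat.Agent.S37.H59_FrobLaurent

/-!
# The Kronecker reduction of the Hecke norm on `q`-series (helper59, S37 stage 2)

Setting: `A` a commutative ring, `π : A →+* k` with `k` of prime characteristic `ℓ`, `ζ : Aˣ` with
`π ζ = 1` (an `ℓ`-th root of unity reduces to `1` in a reduced ring of characteristic `ℓ`).

* `coeffMap_prod_twist` : `coeffMap π (∏_{b<n} y(ζ^b q)) = (coeffMap π y)^n`.
* `kronecker_reduction_core` : if `g0(q^ℓ) = y0(q^{ℓ²}) · ∏_{b<ℓ} y0(ζ^b q)` over `A`, then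
  `coeffMap π g0 = ȳ(q^ℓ) · ȳ^{(ℓ)}(q)`.
* `kronecker_reduction` : the same for `A` a valuation subring of a field `L`, the identity being
  given over `L` (this is how the `q`-expansion of the Hecke norm comes): existence of the integral
  model `g0` of `g` *and* its reduction.
* `qExpand_eq_pow_frobeniusEquiv_symm` : over a perfect ring `ȳ(q^ℓ) = (Frob⁻¹ ȳ)^ℓ`; so
  `ḡ = (Frob⁻¹ ȳ)^ℓ · Frob ȳ` (`kronecker_reduction_perfect`).
-/

set_option autoImplicit false

noncomputable section

namespace Fermat.Agent.S37.H59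

open ModularCurve HahnSeries Fermat.Agent.S28 Fermat.Agent.S28.H39

section Lift

variable {L : Type*} [Field L]

/-- A Laurent series over `L` all of whose coefficients lie in the valuation subring `A` comes from
a Laurent series over `A`. -/
theorem exists_coeffMap_subtype_eq (A : ValuationSubring L) (x : LaurentSeries L)
    (h : ∀ n, x.coeff n ∈ A) : ∃ x0 : LaurentSeries A, coeffMap A.subtype x0 = x := by
  refine ⟨⟨fun n => ⟨x.coeff n, h n⟩, x.isPWO_support.mono ?_⟩, ?_⟩
  · intro n hn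
    simp only [Function.mem_support, ne_eq] at hn
    simp only [HahnSeries.mem_support, ne_eq]
    intro h0
    exact hn (Subtype.ext h0)
  · ext n
    rfl

theorem coeffMap_subtype_injective (A : ValuationSubring L) :
    Function.Injective (coeffMap A.subtype) := by
  intro x y hxy
  ext n
  have := congrArg (fun z => z.coeff n) hxy
  simp only [coeffMap_coeff] at this
  exact this

end Lift

section Core

variable {A k : Type*} [CommRing A] [CommRing k]

/-- If `π ζ = 1` then the product of the twists `y(ζ^b q)` reduces to the power `ȳ^n`. -/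
theorem coeffMap_prod_twist (π : A →+* k) (ζ : Aˣ) (hζ : π ζ = 1) (n : ℕ)
    (y : LaurentSeries A) :
    coeffMap π (∏ b ∈ Finset.range n, twist (ζ ^ b) y) = (coeffMap π y) ^ n := by
  have h1 : Units.map (π : A →* k) ζ = 1 := Units.ext (by simpa using hζ)
  rw [map_prod]
  have : ∀ b ∈ Finset.range n, coeffMap π (twist (ζ ^ b) y) = coeffMap π y := by
    intro b _
    rw [coeffMap_twist, map_pow, h1, one_pow, twist_one_apply]
  rw [Finset.prod_congr rfl this, Finset.prod_const, Finset.card_range]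

variable (ℓ : ℕ) [hℓ : Fact ℓ.Prime] [CharP k ℓ]

/-- **Kronecker reduction, core form.** -/
theorem kronecker_reduction_core (π : A →+* k) (ζ : Aˣ) (hζ : π ζ = 1)
    (y0 g0 : LaurentSeries A)
    (hg : qExpand A ℓ g0 = qExpand A (ℓ * ℓ) y0 * ∏ b ∈ Finset.range ℓ, twist (ζ ^ b) y0) :
    coeffMap π g0 =
      qExpand k ℓ (coeffMap π y0) * coeffMap (frobenius k ℓ) (coeffMap π y0) := by
  apply qExpand_injective (R := k) ℓ
  rw [← coeffMap_qExpand, hg, map_mul, map_mul, coeffMap_prod_twist π ζ hζ, coeffMap_qExpand,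
    qExpand_qExpand, pow_char_eq_qExpand_frobenius ℓ]

end Core

section Valuation

variable {L : Type*} [Field L] {k : Type*} [CommRing k] [IsReduced k]
variable (ℓ : ℕ) [hℓ : Fact ℓ.Prime] [CharP k ℓ]

/-- In a reduced ring of characteristic `ℓ`, an `ℓ`-th root of unity is `1`. -/
theorem eq_one_of_pow_char_eq_one {a : k} (ha : a ^ ℓ = 1) : a = 1 := by
  have h : (a - 1) ^ ℓ = 0 := by rw [sub_pow_char, ha, one_pow, sub_self]
  have : a - 1 = 0 := IsNilpotent.eq_zero ⟨ℓ, h⟩
  exact sub_eq_zero.mp this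

/-- **Kronecker reduction** for a valuation subring `A ⊂ L`: if `g ∈ L((q))` satisfies
`g(q^ℓ) = y(q^{ℓ²}) ∏_{b<ℓ} y(ζ^b q)` with `y = y0` integral and `ζ^ℓ = 1`, then `g` is integral
and reduces to `ȳ(q^ℓ) · ȳ^{(ℓ)}(q)`. -/
theorem kronecker_reduction (A : ValuationSubring L) (π : A →+* k) (ζ : Lˣ) (hζ : ζ ^ ℓ = 1)
    (y0 : LaurentSeries A) (g : LaurentSeries L)
    (hg : qExpand L ℓ g = qExpand L (ℓ * ℓ) (coeffMap A.subtype y0) *
      ∏ b ∈ Finset.range ℓ, twist (ζ ^ b) (coeffMap A.subtype y0)) :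
    ∃ g0 : LaurentSeries A, coeffMap A.subtype g0 = g ∧
      coeffMap π g0 =
        qExpand k ℓ (coeffMap π y0) * coeffMap (frobenius k ℓ) (coeffMap π y0) := by
  -- `ζ` is a unit of `A`
  have hℓ0 : ℓ ≠ 0 := hℓ.out.ne_zero
  have hζmem : ζ ∈ A.unitGroup := by
    rw [ValuationSubring.mem_unitGroup_iff]
    have h1 : (A.valuation (ζ : L)) ^ ℓ = 1 := by
      rw [← map_pow, ← Units.val_pow_eq_pow_val, hζ, Units.val_one, map_one]
    exact (pow_eq_one_iff_left hℓ0).mp h1
  set ζA : Aˣ := A.unitGroupMulEquiv ⟨ζ, hζmem⟩ with hζA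
  have hζAval : ((ζA : A) : L) = (ζ : L) := rfl
  have hmap : Units.map (A.subtype : A →* L) ζA = ζ := Units.ext hζAval
  have hζApow : ζA ^ ℓ = 1 := by
    apply Units.ext
    apply Subtype.ext
    have := congrArg (fun u : Lˣ => (u : L)) hζ
    simpa [hζAval] using this
  have hπζ : π ζA = 1 := by
    apply eq_one_of_pow_char_eq_one ℓ
    rw [← map_pow, ← Units.val_pow_eq_pow_val, hζApow, Units.val_one, map_one]
  -- the integral model of the right-hand side
  set G0 : LaurentSeries A :=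
    qExpand A (ℓ * ℓ) y0 * ∏ b ∈ Finset.range ℓ, twist (ζA ^ b) y0 with hG0
  have hG0L : coeffMap A.subtype G0 = qExpand L ℓ g := by
    rw [hg, hG0, map_mul, coeffMap_qExpand, map_prod]
    congr 1
    refine Finset.prod_congr rfl fun b _ => ?_
    rw [coeffMap_twist, map_pow, hmap]
  -- integrality of `g`
  obtain ⟨g0, hg0⟩ := exists_coeffMap_subtype_eq A g (fun n => by
    have h := congrArg (fun z => z.coeff ((ℓ : ℤ) * n)) hG0L
    simp only [coeffMap_coeff, qExpand_coeff_mul] at h
    rw [← h]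
    exact (G0.coeff _).2)
  refine ⟨g0, hg0, ?_⟩
  apply kronecker_reduction_core ℓ π ζA hπζ y0 g0
  apply coeffMap_subtype_injective A
  rw [coeffMap_qExpand, hg0, ← hG0L]

end Valuation

section Perfect

variable {k : Type*} [CommRing k] (ℓ : ℕ) [hℓ : Fact ℓ.Prime] [CharP k ℓ] [PerfectRing k ℓ]

/-- Over a perfect ring of characteristic `ℓ`: `y(q^ℓ) = (Frob⁻¹ y)^ℓ`. -/
theorem qExpand_eq_pow_frobeniusEquiv_symm (y : LaurentSeries k) :
    qExpand k ℓ y = (coeffMap ((frobeniusEquiv k ℓ).symm : k →+* k) y) ^ ℓ := by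
  rw [pow_char_eq_qExpand_frobenius ℓ, coeffMap_coeffMap]
  congr 1
  conv_lhs => rw [← coeffMap_id y]
  apply coeffMap_congr
  ext a
  simp

end Perfect

end Fermat.Agent.S37.H59
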