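import Mathlib
import Fermat.Agent.S37.H19_NormQExp
import Fermat.Agent.S37.H6_LevelDegree
import Fermat.Agent.S37.H59_FrobTwist

/-!
S37 / NORM-QEXP (helper64): the two promised exports, hypothesis-free.

* `qExpand_norm_heckeBeta` **(K1)**: for `ℓ` prime, `ℓ ∤ N`, `ζ` a primitive `ℓ`-th root of unity,
  `y ∈ F_N`:  `Nm_α(β y)(t^ℓ) = y(t^(ℓ²)) ∏_{b<ℓ} y(ζ^b t)`.
* `norm_heckeBeta_integral_reduction` **(K2)**: if `y = y0` has coefficients in a valuation ring
  `A ⊂ Qbar` and `π : A → k` is a ring homomorphism to a field of characteristic `ℓ`, then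
  `Nm_α(β y)` has coefficients in `A` and reduces to `ȳ(q^ℓ) · Frob(ȳ)(q)`.

Assembly of `H19.qExpand_norm_heckeBeta_of_finrank` (helper19; an independent proof of the same
statement is `H64.qExpand_norm_heckeBeta_of_finrank` in `H64_HeckeNorm`), the degree
`H6.finrankAlong_heckeAlphaBar_of_not_dvd` (helper6) and `H59.kronecker_reduction` (helper59).
-/

set_option autoImplicit false
set_option linter.style.haveILetI false

noncomputable section

namespace Fermat.Agent.S37.H64

open Fermat.Agent.S24 Fermat.Agent.S28 ModularCurve AlgebraicCurve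

variable (N ℓ : ℕ) [NeZero N] [NeZero ℓ]

/-- **(K1)** the q-expansion of the Hecke norm. -/
theorem qExpand_norm_heckeBeta (hl : ℓ.Prime) (hlN : ¬ ℓ ∣ N) (ζ : Qbarˣ)
    (hz : IsPrimitiveRoot ζ ℓ) (y : modularFunctionFieldBar N) :
    qExpand Qbar ℓ (((letI := algebraAlong (heckeAlphaBar Qbar N ℓ)
        Algebra.norm (modularFunctionFieldBar N) (heckeBetaBar Qbar N ℓ y) :
          modularFunctionFieldBar N)) : LaurentSeries Qbar) =
      qExpand Qbar (ℓ * ℓ) (y : LaurentSeries Qbar) *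
        ∏ b ∈ Finset.range ℓ, twist (ζ ^ b) (y : LaurentSeries Qbar) :=
  H19.qExpand_norm_heckeBeta_of_finrank (N := N) (ℓ := ℓ) hl hlN ζ hz
    (H6.finrankAlong_heckeAlphaBar_of_not_dvd N ℓ hl hlN) y

/-- **(K2)** integrality and reduction mod `ℓ` of the Hecke norm. -/
theorem norm_heckeBeta_integral_reduction [hl : Fact ℓ.Prime] (hlN : ¬ ℓ ∣ N)
    (A : ValuationSubring Qbar) {k : Type*} [Field k] [CharP k ℓ] (π : A →+* k)
    (y0 : LaurentSeries A) (hy : coeffMap A.subtype y0 ∈ modularFunctionFieldBar N) :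
    ∃ g0 : LaurentSeries A,
      coeffMap A.subtype g0 = (((letI := algebraAlong (heckeAlphaBar Qbar N ℓ)
        Algebra.norm (modularFunctionFieldBar N)
          (heckeBetaBar Qbar N ℓ ⟨coeffMap A.subtype y0, hy⟩) :
            modularFunctionFieldBar N)) : LaurentSeries Qbar) ∧
      coeffMap π g0 =
        qExpand k ℓ (coeffMap π y0) * coeffMap (frobenius k ℓ) (coeffMap π y0) := by
  obtain ⟨ζ, hz⟩ := H19.exists_primitiveRoot_Qbar ℓ
  exact H59.kronecker_reduction ℓ A π ζ hz.pow_eq_one y0 _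
    (qExpand_norm_heckeBeta N ℓ hl.out hlN ζ hz ⟨coeffMap A.subtype y0, hy⟩)

end Fermat.Agent.S37.H64
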