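import Fermat.Agent.S37.H86_PackageAssembly
import Fermat.Agent.S37.H64_HeckeNormFinal
import Fermat.Agent.S37.H50_ESDivisor
import Fermat.Agent.S37.H53_GaloisEquiv
import Fermat.Agent.S37.H34_FFBaseChar0
import Fermat.Agent.S37.H34_ResidueField
import Fermat.Agent.S37.H8_HeckeUnfold

/-!
# ES-GLUE (hedge, helper53): the Eichler–Shimura clause of the S37 reduction package

* `boundedReps_of_hasBoundedReps` : `H82.HasBoundedReps` (ℓ¹-norm in `ℤ`) gives
  `H86.BoundedReps` (ℓ¹-norm in `ℕ`).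
* `normQExp_coeffFrob` : (K2) `H64.norm_heckeBeta_integral_reduction` + the char-`ℓ` identification
  `H50.eq_esFun_of_coe` give `H86.NormQExp A π N ℓ (coeffFrob k N ℓ)`.
* `reductionModL_heckeOperatorBar` : clause (3), i.e. the hypothesis `hES` of
  `H53.s37_of_inputs` / `H86.specializationExists_of_stage1_of_ES`, with no hypothesis left.
-/

set_option autoImplicit false
set_option linter.style.haveILetI false

noncomputable section

open AlgebraicCurve ModularCurve HahnSeries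

namespace Fermat.Agent.S37.H53

section Bridge

variable {K F : Type*} [Field K] [Field F] [Algebra K F]

theorem l1_eq_norm1 (D : Divisor K F) : H82.l1 D = (H86.norm1 D : ℤ) := by
  rw [H82.l1, H86.norm1, Finsupp.sum, Nat.cast_sum]
  exact Finset.sum_congr rfl fun x _ => (Int.natCast_natAbs _).symm

theorem boundedReps_of_hasBoundedReps {C : ℕ} (hC : H82.HasBoundedReps K F C) :
    H86.BoundedReps K F C := by
  intro D hD
  obtain ⟨E, hE, hle⟩ := hC D hD
  refine ⟨E, hE, ?_⟩
  rw [l1_eq_norm1] at hle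
  exact_mod_cast hle

end Bridge

section NormQExp

/-- **(K2) in the package vocabulary**: the `q`-expansion of the Hecke norm is integral and
reduces to `(Φ ȳ) * (Φ⁻¹ ȳ) ^ ℓ`, `Φ` the coefficientwise Frobenius. -/
theorem normQExp_coeffFrob (N ℓ : ℕ) [NeZero N] [NeZero ℓ] [hℓ : Fact ℓ.Prime] (hℓN : ¬ ℓ ∣ N)
    (A : ValuationSubring (AlgebraicClosure ℚ)) {k : Type*} [Field k] [CharP k ℓ]
    [ExpChar k ℓ] [PerfectRing k ℓ] (π : A →+* k) :
    H86.NormQExp A π N ℓ (coeffFrob k N ℓ) := by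
  intro y hy hyk _
  obtain ⟨g0, hg0, hg0k⟩ := H64.norm_heckeBeta_integral_reduction N ℓ hℓN A π y hy
  have hgk : coeffMap π g0 ∈ modularFunctionFieldFullC k N := by
    rw [hg0k]
    exact mul_mem (H50.qExpand_mem_fullC k ℓ N hyk) (coeffMap_mem_fullC k N _ hyk)
  refine ⟨g0, ?_, hgk, ?_, ?_⟩
  · rw [hg0]
    exact Subtype.mem _
  · exact Subtype.ext hg0
  · have h := H50.eq_esFun_of_coe k ℓ N (y := ⟨coeffMap π y, hyk⟩) (g := ⟨coeffMap π g0, hgk⟩) hg0k
    rw [h, H50.esFun, mul_comm]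

end NormQExp


section Clause3

set_option synthInstance.maxHeartbeats 400000

/-- **Clause (3) of the reduction package, unconditionally**: the Eichler–Shimura congruence
`sp₀ ∘ T_ℓ = Φ ∘ sp₀ + ℓ • Φ⁻¹ ∘ sp₀` on `J₀(N)(ℚ̄)`, `Φ = frobJEquiv`. -/
theorem reductionModL_heckeOperatorBar (N : ℕ) [NeZero N] (ℓ : ℕ) (hℓ : ℓ.Prime) (hℓN : ¬ ℓ ∣ N)
    (A : ValuationSubring (AlgebraicClosure ℚ)) (hA : A.LiesOverPrime ℓ)
    [ExpChar (IsLocalRing.ResidueField A) ℓ] [PerfectRing (IsLocalRing.ResidueField A) ℓ]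
    (y : JZero N) :
    reductionModL A N (heckeOperatorBar N ⟨ℓ, hℓ⟩ y)
      = frobJEquiv (IsLocalRing.ResidueField A) N ℓ (reductionModL A N y)
        + ℓ • (frobJEquiv (IsLocalRing.ResidueField A) N ℓ).symm (reductionModL A N y) := by
  haveI : NeZero ℓ := ⟨hℓ.ne_zero⟩
  haveI : Fact ℓ.Prime := ⟨hℓ⟩
  haveI : CharP (IsLocalRing.ResidueField A) ℓ := H34.charP_residueField A hℓ hA
  by_cases h : ReductionInputsModL A N
  · obtain ⟨C, hC⟩ := H34.hasBoundedReps_FN' N
    have hB := boundedReps_of_hasBoundedReps hC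
    haveI := H8.hasPrincipalDivisors_FN (N * ℓ)
    have hα := H8.heckeAlphaBarIntegral N ℓ
    have hβ := H8.heckeBetaBarIntegral N ℓ
    have hfin := H8.finiteAlong_heckeAlphaBar N ℓ
    have hFI := (H8.heckeInputsAlong N ℓ).snd.snd.snd.snd.1
    have hNorm := (H8.heckeInputsAlong N ℓ).snd.snd.snd.snd.2
    have hop : heckeOperatorBar N ⟨ℓ, hℓ⟩ y = heckePic0Bar hα hβ hFI hfin hNorm y := by
      show (heckeOperatorAlong (AlgebraicClosure ℚ) N ℓ) y = _
      rw [heckeOperatorAlong_eq hα hβ hFI hfin hNorm]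
    have key := H86.reductionAlong_of_normCongruence h ℓ (heckeDivBar hα hβ)
      (heckePic0Bar hα hβ hFI hfin hNorm)
      (fun D => ⟨Divisor.correspondence_mem_degZero _ _ hβ hα hFI D.2, rfl⟩)
      (finrankAlong (AlgebraicClosure ℚ) (heckeBetaBar (AlgebraicClosure ℚ) N ℓ))
      (H86.norm1_correspondence_single_le (heckeBetaBar (AlgebraicClosure ℚ) N ℓ)
        (heckeAlphaBar (AlgebraicClosure ℚ) N ℓ) hβ hα (H8.deg_eq_one_FN N) hFI)
      (coeffFrob (IsLocalRing.ResidueField A) N ℓ)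
      (H86.normCongruence_of_normQExp hα hβ hfin hNorm _
        (normQExp_coeffFrob N ℓ hℓN A (IsLocalRing.residue A))) C hB y
    rw [frobJEquiv_apply', frobJEquiv_symm_apply]
    exact (congrArg (reductionModL A N) hop).trans key
  · rw [reductionModL_of_not h]
    simp
end Clause3

end Fermat.Agent.S37.H53

end
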