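import Fermat.Agent.S37.H53_GaloisEquiv
import Fermat.Agent.S37.H34_ResidueField

/-!
# S37 from its three remaining inputs (dry-run assembly)

`s37_of_inputs` proves the frozen conclusion of S37 from

* `hC`   : bounded representatives on `X₀(N)` over `ℚ̄` (Riemann's inequality; `H34.hasBoundedReps_FN`),
* `hES`  : the Eichler–Shimura congruence on `Pic⁰` (clause (3) of the reduction package),
* `hR`   : existence of the reduction data `ReductionInputsModL A N` (R-EXIST),
* `hS18` : the frozen statement S18 (injectivity of reduction on prime-to-`ℓ` torsion).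

Everything else (clauses (1), (2), the residue-field instances, the algebra) is discharged here.
-/

set_option autoImplicit false
set_option linter.style.haveILetI false

noncomputable section

open AlgebraicCurve ModularCurve

namespace Fermat.Agent.S37.H53

/-- The frozen conclusion of S37 from the remaining inputs. -/
theorem s37_of_inputs (N p : ℕ) [NeZero N]
    (hcomm : ModularCurve.HeckeOperatorsCommuteBar N)
    {C : ℕ} (hC : H82.HasBoundedReps (AlgebraicClosure ℚ) (modularFunctionFieldBar N) C)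
    (hES : ∀ (ℓ : ℕ) (hℓ : ℓ.Prime), ¬ ℓ ∣ N * p →
      ∀ (A : ValuationSubring (AlgebraicClosure ℚ)) (hA : A.LiesOverPrime ℓ),
        haveI := H34.charP_residueField A hℓ hA
        haveI : Fact ℓ.Prime := ⟨hℓ⟩
        haveI := H34.perfectRing_residueField A hℓ hA
        ∀ y : JZero N, reductionModL A N (heckeOperatorBar N ⟨ℓ, hℓ⟩ y)
          = frobJEquiv (IsLocalRing.ResidueField A) N ℓ (reductionModL A N y)
            + ℓ • (frobJEquiv (IsLocalRing.ResidueField A) N ℓ).symm (reductionModL A N y))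
    (hR : ∀ (ℓ : ℕ), ℓ.Prime → ¬ ℓ ∣ N →
      ∀ (A : ValuationSubring (AlgebraicClosure ℚ)), A.LiesOverPrime ℓ →
        ModularCurve.ReductionInputsModL A N)
    (hS18 : ∀ {ℓ : ℕ} [Fact ℓ.Prime], ¬ ℓ ∣ N →
      ∀ (A : ValuationSubring (AlgebraicClosure ℚ)), A.LiesOverPrime ℓ →
        ModularCurve.ReductionInputsModL A N → ∀ (m : ℕ), ¬ ℓ ∣ m → ∀ z : ModularCurve.JZero N,
          m • z = 0 → ModularCurve.reductionModL A N z = 0 → z = 0) :
    letI := ModularCurve.heckeModuleBar N
    ∀ (_ : SMulCommClass (AlgebraicClosure ℚ ≃ₐ[ℚ] AlgebraicClosure ℚ) ModularCurve.HeckeAlg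
      (ModularCurve.JZero N)),
      ModularCurve.SpecializationExists (K := ℚ) (L := AlgebraicClosure ℚ) N p
        (ModularCurve.JZero N) := by
  refine H86.specializationExists_of_packages N p hcomm ?_
  intro ℓ hℓ hℓNp A hA
  haveI := H34.charP_residueField A hℓ hA
  haveI : Fact ℓ.Prime := ⟨hℓ⟩
  haveI := H34.perfectRing_residueField A hℓ hA
  have hℓN : ¬ ℓ ∣ N := fun h => hℓNp (h.mul_right p)
  have hℓp : ¬ ℓ ∣ p := fun h => hℓNp (h.mul_left N)
  refine reductionPackage_of_ES_of_inj N p ℓ hℓ A hC (hES ℓ hℓ hℓNp A hA) ?_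
  rintro x ⟨n, hn⟩ hx
  exact hS18 hℓN A hA (hR ℓ hℓ hℓN A hA) (p ^ n)
    (fun h => hℓp (hℓ.dvd_of_dvd_pow h)) x hn hx

end Fermat.Agent.S37.H53

end
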