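import Mathlib
import Fermat.Prelude.Def_AlgebraicCurve_DivisorClassGroup

/-!
# S37 / Stage 2 (helper59): the BOUNDED-IMAGE LEMMA

An additive map `δ : Div(F) → Div(F̄)` which kills principal divisors and has bounded `L¹`-norm on
places vanishes on `Div⁰(F)`, as soon as every degree-zero class of `F` has a representative of
bounded `L¹`-norm (which is Riemann's inequality: every class contains `E - g P₀`, `E ≥ 0` of
degree `g`).  This replaces the hypothesis "`Pic⁰` is divisible" of the prelude's
`IsPlaceReductionAlong.eq_or_const_of_agree`.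

Consequence: an identity between two "correspondence type" maps `Div(F) → Div(F̄)` only has to be
checked on principal divisors.
-/

set_option autoImplicit false

noncomputable section

namespace Fermat.Agent.S37.H59

open AlgebraicCurve

section L1

variable {α : Type*}

/-- The `L¹`-norm of an integer-valued finitely supported function. -/
def l1norm (E : α →₀ ℤ) : ℕ := E.sum fun _ n => n.natAbs

@[simp] theorem l1norm_zero : l1norm (0 : α →₀ ℤ) = 0 := by simp [l1norm]

theorem l1norm_single (a : α) (n : ℤ) : l1norm (Finsupp.single a n) = n.natAbs := by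
  simp [l1norm]

theorem l1norm_eq_sum_of_subset (E : α →₀ ℤ) (s : Finset α) (hs : E.support ⊆ s) :
    l1norm E = ∑ a ∈ s, (E a).natAbs := by
  rw [l1norm, Finsupp.sum]
  refine Finset.sum_subset hs fun a _ ha => ?_
  rw [Finsupp.notMem_support_iff] at ha
  simp [ha]

theorem l1norm_add_le [DecidableEq α] (E E' : α →₀ ℤ) :
    l1norm (E + E') ≤ l1norm E + l1norm E' := by
  classical
  set s := E.support ∪ E'.support with hs
  have h1 : (E + E').support ⊆ s := Finsupp.support_add
  rw [l1norm_eq_sum_of_subset (E + E') s h1,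
    l1norm_eq_sum_of_subset E s Finset.subset_union_left,
    l1norm_eq_sum_of_subset E' s Finset.subset_union_right, ← Finset.sum_add_distrib]
  exact Finset.sum_le_sum fun a _ => by
    rw [Finsupp.add_apply]; exact Int.natAbs_add_le _ _

theorem l1norm_neg (E : α →₀ ℤ) : l1norm (-E) = l1norm E := by
  rw [l1norm_eq_sum_of_subset (-E) E.support (by rw [Finsupp.support_neg]),
    l1norm_eq_sum_of_subset E E.support (le_refl _)]
  exact Finset.sum_congr rfl fun a _ => by rw [Finsupp.neg_apply, Int.natAbs_neg]

theorem l1norm_nsmul (n : ℕ) (E : α →₀ ℤ) : l1norm (n • E) = n * l1norm E := by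
  rw [l1norm_eq_sum_of_subset (n • E) E.support Finsupp.support_smul,
    l1norm_eq_sum_of_subset E E.support (le_refl _), Finset.mul_sum]
  exact Finset.sum_congr rfl fun a _ => by
    rw [Finsupp.smul_apply, nsmul_eq_mul, Int.natAbs_mul, Int.natAbs_natCast]

theorem l1norm_zsmul (n : ℤ) (E : α →₀ ℤ) : l1norm (n • E) = n.natAbs * l1norm E := by
  rw [l1norm_eq_sum_of_subset (n • E) E.support Finsupp.support_smul,
    l1norm_eq_sum_of_subset E E.support (le_refl _), Finset.mul_sum]
  exact Finset.sum_congr rfl fun a _ => by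
    rw [Finsupp.smul_apply, smul_eq_mul, Int.natAbs_mul]

theorem l1norm_eq_zero_iff (E : α →₀ ℤ) : l1norm E = 0 ↔ E = 0 := by
  constructor
  · intro h
    ext a
    by_contra ha
    have hmem : a ∈ E.support := Finsupp.mem_support_iff.mpr ha
    have h0 : ∑ b ∈ E.support, (E b).natAbs = 0 := h
    have := (Finset.sum_eq_zero_iff.mp h0) a hmem
    exact ha (Int.natAbs_eq_zero.mp this)
  · rintro rfl; simp

theorem l1norm_sub_le [DecidableEq α] (E E' : α →₀ ℤ) :
    l1norm (E - E') ≤ l1norm E + l1norm E' := by
  rw [sub_eq_add_neg]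
  exact (l1norm_add_le E (-E')).trans (by rw [l1norm_neg])

/-- A homomorphism which is bounded by `C` on the generators `single a 1` is bounded by
`C * l1norm` everywhere. -/
theorem l1norm_map_le {β : Type*} [DecidableEq β] (δ : (α →₀ ℤ) →+ (β →₀ ℤ)) (C : ℕ)
    (hC : ∀ a, l1norm (δ (Finsupp.single a 1)) ≤ C) (E : α →₀ ℤ) :
    l1norm (δ E) ≤ C * l1norm E := by
  classical
  induction E using Finsupp.induction with
  | zero => simp
  | single_add a n E ha hn ih =>
    have hsingle : l1norm (δ (Finsupp.single a n)) ≤ C * n.natAbs := by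
      have : Finsupp.single a n = n • Finsupp.single a (1 : ℤ) := by
        rw [Finsupp.smul_single, smul_eq_mul, mul_one]
      rw [this, map_zsmul, l1norm_zsmul, mul_comm]
      exact Nat.mul_le_mul_right _ (hC a)
    have hdisj : l1norm (Finsupp.single a n + E) = n.natAbs + l1norm E := by
      rw [l1norm, Finsupp.sum_add_index_of_disjoint]
      · simp [l1norm]
      · refine Finset.disjoint_left.mpr fun b hb hb' => ?_
        have hb1 : b = a := by
          by_contra hne
          rw [Finsupp.mem_support_iff, Finsupp.single_apply, if_neg (Ne.symm hne)] at hb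
          exact hb rfl
        exact ha (hb1 ▸ hb')
    rw [map_add, hdisj, mul_add]
    exact (l1norm_add_le _ _).trans (add_le_add hsingle ih)

end L1

section Main

variable {K F k Fb : Type*} [Field K] [Field F] [Algebra K F] [Field k] [Field Fb] [Algebra k Fb]

/-- Every degree-zero divisor class of `F` has a representative of `L¹`-norm at most `B`. -/
def BoundedRepresentatives (K F : Type*) [Field K] [Field F] [Algebra K F] (B : ℕ) : Prop :=
  ∀ D ∈ Divisor.degZero (K := K) (F := F), ∃ D' : Divisor K F,
    D - D' ∈ Divisor.principal (K := K) (F := F) ∧ l1norm D' ≤ B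

/-- **Bounded-image lemma.** -/
theorem eq_zero_of_bounded (δ : Divisor K F →+ Divisor k Fb)
    (hprin : ∀ D ∈ Divisor.principal (K := K) (F := F), δ D = 0)
    (C : ℕ) (hC : ∀ P : Place K F, l1norm (δ (Finsupp.single P 1)) ≤ C)
    (B : ℕ) (hB : BoundedRepresentatives K F B) :
    ∀ D ∈ Divisor.degZero (K := K) (F := F), δ D = 0 := by
  classical
  intro D hD
  rw [← l1norm_eq_zero_iff]
  by_contra hne
  have hpos : 1 ≤ l1norm (δ D) := Nat.one_le_iff_ne_zero.mpr hne
  set n := C * B + 1 with hn
  have hnD : n • D ∈ Divisor.degZero (K := K) (F := F) := AddSubgroup.nsmul_mem _ hD n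
  obtain ⟨D', hD', hB'⟩ := hB (n • D) hnD
  have h1 : δ (n • D) = δ D' := by
    have := hprin _ hD'
    rwa [map_sub, sub_eq_zero] at this
  have h2 : n * l1norm (δ D) ≤ C * B := by
    rw [← l1norm_nsmul, ← map_nsmul, h1]
    exact (l1norm_map_le δ C hC D').trans (Nat.mul_le_mul_left _ hB')
  have h3 : n ≤ n * l1norm (δ D) := Nat.le_mul_of_pos_right _ hpos
  omega

/-- Riemann's inequality in the form "every degree-zero class contains `E - g P₀` with `E ≥ 0` of
degree `g`" gives bounded representatives, if all places have degree at least one. -/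
theorem boundedRepresentatives_of_riemann (g : ℕ) (P₀ : Place K F)
    (hdeg : ∀ P : Place K F, 1 ≤ P.deg)
    (hR : ∀ D ∈ Divisor.degZero (K := K) (F := F), ∃ E : Divisor K F, (∀ P, 0 ≤ E P) ∧
      Divisor.degree E ≤ g ∧
      D - (E - (Divisor.degree E) • Finsupp.single P₀ (1 : ℤ)) ∈
        Divisor.principal (K := K) (F := F)) :
    BoundedRepresentatives K F (2 * g) := by
  classical
  intro D hD
  obtain ⟨E, hE0, hEg, hprin⟩ := hR D hD
  refine ⟨E - (Divisor.degree E) • Finsupp.single P₀ (1 : ℤ), hprin, ?_⟩
  have hdegE : (l1norm E : ℤ) ≤ Divisor.degree E := by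
    have hdegE' : Divisor.degree E = ∑ P ∈ E.support, E P * (P.deg : ℤ) := by
      conv_lhs => rw [← Finsupp.sum_single E]
      rw [Finsupp.sum, map_sum]
      exact Finset.sum_congr rfl fun P _ => Divisor.degree_single P (E P)
    rw [hdegE', l1norm_eq_sum_of_subset E E.support (le_refl _), Nat.cast_sum]
    refine Finset.sum_le_sum fun P _ => ?_
    rw [Int.natCast_natAbs, abs_of_nonneg (hE0 P)]
    have h1 : (1 : ℤ) ≤ (P.deg : ℤ) := by exact_mod_cast hdeg P
    nlinarith [hE0 P]
  have hdeg0 : 0 ≤ Divisor.degree E := le_trans (Int.natCast_nonneg _) hdegE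
  have h2 : l1norm ((Divisor.degree E) • Finsupp.single P₀ (1 : ℤ)) = (Divisor.degree E).natAbs := by
    rw [l1norm_zsmul, l1norm_single]; simp
  have h3 : l1norm (E - (Divisor.degree E) • Finsupp.single P₀ (1 : ℤ)) ≤
      l1norm E + (Divisor.degree E).natAbs := by
    rw [← h2]; exact l1norm_sub_le _ _
  have h4 : ((Divisor.degree E).natAbs : ℤ) = Divisor.degree E := Int.natAbs_of_nonneg hdeg0
  omega

/-- Two maps of places which agree on principal divisors agree on all degree-zero divisors
(no divisibility of `Pic⁰` needed, only bounded representatives). -/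
theorem mapDomain_eq_of_agree (r₁ r₂ : Place K F → Place k Fb)
    (hagree : ∀ D ∈ Divisor.principal (K := K) (F := F),
      Finsupp.mapDomain r₁ D = Finsupp.mapDomain r₂ D)
    (B : ℕ) (hB : BoundedRepresentatives K F B) :
    ∀ D ∈ Divisor.degZero (K := K) (F := F),
      Finsupp.mapDomain r₁ D = Finsupp.mapDomain r₂ D := by
  classical
  intro D hD
  have := eq_zero_of_bounded
    (Finsupp.mapDomain.addMonoidHom r₁ - Finsupp.mapDomain.addMonoidHom r₂ :
      Divisor K F →+ Divisor k Fb)
    (fun E hE => by
      rw [AddMonoidHom.sub_apply, Finsupp.mapDomain.addMonoidHom_apply,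
        Finsupp.mapDomain.addMonoidHom_apply, hagree E hE, sub_self])
    2 (fun P => by
      rw [AddMonoidHom.sub_apply, Finsupp.mapDomain.addMonoidHom_apply,
        Finsupp.mapDomain.addMonoidHom_apply, Finsupp.mapDomain_single, Finsupp.mapDomain_single]
      refine (l1norm_sub_le _ _).trans ?_
      rw [l1norm_single, l1norm_single]; simp)
    B hB D hD
  rwa [AddMonoidHom.sub_apply, Finsupp.mapDomain.addMonoidHom_apply,
    Finsupp.mapDomain.addMonoidHom_apply, sub_eq_zero] at this

/-- The analogue of the prelude's `IsPlaceReductionAlong.eq_or_const_of_agree` without the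
divisibility hypothesis. -/
theorem eq_or_const_of_agree (r₁ r₂ : Place K F → Place k Fb)
    (hagree : ∀ D ∈ Divisor.principal (K := K) (F := F),
      Finsupp.mapDomain r₁ D = Finsupp.mapDomain r₂ D)
    (B : ℕ) (hB : BoundedRepresentatives K F B)
    (hdeg : ∀ P Q : Place K F, P.deg = Q.deg) :
    r₁ = r₂ ∨ ∀ P Q, r₁ P = r₁ Q := by
  classical
  have hdeg0 := mapDomain_eq_of_agree r₁ r₂ hagree B hB
  have hconst : ∀ P Q : Place K F,
      Finsupp.single (r₁ P) (1 : ℤ) - Finsupp.single (r₂ P) 1 =
        Finsupp.single (r₁ Q) 1 - Finsupp.single (r₂ Q) 1 := by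
    intro P Q
    have hPQ : Finsupp.single P (1 : ℤ) - Finsupp.single Q 1 ∈
        Divisor.degZero (K := K) (F := F) := by
      rw [Divisor.mem_degZero, map_sub, Divisor.degree_single, Divisor.degree_single, hdeg P Q,
        sub_self]
    have h := hdeg0 _ hPQ
    rw [Finsupp.mapDomain_sub, Finsupp.mapDomain_sub, Finsupp.mapDomain_single,
      Finsupp.mapDomain_single, Finsupp.mapDomain_single, Finsupp.mapDomain_single] at h
    exact sub_eq_sub_iff_sub_eq_sub.mpr h
  rw [or_iff_not_imp_left]
  intro hne
  obtain ⟨P₀, hP₀⟩ : ∃ P₀, r₁ P₀ ≠ r₂ P₀ := by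
    by_contra hall
    push Not at hall
    exact hne (funext hall)
  have hr₁const : ∀ Q, r₁ Q = r₁ P₀ := by
    intro Q
    have h := congrArg (fun E => E (r₁ P₀)) (hconst Q P₀)
    simp only [Finsupp.sub_apply, Finsupp.single_apply, if_neg (Ne.symm hP₀)] at h
    by_contra hQ
    rw [if_neg hQ] at h
    split_ifs at h <;> omega
  exact fun P Q => (hr₁const P).trans (hr₁const Q).symm

end Main

end Fermat.Agent.S37.H59
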