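import Mathlib

/-!
S37 / NORM-QEXP (helper64), part A: an abstract Galois-theory lemma.

If the `K`-embeddings of a finite separable extension `E / K` into an algebraically closed field
`Ω` are classified injectively by a finite type `ι` with at most `[E : K]` elements, then the
classification is a bijection and the norm of `z : E` is the product over `ι` of the values of
the embeddings at `z`.
-/

set_option autoImplicit false

namespace Fermat.Agent.S37.H64

open scoped Classical in
theorem norm_eq_prod_of_classified {K E Ω : Type*} [Field K] [Field E] [Field Ω]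
    [Algebra K E] [Algebra K Ω] [FiniteDimensional K E] [Algebra.IsSeparable K E]
    [IsAlgClosed Ω] {ι : Type*} [Fintype ι]
    (hcard : Fintype.card ι ≤ Module.finrank K E)
    (P : (E →ₐ[K] Ω) → ι → Prop)
    (hex : ∀ σ, ∃ i, P σ i)
    (hinj : ∀ σ σ' i, P σ i → P σ' i → σ = σ')
    (z : E) (v : ι → Ω) (hv : ∀ σ i, P σ i → σ z = v i) :
    algebraMap K Ω (Algebra.norm K z) = ∏ i, v i := by
  rw [Algebra.norm_eq_prod_embeddings K Ω z]
  choose c hc using hex
  have hci : Function.Injective c := fun σ σ' h => hinj σ σ' (c σ) (hc σ) (h ▸ hc σ')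
  have hcardE : Fintype.card (E →ₐ[K] Ω) = Module.finrank K E := AlgHom.card K E Ω
  have hle : Fintype.card (E →ₐ[K] Ω) ≤ Fintype.card ι := Fintype.card_le_of_injective c hci
  have hbij : Function.Bijective c :=
    (Fintype.bijective_iff_injective_and_card c).2 ⟨hci, le_antisymm hle (hcardE ▸ hcard)⟩
  exact Fintype.prod_bijective c hbij _ _ fun σ => hv σ (c σ) (hc σ)

end Fermat.Agent.S37.H64
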