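import Mathlib
import Fermat.Agent.S28.H39_Dictionary
import Fermat.Agent.S28.H50_Frame

/-!
S37 / NORM-QEXP (helper64), part B: the series side.

Inside `L((s))`, `s^Mt = q`, with `ζ` a primitive `Mt`-th root of unity:

* `exists_tmul_of_root` : every root (in any field extension `Ω`) of `Φ_{m'}(X, J_c)` is one of the
  Hermite neighbours `J_(γ c)`, `γ` a primitive triple of determinant `m'`;
* `tmul_pin`            : the combinatorial pinning `α' · (d,0,1) = γ · α ⟹ γ = (d,0,1)`;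
* `substTriple`         : the substitution `q ↦ ζ_δ^b q^(a/δ)` attached to a triple, with
  `substTriple α (J(q^d)) = J_((d,0,1) · α)`.
-/

set_option autoImplicit false
set_option linter.style.haveILetI false

noncomputable section

namespace Fermat.Agent.S37.H64

open Fermat.Agent.S28 Fermat.Agent.S28.H39 Fermat.Agent.S28.H64 Fermat.Agent.S28.H50
open Polynomial ModularCurve

/-! ### combinatorics of `tmul` -/

/-- `tmul` is injective in its first argument on Hermite forms. -/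
theorem tmul_left_injective {c γ γ' : ℕ × ℕ × ℕ} (ha : 0 < c.1) (hd : 0 < c.2.2)
    (hγ : γ.2.1 < γ.2.2) (hγ' : γ'.2.1 < γ'.2.2) (h : tmul γ c = tmul γ' c) : γ = γ' := by
  obtain ⟨a, b, d⟩ := c
  obtain ⟨x, y, z⟩ := γ
  obtain ⟨x', y', z'⟩ := γ'
  simp only [tmul, Prod.mk.injEq] at h
  simp only at ha hd hγ hγ'
  obtain ⟨h1, h2, h3⟩ := h
  have hx : x = x' := Nat.eq_of_mul_eq_mul_right ha h1
  have hz : z = z' := Nat.eq_of_mul_eq_mul_right hd h3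
  subst hx hz
  refine Prod.ext rfl (Prod.ext ?_ rfl)
  show y = y'
  -- `(x b + y d) ≡ (x b + y' d) mod z d`
  have hmod : (x * b + y * d) ≡ (x * b + y' * d) [MOD z * d] := h2
  have h4 : y * d ≡ y' * d [MOD z * d] := Nat.ModEq.add_left_cancel' _ hmod
  have h5 : y ≡ y' [MOD z] := Nat.ModEq.mul_right_cancel' hd.ne' h4
  exact Nat.ModEq.eq_of_lt_of_lt h5 hγ hγ'

/-- **Pinning.** If `α, α'` are primitive of prime determinant `ℓ`, `γ` is primitive of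
determinant `d` prime to `ℓ`, and `α' · (d,0,1) = γ · α`, then `γ = (d,0,1)`. -/
theorem tmul_pin {ℓ d : ℕ} (hℓ : ℓ.Prime) (hd : 0 < d) (hcop : ¬ ℓ ∣ d) {α α' γ : ℕ × ℕ × ℕ}
    (hα : α ∈ triples ℓ) (hα' : α' ∈ triples ℓ) (hγ : γ ∈ triples d)
    (h : tmul α' (d, 0, 1) = tmul γ α) : γ = (d, 0, 1) := by
  obtain ⟨x, y, z⟩ := γ
  have hγ' := (mem_triples hd).1 hγ
  obtain ⟨hxz, hyz, -⟩ := hγ'
  simp only at hxz hyz
  have hα1 := (isPrimTriple_prime_iff hℓ).1 ((mem_triples hℓ.pos).1 hα)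
  have hα2 := (isPrimTriple_prime_iff hℓ).1 ((mem_triples hℓ.pos).1 hα')
  obtain ⟨a, b, δ⟩ := α
  obtain ⟨a', b', δ'⟩ := α'
  simp only [tmul, Prod.mk.injEq, mul_one, mul_zero, zero_add] at h
  obtain ⟨h1, -, h3⟩ := h
  simp only at hα1 hα2
  have hz1 : z = 1 := by
    rcases hα1 with ⟨-, -, hδ⟩ | ⟨-, -, hδ⟩ <;> rcases hα2 with ⟨-, -, hδ'⟩ | ⟨-, -, hδ'⟩
    · -- `δ = 1`, `δ' = 1`
      rw [hδ, hδ', mul_one] at h3
      exact h3.symm
    · -- `δ = 1`, `δ' = ℓ = z`, but `z ∣ d`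
      exfalso
      apply hcop
      rw [hδ, hδ', mul_one] at h3
      rw [← hxz, ← h3]
      exact Dvd.intro_left _ rfl
    · -- `δ = ℓ`, `δ' = 1`: `1 = z ℓ`
      rw [hδ, hδ'] at h3
      have := Nat.eq_one_of_mul_eq_one_left h3.symm
      exact (hℓ.one_lt.ne' this).elim
    · -- `δ = ℓ`, `δ' = ℓ`: `ℓ = z ℓ`
      rw [hδ, hδ'] at h3
      have h4 : 1 * ℓ = z * ℓ := by rw [one_mul]; exact h3
      exact (Nat.eq_of_mul_eq_mul_right hℓ.pos h4).symm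
  subst hz1
  rw [mul_one] at hxz
  subst hxz
  have hy0 : y = 0 := by omega
  subst hy0
  rfl

/-! ### roots of `Φ_{m'}(X, J_c)` in an extension field -/

section Roots

open scoped Classical

variable {L : Type} [Field L] {Mt : ℕ} [NeZero Mt] {ζ : Lˣ}

/-- The Hermite neighbours `J_(γ c)`, `γ ∈ triples m'`, are pairwise distinct. -/
theorem tmulRoots_injOn (hζ : IsPrimitiveRoot ζ Mt) {m' : ℕ} (hm' : 0 < m') {a b d : ℕ}
    (ha : 0 < a) (hb : b < d) (hdiv : d * m' ∣ Mt) :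
    Set.InjOn (fun γ => Jtriple ζ Mt (tmul γ (a, b, d))) (triples m' : Set (ℕ × ℕ × ℕ)) := by
  intro γ hγ γ' hγ' h
  have hN0 : 0 < Mt := Nat.pos_of_ne_zero (NeZero.ne Mt)
  have hd : 0 < d := lt_of_le_of_lt (Nat.zero_le _) hb
  have hγγ := (mem_triples hm').1 hγ
  have hγγ' := (mem_triples hm').1 hγ'
  obtain ⟨hγa, hγd⟩ := IsPrimTriple.pos hm' hγγ
  obtain ⟨hγa', hγd'⟩ := IsPrimTriple.pos hm' hγγ'
  have hdvd : ∀ β : ℕ × ℕ × ℕ, IsPrimTriple m' β.1 β.2.1 β.2.2 →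
      (tmul β (a, b, d)).2.2 ∣ Mt := by
    intro β hβ
    show β.2.2 * d ∣ Mt
    refine dvd_trans ?_ hdiv
    rw [mul_comm d m']
    exact Nat.mul_dvd_mul_right (Dvd.intro_left _ hβ.1) d
  have key := Jtriple_injective (ζ := ζ) (N := Mt) hζ hN0
    (a := (tmul γ (a, b, d)).1) (b := (tmul γ (a, b, d)).2.1) (d := (tmul γ (a, b, d)).2.2)
    (a' := (tmul γ' (a, b, d)).1) (b' := (tmul γ' (a, b, d)).2.1)
    (d' := (tmul γ' (a, b, d)).2.2)
    (Nat.mul_pos hγa ha) (Nat.mul_pos hγa' ha)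
    (by rw [tmul_det, tmul_det, hγγ.1, hγγ'.1])
    (tmul_lt hγd hd) (tmul_lt hγd' hd) (hdvd γ hγγ) (hdvd γ' hγγ') h
  obtain ⟨h1, h2, h3⟩ := key
  exact tmul_left_injective (c := (a, b, d)) ha hd hγγ.2.1 hγγ'.2.1
    (Prod.ext h1 (Prod.ext h2 h3))

/-- Product formula `Φ_{m'}(X, J_c) = ∏_γ (X - J_(γ c))` for a Hermite form `c = (a,b,d)` with
`d m' ∣ Mt`. -/
theorem map_eq_prod_tmulRoots (hζ : IsPrimitiveRoot ζ Mt) {m' : ℕ} [NeZero m']
    {Φ : Polynomial ℤ[X]} (hΦ : Φ.Monic) (hdeg : Φ.natDegree = dedekindPsi m')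
    (h : RootsAt L m' (ζ ^ (Mt / m')) Φ) {a b d : ℕ} (ha : 0 < a) (hb : b < d)
    (hdiv : d * m' ∣ Mt) :
    Φ.map (evalJ (Jtriple ζ Mt (a, b, d))) =
      ∏ y ∈ (triples m').image (fun γ => Jtriple ζ Mt (tmul γ (a, b, d))), (X - C y) := by
  have hm' : 0 < m' := Nat.pos_of_ne_zero (NeZero.ne m')
  have hd : 0 < d := lt_of_le_of_lt (Nat.zero_le _) hb
  have hmonic : (Φ.map (evalJ (Jtriple ζ Mt (a, b, d)))).Monic := hΦ.map _
  refine eq_prod_of_roots hmonic _ ?_ ?_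
  · rw [hΦ.natDegree_map, hdeg, Finset.card_image_of_injOn (tmulRoots_injOn hζ hm' ha hb hdiv),
      card_triples m' hm']
  · intro y hy
    obtain ⟨γ, hγ, rfl⟩ := Finset.mem_image.1 hy
    rw [eval_map]
    exact eval₂_Jtriple_tmul hζ.pow_eq_one h ha hd hdiv ((mem_triples hm').1 hγ)

/-- Every root of `Φ_{m'}(X, J_c)` in a field extension is a Hermite neighbour of `J_c`. -/
theorem exists_tmul_of_root {Ω : Type*} [Field Ω] (ι : LaurentSeries L →+* Ω)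
    (hζ : IsPrimitiveRoot ζ Mt) {m' : ℕ} [NeZero m']
    {Φ : Polynomial ℤ[X]} (hΦ : Φ.Monic) (hdeg : Φ.natDegree = dedekindPsi m')
    (h : RootsAt L m' (ζ ^ (Mt / m')) Φ) {a b d : ℕ} (ha : 0 < a) (hb : b < d)
    (hdiv : d * m' ∣ Mt) {z : Ω}
    (hz : Φ.eval₂ (ι.comp (evalJ (Jtriple ζ Mt (a, b, d)))) z = 0) :
    ∃ γ ∈ triples m', z = ι (Jtriple ζ Mt (tmul γ (a, b, d))) := by
  have hprod := map_eq_prod_tmulRoots hζ hΦ hdeg h ha hb hdiv
  have h1 : (Φ.map (evalJ (Jtriple ζ Mt (a, b, d)))).eval₂ ι z = 0 := by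
    rw [eval₂_map]
    exact hz
  rw [hprod, eval₂_finsetProd, Finset.prod_eq_zero_iff] at h1
  obtain ⟨y, hy, hyz⟩ := h1
  obtain ⟨γ, hγ, rfl⟩ := Finset.mem_image.1 hy
  refine ⟨γ, hγ, ?_⟩
  rw [eval₂_sub, eval₂_X, eval₂_C, sub_eq_zero] at hyz
  exact hyz

end Roots

/-! ### the substitution attached to a triple -/

section Subst

variable {L : Type*} [Field L]

/-- The substitution `q ↦ ζ_δ^b q^(a/δ)` attached to the triple `α = (a, b, δ)`, written in the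
variable `s` with `s^Mt = q`: `f(q) ↦ f(ζ^((Mt/δ) b) s^((Mt/δ) a))`. Junk value `id` if the
exponent vanishes. -/
def substTriple (ζ : Lˣ) (Mt : ℕ) (α : ℕ × ℕ × ℕ) : LaurentSeries L →+* LaurentSeries L :=
  if h : Mt / α.2.2 * α.1 = 0 then RingHom.id _
  else
    haveI : NeZero (Mt / α.2.2 * α.1) := ⟨h⟩
    subst (ζ ^ (Mt / α.2.2 * α.2.1)) (Mt / α.2.2 * α.1)

theorem substTriple_eq (ζ : Lˣ) (Mt : ℕ) (α : ℕ × ℕ × ℕ) [NeZero (Mt / α.2.2 * α.1)] :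
    substTriple ζ Mt α = subst (ζ ^ (Mt / α.2.2 * α.2.1)) (Mt / α.2.2 * α.1) :=
  dif_neg (NeZero.ne _)

theorem substTriple_mk (ζ : Lˣ) (Mt a b δ : ℕ) [NeZero (Mt / δ * a)] :
    substTriple ζ Mt (a, b, δ) = subst (ζ ^ (Mt / δ * b)) (Mt / δ * a) :=
  substTriple_eq ζ Mt (a, b, δ)

@[simp]
theorem substTriple_C (ζ : Lˣ) (Mt : ℕ) (α : ℕ × ℕ × ℕ) (r : L) :
    substTriple ζ Mt α (HahnSeries.C r) = HahnSeries.C r := by
  unfold substTriple
  split_ifs with h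
  · rfl
  · haveI : NeZero (Mt / α.2.2 * α.1) := ⟨h⟩
    exact subst_C _ _ r

theorem substTriple_injective (ζ : Lˣ) (Mt : ℕ) (α : ℕ × ℕ × ℕ) :
    Function.Injective (substTriple ζ Mt α) := by
  unfold substTriple
  split_ifs with h
  · exact fun _ _ h => h
  · haveI : NeZero (Mt / α.2.2 * α.1) := ⟨h⟩
    exact subst_injective _ _

/-- `substTriple α (J(q^d)) = J_((d,0,1) · α)`. -/
theorem substTriple_qExpand_jq {ζ : Lˣ} {Mt : ℕ} (hζ : ζ ^ Mt = 1) (hMt : 0 < Mt) {a b δ : ℕ}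
    (ha : 0 < a) (hδ : δ ∣ Mt) (d : ℕ) [NeZero d] :
    substTriple ζ Mt (a, b, δ) (qExpand L d (jqModC L)) =
      Jtriple ζ Mt (tmul (d, 0, 1) (a, b, δ)) := by
  have hd : 0 < d := Nat.pos_of_ne_zero (NeZero.ne d)
  have : NeZero (Mt / δ * a) := ⟨(exponent_pos hMt hδ ha).ne'⟩
  have : NeZero (Mt / δ * (d * a)) := ⟨(exponent_pos hMt hδ (Nat.mul_pos hd ha)).ne'⟩
  rw [substTriple_mk, subst_qExpand, tmul_top, Jtriple_mk, Jconj]
  refine subst_congr ?_ (by ring) _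
  have hN : Mt / δ * δ = Mt := Nat.div_mul_cancel hδ
  have h1 : ζ ^ (Mt / δ * (d * b % δ)) = ζ ^ (Mt / δ * (d * b)) := by
    conv_rhs => rw [← Nat.mod_add_div (d * b) δ]
    rw [mul_add, _root_.pow_add, ← mul_assoc, hN, pow_mul ζ Mt, hζ, one_pow, mul_one]
  rw [h1, ← pow_mul]
  congr 1
  ring

/-- `substTriple α J = J_α` for a Hermite form `α`. -/
theorem substTriple_jq {ζ : Lˣ} {Mt : ℕ} (hζ : ζ ^ Mt = 1) (hMt : 0 < Mt) {a b δ : ℕ}
    (ha : 0 < a) (hb : b < δ) (hδ : δ ∣ Mt) :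
    substTriple ζ Mt (a, b, δ) (jqModC L) = Jtriple ζ Mt (a, b, δ) := by
  have h := substTriple_qExpand_jq (L := L) hζ hMt (b := b) ha hδ 1
  rw [qExpand_one_apply, tmul_top, one_mul, one_mul, Nat.mod_eq_of_lt hb] at h
  exact h

/-- The `∞`-triple `(ℓ,0,1)` is the substitution `q ↦ q^ℓ`. -/
theorem substTriple_top (ζ : Lˣ) (Mt ℓ : ℕ) [NeZero (Mt * ℓ)] :
    substTriple ζ Mt (ℓ, 0, 1) = qExpand L (Mt * ℓ) := by
  have : NeZero (Mt / 1 * ℓ) := ⟨by rw [Nat.div_one]; exact NeZero.ne _⟩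
  ext x : 1
  rw [substTriple_mk, Nat.mul_zero, pow_zero, subst_one]
  exact qExpand_congr (by rw [Nat.div_one]) _

/-- The finite triples `(1,b,ℓ)` are the substitutions `q ↦ ζ_ℓ^b q^(1/ℓ)`. -/
theorem substTriple_bot (ζ : Lˣ) (N ℓ b : ℕ) [NeZero N] [NeZero ℓ] (x : LaurentSeries L) :
    substTriple ζ (N * ℓ) (1, b, ℓ) x = qExpand L N (twist ((ζ ^ N) ^ b) x) := by
  have hℓ : 0 < ℓ := Nat.pos_of_ne_zero (NeZero.ne ℓ)
  have h1 : N * ℓ / ℓ = N := Nat.mul_div_cancel N hℓ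
  have : NeZero (N * ℓ / ℓ * 1) := ⟨by rw [h1, mul_one]; exact NeZero.ne _⟩
  rw [substTriple_mk, ← subst_apply]
  refine subst_congr ?_ (by rw [h1, mul_one]) _
  rw [h1, pow_mul]

end Subst

end Fermat.Agent.S37.H64
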