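import Mathlib
import Fermat.Agent.S37.H64_NormEmb
import Fermat.Agent.S37.H64_NormSeries
import Fermat.Agent.S28.H96_HasModPoly
import Fermat.Agent.S28.H99_Degree
import Fermat.Agent.S28.H43_Toolkit
import Fermat.Prelude.Def_ModularCurve_HeckeOperator

/-!
S37 / NORM-QEXP (helper64), part C: the q-expansion of the Hecke norm.

`K = F_N`, `E = F_{Nℓ}` (function fields over `Qbar`, inside `Qbar((q))`), `α : K → E` the
inclusion, `β : K → E` the substitution `q ↦ q^ℓ`, `ℓ` a prime not dividing `N`.  Then, with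
`t^ℓ = q` and `z` a primitive `ℓ`-th root of unity,

  `Nm_α (β y) (t^ℓ) = y(t^(ℓ²)) * ∏_{b < ℓ} y(z^b t)`        (`qExpand_norm_heckeBeta`).

The proof is purely algebraic: every `K`-embedding `σ` of `E` into an algebraic closure `Ω` of
`Qbar((s))` (`s^(Nℓ) = q`) is, on `β(K)`, one of the `ℓ + 1` substitutions `substTriple a`,
`a ∈ triples ℓ` (the roots of the modular polynomials `Φ_ℓ`, `Φ_N` pin `σ (β j)` and `σ (β j_N)`),
`σ` is determined by this, and `[E : K] = ℓ + 1`.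
-/

set_option autoImplicit false
set_option linter.style.haveILetI false

noncomputable section

namespace Fermat.Agent.S37.H64

open Fermat.Agent.S24 Fermat.Agent.S28 Fermat.Agent.S28.H39 Fermat.Agent.S28.H43
open Fermat.Agent.S28.H64
open ModularCurve Polynomial AlgebraicCurve

/-! ### generalities -/

/-- Two ring homomorphisms out of `F(s)` which agree on `F` and on `s` are equal. -/
theorem ringHom_ext_of_eq_adjoin {F E Ω : Type*} [Field F] [Field E] [Algebra F E] [Field Ω]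
    {S : IntermediateField F E} {s : Set E} (hS : S = IntermediateField.adjoin F s)
    (f g : S →+* Ω) (hc : ∀ c : F, f (algebraMap F S c) = g (algebraMap F S c))
    (h : ∀ x (hx : x ∈ s), f ⟨x, hS.ge (IntermediateField.subset_adjoin _ _ hx)⟩
      = g ⟨x, hS.ge (IntermediateField.subset_adjoin _ _ hx)⟩) : f = g := by
  subst hS
  ext ⟨x, hx⟩
  induction hx using IntermediateField.adjoin_induction with
  | mem x hx => exact h x hx
  | algebraMap c => exact hc c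
  | add x y hx hy ihx ihy =>
      have e : (⟨x + y, add_mem hx hy⟩ : IntermediateField.adjoin F s) = ⟨x, hx⟩ + ⟨y, hy⟩ := rfl
      rw [e, map_add, map_add, ihx, ihy]
  | inv x hx ih =>
      have e : (⟨x⁻¹, inv_mem hx⟩ : IntermediateField.adjoin F s)
          = (⟨x, hx⟩ : IntermediateField.adjoin F s)⁻¹ := rfl
      rw [e, map_inv₀, map_inv₀, ih]
  | mul x y hx hy ihx ihy =>
      have e : (⟨x * y, mul_mem hx hy⟩ : IntermediateField.adjoin F s) = ⟨x, hx⟩ * ⟨y, hy⟩ := rfl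
      rw [e, map_mul, map_mul, ihx, ihy]

theorem rel_map {A B : Type*} [CommRing A] [CommRing B] (f : A →+* B) {Φ : Polynomial ℤ[X]}
    {a b : A} (h : Φ.eval₂ (evalZ a) b = 0) : Φ.eval₂ (evalZ (f a)) (f b) = 0 := by
  rw [← map_eval₂_evalZ, h, map_zero]

theorem rel_of_map {A B : Type*} [CommRing A] [CommRing B] (f : A →+* B)
    (hf : Function.Injective f) {Φ : Polynomial ℤ[X]} {a b : A}
    (h : Φ.eval₂ (evalZ (f a)) (f b) = 0) : Φ.eval₂ (evalZ a) b = 0 :=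
  hf (by rw [map_eval₂_evalZ, h, map_zero])

/-- `Φ_m(j(q^m), j(q)) = 0`. -/
theorem rel_level {k : Type*} [Field k] {m : ℕ} [NeZero m] {Φ : Polynomial ℤ[X]} {ζ : kˣ}
    (hR : RootsAt k m ζ Φ) : Φ.eval₂ (evalZ (jqModC k)) (qExpand k m (jqModC k)) = 0 := by
  have hm : 0 < m := Nat.pos_of_ne_zero (NeZero.ne m)
  haveI : NeZero (m * m) := ⟨mul_ne_zero hm.ne' hm.ne'⟩
  have h1 := hR m 0 1 ⟨mul_one m, Nat.zero_lt_one, by simp⟩ inferInstance
  rw [mul_zero, pow_zero, Jconj_one, ← qExpand_qExpand, ← H39.map_eval₂_evalJ] at h1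
  rw [← evalJ_eq_evalZ]
  exact qExpand_injective m (by rw [h1, map_zero])

theorem tmul_one_right {a : ℕ × ℕ × ℕ} (h : a.2.1 < a.2.2) : tmul a (1, 0, 1) = a := by
  obtain ⟨x, y, z⟩ := a
  simp only at h
  simp only [tmul, mul_one, mul_zero, zero_add, Nat.mod_eq_of_lt h]

/-! ### the generators of `F_N` -/

theorem coeffEmb_jq : coeffEmb Qbar jq = jqModC Qbar := coeffMap_jqModC (algebraMap ℚ Qbar)

theorem coeffEmb_qExpand_jq (d : ℕ) [NeZero d] :
    coeffEmb Qbar (qExpand ℚ d jq) = qExpand Qbar d (jqModC Qbar) := by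
  rw [coeffEmb, coeffMap_qExpand]
  exact congrArg _ coeffEmb_jq

theorem coe_jBar (N : ℕ) [NeZero N] : ((jBar N : FN N) : LaurentSeries Qbar) = jqModC Qbar :=
  coeffEmb_jq

theorem coe_jd (N : ℕ) [NeZero N] (d : ℕ) [NeZero d] (hd : d ∣ N) :
    ((jd N d hd : FN N) : LaurentSeries Qbar) = qExpand Qbar d (jqModC Qbar) :=
  coeffEmb_qExpand_jq d

/-- `F_N = Qbar(j, j_N)`. -/
theorem bar_eq_adjoin_pair (N : ℕ) [NeZero N] :
    modularFunctionFieldBar N =
      IntermediateField.adjoin Qbar {jqModC Qbar, qExpand Qbar N (jqModC Qbar)} := by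
  show laurentBaseChange Qbar (modularFunctionFieldFull N) = _
  rw [← S28.H99.modularFunctionField_eq_full N, modularFunctionField,
    S24.H40.laurentBaseChange_adjoin, Set.image_pair, coeffEmb_jq, coeffEmb_qExpand_jq]

theorem coe_algebraMap_FN (N : ℕ) [NeZero N] (c : Qbar) :
    ((algebraMap Qbar (FN N) c : FN N) : LaurentSeries Qbar) = HahnSeries.C c :=
  S28.H99.algebraMap_eq_C Qbar c

theorem qExpand_C' {R : Type*} [CommRing R] (n : ℕ) [NeZero n] (c : R) :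
    qExpand R n (HahnSeries.C c) = HahnSeries.C c := by
  show qExpand R n (HahnSeries.single 0 c) = HahnSeries.single 0 c
  rw [qExpand_single, mul_zero]

/-! ### the embeddings of `F_{Nℓ}` over `α(F_N)` -/

section Core

variable {N ℓ : ℕ} [NeZero N] [NeZero ℓ] {Ω : Type*} [Field Ω]

/-- **Uniqueness.** A ring homomorphism out of `F_{Nℓ}` is determined by its restrictions along
`α` and `β`. -/
theorem hom_ext_of_alpha_beta (σ σ' : FN (N * ℓ) →+* Ω)
    (hα : ∀ x : FN N, σ (heckeAlphaBar Qbar N ℓ x) = σ' (heckeAlphaBar Qbar N ℓ x))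
    (hβ : ∀ y : FN N, σ (heckeBetaBar Qbar N ℓ y) = σ' (heckeBetaBar Qbar N ℓ y)) : σ = σ' := by
  refine ringHom_ext_of_eq_adjoin (bar_eq_adjoin_pair (N * ℓ)) σ σ' ?_ ?_
  · intro c
    have e : algebraMap Qbar (FN (N * ℓ)) c
        = heckeAlphaBar Qbar N ℓ (algebraMap Qbar (FN N) c) :=
      ((heckeAlphaBar Qbar N ℓ).commutes c).symm
    rw [e]
    exact hα _
  · rintro x (rfl | rfl)
    · have e : (⟨jqModC Qbar, (bar_eq_adjoin_pair (N * ℓ)).ge
          (IntermediateField.subset_adjoin _ _ (Set.mem_insert _ _))⟩ : FN (N * ℓ))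
          = heckeAlphaBar Qbar N ℓ (jBar N) := by
        apply Subtype.ext
        rw [coe_heckeAlphaBar, coe_jBar]
      rw [e]
      exact hα _
    · have e : (⟨qExpand Qbar (N * ℓ) (jqModC Qbar), (bar_eq_adjoin_pair (N * ℓ)).ge
          (IntermediateField.subset_adjoin _ _ (Set.mem_insert_of_mem _ rfl))⟩ : FN (N * ℓ))
          = heckeBetaBar Qbar N ℓ (jd N N dvd_rfl) := by
        apply Subtype.ext
        rw [coe_heckeBetaBar, coe_jd, qExpand_qExpand]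
        exact qExpand_congr (mul_comm _ _) _
      rw [e]
      exact hβ _

/-- **Classification.** A ring homomorphism `σ` out of `F_{Nℓ}` which on `α(F_N)` is
`x ↦ x(s^(Nℓ))` is, on `β(F_N)`, one of the substitutions `substTriple a`, `a ∈ triples ℓ`. -/
theorem exists_triple_of_hom (hℓ : ℓ.Prime) (hℓN : ¬ ℓ ∣ N) {ζ : Qbarˣ}
    (hζ : IsPrimitiveRoot ζ (N * ℓ)) (toOm : LaurentSeries Qbar →+* Ω)
    (σ : FN (N * ℓ) →+* Ω)
    (hσ : ∀ x : FN N, σ (heckeAlphaBar Qbar N ℓ x)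
      = toOm (qExpand Qbar (N * ℓ) (x : LaurentSeries Qbar))) :
    ∃ a ∈ triples ℓ, ∀ y : FN N,
      σ (heckeBetaBar Qbar N ℓ y)
        = toOm (substTriple ζ (N * ℓ) a (y : LaurentSeries Qbar)) := by
  classical
  have hN0 : 0 < N := Nat.pos_of_ne_zero (NeZero.ne N)
  have hM0 : 0 < N * ℓ := Nat.pos_of_ne_zero (NeZero.ne (N * ℓ))
  obtain ⟨Dℓ, hDℓ⟩ := S28.H96.hasModPoly ℓ
  obtain ⟨DN, hDN⟩ := S28.H96.hasModPoly N
  have hζℓ : IsPrimitiveRoot (ζ ^ (N * ℓ / ℓ)) ℓ :=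
    hζ.pow hM0 (Nat.div_mul_cancel (Dvd.intro_left N rfl)).symm
  have hζN : IsPrimitiveRoot (ζ ^ (N * ℓ / N)) N :=
    hζ.pow hM0 (Nat.div_mul_cancel (Dvd.intro ℓ rfl)).symm
  have hRℓ : RootsAt Qbar ℓ (ζ ^ (N * ℓ / ℓ)) Dℓ.Φ := hDℓ Qbar _ hζℓ
  have hRN : RootsAt Qbar N (ζ ^ (N * ℓ / N)) DN.Φ := hDN Qbar _ hζN
  have htoOm : Function.Injective toOm := toOm.injective
  -- the subtype embedding of `F_{Nℓ}`
  let valE : FN (N * ℓ) →+* LaurentSeries Qbar := (modularFunctionFieldBar (N * ℓ)).val.toRingHom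
  have hvalE : Function.Injective valE := Subtype.val_injective
  -- the four elements
  have hva1 : valE (heckeAlphaBar Qbar N ℓ (jBar N)) = jqModC Qbar := by
    show ((heckeAlphaBar Qbar N ℓ (jBar N) : FN (N * ℓ)) : LaurentSeries Qbar) = _
    rw [coe_heckeAlphaBar, coe_jBar]
  have hvt1 : valE (heckeBetaBar Qbar N ℓ (jBar N)) = qExpand Qbar ℓ (jqModC Qbar) := by
    show ((heckeBetaBar Qbar N ℓ (jBar N) : FN (N * ℓ)) : LaurentSeries Qbar) = _
    rw [coe_heckeBetaBar, coe_jBar]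
  have hva2 : valE (heckeAlphaBar Qbar N ℓ (jd N N dvd_rfl)) = qExpand Qbar N (jqModC Qbar) := by
    show ((heckeAlphaBar Qbar N ℓ (jd N N dvd_rfl) : FN (N * ℓ)) : LaurentSeries Qbar) = _
    rw [coe_heckeAlphaBar, coe_jd]
  have hvt2 : valE (heckeBetaBar Qbar N ℓ (jd N N dvd_rfl))
      = qExpand Qbar ℓ (qExpand Qbar N (jqModC Qbar)) := by
    show ((heckeBetaBar Qbar N ℓ (jd N N dvd_rfl) : FN (N * ℓ)) : LaurentSeries Qbar) = _
    rw [coe_heckeBetaBar, coe_jd]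
  -- relations in `Qbar((q))`
  have r1 : Dℓ.Φ.eval₂ (evalZ (jqModC Qbar)) (qExpand Qbar ℓ (jqModC Qbar)) = 0 := rel_level hRℓ
  have r2 : Dℓ.Φ.eval₂ (evalZ (qExpand Qbar N (jqModC Qbar)))
      (qExpand Qbar ℓ (qExpand Qbar N (jqModC Qbar))) = 0 := by
    have h := rel_map (qExpand Qbar N) r1
    have e : qExpand Qbar N (qExpand Qbar ℓ (jqModC Qbar))
        = qExpand Qbar ℓ (qExpand Qbar N (jqModC Qbar)) := by
      rw [qExpand_qExpand, qExpand_qExpand]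
      exact qExpand_congr (mul_comm _ _) _
    rwa [e] at h
  have r3 : DN.Φ.eval₂ (evalZ (qExpand Qbar ℓ (jqModC Qbar)))
      (qExpand Qbar ℓ (qExpand Qbar N (jqModC Qbar))) = 0 :=
    rel_map (qExpand Qbar ℓ) (rel_level hRN)
  -- relations in `F_{Nℓ}`
  have e1 : Dℓ.Φ.eval₂ (evalZ (heckeAlphaBar Qbar N ℓ (jBar N)))
      (heckeBetaBar Qbar N ℓ (jBar N)) = 0 :=
    rel_of_map valE hvalE (by rw [hva1, hvt1]; exact r1)
  have e2 : Dℓ.Φ.eval₂ (evalZ (heckeAlphaBar Qbar N ℓ (jd N N dvd_rfl)))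
      (heckeBetaBar Qbar N ℓ (jd N N dvd_rfl)) = 0 :=
    rel_of_map valE hvalE (by rw [hva2, hvt2]; exact r2)
  have e3 : DN.Φ.eval₂ (evalZ (heckeBetaBar Qbar N ℓ (jBar N)))
      (heckeBetaBar Qbar N ℓ (jd N N dvd_rfl)) = 0 :=
    rel_of_map valE hvalE (by rw [hvt1, hvt2]; exact r3)
  -- images under `σ`
  have hs1 : σ (heckeAlphaBar Qbar N ℓ (jBar N)) = toOm (Jtriple ζ (N * ℓ) (1, 0, 1)) := by
    rw [hσ, coe_jBar, Jtriple_top]
    exact congrArg toOm (qExpand_congr (mul_one _).symm _)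
  have hs2 : σ (heckeAlphaBar Qbar N ℓ (jd N N dvd_rfl))
      = toOm (Jtriple ζ (N * ℓ) (N, 0, 1)) := by
    rw [hσ, coe_jd, Jtriple_top, qExpand_qExpand]
  -- step 1: `σ (β j)`
  have o1 := rel_map σ e1
  rw [hs1, ← comp_evalZ, ← evalJ_eq_evalZ] at o1
  obtain ⟨a, ha, hθ1⟩ := exists_tmul_of_root toOm hζ Dℓ.monic Dℓ.natDegree_eq hRℓ
    (a := 1) (b := 0) (d := 1) Nat.one_pos Nat.one_pos
    (by rw [one_mul]; exact Dvd.intro_left N rfl) o1
  have haP : IsPrimTriple ℓ a.1 a.2.1 a.2.2 := (mem_triples hℓ.pos).1 ha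
  obtain ⟨ha1, ha3⟩ := IsPrimTriple.pos hℓ.pos haP
  rw [tmul_one_right haP.2.1] at hθ1
  have ha3ℓ : a.2.2 ∣ ℓ := Dvd.intro_left _ haP.1
  have ha3M : a.2.2 ∣ N * ℓ := ha3ℓ.trans (Dvd.intro_left N rfl)
  -- step 2: `σ (β j_N)`
  have o2 := rel_map σ e2
  rw [hs2, ← comp_evalZ, ← evalJ_eq_evalZ] at o2
  obtain ⟨a', ha', hθ2⟩ := exists_tmul_of_root toOm hζ Dℓ.monic Dℓ.natDegree_eq hRℓ
    (a := N) (b := 0) (d := 1) hN0 Nat.one_pos
    (by rw [one_mul]; exact Dvd.intro_left N rfl) o2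
  have o3 := rel_map σ e3
  have hθ1' : σ (heckeBetaBar Qbar N ℓ (jBar N))
      = toOm (Jtriple ζ (N * ℓ) (a.1, a.2.1, a.2.2)) := hθ1
  rw [hθ1', ← comp_evalZ, ← evalJ_eq_evalZ] at o3
  obtain ⟨γ, hγ, hθ2'⟩ := exists_tmul_of_root toOm hζ DN.monic DN.natDegree_eq hRN
    (a := a.1) (b := a.2.1) (d := a.2.2) ha1 haP.2.1
    (by rw [mul_comm]; exact Nat.mul_dvd_mul_left N ha3ℓ) o3
  have haP' : IsPrimTriple ℓ a'.1 a'.2.1 a'.2.2 := (mem_triples hℓ.pos).1 ha'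
  obtain ⟨ha1', ha3'⟩ := IsPrimTriple.pos hℓ.pos haP'
  have hγP : IsPrimTriple N γ.1 γ.2.1 γ.2.2 := (mem_triples hN0).1 hγ
  obtain ⟨hγ1, hγ3⟩ := IsPrimTriple.pos hN0 hγP
  have hJ : Jtriple ζ (N * ℓ) (tmul a' (N, 0, 1)) = Jtriple ζ (N * ℓ) (tmul γ (a.1, a.2.1, a.2.2)) :=
    htoOm (hθ2.symm.trans hθ2')
  have hdvd1 : (tmul a' (N, 0, 1)).2.2 ∣ N * ℓ := by
    show a'.2.2 * 1 ∣ N * ℓ
    rw [mul_one]
    exact (Dvd.intro_left _ haP'.1).trans (Dvd.intro_left N rfl)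
  have hdvd2 : (tmul γ (a.1, a.2.1, a.2.2)).2.2 ∣ N * ℓ := by
    show γ.2.2 * a.2.2 ∣ N * ℓ
    exact Nat.mul_dvd_mul (Dvd.intro_left _ hγP.1) ha3ℓ
  have key := Jtriple_injective (ζ := ζ) (N := N * ℓ) hζ hM0
    (a := (tmul a' (N, 0, 1)).1) (b := (tmul a' (N, 0, 1)).2.1) (d := (tmul a' (N, 0, 1)).2.2)
    (a' := (tmul γ (a.1, a.2.1, a.2.2)).1) (b' := (tmul γ (a.1, a.2.1, a.2.2)).2.1)
    (d' := (tmul γ (a.1, a.2.1, a.2.2)).2.2)
    (Nat.mul_pos ha1' hN0) (Nat.mul_pos hγ1 ha1)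
    (by rw [tmul_det, tmul_det, haP'.1, hγP.1, haP.1, mul_one, mul_comm])
    (tmul_lt ha3' Nat.one_pos) (tmul_lt hγ3 ha3) hdvd1 hdvd2 hJ
  obtain ⟨k1, k2, k3⟩ := key
  have htm : tmul a' (N, 0, 1) = tmul γ a := Prod.ext k1 (Prod.ext k2 k3)
  have hγeq : γ = (N, 0, 1) := tmul_pin hℓ hN0 hℓN ha ha' hγ htm
  rw [hγeq] at hθ2'
  -- conclusion
  refine ⟨a, ha, ?_⟩
  have hfg : σ.comp (heckeBetaBar Qbar N ℓ).toRingHom
      = toOm.comp ((substTriple ζ (N * ℓ) a).comp (modularFunctionFieldBar N).val.toRingHom) := by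
    refine ringHom_ext_of_eq_adjoin (bar_eq_adjoin_pair N) _ _ ?_ ?_
    · intro c
      show σ (heckeBetaBar Qbar N ℓ (algebraMap Qbar (FN N) c))
        = toOm (substTriple ζ (N * ℓ) a ((algebraMap Qbar (FN N) c : FN N) : LaurentSeries Qbar))
      rw [(heckeBetaBar Qbar N ℓ).commutes c, ← (heckeAlphaBar Qbar N ℓ).commutes c, hσ,
        coe_algebraMap_FN, qExpand_C', substTriple_C]
    · rintro x (rfl | rfl)
      · have e : (⟨jqModC Qbar, (bar_eq_adjoin_pair N).ge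
            (IntermediateField.subset_adjoin _ _ (Set.mem_insert _ _))⟩ : FN N) = jBar N :=
          Subtype.ext (coe_jBar N).symm
        rw [e]
        show σ (heckeBetaBar Qbar N ℓ (jBar N))
          = toOm (substTriple ζ (N * ℓ) a ((jBar N : FN N) : LaurentSeries Qbar))
        rw [hθ1', coe_jBar]
        have h := substTriple_jq (L := Qbar) hζ.pow_eq_one hM0 ha1 haP.2.1 ha3M
        rw [show a = (a.1, a.2.1, a.2.2) from rfl, h]
      · have e : (⟨qExpand Qbar N (jqModC Qbar), (bar_eq_adjoin_pair N).ge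
            (IntermediateField.subset_adjoin _ _ (Set.mem_insert_of_mem _ rfl))⟩ : FN N)
            = jd N N dvd_rfl :=
          Subtype.ext (coe_jd N N dvd_rfl).symm
        rw [e]
        show σ (heckeBetaBar Qbar N ℓ (jd N N dvd_rfl))
          = toOm (substTriple ζ (N * ℓ) a ((jd N N dvd_rfl : FN N) : LaurentSeries Qbar))
        rw [hθ2', coe_jd]
        have h := substTriple_qExpand_jq (L := Qbar) hζ.pow_eq_one hM0 (b := a.2.1) ha1 ha3M N
        rw [show a = (a.1, a.2.1, a.2.2) from rfl, h]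
  intro y
  exact DFunLike.congr_fun hfg y

end Core

/-! ### the norm -/

section Norm

variable {N ℓ : ℕ} [NeZero N] [NeZero ℓ]

/-- The norm formula in the variable `s`, `s^(Nℓ) = q`, after mapping to an algebraically closed
field `Ω`, assuming the degree bound. -/
theorem map_qExpand_norm_heckeBeta {Ω : Type*} [Field Ω] [IsAlgClosed Ω]
    (toOm : LaurentSeries Qbar →+* Ω) (hℓ : ℓ.Prime) (hℓN : ¬ ℓ ∣ N) {ζ : Qbarˣ}
    (hζ : IsPrimitiveRoot ζ (N * ℓ))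
    (hdeg : ℓ + 1 ≤ (letI := algebraAlong (heckeAlphaBar Qbar N ℓ);
      Module.finrank (FN N) (FN (N * ℓ))))
    (y : FN N) :
    toOm (qExpand Qbar (N * ℓ) (((letI := algebraAlong (heckeAlphaBar Qbar N ℓ);
        Algebra.norm (FN N) (heckeBetaBar Qbar N ℓ y)) : FN N) : LaurentSeries Qbar))
      = toOm (∏ a ∈ triples ℓ, substTriple ζ (N * ℓ) a (y : LaurentSeries Qbar)) := by
  classical
  letI algKE : Algebra (FN N) (FN (N * ℓ)) := algebraAlong (heckeAlphaBar Qbar N ℓ)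
  let emb : FN (N * ℓ) →+* LaurentSeries Qbar :=
    (qExpand Qbar (N * ℓ)).comp (modularFunctionFieldBar (N * ℓ)).val.toRingHom
  letI algKΩ : Algebra (FN N) Ω :=
    ((toOm.comp emb).comp (heckeAlphaBar Qbar N ℓ).toRingHom).toAlgebra
  haveI : FiniteDimensional (FN N) (FN (N * ℓ)) :=
    Module.finite_of_finrank_pos (lt_of_lt_of_le (Nat.succ_pos ℓ) hdeg)
  haveI : CharZero (FN N) := charZero_of_injective_algebraMap (algebraMap Qbar (FN N)).injective
  haveI : Algebra.IsSeparable (FN N) (FN (N * ℓ)) := Algebra.IsSeparable.of_integral _ _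
  have hcard : Fintype.card ↥(triples ℓ) ≤ Module.finrank (FN N) (FN (N * ℓ)) := by
    have hψ : dedekindPsi ℓ = ℓ + 1 := by
      have h := S20.H78.dedekindPsi_prime_pow hℓ Nat.one_pos
      simpa using h
    rw [Fintype.card_coe, card_triples ℓ hℓ.pos, hψ]
    exact hdeg
  have hemb : ∀ x : FN N, emb (heckeAlphaBar Qbar N ℓ x)
      = qExpand Qbar (N * ℓ) (x : LaurentSeries Qbar) := by
    intro x
    show qExpand Qbar (N * ℓ) ((heckeAlphaBar Qbar N ℓ x : FN (N * ℓ)) : LaurentSeries Qbar) = _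
    rw [coe_heckeAlphaBar]
  have hmapE : ∀ x : FN N, algebraMap (FN N) (FN (N * ℓ)) x = heckeAlphaBar Qbar N ℓ x :=
    fun _ => rfl
  have hmapΩ : ∀ x : FN N, algebraMap (FN N) Ω x = toOm (emb (heckeAlphaBar Qbar N ℓ x)) :=
    fun _ => rfl
  have hcomm : ∀ (σ : FN (N * ℓ) →ₐ[FN N] Ω) (x : FN N),
      σ.toRingHom (heckeAlphaBar Qbar N ℓ x)
        = toOm (qExpand Qbar (N * ℓ) (x : LaurentSeries Qbar)) := by
    intro σ x
    have h := σ.commutes x
    rw [hmapE, hmapΩ, hemb] at h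
    exact h
  have key := norm_eq_prod_of_classified (K := FN N) (E := FN (N * ℓ)) (Ω := Ω)
    (ι := ↥(triples ℓ)) hcard
    (fun σ a => ∀ y : FN N, σ.toRingHom (heckeBetaBar Qbar N ℓ y)
      = toOm (substTriple ζ (N * ℓ) a.1 (y : LaurentSeries Qbar)))
    (by
      intro σ
      obtain ⟨a, ha, h⟩ := exists_triple_of_hom hℓ hℓN hζ toOm σ.toRingHom (hcomm σ)
      exact ⟨⟨a, ha⟩, h⟩)
    (by
      intro σ σ' a h h'
      have : σ.toRingHom = σ'.toRingHom :=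
        hom_ext_of_alpha_beta σ.toRingHom σ'.toRingHom
          (fun x => (hcomm σ x).trans (hcomm σ' x).symm)
          (fun y => (h y).trans (h' y).symm)
      exact AlgHom.ext fun z => DFunLike.congr_fun this z)
    (heckeBetaBar Qbar N ℓ y)
    (fun a => toOm (substTriple ζ (N * ℓ) a.1 (y : LaurentSeries Qbar)))
    (fun σ a h => h y)
  rw [hmapΩ, hemb, Finset.prod_coe_sort (triples ℓ)
    (fun a => toOm (substTriple ζ (N * ℓ) a (y : LaurentSeries Qbar))), ← map_prod] at key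
  exact key

/-- The norm formula in the variable `s`, `s^(Nℓ) = q`, assuming the degree bound. -/
theorem qExpand_norm_heckeBeta_triples (hℓ : ℓ.Prime) (hℓN : ¬ ℓ ∣ N) {ζ : Qbarˣ}
    (hζ : IsPrimitiveRoot ζ (N * ℓ))
    (hdeg : ℓ + 1 ≤ (letI := algebraAlong (heckeAlphaBar Qbar N ℓ);
      Module.finrank (FN N) (FN (N * ℓ))))
    (y : FN N) :
    qExpand Qbar (N * ℓ) (((letI := algebraAlong (heckeAlphaBar Qbar N ℓ);
        Algebra.norm (FN N) (heckeBetaBar Qbar N ℓ y)) : FN N) : LaurentSeries Qbar)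
      = ∏ a ∈ triples ℓ, substTriple ζ (N * ℓ) a (y : LaurentSeries Qbar) :=
  (algebraMap (LaurentSeries Qbar) (AlgebraicClosure (LaurentSeries Qbar))).injective
    (map_qExpand_norm_heckeBeta _ hℓ hℓN hζ hdeg y)

/-- **(K1), with the degree bound as a hypothesis.** `t^ℓ = q`, `z = ζ^N` a primitive `ℓ`-th root
of unity: `Nm_α(β y)(t^ℓ) = y(t^(ℓ²)) ∏_{b<ℓ} y(z^b t)`. -/
theorem qExpand_norm_heckeBeta_of_finrank (hℓ : ℓ.Prime) (hℓN : ¬ ℓ ∣ N) {ζ : Qbarˣ}
    (hζ : IsPrimitiveRoot ζ (N * ℓ))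
    (hdeg : ℓ + 1 ≤ (letI := algebraAlong (heckeAlphaBar Qbar N ℓ);
      Module.finrank (FN N) (FN (N * ℓ))))
    (y : FN N) :
    qExpand Qbar ℓ (((letI := algebraAlong (heckeAlphaBar Qbar N ℓ);
        Algebra.norm (FN N) (heckeBetaBar Qbar N ℓ y)) : FN N) : LaurentSeries Qbar)
      = qExpand Qbar (ℓ * ℓ) (y : LaurentSeries Qbar)
        * ∏ b ∈ Finset.range ℓ, twist ((ζ ^ N) ^ b) (y : LaurentSeries Qbar) := by
  have h := qExpand_norm_heckeBeta_triples hℓ hℓN hζ hdeg y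
  have hnot : ((ℓ, 0, 1) : ℕ × ℕ × ℕ) ∉ Finset.image (fun b' => ((1, b', ℓ) : ℕ × ℕ × ℕ))
      (Finset.range ℓ) := by
    intro hmem
    obtain ⟨b, -, hb⟩ := Finset.mem_image.1 hmem
    have : 1 = ℓ := congrArg Prod.fst hb
    exact hℓ.one_lt.ne this
  have hinj : Set.InjOn (fun b' => ((1, b', ℓ) : ℕ × ℕ × ℕ)) (Finset.range ℓ : Set ℕ) := by
    intro b _ b' _ hbb
    exact congrArg (fun x : ℕ × ℕ × ℕ => x.2.1) hbb
  haveI : NeZero (N * ℓ * ℓ) := ⟨mul_ne_zero (NeZero.ne _) (NeZero.ne ℓ)⟩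
  haveI : NeZero (ℓ * ℓ) := ⟨mul_ne_zero (NeZero.ne ℓ) (NeZero.ne ℓ)⟩
  rw [triples_prime hℓ, Finset.prod_insert hnot, Finset.prod_image hinj, substTriple_top] at h
  simp only [substTriple_bot] at h
  rw [← map_prod, ← qExpand_qExpand ℓ N,
    show qExpand Qbar (N * ℓ * ℓ) (y : LaurentSeries Qbar)
      = qExpand Qbar N (qExpand Qbar (ℓ * ℓ) (y : LaurentSeries Qbar)) by
        rw [qExpand_qExpand]; exact qExpand_congr (mul_assoc _ _ _) _,
    ← map_mul] at h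
  exact qExpand_injective N h

end Norm

end Fermat.Agent.S37.H64
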