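import Mathlib
import Fermat.Agent.S37.H6_LevelDegree

/-!
# S37 / LEVEL-DEG part 2 (helper6): minimal polynomial, power basis, lifting, hom-ext

Glue lemmas for the q-expansion of the Hecke norm (K1), on top of `H6_LevelDegree`
(`K = α F_N`, `E = F_{Nℓ}`, generator `θ' = β j_N = j(q^(Nℓ))`):

* `valHom N : FN N →+* Qbar((q))` (the coercion), `valHom_heckeAlphaBar`, `valHom_heckeBetaBar`
* `evalJN N : ℤ[Y] →+* FN N`, `Y ↦ j_N`; `aeval_heckeBetaBar_jd` : `Φ_ℓ(β j_N, j_N) = 0`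
* `minpoly_heckeBetaBar_jd` : for a prime `ℓ ∤ N`, `minpoly (α F_N) (β j_N) = Φ_ℓ(X, j_N)`
* `powerBasisBeta N ℓ`, `exists_ringHom_lift`, `exists_ringHom_lift_of_modPoly`
* `ringHom_ext_FN` : ring homs from `F_N = Qbar(j, j_N)` into a field are determined by their
  values on `Qbar`, `j`, `j_N`
* `eval₂_evalJd_jd`, `eval₂_comp_evalJd_jd` : `Φ_e(j(q^(e d)), j(q^d)) = 0` in `FN M`
-/
set_option autoImplicit false
set_option linter.style.haveILetI false
noncomputable section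
namespace Fermat.Agent.S37.H6
open ModularCurve AlgebraicCurve IntermediateField Polynomial
open Fermat.Agent.S24

variable (N ℓ : ℕ) [NeZero N] [NeZero ℓ]

/-- `ℤ[Y] → FN N`, `Y ↦ j(q^N)`. -/
def evalJN : ℤ[X] →+* FN N := (Polynomial.aeval (R := ℤ) (jd N N dvd_rfl)).toRingHom

@[simp]
theorem evalJN_X : evalJN N Polynomial.X = jd N N dvd_rfl := by
  simp [evalJN]

/-- the ring hom `coeffEmb ∘ qExpand N : ℚ((q)) → Qbar((q))`. -/
def cq : LaurentSeries ℚ →+* LaurentSeries Qbar := (coeffEmb Qbar).comp (qExpand ℚ N)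

/-- The coercion `FN N → Qbar((q))` as a ring hom. -/
def valHom : FN N →+* LaurentSeries Qbar := (modularFunctionFieldBar N).val.toRingHom

theorem valHom_apply (x : FN N) : valHom N x = (x : LaurentSeries Qbar) := rfl

theorem valHom_injective : Function.Injective (valHom N) := Subtype.val_injective

theorem valHom_comp_evalJN :
    ((valHom N).comp (evalJN N) : ℤ[X] →+* LaurentSeries Qbar) = (cq N).comp evalAtJ := by
  apply Polynomial.ringHom_ext
  · intro a
    have ha : (C a : ℤ[X]) = ((a : ℤ) : ℤ[X]) := by simp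
    rw [ha, map_intCast, map_intCast]
  · rw [RingHom.comp_apply, RingHom.comp_apply, evalJN_X, evalAtJ_X]
    rfl

theorem valHom_heckeAlphaBar (x : FN N) :
    valHom (N * ℓ) (heckeAlphaBar Qbar N ℓ x) = valHom N x := by
  rw [valHom_apply, valHom_apply, coe_heckeAlphaBar]

theorem valHom_heckeBetaBar (x : FN N) :
    valHom (N * ℓ) (heckeBetaBar Qbar N ℓ x) = qExpand Qbar ℓ (valHom N x) := by
  rw [valHom_apply, valHom_apply, coe_heckeBetaBar]

theorem valHom_heckeBetaBar_jd :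
    valHom (N * ℓ) (heckeBetaBar Qbar N ℓ (jd N N dvd_rfl)) = cq N (jqN ℓ) := by
  rw [valHom_heckeBetaBar]
  show qExpand Qbar ℓ (coeffEmb Qbar (qExpand ℚ N jq)) = coeffEmb Qbar (qExpand ℚ N (qExpand ℚ ℓ jq))
  rw [qExpand_qExpand, coeffEmb, coeffMap_qExpand, coeffMap_qExpand, qExpand_qExpand]
  exact qExpand_congr (mul_comm ℓ N) _

theorem toRingHom_heckeAlphaBar_apply (x : FN N) :
    (heckeAlphaBar Qbar N ℓ).toRingHom x = heckeAlphaBar Qbar N ℓ x := rfl

theorem valHom_comp_heckeAlphaBar :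
    ((valHom (N * ℓ)).comp (heckeAlphaBar Qbar N ℓ).toRingHom) = valHom N := by
  refine RingHom.ext fun x => ?_
  rw [RingHom.comp_apply, toRingHom_heckeAlphaBar_apply]
  exact valHom_heckeAlphaBar N ℓ x

/-- `Φ_ℓ(j(q^(Nℓ)), j(q^N)) = 0`, inside `F_{Nℓ}` as an `α F_N`-algebra. -/
theorem aeval_heckeBetaBar_jd (D : ModularPolynomialData ℓ) :
    (letI := algebraAlong (heckeAlphaBar Qbar N ℓ);
      Polynomial.aeval (heckeBetaBar Qbar N ℓ (jd N N dvd_rfl)) (D.Φ.map (evalJN N))) = 0 := by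
  letI algFE : Algebra (FN N) (FN (N * ℓ)) := algebraAlong (heckeAlphaBar Qbar N ℓ)
  have hm : algebraMap (FN N) (FN (N * ℓ)) = (heckeAlphaBar Qbar N ℓ).toRingHom :=
    RingHom.algebraMap_toAlgebra _
  rw [Polynomial.aeval_def, Polynomial.eval₂_map, hm]
  apply valHom_injective (N * ℓ)
  rw [Polynomial.hom_eval₂, map_zero, ← RingHom.comp_assoc, valHom_comp_heckeAlphaBar,
    valHom_comp_evalJN, valHom_heckeBetaBar_jd, ← Polynomial.hom_eval₂, D.eval_eq_zero, map_zero]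

theorem dedekindPsi_prime {p : ℕ} (hp : p.Prime) : dedekindPsi p = p + 1 := by
  have := Fermat.Agent.S20.H78.dedekindPsi_prime_pow hp (k := 1) one_pos
  simpa using this

/-- For a prime `ℓ ∤ N`, the minimal polynomial of `β j_N = j(q^(Nℓ))` over `α F_N` is
`Φ_ℓ(X, j_N)`. -/
theorem minpoly_heckeBetaBar_jd (hℓ : ℓ.Prime) (hN : ¬ ℓ ∣ N) (D : ModularPolynomialData ℓ) :
    (letI := algebraAlong (heckeAlphaBar Qbar N ℓ);
      minpoly (FN N) (heckeBetaBar Qbar N ℓ (jd N N dvd_rfl))) = D.Φ.map (evalJN N) := by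
  letI algFE : Algebra (FN N) (FN (N * ℓ)) := algebraAlong (heckeAlphaBar Qbar N ℓ)
  have hmon : (D.Φ.map (evalJN N)).Monic := D.monic.map _
  have hdeg : (D.Φ.map (evalJN N)).natDegree = ℓ + 1 := by
    rw [D.monic.natDegree_map, D.natDegree_eq, dedekindPsi_prime hℓ]
  have hdvd := minpoly.dvd (FN N) (heckeBetaBar Qbar N ℓ (jd N N dvd_rfl))
    (aeval_heckeBetaBar_jd N ℓ D)
  haveI : Module.Finite (FN N) (FN (N * ℓ)) := finiteAlong_heckeAlphaBar N ℓ
  have hint : IsIntegral (FN N) (heckeBetaBar Qbar N ℓ (jd N N dvd_rfl)) :=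
    IsIntegral.of_finite _ _
  have hd2 := natDegree_minpoly_heckeBetaBar_jd N ℓ
  rw [finrankAlong_heckeAlphaBar_of_not_dvd N ℓ hℓ hN] at hd2
  exact (Polynomial.eq_of_monic_of_dvd_of_natDegree_le (minpoly.monic hint) hmon hdvd
    (by rw [hdeg, hd2])).symm

theorem isIntegral_heckeBetaBar_jd :
    (letI := algebraAlong (heckeAlphaBar Qbar N ℓ);
      IsIntegral (FN N) (heckeBetaBar Qbar N ℓ (jd N N dvd_rfl))) := by
  letI algFE : Algebra (FN N) (FN (N * ℓ)) := algebraAlong (heckeAlphaBar Qbar N ℓ)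
  haveI : Module.Finite (FN N) (FN (N * ℓ)) := finiteAlong_heckeAlphaBar N ℓ
  exact IsIntegral.of_finite _ _

theorem algebraAdjoin_heckeBetaBar_jd_eq_top :
    (letI := algebraAlong (heckeAlphaBar Qbar N ℓ);
      Algebra.adjoin (FN N) {heckeBetaBar Qbar N ℓ (jd N N dvd_rfl)}) = ⊤ := by
  letI algFE : Algebra (FN N) (FN (N * ℓ)) := algebraAlong (heckeAlphaBar Qbar N ℓ)
  exact (IntermediateField.adjoin_simple_eq_top_iff_of_isAlgebraic
    (isIntegral_heckeBetaBar_jd N ℓ).isAlgebraic).mp (adjoin_heckeBetaBar_jd_eq_top N ℓ)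

/-- The power basis `1, θ', …` of `F_{Nℓ}` over `α F_N`, `θ' = β j_N`. -/
def powerBasisBeta :
    @PowerBasis (FN N) (FN (N * ℓ)) _ _ (algebraAlong (heckeAlphaBar Qbar N ℓ)) :=
  letI _algFE : Algebra (FN N) (FN (N * ℓ)) := algebraAlong (heckeAlphaBar Qbar N ℓ)
  PowerBasis.ofAdjoinEqTop (isIntegral_heckeBetaBar_jd N ℓ) (algebraAdjoin_heckeBetaBar_jd_eq_top N ℓ)

theorem powerBasisBeta_gen :
    (letI := algebraAlong (heckeAlphaBar Qbar N ℓ); (powerBasisBeta N ℓ).gen)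
      = heckeBetaBar Qbar N ℓ (jd N N dvd_rfl) := by
  letI algFE : Algebra (FN N) (FN (N * ℓ)) := algebraAlong (heckeAlphaBar Qbar N ℓ)
  exact PowerBasis.ofAdjoinEqTop_gen _ _

theorem powerBasisBeta_dim (hℓ : ℓ.Prime) (hN : ¬ ℓ ∣ N) :
    (letI := algebraAlong (heckeAlphaBar Qbar N ℓ); (powerBasisBeta N ℓ).dim) = ℓ + 1 := by
  letI algFE : Algebra (FN N) (FN (N * ℓ)) := algebraAlong (heckeAlphaBar Qbar N ℓ)
  have h1 : (powerBasisBeta N ℓ).dim
      = (minpoly (FN N) (heckeBetaBar Qbar N ℓ (jd N N dvd_rfl))).natDegree :=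
    PowerBasis.ofAdjoinEqTop_dim _ _
  rw [h1, natDegree_minpoly_heckeBetaBar_jd N ℓ, finrankAlong_heckeAlphaBar_of_not_dvd N ℓ hℓ hN]

/-- Lifting: a ring hom `f : F_N → Ω` and a root `y` of the minimal polynomial of `β j_N`
(mapped by `f`) give a ring hom `σ : F_{Nℓ} → Ω` with `σ ∘ α = f`, `σ (β j_N) = y`. -/
theorem exists_ringHom_lift {Ω : Type*} [CommRing Ω] (f : FN N →+* Ω) (y : Ω)
    (hy : (letI := algebraAlong (heckeAlphaBar Qbar N ℓ);
      (minpoly (FN N) (heckeBetaBar Qbar N ℓ (jd N N dvd_rfl))).eval₂ f y) = 0) :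
    ∃ σ : FN (N * ℓ) →+* Ω, σ.comp (heckeAlphaBar Qbar N ℓ).toRingHom = f ∧
      σ (heckeBetaBar Qbar N ℓ (jd N N dvd_rfl)) = y := by
  letI algFE : Algebra (FN N) (FN (N * ℓ)) := algebraAlong (heckeAlphaBar Qbar N ℓ)
  letI algΩ : Algebra (FN N) Ω := f.toAlgebra
  have hgen := powerBasisBeta_gen N ℓ
  have hy' : Polynomial.aeval y (minpoly (FN N) (powerBasisBeta N ℓ).gen) = 0 := by
    rw [hgen, Polynomial.aeval_def]
    exact hy
  refine ⟨((powerBasisBeta N ℓ).lift y hy').toRingHom, ?_, ?_⟩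
  · refine RingHom.ext fun x => ?_
    rw [RingHom.comp_apply]
    exact ((powerBasisBeta N ℓ).lift y hy').commutes x
  · have := (powerBasisBeta N ℓ).lift_gen y hy'
    rw [hgen] at this
    exact this

/-- The same for a prime `ℓ ∤ N` in terms of the modular polynomial. -/
theorem exists_ringHom_lift_of_modPoly (hℓ : ℓ.Prime) (hN : ¬ ℓ ∣ N) (D : ModularPolynomialData ℓ)
    {Ω : Type*} [CommRing Ω] (f : FN N →+* Ω) (y : Ω)
    (hy : D.Φ.eval₂ (f.comp (evalJN N)) y = 0) :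
    ∃ σ : FN (N * ℓ) →+* Ω, σ.comp (heckeAlphaBar Qbar N ℓ).toRingHom = f ∧
      σ (heckeBetaBar Qbar N ℓ (jd N N dvd_rfl)) = y := by
  apply exists_ringHom_lift
  rw [minpoly_heckeBetaBar_jd N ℓ hℓ hN D, Polynomial.eval₂_map]
  exact hy

/-- `F_N = Qbar(j, j_N)`: two ring homs into a field that agree on `Qbar`, `j`, `j_N` agree. -/
theorem ringHom_ext_FN {Ω : Type*} [Field Ω] (f g : FN N →+* Ω)
    (hc : ∀ c : Qbar, f (algebraMap Qbar (FN N) c) = g (algebraMap Qbar (FN N) c))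
    (hj : f (jBar N) = g (jBar N)) (hN : f (jd N N dvd_rfl) = g (jd N N dvd_rfl)) : f = g := by
  have hbase : ∀ r : FN N, r ∈ Qbar⟮jBar N⟯ → f r = g r := by
    intro r hr
    induction hr using IntermediateField.adjoin_induction with
    | mem z hz => rw [Set.mem_singleton_iff.mp hz]; exact hj
    | algebraMap c => exact hc c
    | add a b _ _ ha hb => rw [map_add, map_add, ha, hb]
    | inv a _ ha => rw [map_inv₀, map_inv₀, ha]
    | mul a b _ _ ha hb => rw [map_mul, map_mul, ha, hb]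
  refine RingHom.ext fun y => ?_
  have hy : y ∈ (Qbar⟮jBar N⟯)⟮jd N N dvd_rfl⟯ := by
    rw [adjoin_jBar_jd_eq_top]; exact IntermediateField.mem_top
  induction hy using IntermediateField.adjoin_induction with
  | mem z hz => rw [Set.mem_singleton_iff.mp hz]; exact hN
  | algebraMap r => exact hbase _ r.2
  | add a b _ _ ha hb => rw [map_add, map_add, ha, hb]
  | inv a _ ha => rw [map_inv₀, map_inv₀, ha]
  | mul a b _ _ ha hb => rw [map_mul, map_mul, ha, hb]

/-! ### The general modular relation `Φ_e(j(q^(e d)), j(q^d)) = 0` in `FN M` -/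

section General

variable (M d e : ℕ) [NeZero M] [NeZero d] [NeZero e]

/-- `ℤ[Y] → FN M`, `Y ↦ j(q^d)`. -/
def evalJd (hd : d ∣ M) : ℤ[X] →+* FN M := (Polynomial.aeval (R := ℤ) (jd M d hd)).toRingHom

@[simp]
theorem evalJd_X (hd : d ∣ M) : evalJd M d hd Polynomial.X = jd M d hd := by
  simp [evalJd]

theorem valHom_comp_evalJd (hd : d ∣ M) :
    ((valHom M).comp (evalJd M d hd) : ℤ[X] →+* LaurentSeries Qbar) = (cq d).comp evalAtJ := by
  apply Polynomial.ringHom_ext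
  · intro a
    have ha : (C a : ℤ[X]) = ((a : ℤ) : ℤ[X]) := by simp
    rw [ha, map_intCast, map_intCast]
  · rw [RingHom.comp_apply, RingHom.comp_apply, evalJd_X, evalAtJ_X]
    rfl

theorem valHom_jd_mul (hd : e * d ∣ M) : valHom M (jd M (e * d) hd) = cq d (jqN e) := by
  show coeffEmb Qbar (qExpand ℚ (e * d) jq) = coeffEmb Qbar (qExpand ℚ d (qExpand ℚ e jq))
  rw [qExpand_qExpand]
  congr 1
  exact qExpand_congr (mul_comm e d) _

/-- `Φ_e(j(q^(e d)), j(q^d)) = 0` in `FN M`. -/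
theorem eval₂_evalJd_jd (hd : e * d ∣ M) (D : ModularPolynomialData e) :
    D.Φ.eval₂ (evalJd M d (dvd_of_mul_left_dvd hd)) (jd M (e * d) hd) = 0 := by
  apply valHom_injective M
  rw [Polynomial.hom_eval₂, map_zero, valHom_comp_evalJd, valHom_jd_mul,
    ← Polynomial.hom_eval₂, D.eval_eq_zero, map_zero]

/-- The image of the relation under any ring hom `σ`. -/
theorem eval₂_comp_evalJd_jd (hd : e * d ∣ M) (D : ModularPolynomialData e)
    {Ω : Type*} [CommRing Ω] (σ : FN M →+* Ω) :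
    D.Φ.eval₂ (σ.comp (evalJd M d (dvd_of_mul_left_dvd hd))) (σ (jd M (e * d) hd)) = 0 := by
  rw [← Polynomial.hom_eval₂, eval₂_evalJd_jd, map_zero]

end General

end Fermat.Agent.S37.H6
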