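import Mathlib
import Fermat.Agent.S37.H82_Rigidity

/-!
# Composition of positive correspondences (helper82, S37 cluster)

`IsPositiveOfDegLE` (see `H82_Rigidity`) is stable under composition: if `φ` sends places to
effective divisors with at most `d` points and `ψ` sends places to effective divisors with at most
`e` points, then `ψ ∘ φ` sends places to effective divisors with at most `d * e` points.
Used for `T_ℓ T_ℓ' - T_ℓ' T_ℓ` (commutativity of Hecke operators on `Pic⁰` by rigidity).
-/

set_option autoImplicit false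

namespace Fermat.Agent.S37.H82

open AlgebraicCurve

variable {K F : Type*} [Field K] [Field F] [Algebra K F]
variable {K' F' : Type*} [Field K'] [Field F'] [Algebra K' F'] {ι : Type*}

/-- The total mass (sum of all coefficients) of a finitely supported integer-valued function. -/
noncomputable def tot : (ι →₀ ℤ) →+ ℤ := Finsupp.liftAddHom fun _ => AddMonoidHom.id ℤ

theorem tot_apply (D : ι →₀ ℤ) : tot D = D.sum fun _ n => n := by
  rw [tot, Finsupp.liftAddHom_apply]
  rfl

theorem tot_nonneg {D : ι →₀ ℤ} (hD : 0 ≤ D) : 0 ≤ tot D := by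
  rw [tot_apply]
  exact Finset.sum_nonneg fun Q _ => Finsupp.le_def.mp hD Q

theorem isPositiveOfDegLE_iff (φ : Divisor K F →+ (ι →₀ ℤ)) (d : ℤ) :
    IsPositiveOfDegLE φ d ↔ ∀ P : Place K F, 0 ≤ φ (Finsupp.single P 1) ∧
      tot (φ (Finsupp.single P 1)) ≤ d := by
  simp only [IsPositiveOfDegLE, tot_apply]

/-- A positive correspondence maps effective divisors to effective divisors. -/
theorem IsPositiveOfDegLE.map_nonneg {φ : Divisor K F →+ (ι →₀ ℤ)} {d : ℤ}
    (hφ : IsPositiveOfDegLE φ d) {E : Divisor K F} (hE : 0 ≤ E) : 0 ≤ φ E := by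
  rw [map_eq_sum φ E]
  refine Finset.sum_nonneg fun P _ => ?_
  exact smul_nonneg (Finsupp.le_def.mp hE P) (hφ P).1

/-- A positive correspondence of degree `≤ d` multiplies the total mass of an effective divisor
by at most `d`. -/
theorem IsPositiveOfDegLE.tot_map_le {φ : Divisor K F →+ (ι →₀ ℤ)} {d : ℤ}
    (hφ : IsPositiveOfDegLE φ d) {E : Divisor K F} (hE : 0 ≤ E) :
    tot (φ E) ≤ tot E * d := by
  rw [map_eq_sum φ E, Finsupp.sum, map_sum, tot_apply E, Finsupp.sum, Finset.sum_mul]
  refine Finset.sum_le_sum fun P _ => ?_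
  rw [map_zsmul, smul_eq_mul]
  have h := ((isPositiveOfDegLE_iff φ d).mp hφ P).2
  exact mul_le_mul_of_nonneg_left h (Finsupp.le_def.mp hE P)

/-- **Composition of positive correspondences.** -/
theorem IsPositiveOfDegLE.comp {φ : Divisor K F →+ Divisor K' F'} {d : ℤ}
    (hφ : IsPositiveOfDegLE φ d) {ψ : Divisor K' F' →+ (ι →₀ ℤ)} {e : ℤ}
    (hψ : IsPositiveOfDegLE ψ e) (he : 0 ≤ e) : IsPositiveOfDegLE (ψ.comp φ) (d * e) := by
  rw [isPositiveOfDegLE_iff]
  intro P
  obtain ⟨h0, hd⟩ := (isPositiveOfDegLE_iff φ d).mp hφ P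
  refine ⟨hψ.map_nonneg h0, ?_⟩
  rw [AddMonoidHom.comp_apply]
  exact (hψ.tot_map_le h0).trans (mul_le_mul_of_nonneg_right hd he)

/-- **Commutation by rigidity.**  Two positive correspondences `S`, `T` on `F` of bounded degree
whose composites `S ∘ T` and `T ∘ S` agree on principal divisors commute on degree-zero
divisors. -/
theorem comp_eq_comp_on_degZero (S T : Divisor K F →+ Divisor K F) {d e : ℤ}
    (hS : IsPositiveOfDegLE S d) (hT : IsPositiveOfDegLE T e) (hd : 0 ≤ d) (he : 0 ≤ e)
    (hagree : ∀ D ∈ Divisor.principal (K := K) (F := F), S (T D) = T (S D))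
    {C : ℕ} (hC : HasBoundedReps K F C) :
    ∀ D ∈ Divisor.degZero (K := K) (F := F), S (T D) = T (S D) :=
  eq_on_degZero_of_positive (S.comp T) (T.comp S) (hT.comp hS hd) (hS.comp hT he) hagree hC

end Fermat.Agent.S37.H82
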