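import Fermat.Agent.S37.H86_Transfer
import Fermat.Agent.S37.H86_S37Reduction

/-!
# Assembly: reduction-of-functions inputs ⟹ `ReductionPackage`

* `reductionAlong_smul`: `reductionAlong (g • x) = φ • reductionAlong x` on `Pic⁰` from
  `ReducesTo A π N g φ` (a statement about integral `q`-series only).
* `reductionAlong_hecke`: Eichler–Shimura on `Pic⁰` from `NormQExp` (the `q`-expansion of the
  norm of `β y` along `α` is integral and reduces to `(φ • ȳ) * (φ⁻¹ • ȳ) ^ ℓ`).
* `reductionPackage_of_inputs`: the package consumed by `specializationExists_of_packages`.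
-/

set_option autoImplicit false
set_option linter.style.haveILetI false
set_option linter.unusedSectionVars false

noncomputable section

namespace Fermat.Agent.S37.H86

open ModularCurve AlgebraicCurve HahnSeries

section General

variable {L : Type*} [Field L] [Algebra ℚ L] {A : ValuationSubring L}
variable {k : Type*} [Field k] {π : A →+* k} {N : ℕ}

/-- **Galois equivariance of the reduction map on `Pic⁰`.** -/
theorem reductionAlong_smul (h : ReductionInputsAlong A π N)
    (g : SemilinearAut L (laurentBaseChange L (modularFunctionFieldFull N)))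
    (φ : SemilinearAut k (modularFunctionFieldFullC k N))
    (hgφ : ReducesTo A π N g φ)
    (B : ℕ) (hB : BoundedReps L (laurentBaseChange L (modularFunctionFieldFull N)) B)
    (x : Pic0 L (laurentBaseChange L (modularFunctionFieldFull N))) :
    reductionAlong A π N (g • x) = φ • reductionAlong A π N x := by
  obtain ⟨D, rfl⟩ := Pic0.mk_surjective x
  rw [SemilinearAut.pic0_smul_mk, reductionAlong_mk h, reductionAlong_mk h,
    SemilinearAut.pic0_smul_mk]
  refine congrArg Pic0.mk (Subtype.ext ?_)
  rw [coe_reductionDegZeroAlong, SemilinearAut.coe_degZeroSMulHom,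
    SemilinearAut.coe_degZeroSMulHom, coe_reductionDegZeroAlong]
  exact mapDomain_smul_eq h.choose_spec.1 h.choose_spec.2 g φ hgφ B hB D D.2

/-- **Eichler–Shimura on `Pic⁰`**, abstract form: `TP` is any endomorphism of `Pic⁰` induced by an
additive map `T` on divisors which is bounded on points and satisfies `NormCongruence`. -/
theorem reductionAlong_of_normCongruence (h : ReductionInputsAlong A π N) (ℓ : ℕ)
    (T : Divisor L (laurentBaseChange L (modularFunctionFieldFull N)) →+
      Divisor L (laurentBaseChange L (modularFunctionFieldFull N)))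
    (TP : Pic0 L (laurentBaseChange L (modularFunctionFieldFull N)) →+
      Pic0 L (laurentBaseChange L (modularFunctionFieldFull N)))
    (hTP : ∀ D : Divisor.degZero (K := L) (F := laurentBaseChange L (modularFunctionFieldFull N)),
      ∃ hD' : T D ∈ Divisor.degZero (K := L)
          (F := laurentBaseChange L (modularFunctionFieldFull N)),
        TP (Pic0.mk D) = Pic0.mk ⟨T D, hD'⟩)
    (CT : ℕ) (hT : ∀ P, norm1 (T (Finsupp.single P 1)) ≤ CT)
    (φ : SemilinearAut k (modularFunctionFieldFullC k N))
    (hN : NormCongruence A π N ℓ T φ)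
    (B : ℕ) (hB : BoundedReps L (laurentBaseChange L (modularFunctionFieldFull N)) B)
    (x : Pic0 L (laurentBaseChange L (modularFunctionFieldFull N))) :
    reductionAlong A π N (TP x) =
      φ • reductionAlong A π N x + ℓ • (φ⁻¹ • reductionAlong A π N x) := by
  obtain ⟨D, rfl⟩ := Pic0.mk_surjective x
  obtain ⟨hD', hTPD⟩ := hTP D
  rw [hTPD, reductionAlong_mk h, reductionAlong_mk h, SemilinearAut.pic0_smul_mk,
    SemilinearAut.pic0_smul_mk]
  have key := mapDomain_eichlerShimura h.choose_spec.1 h.choose_spec.2 ℓ T CT hT φ hN B hB D D.2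
  have : (reductionDegZeroAlong h.choose h.choose_spec.1.1 ⟨T D, hD'⟩) =
      SemilinearAut.degZeroSMulHom φ (reductionDegZeroAlong h.choose h.choose_spec.1.1 D) +
        ℓ • SemilinearAut.degZeroSMulHom φ⁻¹
          (reductionDegZeroAlong h.choose h.choose_spec.1.1 D) := by
    apply Subtype.ext
    rw [coe_reductionDegZeroAlong, AddSubgroup.coe_add, AddSubgroup.coe_nsmul,
      SemilinearAut.coe_degZeroSMulHom, SemilinearAut.coe_degZeroSMulHom,
      coe_reductionDegZeroAlong]
    exact key
  rw [this]
  rfl

end General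

section Effective

variable {K F : Type*} [Field K] [Field F] [Algebra K F]

/-- When all places have degree `1`, `norm1` of an effective divisor is its degree. -/
theorem norm1_eq_degree_of_nonneg (hdeg1 : ∀ P : Place K F, P.deg = 1) {E : Divisor K F}
    (hE : ∀ P, 0 ≤ E P) : (norm1 E : ℤ) = Divisor.degree E := by
  rw [norm1_of_nonneg hE, Divisor.degree, Finsupp.liftAddHom_apply]
  refine Finsupp.sum_congr fun P _ => ?_
  simp only [AddMonoidHom.coe_mulRight, hdeg1 P, Nat.cast_one, mul_one]

end Effective

section Correspondence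

variable {K F F' : Type*} [Field K] [Field F] [Field F'] [Algebra K F] [Algebra K F']
variable [HasPrincipalDivisors K F']
variable (φ ψ : F →ₐ[K] F') (hφ : φ.toRingHom.IsIntegral) (hψ : ψ.toRingHom.IsIntegral)

/-- A correspondence applied to a point is effective. -/
theorem correspondence_single_nonneg (P Q : Place K F) :
    0 ≤ Divisor.correspondence φ ψ hφ hψ (Finsupp.single P 1) Q := by
  classical
  rw [Divisor.correspondence_apply, Divisor.pullbackAlong_single, map_sum,
    Finsupp.finsetSum_apply]
  refine Finset.sum_nonneg fun W _ => ?_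
  rw [Divisor.pushforwardAlong_single, Finsupp.single_apply]
  split_ifs
  · positivity
  · exact le_rfl

/-- A correspondence is bounded on points by the degree of its first leg. -/
theorem norm1_correspondence_single_le (hdeg1 : ∀ P : Place K F, P.deg = 1)
    (hFI : FundamentalIdentityAlong K φ hφ) (P : Place K F) :
    norm1 (Divisor.correspondence φ ψ hφ hψ (Finsupp.single P 1)) ≤ finrankAlong K φ := by
  have h1 := norm1_eq_degree_of_nonneg hdeg1 (correspondence_single_nonneg φ ψ hφ hψ P)
  rw [Divisor.degree_correspondence φ ψ hφ hψ hFI, Divisor.degree_single, hdeg1 P,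
    Nat.cast_one, mul_one, mul_one] at h1
  exact_mod_cast h1.le

/-- `ψ_* φ^* (div f) = div (N_ψ (φ f))`. -/
theorem correspondence_apply_of_ord (hfin : FiniteAlong K ψ) (hNorm : NormFormulaAlong K ψ hfin)
    {f : F} (hf : f ≠ 0) {D : Divisor K F} (hD : ∀ P, D P = P.ord f) (P : Place K F) :
    Divisor.correspondence φ ψ hφ hψ D P =
      P.ord (letI := algebraAlong ψ
        Algebra.norm F (φ f)) := by
  rw [Divisor.correspondence_apply]
  have h1 : ∀ w : Place K F', Divisor.pullbackAlong φ hφ D w = w.ord (φ f) := by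
    intro w
    letI := algebraAlong φ
    haveI := isScalarTower_along φ
    haveI := isIntegral_along φ hφ
    exact Divisor.pullback_apply_eq_ord hD w
  have hf' : φ f ≠ 0 := by
    intro h0
    exact hf (φ.toRingHom.injective (by
      rw [AlgHom.toRingHom_eq_coe, RingHom.coe_coe, h0, map_zero]))
  letI := algebraAlong ψ
  haveI := isScalarTower_along ψ
  haveI := isIntegral_along ψ hψ
  haveI : Module.Finite F F' := hfin
  exact hNorm (φ f) hf' _ h1 P

end Correspondence

section NormQExp

variable {L : Type*} [Field L] [Algebra ℚ L]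

/-- The Kronecker congruence for norms, as a statement about `q`-expansions only: for every
integral `y` the norm of `β y` along `α` is (the `q`-expansion of) an integral series `z` whose
reduction is `(φ • ȳ) * (φ⁻¹ • ȳ) ^ ℓ`. -/
def NormQExp (A : ValuationSubring L) {k : Type*} [Field k] (π : A →+* k) (N ℓ : ℕ)
    [NeZero N] [NeZero ℓ] (φ : SemilinearAut k (modularFunctionFieldFullC k N)) : Prop :=
  ∀ (y : LaurentSeries A)
    (hy : coeffMap A.subtype y ∈ laurentBaseChange L (modularFunctionFieldFull N))
    (hyk : coeffMap π y ∈ modularFunctionFieldFullC k N), coeffMap π y ≠ 0 →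
    ∃ (z : LaurentSeries A)
      (hz : coeffMap A.subtype z ∈ laurentBaseChange L (modularFunctionFieldFull N))
      (hzk : coeffMap π z ∈ modularFunctionFieldFullC k N),
      (⟨coeffMap A.subtype z, hz⟩ : laurentBaseChange L (modularFunctionFieldFull N)) =
          (letI := algebraAlong (heckeAlphaBar L N ℓ)
           Algebra.norm (laurentBaseChange L (modularFunctionFieldFull N))
            (heckeBetaBar L N ℓ ⟨coeffMap A.subtype y, hy⟩)) ∧
        (⟨coeffMap π z, hzk⟩ : modularFunctionFieldFullC k N) =
          (φ • (⟨coeffMap π y, hyk⟩ : modularFunctionFieldFullC k N)) *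
            (φ⁻¹ • (⟨coeffMap π y, hyk⟩ : modularFunctionFieldFullC k N)) ^ ℓ

variable {A : ValuationSubring L} {k : Type*} [Field k] {π : A →+* k}
variable {N ℓ : ℕ} [NeZero N] [NeZero ℓ]
variable (hα : HeckeAlphaBarIntegral L N ℓ) (hβ : HeckeBetaBarIntegral L N ℓ)
variable [HasPrincipalDivisors L (laurentBaseChange L (modularFunctionFieldFull (N * ℓ)))]

/-- `NormQExp` gives `NormCongruence` for the Hecke correspondence. -/
theorem normCongruence_of_normQExp
    (hfin : FiniteAlong L (heckeAlphaBar L N ℓ))
    (hNorm : NormFormulaAlong L (heckeAlphaBar L N ℓ) hfin)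
    (φ : SemilinearAut k (modularFunctionFieldFullC k N))
    (hNQ : NormQExp A π N ℓ φ) :
    NormCongruence A π N ℓ (heckeDivBar hα hβ) φ := by
  intro y hy hyk hne D hD
  obtain ⟨z, hz, hzk, e1, e2⟩ := hNQ y hy hyk hne
  refine ⟨z, hz, hzk, fun P => ?_, e2⟩
  have hy0 : (⟨coeffMap A.subtype y, hy⟩ : laurentBaseChange L (modularFunctionFieldFull N)) ≠ 0 := by
    intro h0
    apply hne
    have h1 : coeffMap A.subtype y = 0 := congrArg Subtype.val h0
    have h2 : y = 0 := by
      ext n
      have := congrArg (fun s : LaurentSeries L => s.coeff n) h1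
      simpa [coeffMap_coeff] using this
    rw [h2, map_zero]
  rw [e1]
  exact correspondence_apply_of_ord (heckeBetaBar L N ℓ) (heckeAlphaBar L N ℓ) hβ hα hfin hNorm
    hy0 hD P

end NormQExp

section Concrete

set_option synthInstance.maxHeartbeats 400000

/-- **The package from the inputs.** -/
theorem reductionPackage_of_inputs (N p : ℕ) [NeZero N] (ℓ : ℕ) (hℓ : ℓ.Prime) [NeZero ℓ]
    (A : ValuationSubring (AlgebraicClosure ℚ))
    (h : ReductionInputsModL A N)
    (B : ℕ) (hB : BoundedReps (AlgebraicClosure ℚ) (modularFunctionFieldBar N) B)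
    (hdeg1 : ∀ P : Place (AlgebraicClosure ℚ) (modularFunctionFieldBar N), P.deg = 1)
    (φ : SemilinearAut (IsLocalRing.ResidueField A)
      (modularFunctionFieldFullC (IsLocalRing.ResidueField A) N))
    (hI : ∀ σ ∈ A.inertiaSubgroupIn ℚ,
      ReducesTo A (IsLocalRing.residue A) N (arithmeticGalois (modularFunctionFieldFull N) σ) 1)
    (hF : ∀ σ : AlgebraicClosure ℚ ≃ₐ[ℚ] AlgebraicClosure ℚ, A.IsFrobeniusAt σ ℓ →
      ReducesTo A (IsLocalRing.residue A) N (arithmeticGalois (modularFunctionFieldFull N) σ) φ)
    (hα : HeckeAlphaBarIntegral (AlgebraicClosure ℚ) N ℓ)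
    (hβ : HeckeBetaBarIntegral (AlgebraicClosure ℚ) N ℓ)
    [HasPrincipalDivisors (AlgebraicClosure ℚ)
      (laurentBaseChange (AlgebraicClosure ℚ) (modularFunctionFieldFull (N * ℓ)))]
    (hFI : FundamentalIdentityAlong (AlgebraicClosure ℚ) (heckeBetaBar (AlgebraicClosure ℚ) N ℓ) hβ)
    (hfin : FiniteAlong (AlgebraicClosure ℚ) (heckeAlphaBar (AlgebraicClosure ℚ) N ℓ))
    (hNorm : NormFormulaAlong (AlgebraicClosure ℚ) (heckeAlphaBar (AlgebraicClosure ℚ) N ℓ) hfin)
    (hNQ : NormQExp A (IsLocalRing.residue A) N ℓ φ)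
    (hS18 : ∀ x : JZero N, (∃ n : ℕ, p ^ n • x = 0) → reductionModL A N x = 0 → x = 0) :
    ReductionPackage N p ℓ hℓ A := by
  refine ⟨JZeroC (IsLocalRing.ResidueField A) N, inferInstance, reductionModL A N,
    DistribMulAction.toAddEquiv (JZeroC (IsLocalRing.ResidueField A) N) φ, ?_, ?_, ?_, hS18⟩
  · intro σ hσ x
    have := reductionAlong_smul h (arithmeticGalois (modularFunctionFieldFull N) σ) 1
      (hI σ hσ) B hB x
    rw [one_smul] at this
    exact this
  · intro σ hσ x
    exact reductionAlong_smul h (arithmeticGalois (modularFunctionFieldFull N) σ) φ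
      (hF σ hσ) B hB x
  · intro y
    have hop : heckeOperatorBar N ⟨ℓ, hℓ⟩ y = heckePic0Bar hα hβ hFI hfin hNorm y := by
      show (heckeOperatorAlong (AlgebraicClosure ℚ) N ℓ) y = _
      rw [heckeOperatorAlong_eq hα hβ hFI hfin hNorm]
    have key := reductionAlong_of_normCongruence h ℓ (heckeDivBar hα hβ)
      (heckePic0Bar hα hβ hFI hfin hNorm)
      (fun D => ⟨Divisor.correspondence_mem_degZero _ _ hβ hα hFI D.2, rfl⟩)
      (finrankAlong (AlgebraicClosure ℚ) (heckeBetaBar (AlgebraicClosure ℚ) N ℓ))
      (norm1_correspondence_single_le (heckeBetaBar (AlgebraicClosure ℚ) N ℓ)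
        (heckeAlphaBar (AlgebraicClosure ℚ) N ℓ) hβ hα hdeg1 hFI) φ
      (normCongruence_of_normQExp hα hβ hfin hNorm φ hNQ) B hB y
    exact (congrArg (reductionModL A N) hop).trans key

end Concrete

end Fermat.Agent.S37.H86

end
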