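import Mathlib
import Fermat.Agent.S37.H8_HeckeUnfold
import Fermat.Agent.S37.H53_GaloisEquiv
import Fermat.Agent.S37.H59_FrobTwist
import Fermat.Agent.S37.H50_ESDivisor
import Fermat.Agent.S37.H86_PackageAssembly
import Fermat.Agent.S37.H19_NormQExp
import Fermat.Agent.S37.H6_LevelDegree
import Fermat.Agent.S37.H34_FFBaseChar0

/-!
# Clause (3) of the reduction package: the Eichler--Shimura congruence on `JZero N`
(helper82, S37 stage 2)

Glue between
* (K1) the `q`-expansion of the Hecke norm over `ℚ̄` (`H19.qExpand_norm_heckeBeta_of_finrank`,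
  with the degree supplied by `H6.finrankAlong_heckeAlphaBar_of_not_dvd`),
* (K2) the Kronecker reduction of that product on `q`-series (`H59.kronecker_reduction`),
* the characteristic-`ℓ` identification `ȳ(q^ℓ) · Frob ȳ = (Φ⁻¹ ȳ)^ℓ · Φ ȳ` (`H50.coe_esFun`),
* the generic `Pic⁰`-level assembly `H86.reductionAlong_of_normCongruence`.

Main results (`k := IsLocalRing.ResidueField A`):
* `normQExp_of_K1` : (K1) ⟹ `H86.NormQExp A (residue A) N ℓ (H53.coeffFrob k N ℓ)`;
* `normQExp` : the same, unconditionally (`ℓ` prime, `ℓ ∤ N`);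
* `reductionModL_heckeOperatorBar` : **clause (3)**, in the exact shape of the hypothesis `hES` of
  `H53.reductionPackage_of_ES_of_inj`, `H53.s37_of_inputs` and
  `H86.specializationExists_of_stage1_of_ES`:
  `reductionModL A N (T_ℓ x) = Φ (reductionModL A N x) + ℓ • Φ⁻¹ (reductionModL A N x)`.
-/

set_option autoImplicit false
set_option linter.style.haveILetI false
set_option linter.unusedSectionVars false

noncomputable section

open HahnSeries AlgebraicCurve ModularCurve

namespace Fermat.Agent.S37.H82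

open Fermat.Agent.S24 Fermat.Agent.S28

/-! ### `ℓ¹`-norms: `H86.norm1` versus `H82.l1` -/

section Convert

variable {K F : Type*} [Field K] [Field F] [Algebra K F]

theorem norm1_cast_eq_l1 (D : Divisor K F) : (H86.norm1 D : ℤ) = l1 D := by
  rw [H86.norm1, l1, Finsupp.sum, Nat.cast_sum]
  exact Finset.sum_congr rfl fun P _ => Int.natCast_natAbs _

/-- helper82's `HasBoundedReps` gives helper86's `BoundedReps` (same constant). -/
theorem boundedReps_of_hasBoundedReps {C : ℕ} (h : HasBoundedReps K F C) :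
    H86.BoundedReps K F C := by
  intro D hD
  obtain ⟨E, hE, hl⟩ := h D hD
  refine ⟨E, hE, ?_⟩
  have h1 : (H86.norm1 E : ℤ) ≤ (C : ℤ) := (norm1_cast_eq_l1 E).trans_le hl
  exact_mod_cast h1

end Convert

/-! ### (K1) ⟹ `H86.NormQExp` -/

section K1

variable (N ℓ : ℕ) [NeZero N] [NeZero ℓ]

/-- **(K1)**: the `q`-expansion of the Hecke norm `N_α (β y)`, as a named statement. -/
def NormQExpK1 (ζ : Qbarˣ) : Prop :=
  ∀ y : FN N,
    qExpand Qbar ℓ (((letI := algebraAlong (heckeAlphaBar Qbar N ℓ)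
        Algebra.norm (FN N) (heckeBetaBar Qbar N ℓ y) : FN N)) : LaurentSeries Qbar) =
      qExpand Qbar (ℓ * ℓ) (y : LaurentSeries Qbar) *
        ∏ b ∈ Finset.range ℓ, twist (ζ ^ b) (y : LaurentSeries Qbar)

/-- (K1) holds for `ℓ` prime, `ℓ ∤ N` (helper19 + helper6). -/
theorem normQExpK1 (hℓ : ℓ.Prime) (hℓN : ¬ ℓ ∣ N) {ζ : Qbarˣ} (hζ : IsPrimitiveRoot ζ ℓ) :
    NormQExpK1 N ℓ ζ := fun y =>
  H19.qExpand_norm_heckeBeta_of_finrank N ℓ hℓ hℓN ζ hζ
    (H6.finrankAlong_heckeAlphaBar_of_not_dvd N ℓ hℓ hℓN) y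

variable {N ℓ}

/-- **(K1) + Kronecker reduction ⟹ `NormQExp`** for the coefficientwise Frobenius. -/
theorem normQExp_of_K1 (hℓ : ℓ.Prime) (A : ValuationSubring Qbar)
    [ExpChar (IsLocalRing.ResidueField A) ℓ] [PerfectRing (IsLocalRing.ResidueField A) ℓ]
    {ζ : Qbarˣ} (hζ : ζ ^ ℓ = 1) (hK1 : NormQExpK1 N ℓ ζ) :
    H86.NormQExp A (IsLocalRing.residue A) N ℓ
      (H53.coeffFrob (IsLocalRing.ResidueField A) N ℓ) := by
  haveI : Fact ℓ.Prime := ⟨hℓ⟩
  haveI : CharP (IsLocalRing.ResidueField A) ℓ := by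
    rcases ‹ExpChar (IsLocalRing.ResidueField A) ℓ› with _ | ⟨_⟩
    · exact absurd hℓ Nat.not_prime_one
    · assumption
  intro y hy hyk hne
  obtain ⟨g0, hg0, hg0π⟩ := H59.kronecker_reduction ℓ A (IsLocalRing.residue A) ζ hζ y _
    (hK1 ⟨coeffMap A.subtype y, hy⟩)
  have hcoe : coeffMap (IsLocalRing.residue A) g0 =
      ((H50.esFun (IsLocalRing.ResidueField A) ℓ N ⟨coeffMap (IsLocalRing.residue A) y, hyk⟩ :
        ↥(modularFunctionFieldFullC (IsLocalRing.ResidueField A) N)) :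
          LaurentSeries (IsLocalRing.ResidueField A)) := by
    rw [H50.coe_esFun]
    exact hg0π
  have hz : coeffMap A.subtype g0 ∈ laurentBaseChange Qbar (modularFunctionFieldFull N) := by
    rw [hg0]
    exact Subtype.mem _
  have hzk : coeffMap (IsLocalRing.residue A) g0 ∈
      modularFunctionFieldFullC (IsLocalRing.ResidueField A) N := by
    rw [hcoe]
    exact Subtype.mem _
  have e1 : (⟨coeffMap A.subtype g0, hz⟩ : laurentBaseChange Qbar (modularFunctionFieldFull N)) =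
      (letI := algebraAlong (heckeAlphaBar Qbar N ℓ)
       Algebra.norm (laurentBaseChange Qbar (modularFunctionFieldFull N))
        (heckeBetaBar Qbar N ℓ ⟨coeffMap A.subtype y, hy⟩)) := Subtype.ext hg0
  have h1 : (⟨coeffMap (IsLocalRing.residue A) g0, hzk⟩ :
      ↥(modularFunctionFieldFullC (IsLocalRing.ResidueField A) N)) =
      H50.esFun (IsLocalRing.ResidueField A) ℓ N ⟨coeffMap (IsLocalRing.residue A) y, hyk⟩ :=
    Subtype.ext hcoe
  have e2 : (⟨coeffMap (IsLocalRing.residue A) g0, hzk⟩ :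
      ↥(modularFunctionFieldFullC (IsLocalRing.ResidueField A) N)) =
      (H53.coeffFrob (IsLocalRing.ResidueField A) N ℓ •
        (⟨coeffMap (IsLocalRing.residue A) y, hyk⟩ :
          ↥(modularFunctionFieldFullC (IsLocalRing.ResidueField A) N))) *
      ((H53.coeffFrob (IsLocalRing.ResidueField A) N ℓ)⁻¹ •
        (⟨coeffMap (IsLocalRing.residue A) y, hyk⟩ :
          ↥(modularFunctionFieldFullC (IsLocalRing.ResidueField A) N))) ^ ℓ :=
    h1.trans (mul_comm _ _)
  exact ⟨g0, hz, hzk, e1, e2⟩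

/-- `NormQExp` for the coefficientwise Frobenius, unconditionally. -/
theorem normQExp (hℓ : ℓ.Prime) (hℓN : ¬ ℓ ∣ N) (A : ValuationSubring Qbar)
    [ExpChar (IsLocalRing.ResidueField A) ℓ] [PerfectRing (IsLocalRing.ResidueField A) ℓ] :
    H86.NormQExp A (IsLocalRing.residue A) N ℓ
      (H53.coeffFrob (IsLocalRing.ResidueField A) N ℓ) := by
  obtain ⟨ζ, hζ⟩ := H19.exists_primitiveRoot_Qbar ℓ
  exact normQExp_of_K1 hℓ A hζ.pow_eq_one (normQExpK1 N ℓ hℓ hℓN hζ)

end K1

/-! ### Clause (3) -/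

section Clause3

set_option synthInstance.maxHeartbeats 400000

variable {N : ℕ} [NeZero N] {ℓ : ℕ}

/-- **Eichler--Shimura on `JZero N`** from `NormQExp` and bounded representatives. -/
theorem reductionModL_heckeOperatorBar_of_normQExp (hℓ : ℓ.Prime)
    (A : ValuationSubring Qbar)
    [ExpChar (IsLocalRing.ResidueField A) ℓ] [PerfectRing (IsLocalRing.ResidueField A) ℓ]
    (hNQ : haveI : NeZero ℓ := ⟨hℓ.ne_zero⟩
      H86.NormQExp A (IsLocalRing.residue A) N ℓ
        (H53.coeffFrob (IsLocalRing.ResidueField A) N ℓ))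
    {C : ℕ} (hC : HasBoundedReps Qbar (modularFunctionFieldBar N) C) (x : JZero N) :
    reductionModL A N (heckeOperatorBar N ⟨ℓ, hℓ⟩ x)
      = H53.frobJEquiv (IsLocalRing.ResidueField A) N ℓ (reductionModL A N x)
        + ℓ • (H53.frobJEquiv (IsLocalRing.ResidueField A) N ℓ).symm (reductionModL A N x) := by
  haveI : NeZero ℓ := ⟨hℓ.ne_zero⟩
  by_cases h : ReductionInputsModL A N
  · rw [H53.frobJEquiv_apply', H53.frobJEquiv_symm_apply]
    haveI := H8.hasPrincipalDivisors_FN (N * ℓ)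
    exact H86.reductionAlong_of_normCongruence h ℓ
      (heckeDivBar (H8.heckeAlphaBarIntegral N ℓ) (H8.heckeBetaBarIntegral N ℓ))
      (heckeOperatorBar N ⟨ℓ, hℓ⟩)
      (fun D => H8.heckeOperatorBar_mk N ⟨ℓ, hℓ⟩ D)
      (finrankAlong Qbar (heckeBetaBar Qbar N ℓ))
      (H86.norm1_correspondence_single_le (heckeBetaBar Qbar N ℓ) (heckeAlphaBar Qbar N ℓ)
        (H8.heckeBetaBarIntegral N ℓ) (H8.heckeAlphaBarIntegral N ℓ) (H8.deg_eq_one_FN N)
        (H8.heckeInputsAlong N ℓ).snd.snd.snd.snd.1)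
      (H53.coeffFrob (IsLocalRing.ResidueField A) N ℓ)
      (H86.normCongruence_of_normQExp (H8.heckeAlphaBarIntegral N ℓ)
        (H8.heckeBetaBarIntegral N ℓ) (H8.finiteAlong_heckeAlphaBar N ℓ)
        (H8.heckeInputsAlong N ℓ).snd.snd.snd.snd.2 _ hNQ)
      C (boundedReps_of_hasBoundedReps hC) x
  · rw [reductionModL_of_not h]
    simp

/-- **Clause (3) of the reduction package, unconditional** (`ℓ` prime, `ℓ ∤ N`): exactly the
hypothesis `hES` of `H53.reductionPackage_of_ES_of_inj`. -/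
theorem reductionModL_heckeOperatorBar (hℓ : ℓ.Prime) (hℓN : ¬ ℓ ∣ N)
    (A : ValuationSubring Qbar)
    [ExpChar (IsLocalRing.ResidueField A) ℓ] [PerfectRing (IsLocalRing.ResidueField A) ℓ]
    (x : JZero N) :
    reductionModL A N (heckeOperatorBar N ⟨ℓ, hℓ⟩ x)
      = H53.frobJEquiv (IsLocalRing.ResidueField A) N ℓ (reductionModL A N x)
        + ℓ • (H53.frobJEquiv (IsLocalRing.ResidueField A) N ℓ).symm (reductionModL A N x) := by
  haveI : NeZero ℓ := ⟨hℓ.ne_zero⟩
  obtain ⟨C, hC⟩ := H34.hasBoundedReps_FN' N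
  exact reductionModL_heckeOperatorBar_of_normQExp hℓ A (normQExp hℓ hℓN A) hC x

end Clause3

end Fermat.Agent.S37.H82
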