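import Mathlib

/-!
# The bounded homomorphism lemma

`norm1 D = ∑ |D x|` on `X →₀ ℤ`.  If an additive map `δ : (X →₀ ℤ) →+ (Y →₀ ℤ)` is bounded on
points (`norm1 (δ (single x 1)) ≤ C`), vanishes on a subgroup `P`, and every element of a
subgroup `Z` has a representative modulo `P` of `norm1 ≤ B` (with `B` independent of the
element), then `δ` vanishes on `Z`.

Application (Eichler–Shimura, Galois equivariance of the reduction map): `X`, `Y` = places of the
function fields in characteristic `0` and `ℓ`, `P` = principal divisors, `Z` = divisors of degree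
`0`; bounded representatives come from Riemann's inequality (`D ∼ E - g • P₀`, `E ≥ 0` of degree
`g`).  No divisibility of `Pic⁰` is needed.
-/

set_option autoImplicit false

namespace Fermat.Agent.S37.H86

open Finsupp

variable {X Y : Type*}

/-- The `ℓ¹`-norm of a finitely supported integer-valued function. -/
def norm1 (D : X →₀ ℤ) : ℕ := ∑ x ∈ D.support, (D x).natAbs

theorem norm1_eq_sum_of_support_subset (D : X →₀ ℤ) {s : Finset X} (hs : D.support ⊆ s) :
    norm1 D = ∑ x ∈ s, (D x).natAbs := by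
  classical
  rw [norm1]
  refine Finset.sum_subset hs fun x _ hx => ?_
  rw [Finsupp.notMem_support_iff.mp hx, Int.natAbs_zero]

@[simp]
theorem norm1_zero : norm1 (0 : X →₀ ℤ) = 0 := by
  simp [norm1]

theorem norm1_eq_zero_iff {D : X →₀ ℤ} : norm1 D = 0 ↔ D = 0 := by
  constructor
  · intro h
    ext x
    by_cases hx : x ∈ D.support
    · have := (Finset.sum_eq_zero_iff.mp h) x hx
      simpa using this
    · simpa using Finsupp.notMem_support_iff.mp hx
  · rintro rfl
    exact norm1_zero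

theorem norm1_add_le (D E : X →₀ ℤ) : norm1 (D + E) ≤ norm1 D + norm1 E := by
  classical
  have h1 : (D + E).support ⊆ D.support ∪ E.support := Finsupp.support_add
  rw [norm1_eq_sum_of_support_subset (D + E) h1,
    norm1_eq_sum_of_support_subset D Finset.subset_union_left,
    norm1_eq_sum_of_support_subset E Finset.subset_union_right, ← Finset.sum_add_distrib]
  refine Finset.sum_le_sum fun x _ => ?_
  rw [Finsupp.add_apply]
  exact Int.natAbs_add_le _ _

theorem norm1_sum_le {ι : Type*} (s : Finset ι) (f : ι → X →₀ ℤ) :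
    norm1 (∑ i ∈ s, f i) ≤ ∑ i ∈ s, norm1 (f i) := by
  classical
  induction s using Finset.induction_on with
  | empty => simp
  | insert a s ha ih =>
    rw [Finset.sum_insert ha, Finset.sum_insert ha]
    exact (norm1_add_le _ _).trans (Nat.add_le_add_left ih _)

theorem norm1_zsmul (n : ℤ) (D : X →₀ ℤ) : norm1 (n • D) = n.natAbs * norm1 D := by
  classical
  rcases eq_or_ne n 0 with rfl | hn
  · simp
  have hs : (n • D).support ⊆ D.support := Finsupp.support_smul
  rw [norm1_eq_sum_of_support_subset (n • D) hs, norm1, Finset.mul_sum]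
  refine Finset.sum_congr rfl fun x _ => ?_
  rw [Finsupp.smul_apply, smul_eq_mul, Int.natAbs_mul]

theorem norm1_nsmul (n : ℕ) (D : X →₀ ℤ) : norm1 (n • D) = n * norm1 D := by
  have h := norm1_zsmul (n : ℤ) D
  rwa [natCast_zsmul, Int.natAbs_natCast] at h

theorem norm1_neg (D : X →₀ ℤ) : norm1 (-D) = norm1 D := by
  have h := norm1_zsmul (-1 : ℤ) D
  simpa using h

theorem norm1_sub_le (D E : X →₀ ℤ) : norm1 (D - E) ≤ norm1 D + norm1 E := by
  rw [sub_eq_add_neg]
  exact (norm1_add_le _ _).trans (by rw [norm1_neg])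

@[simp]
theorem norm1_single (x : X) (n : ℤ) : norm1 (Finsupp.single x n) = n.natAbs := by
  classical
  rcases eq_or_ne n 0 with rfl | hn
  · simp
  rw [norm1, Finsupp.support_single x hn, Finset.sum_singleton, Finsupp.single_eq_same]

/-- For a nonnegative `D`, `norm1 D` is the sum of the coefficients. -/
theorem norm1_of_nonneg {D : X →₀ ℤ} (hD : ∀ x, 0 ≤ D x) :
    (norm1 D : ℤ) = D.sum fun _ n => n := by
  rw [norm1, Finsupp.sum, Nat.cast_sum]
  refine Finset.sum_congr rfl fun x _ => ?_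
  rw [Int.natCast_natAbs, abs_of_nonneg (hD x)]

/-- An additive map bounded on points is bounded by `C * norm1`. -/
theorem norm1_map_le (δ : (X →₀ ℤ) →+ (Y →₀ ℤ)) (C : ℕ)
    (hC : ∀ x, norm1 (δ (Finsupp.single x 1)) ≤ C) (D : X →₀ ℤ) :
    norm1 (δ D) ≤ C * norm1 D := by
  classical
  have hD : D = ∑ x ∈ D.support, (D x) • Finsupp.single x (1 : ℤ) := by
    conv_lhs => rw [← Finsupp.sum_single D]
    rw [Finsupp.sum]
    refine Finset.sum_congr rfl fun x _ => ?_
    rw [Finsupp.smul_single, smul_eq_mul, mul_one]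
  have h1 : δ D = ∑ x ∈ D.support, (D x) • δ (Finsupp.single x (1 : ℤ)) := by
    conv_lhs => rw [hD]
    rw [map_sum]
    refine Finset.sum_congr rfl fun x _ => ?_
    rw [map_zsmul]
  rw [h1]
  refine (norm1_sum_le _ _).trans ?_
  rw [norm1, Finset.mul_sum]
  refine Finset.sum_le_sum fun x _ => ?_
  rw [norm1_zsmul, mul_comm]
  exact Nat.mul_le_mul_right _ (hC x)

/-- **Bounded homomorphism lemma.** -/
theorem eq_zero_of_bounded (δ : (X →₀ ℤ) →+ (Y →₀ ℤ)) (C : ℕ)
    (hC : ∀ x, norm1 (δ (Finsupp.single x 1)) ≤ C)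
    (P Z : AddSubgroup (X →₀ ℤ)) (hP : ∀ D ∈ P, δ D = 0) (B : ℕ)
    (hB : ∀ D ∈ Z, ∃ E : X →₀ ℤ, D - E ∈ P ∧ norm1 E ≤ B) :
    ∀ D ∈ Z, δ D = 0 := by
  intro D hD
  rw [← norm1_eq_zero_iff]
  by_contra hne
  have hpos : 1 ≤ norm1 (δ D) := Nat.one_le_iff_ne_zero.mpr hne
  set n : ℕ := C * B + 1 with hn
  obtain ⟨E, hEP, hEB⟩ := hB (n • D) (Z.nsmul_mem hD n)
  have h0 : δ (n • D) = δ E := by
    have := hP _ hEP
    rwa [map_sub, sub_eq_zero] at this
  have h1 : norm1 (δ (n • D)) = n * norm1 (δ D) := by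
    rw [map_nsmul, norm1_nsmul]
  have h2 : norm1 (δ E) ≤ C * B :=
    (norm1_map_le δ C hC E).trans (Nat.mul_le_mul_left _ hEB)
  have h3 : n ≤ n * norm1 (δ D) := Nat.le_mul_of_pos_right n hpos
  rw [h0] at h1
  omega

/-- Two additive maps bounded on points which agree on `P` agree on `Z`. -/
theorem eq_on_of_bounded (A₁ A₂ : (X →₀ ℤ) →+ (Y →₀ ℤ)) (C₁ C₂ : ℕ)
    (h₁ : ∀ x, norm1 (A₁ (Finsupp.single x 1)) ≤ C₁)
    (h₂ : ∀ x, norm1 (A₂ (Finsupp.single x 1)) ≤ C₂)
    (P Z : AddSubgroup (X →₀ ℤ)) (hP : ∀ D ∈ P, A₁ D = A₂ D) (B : ℕ)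
    (hB : ∀ D ∈ Z, ∃ E : X →₀ ℤ, D - E ∈ P ∧ norm1 E ≤ B) :
    ∀ D ∈ Z, A₁ D = A₂ D := by
  intro D hD
  have h := eq_zero_of_bounded (A₁ - A₂) (C₁ + C₂)
    (fun x => by
      rw [AddMonoidHom.sub_apply]
      exact (norm1_sub_le _ _).trans (Nat.add_le_add (h₁ x) (h₂ x)))
    P Z (fun D hD => by rw [AddMonoidHom.sub_apply, hP D hD, sub_self]) B hB D hD
  rwa [AddMonoidHom.sub_apply, sub_eq_zero] at h

/-- `mapDomain` along any map of points does not increase `norm1`. -/
theorem norm1_mapDomain_le (r : X → Y) (D : X →₀ ℤ) :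
    norm1 (Finsupp.mapDomain r D) ≤ norm1 D := by
  classical
  have h := norm1_map_le (Finsupp.mapDomain.addMonoidHom r : (X →₀ ℤ) →+ (Y →₀ ℤ)) 1
    (fun x => by
      rw [Finsupp.mapDomain.addMonoidHom_apply, Finsupp.mapDomain_single, norm1_single]
      simp) D
  simpa using h

end Fermat.Agent.S37.H86
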