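import Fermat.Prelude.Def_ModularCurve_ReductionModL
import Fermat.Prelude.Def_ModularCurve_HeckeModule
import Fermat.Agent.S37.H86_BoundedHom

/-!
# Transfer of identities from integral principal divisors to all divisors of degree `0`

Setting of `ModularCurve.ReductionInputsAlong A π N`: `r` is a place reduction
(`IsPlaceReductionAlong`) and principal divisors are generated by integral ones.

* `transfer`: additive maps `T` on `Div(F_L)`, `Ψ` on `Div(F_k)`, both bounded on points, with
  `r_* (T D) = Ψ (r_* D)` for the INTEGRAL principal divisors `D`, satisfy the same identity for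
  every `D` of degree `0`, as soon as degree-zero divisors have bounded representatives modulo
  principal divisors (`BoundedReps`, a consequence of Riemann's inequality).
* `mapDomain_smul_eq`: Galois instance (`T = g • ·`, `Ψ = φ • ·`).
* `mapDomain_eichlerShimura`: Eichler–Shimura instance (`T` any additive map with
  `T (div y) = div z`, `z̄ = (φ • ȳ) * (φ⁻¹ • ȳ) ^ ℓ`; `Ψ = φ • · + ℓ • (φ⁻¹ • ·)`).
-/

set_option autoImplicit false

noncomputable section

namespace Fermat.Agent.S37.H86

open ModularCurve AlgebraicCurve HahnSeries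

/-- Every divisor of degree `0` has a representative of `norm1 ≤ B` modulo principal divisors.
(From Riemann's inequality: `D ∼ E - g • P₀` with `E ≥ 0` of degree `g`, so `B = 2 g`.) -/
def BoundedReps (K F : Type*) [Field K] [Field F] [Algebra K F] (B : ℕ) : Prop :=
  ∀ D ∈ Divisor.degZero (K := K) (F := F), ∃ E : Divisor K F,
    D - E ∈ Divisor.principal (K := K) (F := F) ∧ norm1 E ≤ B

section Transfer

variable {L : Type*} [Field L] [Algebra ℚ L] {A : ValuationSubring L}
variable {k : Type*} [Field k] {π : A →+* k} {N : ℕ}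
variable {r : Place L (laurentBaseChange L (modularFunctionFieldFull N)) →
  Place k (modularFunctionFieldFullC k N)}

/-- **Transfer lemma.** -/
theorem transfer (hgen : PrincipalGeneratedByIntegral A π N)
    (T : Divisor L (laurentBaseChange L (modularFunctionFieldFull N)) →+
      Divisor L (laurentBaseChange L (modularFunctionFieldFull N)))
    (Ψ : Divisor k (modularFunctionFieldFullC k N) →+ Divisor k (modularFunctionFieldFullC k N))
    (CT CΨ : ℕ)
    (hT : ∀ P, norm1 (T (Finsupp.single P 1)) ≤ CT)
    (hΨ : ∀ Q, norm1 (Ψ (Finsupp.single Q 1)) ≤ CΨ)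
    (hint : ∀ D ∈ integralPrincipalDivisors A π N,
      Finsupp.mapDomain r (T D) = Ψ (Finsupp.mapDomain r D))
    (B : ℕ) (hB : BoundedReps L (laurentBaseChange L (modularFunctionFieldFull N)) B) :
    ∀ D ∈ Divisor.degZero (K := L) (F := laurentBaseChange L (modularFunctionFieldFull N)),
      Finsupp.mapDomain r (T D) = Ψ (Finsupp.mapDomain r D) := by
  classical
  set A₁ : Divisor L (laurentBaseChange L (modularFunctionFieldFull N)) →+
      Divisor k (modularFunctionFieldFullC k N) :=
    (Finsupp.mapDomain.addMonoidHom r).comp T with hA₁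
  set A₂ : Divisor L (laurentBaseChange L (modularFunctionFieldFull N)) →+
      Divisor k (modularFunctionFieldFullC k N) :=
    Ψ.comp (Finsupp.mapDomain.addMonoidHom r) with hA₂
  have h₁ : ∀ P, norm1 (A₁ (Finsupp.single P 1)) ≤ CT := fun P =>
    (norm1_mapDomain_le r _).trans (hT P)
  have h₂ : ∀ P, norm1 (A₂ (Finsupp.single P 1)) ≤ CΨ := fun P => by
    show norm1 (Ψ (Finsupp.mapDomain r (Finsupp.single P 1))) ≤ CΨ
    rw [Finsupp.mapDomain_single]
    exact hΨ (r P)
  have hP : ∀ D ∈ Divisor.principal (K := L)
      (F := laurentBaseChange L (modularFunctionFieldFull N)), A₁ D = A₂ D := by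
    intro D hD
    have hD' := hgen hD
    clear hD
    induction hD' using AddSubgroup.closure_induction with
    | mem E hE => exact hint E hE
    | zero => rw [map_zero, map_zero]
    | add E E' _ _ hE hE' => rw [map_add, map_add, hE, hE']
    | neg E _ hE => rw [map_neg, map_neg, hE]
  exact eq_on_of_bounded A₁ A₂ CT CΨ h₁ h₂ _ _ hP B hB

/-- The reduction-of-functions hypothesis for a pair of semilinear automorphisms: every integral
function `y` has an integral `y'` with `y' = g • y` upstairs and `ȳ' = φ • ȳ` downstairs. -/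
def ReducesTo (A : ValuationSubring L) (π : A →+* k) (N : ℕ)
    (g : SemilinearAut L (laurentBaseChange L (modularFunctionFieldFull N)))
    (φ : SemilinearAut k (modularFunctionFieldFullC k N)) : Prop :=
  ∀ (y : LaurentSeries A)
    (hy : coeffMap A.subtype y ∈ laurentBaseChange L (modularFunctionFieldFull N))
    (hyk : coeffMap π y ∈ modularFunctionFieldFullC k N), coeffMap π y ≠ 0 →
    ∃ (y' : LaurentSeries A)
      (hy' : coeffMap A.subtype y' ∈ laurentBaseChange L (modularFunctionFieldFull N))
      (hyk' : coeffMap π y' ∈ modularFunctionFieldFullC k N),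
      (⟨coeffMap A.subtype y', hy'⟩ : laurentBaseChange L (modularFunctionFieldFull N)) =
          g • (⟨coeffMap A.subtype y, hy⟩ : laurentBaseChange L (modularFunctionFieldFull N)) ∧
        (⟨coeffMap π y', hyk'⟩ : modularFunctionFieldFullC k N) =
          φ • (⟨coeffMap π y, hyk⟩ : modularFunctionFieldFullC k N)

theorem ord_smul_eq {K F : Type*} [Field K] [Field F] [Algebra K F] (g : SemilinearAut K F)
    (w : Place K F) (f : F) : w.ord (g • f) = (g⁻¹ • w).ord f := by
  have h := SemilinearAut.ord_smul g (g⁻¹ • w) f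
  rwa [smul_inv_smul] at h

/-- **Galois instance**: `r_* (g • D) = φ • r_* D` on divisors of degree `0`. -/
theorem mapDomain_smul_eq (hr : IsPlaceReductionAlong A π N r)
    (hgen : PrincipalGeneratedByIntegral A π N)
    (g : SemilinearAut L (laurentBaseChange L (modularFunctionFieldFull N)))
    (φ : SemilinearAut k (modularFunctionFieldFullC k N))
    (hgφ : ReducesTo A π N g φ)
    (B : ℕ) (hB : BoundedReps L (laurentBaseChange L (modularFunctionFieldFull N)) B) :
    ∀ D ∈ Divisor.degZero (K := L) (F := laurentBaseChange L (modularFunctionFieldFull N)),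
      Finsupp.mapDomain r (g • D) = φ • Finsupp.mapDomain r D := by
  classical
  have key := transfer (r := r) hgen
    (DistribSMul.toAddMonoidHom (Divisor L (laurentBaseChange L (modularFunctionFieldFull N))) g)
    (DistribSMul.toAddMonoidHom (Divisor k (modularFunctionFieldFullC k N)) φ) 1 1
    (fun P => by
      show norm1 (g • Finsupp.single P (1 : ℤ)) ≤ 1
      rw [SemilinearAut.smul_single, norm1_single]
      simp)
    (fun Q => by
      show norm1 (φ • Finsupp.single Q (1 : ℤ)) ≤ 1
      rw [SemilinearAut.smul_single, norm1_single]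
      simp)
    ?_ B hB
  · exact key
  · rintro D ⟨y, hy, hyk, hne, hD⟩
    show Finsupp.mapDomain r (g • D) = φ • Finsupp.mapDomain r D
    obtain ⟨y', hy', hyk', e1, e2⟩ := hgφ y hy hyk hne
    have hne' : coeffMap π y' ≠ 0 := by
      intro h0
      have h1 : (⟨coeffMap π y', hyk'⟩ : modularFunctionFieldFullC k N) = 0 :=
        Subtype.ext h0
      rw [e2] at h1
      have h2 : (⟨coeffMap π y, hyk⟩ : modularFunctionFieldFullC k N) = 0 := by
        have := congrArg (fun t => φ⁻¹ • t) h1
        simpa using this
      exact hne (congrArg Subtype.val h2)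
    have hgD : ∀ P, (g • D) P = P.ord (⟨coeffMap A.subtype y', hy'⟩ :
        laurentBaseChange L (modularFunctionFieldFull N)) := by
      intro P
      rw [SemilinearAut.divisor_smul_apply, hD, e1, ord_smul_eq]
    ext Q
    rw [hr.2 y' hy' hyk' hne' (g • D) hgD Q, e2, ord_smul_eq,
      SemilinearAut.divisor_smul_apply, hr.2 y hy hyk hne D hD (φ⁻¹ • Q)]

/-- The Eichler–Shimura hypothesis on functions: for every integral `y`, the divisor `T (div y)`
is the divisor of an integral `z` whose reduction is `(φ • ȳ) * (φ⁻¹ • ȳ) ^ ℓ`. -/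
def NormCongruence (A : ValuationSubring L) (π : A →+* k) (N : ℕ) (ℓ : ℕ)
    (T : Divisor L (laurentBaseChange L (modularFunctionFieldFull N)) →+
      Divisor L (laurentBaseChange L (modularFunctionFieldFull N)))
    (φ : SemilinearAut k (modularFunctionFieldFullC k N)) : Prop :=
  ∀ (y : LaurentSeries A)
    (hy : coeffMap A.subtype y ∈ laurentBaseChange L (modularFunctionFieldFull N))
    (hyk : coeffMap π y ∈ modularFunctionFieldFullC k N), coeffMap π y ≠ 0 →
    ∀ D : Divisor L (laurentBaseChange L (modularFunctionFieldFull N)),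
      (∀ P, D P = P.ord (⟨coeffMap A.subtype y, hy⟩ :
        laurentBaseChange L (modularFunctionFieldFull N))) →
    ∃ (z : LaurentSeries A)
      (hz : coeffMap A.subtype z ∈ laurentBaseChange L (modularFunctionFieldFull N))
      (hzk : coeffMap π z ∈ modularFunctionFieldFullC k N),
      (∀ P, T D P = P.ord (⟨coeffMap A.subtype z, hz⟩ :
        laurentBaseChange L (modularFunctionFieldFull N))) ∧
        (⟨coeffMap π z, hzk⟩ : modularFunctionFieldFullC k N) =
          (φ • (⟨coeffMap π y, hyk⟩ : modularFunctionFieldFullC k N)) *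
            (φ⁻¹ • (⟨coeffMap π y, hyk⟩ : modularFunctionFieldFullC k N)) ^ ℓ

/-- The operator `φ • · + ℓ • (φ⁻¹ • ·)` on divisors. -/
def frobVer (φ : SemilinearAut k (modularFunctionFieldFullC k N)) (ℓ : ℕ) :
    Divisor k (modularFunctionFieldFullC k N) →+ Divisor k (modularFunctionFieldFullC k N) :=
  DistribSMul.toAddMonoidHom (Divisor k (modularFunctionFieldFullC k N)) φ +
    ℓ • DistribSMul.toAddMonoidHom (Divisor k (modularFunctionFieldFullC k N)) φ⁻¹

theorem frobVer_apply (φ : SemilinearAut k (modularFunctionFieldFullC k N)) (ℓ : ℕ)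
    (D : Divisor k (modularFunctionFieldFullC k N)) :
    frobVer φ ℓ D = φ • D + ℓ • (φ⁻¹ • D) :=
  rfl

/-- **Eichler–Shimura instance**: `r_* (T D) = φ • r_* D + ℓ • (φ⁻¹ • r_* D)` in degree `0`. -/
theorem mapDomain_eichlerShimura (hr : IsPlaceReductionAlong A π N r)
    (hgen : PrincipalGeneratedByIntegral A π N) (ℓ : ℕ)
    (T : Divisor L (laurentBaseChange L (modularFunctionFieldFull N)) →+
      Divisor L (laurentBaseChange L (modularFunctionFieldFull N)))
    (CT : ℕ) (hT : ∀ P, norm1 (T (Finsupp.single P 1)) ≤ CT)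
    (φ : SemilinearAut k (modularFunctionFieldFullC k N))
    (hN : NormCongruence A π N ℓ T φ)
    (B : ℕ) (hB : BoundedReps L (laurentBaseChange L (modularFunctionFieldFull N)) B) :
    ∀ D ∈ Divisor.degZero (K := L) (F := laurentBaseChange L (modularFunctionFieldFull N)),
      Finsupp.mapDomain r (T D) =
        φ • Finsupp.mapDomain r D + ℓ • (φ⁻¹ • Finsupp.mapDomain r D) := by
  classical
  have key := transfer (r := r) hgen T (frobVer φ ℓ) CT (1 + ℓ) hT
    (fun Q => by
      rw [frobVer_apply, SemilinearAut.smul_single, SemilinearAut.smul_single]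
      refine (norm1_add_le _ _).trans ?_
      rw [norm1_nsmul, norm1_single, norm1_single]
      simp)
    ?_ B hB
  · exact key
  · rintro D ⟨y, hy, hyk, hne, hD⟩
    rw [frobVer_apply]
    obtain ⟨z, hz, hzk, hTD, ez⟩ := hN y hy hyk hne D hD
    set ybar : modularFunctionFieldFullC k N := ⟨coeffMap π y, hyk⟩ with hybar
    have hybar0 : ybar ≠ 0 := fun h => hne (congrArg Subtype.val h)
    have h1 : φ • ybar ≠ 0 := by
      intro h
      apply hybar0
      have := congrArg (fun t => φ⁻¹ • t) h
      simpa using this
    have h2 : φ⁻¹ • ybar ≠ 0 := by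
      intro h
      apply hybar0
      have := congrArg (fun t => φ • t) h
      simpa using this
    have hne' : coeffMap π z ≠ 0 := by
      intro h0
      have h3 : (⟨coeffMap π z, hzk⟩ : modularFunctionFieldFullC k N) = 0 := Subtype.ext h0
      rw [ez] at h3
      exact mul_ne_zero h1 (pow_ne_zero ℓ h2) h3
    ext Q
    rw [hr.2 z hz hzk hne' (T D) hTD Q, ez, Place.ord_mul Q h1 (pow_ne_zero ℓ h2),
      ← zpow_natCast, Place.ord_zpow, ord_smul_eq, ord_smul_eq, inv_inv, Finsupp.add_apply,
      Finsupp.smul_apply, SemilinearAut.divisor_smul_apply, SemilinearAut.divisor_smul_apply,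
      inv_inv, hr.2 y hy hyk hne D hD (φ⁻¹ • Q), hr.2 y hy hyk hne D hD (φ • Q), nsmul_eq_mul]

end Transfer

end Fermat.Agent.S37.H86

end
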